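import Mathlib
import Fermat.Agent.S18.CoreDim

/-!
# S34: the core of the Kummer lemma by a dimension count, for the unit ball of a sup-norm

Port of `S18.CoreDim.core_dim`: the valuation ring `V` is replaced by a subring `R` of `F` (the unit ball of
a sup-norm, e.g. `V_∞ ∩ V_0`), the residue field by a commutative `k`-algebra `E` (e.g. a product of two
fields), the spaces `L̄(a,b)` by an arbitrary family `Lb a b` of subspaces of `E`.
-/

set_option autoImplicit false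

namespace Fermat.Agent.S34

open Polynomial IntermediateField Fermat.Agent.S24 Fermat.Agent.S18 Fermat.Agent.S18.CoreDim Module

/-- The minimal reduction datum: `R` is the unit ball of a sup-norm on `F`, `E` its residue ring. -/
structure RedCore (K F k E : Type*) [Field K] [Field F] [Algebra K F] [Field k] [CommRing E]
    [Algebra k E] where
  A : ValuationSubring K
  R : Subring F
  resA : A →+* k
  red : R →+* E
  resA_surj : Function.Surjective resA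
  map_mem : ∀ c : K, c ∈ A → algebraMap K F c ∈ R
  compat : ∀ (c : K) (hc : c ∈ A),
    red ⟨algebraMap K F c, map_mem c hc⟩ = algebraMap k E (resA ⟨c, hc⟩)
  scale : ∀ f : F, f ≠ 0 → ∃ c : K, c ≠ 0 ∧ ∃ h : algebraMap K F c * f ∈ R,
    red ⟨algebraMap K F c * f, h⟩ ≠ 0

namespace RedCore

section rd
variable {K F k E : Type*} [Field K] [Field F] [Algebra K F] [Field k] [CommRing E] [Algebra k E]
variable (S : RedCore K F k E)

open Classical in
/-- reduction as a total function (junk value `0` outside `R`). -/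
noncomputable def rd (f : F) : E := if h : f ∈ S.R then S.red ⟨f, h⟩ else 0

theorem rd_of_mem {f : F} (h : f ∈ S.R) : S.rd f = S.red ⟨f, h⟩ := by
  rw [rd, dif_pos h]

theorem rd_add {f g : F} (hf : f ∈ S.R) (hg : g ∈ S.R) : S.rd (f + g) = S.rd f + S.rd g := by
  rw [S.rd_of_mem hf, S.rd_of_mem hg, S.rd_of_mem (add_mem hf hg), ← map_add]; rfl

theorem rd_mul {f g : F} (hf : f ∈ S.R) (hg : g ∈ S.R) : S.rd (f * g) = S.rd f * S.rd g := by
  rw [S.rd_of_mem hf, S.rd_of_mem hg, S.rd_of_mem (mul_mem hf hg), ← map_mul]; rfl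

theorem rd_neg {f : F} (hf : f ∈ S.R) : S.rd (-f) = - S.rd f := by
  rw [S.rd_of_mem hf, S.rd_of_mem (neg_mem hf), ← map_neg]; rfl

theorem rd_sub {f g : F} (hf : f ∈ S.R) (hg : g ∈ S.R) : S.rd (f - g) = S.rd f - S.rd g := by
  rw [S.rd_of_mem hf, S.rd_of_mem hg, S.rd_of_mem (sub_mem hf hg), ← map_sub]; rfl

theorem rd_one : S.rd 1 = 1 := by
  rw [S.rd_of_mem (one_mem _)]; exact map_one S.red

theorem rd_zero : S.rd 0 = 0 := by
  rw [S.rd_of_mem (zero_mem _)]; exact map_zero S.red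

theorem rd_pow {f : F} (hf : f ∈ S.R) (n : ℕ) : S.rd (f ^ n) = S.rd f ^ n := by
  rw [S.rd_of_mem hf, S.rd_of_mem (pow_mem hf n), ← map_pow]; rfl

theorem rd_sum {ι : Type*} (s : Finset ι) (f : ι → F) (hf : ∀ i ∈ s, f i ∈ S.R) :
    S.rd (∑ i ∈ s, f i) = ∑ i ∈ s, S.rd (f i) := by
  classical
  induction s using Finset.induction_on with
  | empty => simp [rd_zero]
  | insert a s ha ih =>
    rw [Finset.sum_insert ha, Finset.sum_insert ha,
      S.rd_add (hf a (Finset.mem_insert_self a s))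
        (sum_mem fun i hi => hf i (Finset.mem_insert_of_mem hi)),
      ih (fun i hi => hf i (Finset.mem_insert_of_mem hi))]

theorem rd_algebraMap {c : K} (hc : c ∈ S.A) :
    S.rd (algebraMap K F c) = algebraMap k E (S.resA ⟨c, hc⟩) := by
  rw [S.rd_of_mem (S.map_mem c hc), S.compat]

theorem exists_scale {f : F} (hf : f ≠ 0) :
    ∃ c : K, c ≠ 0 ∧ algebraMap K F c * f ∈ S.R ∧ S.rd (algebraMap K F c * f) ≠ 0 := by
  obtain ⟨c, hc, h, hne⟩ := S.scale f hf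
  exact ⟨c, hc, h, by rwa [S.rd_of_mem h]⟩

/-- an element of `𝔪_A` reduces to `0`. -/
theorem resA_eq_zero {c : K} (hc : c ∈ S.A) (hinv : c⁻¹ ∉ S.A) : S.resA ⟨c, hc⟩ = 0 := by
  have hmax : (RingHom.ker S.resA).IsMaximal := RingHom.ker_isMaximal_of_surjective _ S.resA_surj
  have hker : RingHom.ker S.resA = IsLocalRing.maximalIdeal S.A := IsLocalRing.eq_maximalIdeal hmax
  rw [← RingHom.mem_ker, hker, IsLocalRing.mem_maximalIdeal, mem_nonunits_iff]
  rintro ⟨v, hv⟩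
  apply hinv
  have h2 : c * (((v⁻¹ : (S.A)ˣ) : S.A) : K) = 1 := by
    have h4 : ((v : S.A) * ((v⁻¹ : (S.A)ˣ) : S.A) : S.A) = 1 := v.mul_inv
    have h5 := congrArg (Subtype.val) h4
    rw [hv] at h5
    exact h5
  rw [← eq_inv_of_mul_eq_one_right h2]
  exact ((v⁻¹ : (S.A)ˣ) : S.A).2

/-- if `f ∉ R` and `c f ∈ R` then `c ∈ 𝔪_A`. -/
theorem scale_small {f : F} (hf : f ∉ S.R) {c : K} (hc0 : c ≠ 0) (hc : algebraMap K F c * f ∈ S.R) :
    ∃ hcA : c ∈ S.A, S.resA ⟨c, hcA⟩ = 0 := by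
  have hinv : c⁻¹ ∉ S.A := by
    intro h
    apply hf
    have := mul_mem (S.map_mem _ h) hc
    rwa [← mul_assoc, ← map_mul, inv_mul_cancel₀ hc0, map_one, one_mul] at this
  have hcA : c ∈ S.A := (S.A.mem_or_inv_mem c).resolve_right hinv
  exact ⟨hcA, S.resA_eq_zero hcA hinv⟩

/-- The reduction of a `K`-subspace of `F`. -/
def redSub (W : Submodule K F) : Submodule k E where
  carrier := {y | ∃ w ∈ W, w ∈ S.R ∧ S.rd w = y}
  add_mem' := by
    rintro _ _ ⟨w, hw, hwV, rfl⟩ ⟨w', hw', hwV', rfl⟩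
    exact ⟨w + w', add_mem hw hw', add_mem hwV hwV', S.rd_add hwV hwV'⟩
  zero_mem' := ⟨0, zero_mem _, zero_mem _, S.rd_zero⟩
  smul_mem' := by
    rintro c _ ⟨w, hw, hwV, rfl⟩
    obtain ⟨a, rfl⟩ := S.resA_surj c
    refine ⟨(a : K) • w, W.smul_mem _ hw, ?_, ?_⟩
    · rw [Algebra.smul_def]; exact mul_mem (S.map_mem _ a.2) hwV
    · rw [Algebra.smul_def, S.rd_mul (S.map_mem _ a.2) hwV, S.rd_algebraMap a.2, Algebra.smul_def]

theorem mem_redSub {W : Submodule K F} {y : E} :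
    y ∈ S.redSub W ↔ ∃ w ∈ W, w ∈ S.R ∧ S.rd w = y := Iff.rfl

theorem redSub_mono {W W' : Submodule K F} (h : W ≤ W') : S.redSub W ≤ S.redSub W' := by
  rintro _ ⟨w, hw, hwV, rfl⟩
  exact ⟨w, h hw, hwV, rfl⟩

/-- The reduction of a `K`-subalgebra of `F`. -/
def redAlg (O : Subalgebra K F) : Subalgebra k E where
  carrier := {y | ∃ w ∈ O, w ∈ S.R ∧ S.rd w = y}
  add_mem' := by
    rintro _ _ ⟨w, hw, hwV, rfl⟩ ⟨w', hw', hwV', rfl⟩
    exact ⟨w + w', add_mem hw hw', add_mem hwV hwV', S.rd_add hwV hwV'⟩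
  mul_mem' := by
    rintro _ _ ⟨w, hw, hwV, rfl⟩ ⟨w', hw', hwV', rfl⟩
    exact ⟨w * w', mul_mem hw hw', mul_mem hwV hwV', S.rd_mul hwV hwV'⟩
  algebraMap_mem' := by
    intro c
    obtain ⟨a, rfl⟩ := S.resA_surj c
    exact ⟨algebraMap K F a, O.algebraMap_mem _, S.map_mem _ a.2, S.rd_algebraMap a.2⟩

theorem mem_redAlg {O : Subalgebra K F} {y : E} :
    y ∈ S.redAlg O ↔ ∃ w ∈ O, w ∈ S.R ∧ S.rd w = y := Iff.rfl

end rd

end RedCore

section LB
variable {k E : Type*} [Field k] [CommRing E] [Algebra k E]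

/-- `L̄(a,b) = {h : x̄^a h ∈ B₀, x̄^{-b} h ∈ B_∞}`. -/
def LB (B0 Binf : Subalgebra k E) (xb xbi : E) (a b : ℕ) : Submodule k E where
  carrier := {h | xb ^ a * h ∈ B0 ∧ xbi ^ b * h ∈ Binf}
  add_mem' := by
    rintro f g ⟨hf, hf'⟩ ⟨hg, hg'⟩
    exact ⟨by rw [mul_add]; exact add_mem hf hg, by rw [mul_add]; exact add_mem hf' hg'⟩
  zero_mem' := ⟨by rw [mul_zero]; exact zero_mem _, by rw [mul_zero]; exact zero_mem _⟩
  smul_mem' := by
    rintro c f ⟨hf, hf'⟩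
    exact ⟨by rw [mul_smul_comm]; exact B0.smul_mem hf c,
      by rw [mul_smul_comm]; exact Binf.smul_mem hf' c⟩

variable {B0 Binf : Subalgebra k E} {xb xbi : E}

theorem mem_LB {a b : ℕ} {h : E} :
    h ∈ LB B0 Binf xb xbi a b ↔ xb ^ a * h ∈ B0 ∧ xbi ^ b * h ∈ Binf := Iff.rfl

theorem one_mem_LB (hxb : xb ∈ B0) (hxbi : xbi ∈ Binf) (a b : ℕ) : (1 : E) ∈ LB B0 Binf xb xbi a b :=
  ⟨by rw [mul_one]; exact pow_mem hxb a, by rw [mul_one]; exact pow_mem hxbi b⟩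

theorem LB_inf_le (n : ℕ) :
    LB B0 Binf xb xbi 0 n ⊓ LB B0 Binf xb xbi n 0 ≤ LB B0 Binf xb xbi 0 0 := by
  rintro f ⟨h1, h2⟩
  exact ⟨h1.1, h2.2⟩

theorem LB_sat (hxb : xb ∈ B0) (hxbi : xbi ∈ Binf) (n N : ℕ) (a1 a2 : E)
    (h1 : a1 ∈ LB B0 Binf xb xbi 0 N) (h2 : a2 ∈ LB B0 Binf xb xbi N 0)
    (h : a1 + a2 ∈ LB B0 Binf xb xbi n n) :
    a1 ∈ LB B0 Binf xb xbi 0 n ∧ a2 ∈ LB B0 Binf xb xbi n 0 := by
  refine ⟨⟨h1.1, ?_⟩, ⟨?_, h2.2⟩⟩
  · have e : xbi ^ n * a1 = xbi ^ n * (a1 + a2) - xbi ^ n * (xbi ^ 0 * a2) := by ring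
    rw [e]
    exact sub_mem h.2 (mul_mem (pow_mem hxbi n) h2.2)
  · have e : xb ^ n * a2 = xb ^ n * (a1 + a2) - xb ^ n * (xb ^ 0 * a1) := by ring
    rw [e]
    exact sub_mem h.1 (mul_mem (pow_mem hxb n) h1.1)

end LB

section main
variable {K F k E : Type*} [Field K] [Field F] [Algebra K F] [Field k] [CommRing E] [Algebra k E]
variable (S : RedCore K F k E)

/-- **The core of the Kummer lemma, by a dimension count (sup-norm version).** -/
theorem core_dim2 [Nontrivial E] {x : F} (Lb : ℕ → ℕ → Submodule k E)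
    (one_mem : ∀ a b, (1 : E) ∈ Lb a b)
    (inf_le : ∀ n, Lb 0 n ⊓ Lb n 0 ≤ Lb 0 0)
    (sat : ∀ (n N : ℕ) (a1 a2 : E), a1 ∈ Lb 0 N → a2 ∈ Lb N 0 → a1 + a2 ∈ Lb n n →
      a1 ∈ Lb 0 n ∧ a2 ∈ Lb n 0)
    (hredL : ∀ (a b : ℕ) (f : F), f ∈ Lsp K x a b → f ∈ S.R → S.rd f ∈ Lb a b)
    (dimRed : ∀ W : Submodule K F, FiniteDimensional K W → finrank k (S.redSub W) = finrank K W)
    (const : ∀ h ∈ Lsp K x 0 0, ∃ c : K, h = algebraMap K F c)
    (constb : ∀ h ∈ Lb 0 0, ∃ c : k, h = algebraMap k E c)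
    (fin : ∀ a b, FiniteDimensional K (Lsp K x a b))
    (finb : ∀ a b, FiniteDimensional k (Lb a b))
    (good : ∃ n₀, ∀ n, n₀ ≤ n → finrank k (Lb 0 n) ≤ finrank K (Lsp K x 0 n) ∧
        finrank k (Lb n 0) ≤ finrank K (Lsp K x n 0))
    {m : ℕ} (hm : 0 < m) (hmk : (m : k) ≠ 0) {u : F} (hu : u ≠ 0) (huV : u ∈ S.R)
    (hu1 : S.rd u = 1)
    (hredX : ∀ (a b : ℕ) (f : F), f ∈ Xsp K x u m hm a b → f ∈ S.R → S.rd f ∈ Lb a b)
    (riem : ∃ n₁, ∀ n, n₁ ≤ n → finrank K (Lsp K x 0 n) ≤ finrank K (Xsp K x u m hm 0 n) ∧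
        finrank K (Lsp K x n 0) ≤ finrank K (Xsp K x u m hm n 0)) :
    ∃ h : F, h ≠ 0 ∧ ∃ c : K, u * h ^ m = algebraMap K F c := by
  classical
  by_contra hcon
  push Not at hcon
  obtain ⟨n₀, hn₀⟩ := good
  obtain ⟨n₁, hn₁⟩ := riem
  obtain ⟨n, hnn0, hnn1⟩ : ∃ n, n₀ ≤ n ∧ n₁ ≤ n := ⟨max n₀ n₁, le_max_left _ _, le_max_right _ _⟩
  have hmn0 : n₀ ≤ m * n := le_trans hnn0 (Nat.le_mul_of_pos_left n hm)
  set V1 := Xsp K x u m hm 0 n with hV1
  set V2 := Xsp K x u m hm n 0 with hV2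
  have fV1 : FiniteDimensional K V1 := by
    have := fin (m * 0) (m * n)
    exact Xsp_finite hu
  have fV2 : FiniteDimensional K V2 := by
    have := fin (m * n) (m * 0)
    exact Xsp_finite hu
  -- `V1 ⊓ V2 = ⊥`
  have hinf : V1 ⊓ V2 = ⊥ := by
    rw [Submodule.eq_bot_iff]
    rintro f ⟨h1, h2⟩
    by_contra hf
    have h1' := (mem_Xsp.1 h1).1
    have h2' := (mem_Xsp.1 h2).2
    rw [Nat.mul_zero] at h1' h2'
    obtain ⟨c, hc⟩ := const _ (mem_Lsp.2 ⟨h1', h2'⟩)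
    exact hcon f hf c hc
  -- reductions of `V1`, `V2`
  have hR1le : S.redSub V1 ≤ Lb 0 n := by
    rintro _ ⟨f, hf, hfV, rfl⟩
    exact hredX _ _ _ hf hfV
  have hR2le : S.redSub V2 ≤ Lb n 0 := by
    rintro _ ⟨f, hf, hfV, rfl⟩
    exact hredX _ _ _ hf hfV
  have hR1 : S.redSub V1 = Lb 0 n := by
    have := finb 0 n
    apply Submodule.eq_of_le_of_finrank_le hR1le
    rw [dimRed V1 fV1]
    exact le_trans (hn₀ n hnn0).1 (hn₁ n hnn1).1
  have hR2 : S.redSub V2 = Lb n 0 := by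
    have := finb n 0
    apply Submodule.eq_of_le_of_finrank_le hR2le
    rw [dimRed V2 fV2]
    exact le_trans (hn₀ n hnn0).2 (hn₁ n hnn1).2
  have d1 : finrank k (Lb 0 n) = finrank K V1 := by rw [← hR1, dimRed V1 fV1]
  have d2 : finrank k (Lb n 0) = finrank K V2 := by rw [← hR2, dimRed V2 fV2]
  -- reductions of `L(0,mn)`, `L(mn,0)`
  have hB1 : S.redSub (Lsp K x 0 (m * n)) = Lb 0 (m * n) := by
    have := finb 0 (m * n)
    apply Submodule.eq_of_le_of_finrank_le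
    · rintro _ ⟨f, hf, hfV, rfl⟩
      exact hredL _ _ _ hf hfV
    · rw [dimRed _ (fin _ _)]
      exact (hn₀ _ hmn0).1
  have hB2 : S.redSub (Lsp K x (m * n) 0) = Lb (m * n) 0 := by
    have := finb (m * n) 0
    apply Submodule.eq_of_le_of_finrank_le
    · rintro _ ⟨f, hf, hfV, rfl⟩
      exact hredL _ _ _ hf hfV
    · rw [dimRed _ (fin _ _)]
      exact (hn₀ _ hmn0).2
  have b1 : finrank k (Lb 0 (m * n)) = finrank K (Lsp K x 0 (m * n)) := by
    rw [← hB1, dimRed _ (fin _ _)]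
  have b2 : finrank k (Lb (m * n) 0) = finrank K (Lsp K x (m * n) 0) := by
    rw [← hB2, dimRed _ (fin _ _)]
  -- the element `p`
  have hlt : finrank k ↥(Lb 0 n ⊔ Lb n 0) < finrank k ↥(S.redSub (V1 ⊔ V2)) := by
    rw [dimRed (V1 ⊔ V2) inferInstance]
    have e1 := Submodule.finrank_sup_add_finrank_inf_eq V1 V2
    rw [hinf, finrank_bot, add_zero] at e1
    have := finb 0 n
    have := finb n 0
    have e2 := Submodule.finrank_sup_add_finrank_inf_eq (Lb 0 n) (Lb n 0)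
    have e3 : 0 < finrank k ↥(Lb 0 n ⊓ Lb n 0) := by
      apply finrank_pos_iff_exists_ne_zero.2
      refine ⟨⟨1, one_mem _ _, one_mem _ _⟩, ?_⟩
      intro h
      exact one_ne_zero (congrArg Subtype.val h)
    omega
  have hnle : ¬ S.redSub (V1 ⊔ V2) ≤ Lb 0 n ⊔ Lb n 0 := by
    intro hle
    have := finb 0 n
    have := finb n 0
    exact absurd (Submodule.finrank_mono hle) (not_le.2 hlt)
  obtain ⟨pb, hpb, hpb'⟩ := SetLike.not_le_iff_exists.1 hnle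
  obtain ⟨p, hp, hpV, rfl⟩ := hpb
  have hpnn : S.rd p ∈ Lb n n :=
    hredX _ _ _ (sup_le (Xsp_mono (Nat.zero_le _) le_rfl) (Xsp_mono le_rfl (Nat.zero_le _)) hp) hpV
  obtain ⟨p1, hp1, p2, hp2, rfl⟩ := Submodule.mem_sup.1 hp
  have hp1V : p1 ∉ S.R := by
    intro h1
    have h2 : p2 ∈ S.R := by
      have := sub_mem hpV h1
      simpa using this
    apply hpb'
    rw [S.rd_add h1 h2]
    exact Submodule.add_mem_sup (hR1le ⟨p1, hp1, h1, rfl⟩) (hR2le ⟨p2, hp2, h2, rfl⟩)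
  have hp10 : p1 ≠ 0 := by
    rintro rfl
    exact hp1V (zero_mem _)
  obtain ⟨c, hc0, hcV, hy1ne⟩ := S.exists_scale hp10
  set C := algebraMap K F c with hC
  have hC0 : C ≠ 0 := by
    rw [hC]
    exact (_root_.map_ne_zero _).2 hc0
  obtain ⟨hcA, hcres⟩ := S.scale_small hp1V hc0 hcV
  have hCV : C ∈ S.R := S.map_mem _ hcA
  have hCrd : S.rd C = 0 := by
    rw [hC, S.rd_algebraMap hcA, hcres, map_zero]
  have hCp : S.rd (C * (p1 + p2)) = 0 := by rw [S.rd_mul hCV hpV, hCrd, zero_mul]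
  have hy2V : C * p2 ∈ S.R := by
    have := sub_mem (mul_mem hCV hpV) hcV
    have e : C * (p1 + p2) - C * p1 = C * p2 := by ring
    rwa [e] at this
  have hy2 : S.rd (C * p2) = - S.rd (C * p1) := by
    have e : C * p2 = C * (p1 + p2) - C * p1 := by ring
    rw [e, S.rd_sub (mul_mem hCV hpV) hcV, hCp, zero_sub]
  have hy1mem : C * p1 ∈ V1 := by
    have := V1.smul_mem c hp1
    rwa [Algebra.smul_def] at this
  have hy2mem : C * p2 ∈ V2 := by
    have := V2.smul_mem c hp2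
    rwa [Algebra.smul_def] at this
  have hy1R1 : S.rd (C * p1) ∈ Lb 0 n := hR1le ⟨_, hy1mem, hcV, rfl⟩
  have hy1R2 : S.rd (C * p1) ∈ Lb n 0 := by
    have : S.rd (C * p2) ∈ Lb n 0 := hR2le ⟨_, hy2mem, hy2V, rfl⟩
    rw [hy2] at this
    simpa using neg_mem this
  obtain ⟨e, he⟩ := constb _ (inf_le n ⟨hy1R1, hy1R2⟩)
  have he0 : e ≠ 0 := by
    rintro rfl
    rw [map_zero] at he
    exact hy1ne he
  obtain ⟨a, ha⟩ := S.resA_surj e⁻¹
  set Aa := algebraMap K F (a : K) with hAa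
  have hAaV : Aa ∈ S.R := S.map_mem _ a.2
  have hAard : S.rd Aa = algebraMap k E e⁻¹ := by
    rw [hAa, S.rd_algebraMap a.2]
    exact congrArg _ ha
  have ha0 : (a : K) ≠ 0 := by
    intro h0
    have : a = 0 := Subtype.ext h0
    rw [this, map_zero] at ha
    exact inv_ne_zero he0 ha.symm
  have hAa0 : Aa ≠ 0 := by
    rw [hAa]
    exact (_root_.map_ne_zero _).2 ha0
  set u1 := Aa * (C * p1) with hu1def
  set u2 := -(Aa * (C * p2)) with hu2def
  have hu1V : u1 ∈ S.R := mul_mem hAaV hcV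
  have hu2V : u2 ∈ S.R := neg_mem (mul_mem hAaV hy2V)
  have hee : algebraMap k E e⁻¹ * algebraMap k E e = 1 := by
    rw [← map_mul, inv_mul_cancel₀ he0, map_one]
  have hu1rd : S.rd u1 = 1 := by
    rw [hu1def, S.rd_mul hAaV hcV, hAard, he, hee]
  have hu2rd : S.rd u2 = 1 := by
    rw [hu2def, S.rd_neg (mul_mem hAaV hy2V), S.rd_mul hAaV hy2V, hAard, hy2, he, mul_neg, neg_neg,
      hee]
  have hu1mem : u1 ∈ V1 := by
    have := V1.smul_mem (a : K) hy1mem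
    rwa [Algebra.smul_def] at this
  have hu2mem : u2 ∈ V2 := by
    have := V2.smul_mem (a : K) hy2mem
    rw [Algebra.smul_def] at this
    exact neg_mem this
  set Sg := ∑ i ∈ Finset.range m, u1 ^ i * u2 ^ (m - 1 - i) with hSg
  set T := (p1 + p2) * u * Sg with hT
  have hsumV : ∀ i ∈ Finset.range m, u1 ^ i * u2 ^ (m - 1 - i) ∈ S.R :=
    fun i _ => mul_mem (pow_mem hu1V _) (pow_mem hu2V _)
  have hSgV : Sg ∈ S.R := sum_mem hsumV
  have hrdsum : S.rd Sg = (m : E) := by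
    rw [hSg, S.rd_sum _ _ hsumV]
    have : ∀ i ∈ Finset.range m, S.rd (u1 ^ i * u2 ^ (m - 1 - i)) = 1 := by
      intro i _
      rw [S.rd_mul (pow_mem hu1V _) (pow_mem hu2V _), S.rd_pow hu1V, S.rd_pow hu2V, hu1rd, hu2rd]
      simp
    rw [Finset.sum_congr rfl this]
    simp
  have hTV : T ∈ S.R := mul_mem (mul_mem hpV huV) hSgV
  have hrdT : S.rd T = S.rd (p1 + p2) * (m : E) := by
    rw [hT, S.rd_mul (mul_mem hpV huV) hSgV, S.rd_mul hpV huV, hu1, mul_one, hrdsum]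
  set W := Lsp K x 0 (m * n) ⊔ Lsp K x (m * n) 0 with hW
  have hTW : T ∈ W := by
    have h1 : u * u1 ^ m ∈ Lsp K x 0 (m * n) := by
      have := mem_Xsp.1 hu1mem
      rwa [Nat.mul_zero] at this
    have h2 : u * u2 ^ m ∈ Lsp K x (m * n) 0 := by
      have := mem_Xsp.1 hu2mem
      rwa [Nat.mul_zero] at this
    have h3 : u * u1 ^ m - u * u2 ^ m ∈ W := by
      rw [sub_eq_add_neg]
      exact Submodule.add_mem_sup h1 (neg_mem h2)
    have h4 := W.smul_mem ((a : K) * c)⁻¹ h3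
    convert h4 using 1
    rw [Algebra.smul_def, map_inv₀, map_mul, eq_inv_mul_iff_mul_eq₀ (mul_ne_zero hAa0 hC0)]
    have hgeo : Sg * (u1 - u2) = u1 ^ m - u2 ^ m := geom_sum₂_mul u1 u2 m
    have hdiff : u1 - u2 = Aa * C * (p1 + p2) := by
      rw [hu1def, hu2def]; ring
    rw [hT, ← mul_sub, ← hgeo, hdiff]
    ring
  -- the reduction of `W`
  have hWle : S.redSub W ≤ Lb 0 (m * n) ⊔ Lb (m * n) 0 := by
    have hle : Lb 0 (m * n) ⊔ Lb (m * n) 0 ≤ S.redSub W :=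
      sup_le (hB1 ▸ S.redSub_mono le_sup_left) (hB2 ▸ S.redSub_mono le_sup_right)
    have := finb (m * n) (m * n)
    have := finb 0 (m * n)
    have := finb (m * n) 0
    have := fin 0 (m * n)
    have := fin (m * n) 0
    have hfinW : FiniteDimensional k (S.redSub W) := by
      apply Submodule.finiteDimensional_of_le (S₂ := Lb (m * n) (m * n))
      rintro _ ⟨f, hf, hfV, rfl⟩
      exact hredL _ _ _
        (sup_le (Lsp_mono (Nat.zero_le _) le_rfl) (Lsp_mono le_rfl (Nat.zero_le _)) hf) hfV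
    refine (Submodule.eq_of_le_of_finrank_le hle ?_).ge
    rw [dimRed W inferInstance]
    have e4 := Submodule.finrank_sup_add_finrank_inf_eq (Lsp K x 0 (m * n)) (Lsp K x (m * n) 0)
    rw [← hW] at e4
    have e5 := Submodule.finrank_sup_add_finrank_inf_eq (Lb 0 (m * n)) (Lb (m * n) 0)
    have e6 : 0 < finrank K ↥(Lsp K x 0 (m * n) ⊓ Lsp K x (m * n) 0) := by
      apply finrank_pos_iff_exists_ne_zero.2
      refine ⟨⟨1, one_mem_Lsp _ _ _, one_mem_Lsp _ _ _⟩, ?_⟩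
      intro h
      exact one_ne_zero (congrArg Subtype.val h)
    have e7 : finrank k ↥(Lb 0 (m * n) ⊓ Lb (m * n) 0) ≤ 1 := by
      have hle1 : Lb 0 (m * n) ⊓ Lb (m * n) 0 ≤ Submodule.span k {(1 : E)} := by
        intro f hf
        obtain ⟨c', hc'⟩ := constb f (inf_le _ hf)
        rw [Submodule.mem_span_singleton]
        exact ⟨c', by rw [hc', Algebra.smul_def, mul_one]⟩
      calc finrank k ↥(Lb 0 (m * n) ⊓ Lb (m * n) 0)
          ≤ finrank k ↥(Submodule.span k {(1 : E)}) := Submodule.finrank_mono hle1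
        _ = 1 := finrank_span_singleton one_ne_zero
    omega
  obtain ⟨a1, ha1, a2, ha2, hsum⟩ := Submodule.mem_sup.1 (hWle ⟨T, hTW, hTV, rfl⟩)
  have hsnn : a1 + a2 ∈ Lb n n := by
    rw [hsum, hrdT, mul_comm, ← nsmul_eq_mul]
    exact (Lb n n).nsmul_mem hpnn m
  obtain ⟨ha1', ha2'⟩ := sat n (m * n) a1 a2 ha1 ha2 hsnn
  apply hpb'
  have hfinal : S.rd (p1 + p2) = (m : k)⁻¹ • (a1 + a2) := by
    rw [hsum, hrdT, Algebra.smul_def, ← map_natCast (algebraMap k E), mul_comm (S.rd (p1 + p2)),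
      ← mul_assoc, ← map_mul, inv_mul_cancel₀ hmk, map_one, one_mul]
  rw [hfinal]
  exact Submodule.smul_mem _ _ (Submodule.add_mem_sup ha1' ha2')

end main

section charts
variable {K F : Type*} [Field K] [Field F] [Algebra K F]

/-- `intRing K y` as a `K`-subalgebra of `F`. -/
def chartAlg (K : Type*) {F : Type*} [Field K] [Field F] [Algebra K F] (y : F) : Subalgebra K F :=
  (intRing K y).restrictScalars K

theorem mem_chartAlg {y f : F} : f ∈ chartAlg K y ↔ f ∈ intRing K y := Iff.rfl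

/-- the chart module `X^y_u = {f : u f^m ∈ intRing K y}` (`= O_y(D)`, `m D = div u`). -/
def Xch (K : Type*) {F : Type*} [Field K] [Field F] [Algebra K F] (y u : F) (m : ℕ) (hm : 0 < m) :
    Submodule K F where
  carrier := {f | u * f ^ m ∈ intRing K y}
  add_mem' := by
    intro f g hf hg
    show u * (f + g) ^ m ∈ intRing K y
    rw [add_pow, Finset.mul_sum]
    refine sum_mem fun i hi => ?_
    have hi' : i ≤ m := Nat.lt_succ_iff.1 (Finset.mem_range.1 hi)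
    have h1 : u * (f ^ i * g ^ (m - i)) ∈ intRing K y := by
      apply root_mem_intRing hm
      have e1 : (u * (f ^ i * g ^ (m - i))) ^ m = (u * f ^ m) ^ i * (u * g ^ m) ^ (m - i) := by
        obtain ⟨j, rfl⟩ := Nat.exists_eq_add_of_le hi'
        simp only [Nat.add_sub_cancel_left]
        ring
      rw [e1]
      exact mul_mem (pow_mem hf _) (pow_mem hg _)
    have h2 := mul_mem (natCast_mem (intRing K y) (m.choose i)) h1
    convert h2 using 1
    ring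
  zero_mem' := by
    show u * 0 ^ m ∈ intRing K y
    rw [zero_pow hm.ne', mul_zero]
    exact zero_mem _
  smul_mem' := by
    intro c f hf
    show u * (c • f) ^ m ∈ intRing K y
    have := mul_mem (algebraMap_mem_intRing y (c ^ m)) hf
    convert this using 1
    rw [Algebra.smul_def, mul_pow, map_pow]
    ring

theorem mem_Xch {y u f : F} {m : ℕ} {hm : 0 < m} : f ∈ Xch K y u m hm ↔ u * f ^ m ∈ intRing K y :=
  Iff.rfl

theorem Xch_mul {y u u' f f' : F} {m : ℕ} {hm : 0 < m} (hf : f ∈ Xch K y u m hm)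
    (hf' : f' ∈ Xch K y u' m hm) : f * f' ∈ Xch K y (u * u') m hm := by
  have := mul_mem (mem_Xch.1 hf) (mem_Xch.1 hf')
  rw [mem_Xch]
  convert this using 1
  ring

theorem Xch_int_mul {y u g f : F} {m : ℕ} {hm : 0 < m} (hg : g ∈ intRing K y)
    (hf : f ∈ Xch K y u m hm) : g * f ∈ Xch K y u m hm := by
  have := mul_mem (pow_mem hg m) (mem_Xch.1 hf)
  rw [mem_Xch]
  convert this using 1
  ring

/-- all `m`-fold products: `u f₁ f₂^(m-1) ∈ intRing`. -/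
theorem Xch_mixed {y u f g : F} {m : ℕ} {hm : 0 < m} (hf : f ∈ Xch K y u m hm)
    (hg : g ∈ Xch K y u m hm) : u * (f * g ^ (m - 1)) ∈ intRing K y := by
  apply root_mem_intRing hm
  have e1 : (u * (f * g ^ (m - 1))) ^ m = (u * f ^ m) * (u * g ^ m) ^ (m - 1) := by
    obtain ⟨j, rfl⟩ : ∃ j, m = j + 1 := ⟨m - 1, by omega⟩
    simp only [Nat.add_sub_cancel]
    ring
  rw [e1]
  exact mul_mem (mem_Xch.1 hf) (pow_mem (mem_Xch.1 hg) _)

theorem pow_mul_mem_Xch_of_Xsp {x u f : F} {m : ℕ} {hm : 0 < m} {a b : ℕ}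
    (hf : f ∈ Xsp K x u m hm a b) : x ^ a * f ∈ Xch K x u m hm := by
  have := (mem_Xsp.1 hf).1
  rw [mem_Xch]
  convert this using 1
  rw [mul_pow, ← pow_mul, mul_comm a m]
  ring

theorem pow_mul_mem_Xch_of_Xsp' {x u f : F} {m : ℕ} {hm : 0 < m} {a b : ℕ}
    (hf : f ∈ Xsp K x u m hm a b) : x⁻¹ ^ b * f ∈ Xch K x⁻¹ u m hm := by
  have := (mem_Xsp.1 hf).2
  rw [mem_Xch]
  convert this using 1
  rw [mul_pow, ← pow_mul, mul_comm b m]
  ring

end charts

section lemmaB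
variable {K F k E : Type*} [Field K] [Field F] [Algebra K F] [Field k] [CommRing E] [Algebra k E]
variable (S : RedCore K F k E)

/-- `L̄(a,b)` for the reductions of the two charts of `x`. -/
noncomputable abbrev RedCore.Lbar (x : F) (a b : ℕ) : Submodule k E :=
  LB (S.redAlg (chartAlg K x)) (S.redAlg (chartAlg K x⁻¹)) (S.rd x) (S.rd x⁻¹) a b

theorem RedCore.rd_self_mem {y : F} (hy : y ∈ S.R) : S.rd y ∈ S.redAlg (chartAlg K y) :=
  ⟨y, self_mem_intRing y, hy, rfl⟩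

/-- reductions of `L(a,b)` lie in `L̄(a,b)` (by definition). -/
theorem RedCore.rd_mem_Lbar {x : F} (hx : x ∈ S.R) (hxi : x⁻¹ ∈ S.R) (a b : ℕ) (f : F)
    (hf : f ∈ Lsp K x a b) (hfR : f ∈ S.R) : S.rd f ∈ S.Lbar x a b := by
  refine ⟨⟨x ^ a * f, hf.1, mul_mem (pow_mem hx a) hfR, ?_⟩,
    ⟨x⁻¹ ^ b * f, hf.2, mul_mem (pow_mem hxi b) hfR, ?_⟩⟩
  · rw [S.rd_mul (pow_mem hx a) hfR, S.rd_pow hx]
  · rw [S.rd_mul (pow_mem hxi b) hfR, S.rd_pow hxi]

/-- **Lemma B in one chart.**  If `1` is the reduction of an element of `X^y_u` and `ū = 1`, then the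
reduction of `X^y_u` lies in the reduction of the chart ring. -/
theorem RedCore.rd_mem_of_Xch {y u : F} {m : ℕ} {hm : 0 < m} (huR : u ∈ S.R) (hu1 : S.rd u = 1)
    {f0 : F} (h0 : f0 ∈ Xch K y u m hm) (h0R : f0 ∈ S.R) (h01 : S.rd f0 = 1)
    {f : F} (hf : f ∈ Xch K y u m hm) (hfR : f ∈ S.R) : S.rd f ∈ S.redAlg (chartAlg K y) := by
  refine ⟨u * (f * f0 ^ (m - 1)), Xch_mixed hf h0,
    mul_mem huR (mul_mem hfR (pow_mem h0R _)), ?_⟩
  rw [S.rd_mul huR (mul_mem hfR (pow_mem h0R _)), S.rd_mul hfR (pow_mem h0R _), S.rd_pow h0R, hu1,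
    h01, one_pow, one_mul, mul_one]

/-- **Lemma B.** -/
theorem RedCore.rd_mem_Lbar_of_Xsp {x u : F} {m : ℕ} {hm : 0 < m} (hx : x ∈ S.R) (hxi : x⁻¹ ∈ S.R)
    (huR : u ∈ S.R) (hu1 : S.rd u = 1)
    {f0 : F} (h0 : f0 ∈ Xch K x u m hm) (h0R : f0 ∈ S.R) (h01 : S.rd f0 = 1)
    {f1 : F} (h1 : f1 ∈ Xch K x⁻¹ u m hm) (h1R : f1 ∈ S.R) (h11 : S.rd f1 = 1)
    (a b : ℕ) (f : F) (hf : f ∈ Xsp K x u m hm a b) (hfR : f ∈ S.R) : S.rd f ∈ S.Lbar x a b := by
  constructor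
  · have := S.rd_mem_of_Xch huR hu1 h0 h0R h01 (pow_mul_mem_Xch_of_Xsp hf)
      (mul_mem (pow_mem hx a) hfR)
    rwa [S.rd_mul (pow_mem hx a) hfR, S.rd_pow hx] at this
  · have := S.rd_mem_of_Xch huR hu1 h1 h1R h11 (pow_mul_mem_Xch_of_Xsp' hf)
      (mul_mem (pow_mem hxi b) hfR)
    rwa [S.rd_mul (pow_mem hxi b) hfR, S.rd_pow hxi] at this

/-- **CoreDim2 for the reductions of the two charts of `x`.** -/
theorem core_dim2_Lbar [Nontrivial E] {x : F} (hx : x ∈ S.R) (hxi : x⁻¹ ∈ S.R)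
    (dimRed : ∀ W : Submodule K F, FiniteDimensional K W → finrank k (S.redSub W) = finrank K W)
    (const : ∀ h ∈ Lsp K x 0 0, ∃ c : K, h = algebraMap K F c)
    (constb : ∀ h ∈ S.Lbar x 0 0, ∃ c : k, h = algebraMap k E c)
    (fin : ∀ a b, FiniteDimensional K (Lsp K x a b))
    (finb : ∀ a b, FiniteDimensional k (S.Lbar x a b))
    (good : ∃ n₀, ∀ n, n₀ ≤ n → finrank k (S.Lbar x 0 n) ≤ finrank K (Lsp K x 0 n) ∧
        finrank k (S.Lbar x n 0) ≤ finrank K (Lsp K x n 0))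
    {m : ℕ} (hm : 0 < m) (hmk : (m : k) ≠ 0) {u : F} (hu : u ≠ 0) (huR : u ∈ S.R)
    (hu1 : S.rd u = 1)
    {f0 : F} (h0 : f0 ∈ Xch K x u m hm) (h0R : f0 ∈ S.R) (h01 : S.rd f0 = 1)
    {f1 : F} (h1 : f1 ∈ Xch K x⁻¹ u m hm) (h1R : f1 ∈ S.R) (h11 : S.rd f1 = 1)
    (riem : ∃ n₁, ∀ n, n₁ ≤ n → finrank K (Lsp K x 0 n) ≤ finrank K (Xsp K x u m hm 0 n) ∧
        finrank K (Lsp K x n 0) ≤ finrank K (Xsp K x u m hm n 0)) :
    ∃ h : F, h ≠ 0 ∧ ∃ c : K, u * h ^ m = algebraMap K F c :=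
  core_dim2 S (S.Lbar x)
    (fun a b => one_mem_LB (S.rd_self_mem hx) (S.rd_self_mem hxi) a b)
    (fun n => LB_inf_le n)
    (fun n N a1 a2 => LB_sat (S.rd_self_mem hx) (S.rd_self_mem hxi) n N a1 a2)
    (S.rd_mem_Lbar hx hxi) dimRed const constb fin finb good hm hmk hu huR hu1
    (S.rd_mem_Lbar_of_Xsp hx hxi huR hu1 h0 h0R h01 h1 h1R h11) riem

end lemmaB

end Fermat.Agent.S34
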