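import Fermat.Agent.S34.NSetting
import Fermat.Agent.S18.Basic

/-!
# S34, piece A1: basic API of the reduction setting with a residue ring
(copy of `S18/Basic.lean`; same lemma names in the namespace `NSetting`)
-/

set_option autoImplicit false

namespace Fermat.Agent.S34

open Polynomial IntermediateField Fermat.Agent.S24 Fermat.Agent.S18

variable {K F k R : Type*} [Field K] [Field F] [Algebra K F] [Field k] [CommRing R] [Algebra k R]
variable (S : NSetting K F k R)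

namespace NSetting

theorem rd_of_mem {f : F} (h : f ∈ S.V) : S.rd f = S.red ⟨f, h⟩ := by
  rw [rd, dif_pos h]

theorem rc_of_mem {c : K} (h : c ∈ S.A) : S.rc c = S.resA ⟨c, h⟩ := by
  rw [rc, dif_pos h]

@[simp] theorem rd_zero : S.rd 0 = 0 := by
  rw [S.rd_of_mem (zero_mem _)]; exact map_zero S.red

@[simp] theorem rd_one : S.rd 1 = 1 := by
  rw [S.rd_of_mem (one_mem _)]; exact map_one S.red

@[simp] theorem rc_zero : S.rc 0 = 0 := by
  rw [S.rc_of_mem (zero_mem _)]; exact map_zero S.resA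

@[simp] theorem rc_one : S.rc 1 = 1 := by
  rw [S.rc_of_mem (one_mem _)]; exact map_one S.resA

theorem rd_add {f g : F} (hf : f ∈ S.V) (hg : g ∈ S.V) : S.rd (f + g) = S.rd f + S.rd g := by
  rw [S.rd_of_mem hf, S.rd_of_mem hg, S.rd_of_mem (add_mem hf hg), ← map_add]; rfl

theorem rd_mul {f g : F} (hf : f ∈ S.V) (hg : g ∈ S.V) : S.rd (f * g) = S.rd f * S.rd g := by
  rw [S.rd_of_mem hf, S.rd_of_mem hg, S.rd_of_mem (mul_mem hf hg), ← map_mul]; rfl

theorem rd_neg {f : F} (hf : f ∈ S.V) : S.rd (-f) = - S.rd f := by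
  rw [S.rd_of_mem hf, S.rd_of_mem (neg_mem hf), ← map_neg]; rfl

theorem rd_sub {f g : F} (hf : f ∈ S.V) (hg : g ∈ S.V) : S.rd (f - g) = S.rd f - S.rd g := by
  rw [S.rd_of_mem hf, S.rd_of_mem hg, S.rd_of_mem (sub_mem hf hg), ← map_sub]; rfl

theorem rd_pow {f : F} (hf : f ∈ S.V) (n : ℕ) : S.rd (f ^ n) = S.rd f ^ n := by
  rw [S.rd_of_mem hf, S.rd_of_mem (pow_mem hf n), ← map_pow]; rfl

theorem rd_sum {ι : Type*} (s : Finset ι) (f : ι → F) (hf : ∀ i ∈ s, f i ∈ S.V) :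
    S.rd (∑ i ∈ s, f i) = ∑ i ∈ s, S.rd (f i) := by
  classical
  induction s using Finset.induction_on with
  | empty => simp
  | insert a s ha ih =>
    rw [Finset.sum_insert ha, Finset.sum_insert ha,
      S.rd_add (hf a (Finset.mem_insert_self a s))
        (sum_mem fun i hi => hf i (Finset.mem_insert_of_mem hi)),
      ih (fun i hi => hf i (Finset.mem_insert_of_mem hi))]

theorem rc_add {c d : K} (hc : c ∈ S.A) (hd : d ∈ S.A) : S.rc (c + d) = S.rc c + S.rc d := by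
  rw [S.rc_of_mem hc, S.rc_of_mem hd, S.rc_of_mem (add_mem hc hd), ← map_add]; rfl

theorem rc_mul {c d : K} (hc : c ∈ S.A) (hd : d ∈ S.A) : S.rc (c * d) = S.rc c * S.rc d := by
  rw [S.rc_of_mem hc, S.rc_of_mem hd, S.rc_of_mem (mul_mem hc hd), ← map_mul]; rfl

theorem rc_neg {c : K} (hc : c ∈ S.A) : S.rc (-c) = - S.rc c := by
  rw [S.rc_of_mem hc, S.rc_of_mem (neg_mem hc), ← map_neg]; rfl

theorem rc_sub {c d : K} (hc : c ∈ S.A) (hd : d ∈ S.A) : S.rc (c - d) = S.rc c - S.rc d := by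
  rw [S.rc_of_mem hc, S.rc_of_mem hd, S.rc_of_mem (sub_mem hc hd), ← map_sub]; rfl

theorem rc_pow {c : K} (hc : c ∈ S.A) (n : ℕ) : S.rc (c ^ n) = S.rc c ^ n := by
  rw [S.rc_of_mem hc, S.rc_of_mem (pow_mem hc n), ← map_pow]; rfl

theorem rc_sum {ι : Type*} (s : Finset ι) (f : ι → K) (hf : ∀ i ∈ s, f i ∈ S.A) :
    S.rc (∑ i ∈ s, f i) = ∑ i ∈ s, S.rc (f i) := by
  classical
  induction s using Finset.induction_on with
  | empty => simp
  | insert a s ha ih =>
    rw [Finset.sum_insert ha, Finset.sum_insert ha,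
      S.rc_add (hf a (Finset.mem_insert_self a s))
        (sum_mem fun i hi => hf i (Finset.mem_insert_of_mem hi)),
      ih (fun i hi => hf i (Finset.mem_insert_of_mem hi))]

theorem rd_of_not_mem {f : F} (h : f ∉ S.V) : S.rd f = 0 := by
  rw [rd, dif_neg h]

theorem rc_of_not_mem {c : K} (h : c ∉ S.A) : S.rc c = 0 := by
  rw [rc, dif_neg h]

theorem mem_of_rd_ne_zero {f : F} (h : S.rd f ≠ 0) : f ∈ S.V := by
  by_contra hf
  exact h (S.rd_of_not_mem hf)

theorem mem_of_rc_ne_zero {c : K} (h : S.rc c ≠ 0) : c ∈ S.A := by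
  by_contra hc
  exact h (S.rc_of_not_mem hc)

theorem exists_rd_eq (fb : R) : ∃ f ∈ S.V, S.rd f = fb := by
  obtain ⟨f, hf⟩ := S.red_surj fb
  exact ⟨f, f.2, by rw [S.rd_of_mem f.2]; exact hf⟩

theorem exists_rc_eq (cb : k) : ∃ c ∈ S.A, S.rc c = cb := by
  obtain ⟨c, hc⟩ := S.resA_surj cb
  exact ⟨c, c.2, by rw [S.rc_of_mem c.2]; exact hc⟩

theorem rd_algebraMap {c : K} (hc : c ∈ S.A) :
    S.rd (algebraMap K F c) = algebraMap k R (S.rc c) := by
  rw [S.rd_of_mem (S.map_mem c hc), S.rc_of_mem hc, S.compat]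

include S in
theorem nontrivial : Nontrivial R := by
  obtain ⟨c, -, h, hne⟩ := S.scale 1 one_ne_zero
  exact ⟨⟨_, _, hne⟩⟩

theorem rc_eq_zero_iff {c : K} (hc : c ∈ S.A) : S.rc c = 0 ↔ (c = 0 ∨ c⁻¹ ∉ S.A) := by
  rw [S.rc_of_mem hc]
  exact valSubring_map_eq_zero_iff S.A S.resA S.resA_surj hc

theorem rc_eq_zero_iff_valuation {c : K} (hc : c ∈ S.A) : S.rc c = 0 ↔ S.A.valuation c < 1 := by
  rw [S.rc_eq_zero_iff hc]
  by_cases h0 : c = 0
  · subst h0
    simp
  · have hv : S.A.valuation c ≠ 0 := (Valuation.ne_zero_iff _).mpr h0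
    rw [← ValuationSubring.valuation_le_one_iff, map_inv₀, not_le,
      one_lt_inv₀ (zero_lt_iff.mpr hv)]
    simp [h0]

theorem inv_mem_of_isUnit_rd {f : F} (hf : f ∈ S.V) (h : IsUnit (S.rd f)) : f⁻¹ ∈ S.V := by
  rw [S.rd_of_mem hf] at h
  exact S.inv_mem f hf h

theorem ne_zero_of_isUnit_rd {f : F} (h : IsUnit (S.rd f)) : f ≠ 0 := by
  rintro rfl
  rw [S.rd_zero] at h
  have := S.nontrivial
  exact not_isUnit_zero h

theorem mem_of_isUnit_rd {f : F} (h : IsUnit (S.rd f)) : f ∈ S.V := by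
  have := S.nontrivial
  exact S.mem_of_rd_ne_zero h.ne_zero

theorem rd_mul_rd_inv {f : F} (h : IsUnit (S.rd f)) : S.rd f * S.rd f⁻¹ = 1 := by
  have hf := S.mem_of_isUnit_rd h
  rw [← S.rd_mul hf (S.inv_mem_of_isUnit_rd hf h), mul_inv_cancel₀ (S.ne_zero_of_isUnit_rd h),
    S.rd_one]

theorem isUnit_rd_inv {f : F} (h : IsUnit (S.rd f)) : IsUnit (S.rd f⁻¹) :=
  IsUnit.of_mul_eq_one _ (by rw [mul_comm]; exact S.rd_mul_rd_inv h)

theorem rc_inv {c : K} (h : S.rc c ≠ 0) : c⁻¹ ∈ S.A ∧ S.rc c⁻¹ = (S.rc c)⁻¹ := by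
  have hc := S.mem_of_rc_ne_zero h
  have hc0 : c ≠ 0 := by
    rintro rfl
    exact h S.rc_zero
  have hinv : c⁻¹ ∈ S.A := by
    by_contra hcon
    exact h ((S.rc_eq_zero_iff hc).mpr (Or.inr hcon))
  have h1 : S.rc c * S.rc c⁻¹ = 1 := by
    rw [← S.rc_mul hc hinv, mul_inv_cancel₀ hc0, S.rc_one]
  exact ⟨hinv, eq_inv_of_mul_eq_one_right h1⟩

theorem algebraMap_mem_iff (c : K) : algebraMap K F c ∈ S.V ↔ c ∈ S.A := by
  refine ⟨fun h => ?_, S.map_mem c⟩
  by_contra hc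
  have hc0 : c ≠ 0 := by
    rintro rfl
    exact hc (zero_mem _)
  have hinv : c⁻¹ ∈ S.A := (S.A.mem_or_inv_mem c).resolve_left hc
  have h0 : S.rc c⁻¹ = 0 := (S.rc_eq_zero_iff hinv).mpr (Or.inr (by rwa [inv_inv]))
  have h1 : S.rd (algebraMap K F c) * S.rd (algebraMap K F c⁻¹) = 1 := by
    rw [← S.rd_mul h (S.map_mem _ hinv), ← map_mul, mul_inv_cancel₀ hc0, map_one, S.rd_one]
  rw [S.rd_algebraMap hinv, h0, map_zero, mul_zero] at h1
  have := S.nontrivial
  exact zero_ne_one h1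

theorem smul_mem {c : K} (hc : c ∈ S.A) {f : F} (hf : f ∈ S.V) : c • f ∈ S.V := by
  rw [Algebra.smul_def]
  exact mul_mem (S.map_mem c hc) hf

theorem rd_smul {c : K} (hc : c ∈ S.A) {f : F} (hf : f ∈ S.V) :
    S.rd (c • f) = S.rc c • S.rd f := by
  rw [Algebra.smul_def, Algebra.smul_def, S.rd_mul (S.map_mem c hc) hf, S.rd_algebraMap hc]

/-- normalisation: every nonzero `f` has a constant multiple in `V` with nonzero reduction. -/
theorem exists_smul_rd_ne_zero {f : F} (hf : f ≠ 0) :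
    ∃ c : K, c ≠ 0 ∧ c • f ∈ S.V ∧ S.rd (c • f) ≠ 0 := by
  obtain ⟨c, hc, h1, h2⟩ := S.scale f hf
  refine ⟨c, hc, by rwa [Algebra.smul_def], ?_⟩
  rw [Algebra.smul_def, S.rd_of_mem h1]
  exact h2

/-- the kernel of `rd` on `V` is `𝔪_A V`. -/
theorem exists_of_rd_eq_zero {f : F} (hf : f ∈ S.V) (h : S.rd f = 0) :
    ∃ c : K, c ∈ S.A ∧ S.rc c = 0 ∧ ∃ g ∈ S.V, f = c • g := by
  by_cases hf0 : f = 0
  · exact ⟨0, zero_mem _, S.rc_zero, 0, zero_mem _, by rw [hf0, smul_zero]⟩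
  obtain ⟨c, hc, h1, h2⟩ := S.exists_smul_rd_ne_zero hf0
  have hcA : c ∉ S.A := by
    intro hcA
    apply h2
    rw [S.rd_smul hcA hf, h, smul_zero]
  have hinv : c⁻¹ ∈ S.A := (S.A.mem_or_inv_mem c).resolve_left hcA
  refine ⟨c⁻¹, hinv, (S.rc_eq_zero_iff hinv).mpr (Or.inr (by rwa [inv_inv])), c • f, h1, ?_⟩
  rw [smul_smul, inv_mul_cancel₀ hc, one_smul]

/-- if `c f ∈ V` has nonzero reduction and `f ∈ V`, then `c⁻¹ ∈ A`. -/
theorem inv_mem_of_rd_smul_ne_zero {c : K} {f : F} (hf : f ∈ S.V) (h : S.rd (c • f) ≠ 0) :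
    c⁻¹ ∈ S.A := by
  by_contra hinv
  have hcA : c ∈ S.A := by
    have := S.A.mem_or_inv_mem c
    tauto
  apply h
  rw [S.rd_smul hcA hf, (S.rc_eq_zero_iff hcA).mpr (Or.inr hinv), zero_smul]

/-- a finite family of constants, not all zero, can be scaled into `A` with one unit entry. -/
theorem exists_scale_family {ι : Type*} [Finite ι] (a : ι → K) (ha : a ≠ 0) :
    ∃ c : K, c ≠ 0 ∧ (∀ i, c * a i ∈ S.A) ∧ ∃ i, S.rc (c * a i) ≠ 0 := by
  obtain ⟨j, hj⟩ : ∃ j, a j ≠ 0 := by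
    by_contra hcon
    push Not at hcon
    exact ha (funext hcon)
  have : Nonempty ι := ⟨j⟩
  obtain ⟨i₀, hi₀⟩ := Finite.exists_max (fun i => S.A.valuation (a i))
  have hv0 : S.A.valuation (a i₀) ≠ 0 := by
    have h1 : S.A.valuation (a j) ≠ 0 := (Valuation.ne_zero_iff _).mpr hj
    exact (lt_of_lt_of_le (zero_lt_iff.mpr h1) (hi₀ j)).ne'
  have ha0 : a i₀ ≠ 0 := (Valuation.ne_zero_iff _).mp hv0
  refine ⟨(a i₀)⁻¹, inv_ne_zero ha0, fun i => ?_, i₀, ?_⟩
  · rw [← ValuationSubring.valuation_le_one_iff, map_mul, map_inv₀]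
    exact (inv_mul_le_one₀ (zero_lt_iff.mpr hv0)).mpr (hi₀ i)
  · rw [inv_mul_cancel₀ ha0, S.rc_one]
    exact one_ne_zero

/-- coefficientwise reduction of polynomials (junk `0` for coefficients outside `A`). -/
noncomputable def rp (p : K[X]) : k[X] := ∑ n ∈ p.support, monomial n (S.rc (p.coeff n))

theorem coeff_rp (p : K[X]) (n : ℕ) : (S.rp p).coeff n = S.rc (p.coeff n) := by
  rw [rp, finsetSum_coeff]
  simp only [coeff_monomial]
  rw [Finset.sum_ite_eq']
  split_ifs with h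
  · rfl
  · rw [notMem_support_iff.mp h, S.rc_zero]

theorem rp_add {p q : K[X]} (hp : ∀ n, p.coeff n ∈ S.A) (hq : ∀ n, q.coeff n ∈ S.A) :
    S.rp (p + q) = S.rp p + S.rp q := by
  ext n
  rw [coeff_add, coeff_rp, coeff_rp, coeff_rp, coeff_add, S.rc_add (hp n) (hq n)]

theorem rp_mul {p q : K[X]} (hp : ∀ n, p.coeff n ∈ S.A) (hq : ∀ n, q.coeff n ∈ S.A) :
    (∀ n, (p * q).coeff n ∈ S.A) ∧ S.rp (p * q) = S.rp p * S.rp q := by
  refine ⟨fun n => ?_, ?_⟩
  · rw [coeff_mul]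
    exact sum_mem fun x _ => mul_mem (hp _) (hq _)
  · ext n
    rw [coeff_rp, coeff_mul, coeff_mul, S.rc_sum _ _ (fun x _ => mul_mem (hp _) (hq _))]
    refine Finset.sum_congr rfl fun x _ => ?_
    rw [S.rc_mul (hp _) (hq _), coeff_rp, coeff_rp]

theorem rp_C {c : K} : S.rp (C c) = C (S.rc c) := by
  ext n
  rw [coeff_rp, coeff_C, coeff_C]
  split_ifs
  · rfl
  · exact S.rc_zero

theorem rp_X : S.rp X = X := by
  ext n
  rw [coeff_rp, coeff_X, coeff_X]
  split_ifs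
  · exact S.rc_one
  · exact S.rc_zero

theorem exists_rp_eq (pb : k[X]) : ∃ p : K[X], (∀ n, p.coeff n ∈ S.A) ∧ S.rp p = pb ∧
    p.natDegree = pb.natDegree := by
  choose g hgA hg using S.exists_rc_eq
  have hcoeff : ∀ n, (∑ m ∈ pb.support, monomial m (g (pb.coeff m))).coeff n =
      if n ∈ pb.support then g (pb.coeff n) else 0 := by
    intro n
    rw [finsetSum_coeff]
    simp only [coeff_monomial]
    rw [Finset.sum_ite_eq']
  refine ⟨∑ m ∈ pb.support, monomial m (g (pb.coeff m)), fun n => ?_, ?_, ?_⟩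
  · rw [hcoeff]
    split_ifs
    · exact hgA _
    · exact zero_mem _
  · ext n
    rw [coeff_rp, hcoeff]
    split_ifs with h
    · exact hg _
    · rw [S.rc_zero, notMem_support_iff.mp h]
  · have hsupp : (∑ m ∈ pb.support, monomial m (g (pb.coeff m))).support = pb.support := by
      ext n
      rw [mem_support_iff, hcoeff]
      split_ifs with h
      · refine ⟨fun _ => h, fun _ h0 => ?_⟩
        have h1 := hg (pb.coeff n)
        rw [h0, S.rc_zero] at h1
        exact (mem_support_iff.mp h) h1.symm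
      · simp [h]
    unfold natDegree degree
    rw [hsupp]

theorem aeval_mem {x : F} (hx : x ∈ S.V) {p : K[X]} (hp : ∀ n, p.coeff n ∈ S.A) :
    aeval x p ∈ S.V := by
  rw [aeval_eq_sum_range]
  refine sum_mem fun i _ => ?_
  rw [Algebra.smul_def]
  exact mul_mem (S.map_mem _ (hp i)) (pow_mem hx i)

theorem rd_aeval {x : F} (hx : x ∈ S.V) {p : K[X]} (hp : ∀ n, p.coeff n ∈ S.A) :
    S.rd (aeval x p) = aeval (S.rd x) (S.rp p) := by
  have hdeg : (S.rp p).natDegree < p.natDegree + 1 := by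
    refine Nat.lt_succ_of_le (natDegree_le_iff_coeff_eq_zero.mpr fun N hN => ?_)
    rw [coeff_rp, coeff_eq_zero_of_natDegree_lt hN, S.rc_zero]
  rw [aeval_eq_sum_range, aeval_eq_sum_range' hdeg, S.rd_sum]
  · refine Finset.sum_congr rfl fun i _ => ?_
    rw [Algebra.smul_def, Algebra.smul_def, S.rd_mul (S.map_mem _ (hp i)) (pow_mem hx i),
      S.rd_algebraMap (hp i), S.rd_pow hx, coeff_rp]
  · intro i _
    rw [Algebra.smul_def]
    exact mul_mem (S.map_mem _ (hp i)) (pow_mem hx i)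

theorem eval_mem {c : K} (hc : c ∈ S.A) {p : K[X]} (hp : ∀ n, p.coeff n ∈ S.A) :
    p.eval c ∈ S.A ∧ S.rc (p.eval c) = (S.rp p).eval (S.rc c) := by
  have hdeg : (S.rp p).natDegree < p.natDegree + 1 := by
    refine Nat.lt_succ_of_le (natDegree_le_iff_coeff_eq_zero.mpr fun N hN => ?_)
    rw [coeff_rp, coeff_eq_zero_of_natDegree_lt hN, S.rc_zero]
  have hmem : ∀ i ∈ Finset.range (p.natDegree + 1), p.coeff i * c ^ i ∈ S.A :=
    fun i _ => mul_mem (hp i) (pow_mem hc i)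
  rw [eval_eq_sum_range, eval_eq_sum_range' hdeg]
  refine ⟨sum_mem hmem, ?_⟩
  rw [S.rc_sum _ _ hmem]
  refine Finset.sum_congr rfl fun i _ => ?_
  rw [S.rc_mul (hp i) (pow_mem hc i), S.rc_pow hc, coeff_rp]

/-- a nonzero polynomial has a constant multiple with coefficients in `A` and nonzero reduction. -/
theorem exists_scale_poly {p : K[X]} (hp : p ≠ 0) :
    ∃ c : K, c ≠ 0 ∧ (∀ n, (C c * p).coeff n ∈ S.A) ∧ S.rp (C c * p) ≠ 0 := by
  have ha : (fun i : Fin (p.natDegree + 1) => p.coeff i) ≠ 0 := by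
    intro h
    have h1 := congrFun h ⟨p.natDegree, Nat.lt_succ_self _⟩
    exact hp (leadingCoeff_eq_zero.mp h1)
  obtain ⟨c, hc, h1, i, hi⟩ := S.exists_scale_family _ ha
  refine ⟨c, hc, fun n => ?_, fun h0 => ?_⟩
  · rw [coeff_C_mul]
    by_cases hn : n < p.natDegree + 1
    · exact h1 ⟨n, hn⟩
    · rw [coeff_eq_zero_of_natDegree_lt (by omega), mul_zero]
      exact zero_mem _
  · apply hi
    have h2 := congrArg (fun q => q.coeff (i : ℕ)) h0
    simpa only [coeff_rp, coeff_C_mul, coeff_zero] using h2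

/-- Gauss: the valuation induced on `K[x]` is the Gauss valuation. -/
theorem coeff_mem_of_aeval_mem {x : F} (hx : x ∈ S.V) (ht : Transcendental k (S.rd x)) {p : K[X]}
    (h : aeval x p ∈ S.V) : ∀ n, p.coeff n ∈ S.A := by
  by_cases hp : p = 0
  · intro n
    rw [hp, coeff_zero]
    exact zero_mem _
  obtain ⟨c, hc, h1, h2⟩ := S.exists_scale_poly hp
  have h3 : S.rd (aeval x (C c * p)) ≠ 0 := by
    rw [S.rd_aeval hx h1]
    exact fun h0 => h2 ((transcendental_iff.mp ht) _ h0)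
  by_cases hinv : c⁻¹ ∈ S.A
  · intro n
    have h4 : p.coeff n = c⁻¹ * (C c * p).coeff n := by
      rw [coeff_C_mul, inv_mul_cancel_left₀ hc]
    rw [h4]
    exact mul_mem hinv (h1 n)
  · exfalso
    have hcA : c ∈ S.A := by
      have := S.A.mem_or_inv_mem c
      tauto
    apply h3
    rw [map_mul, aeval_C, S.rd_mul (S.map_mem _ hcA) h, S.rd_algebraMap hcA,
      (S.rc_eq_zero_iff hcA).mpr (Or.inr hinv), map_zero, zero_mul]

theorem transcendental_of_rd {x : F} (hx : x ∈ S.V) (ht : Transcendental k (S.rd x)) :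
    Transcendental K x := by
  rw [transcendental_iff]
  intro p h0
  by_contra hp
  obtain ⟨c, hc, h1, h2⟩ := S.exists_scale_poly hp
  apply h2
  apply (transcendental_iff.mp ht)
  rw [← S.rd_aeval hx h1, map_mul, h0, mul_zero, S.rd_zero]

section
variable {S}

theorem Coord.trans {x : F} (hx : S.Coord x) : Transcendental k (S.rd x) := by
  have := S.nontrivial
  rw [transcendental_iff]
  intro p hp
  by_contra h
  have h1 := hx.unit p h
  rw [hp] at h1
  exact not_isUnit_zero h1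

theorem Coord.isUnit_rd {x : F} (hx : S.Coord x) : IsUnit (S.rd x) := by
  have := hx.unit X X_ne_zero
  rwa [aeval_X] at this

theorem Coord.inv_mem {x : F} (hx : S.Coord x) : x⁻¹ ∈ S.V :=
  S.inv_mem_of_isUnit_rd hx.mem hx.isUnit_rd

theorem Coord.rd_mul_rd_inv {x : F} (hx : S.Coord x) : S.rd x * S.rd x⁻¹ = 1 :=
  S.rd_mul_rd_inv hx.isUnit_rd

theorem Coord.ne_zero {x : F} (hx : S.Coord x) : x ≠ 0 :=
  S.ne_zero_of_isUnit_rd hx.isUnit_rd

theorem Coord.transK {x : F} (hx : S.Coord x) : Transcendental K x :=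
  S.transcendental_of_rd hx.mem hx.trans

/-- a polynomial in `x` with coefficients in `A` and nonzero reduction is a unit of `V`. -/
theorem Coord.isUnit_rd_aeval {x : F} (hx : S.Coord x) {q : K[X]} (hq : ∀ n, q.coeff n ∈ S.A)
    (h0 : S.rp q ≠ 0) : IsUnit (S.rd (aeval x q)) := by
  rw [S.rd_aeval hx.mem hq]
  exact hx.unit _ h0

/-- `x⁻¹` is again a good coordinate. -/
theorem Coord.inv {x : F} (hx : S.Coord x) : S.Coord x⁻¹ := by
  have h1 : K⟮x⁻¹⟯ = K⟮x⟯ := adjoin_simple_inv_eq K x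
  have hyz : S.rd x * S.rd x⁻¹ = 1 := hx.rd_mul_rd_inv
  let _ : Invertible (S.rd x⁻¹) := ⟨S.rd x, hyz, by rw [mul_comm]; exact hyz⟩
  have hinvOf : ⅟(S.rd x⁻¹) = S.rd x := rfl
  have hzu : IsUnit (S.rd x⁻¹) := S.isUnit_rd_inv hx.isUnit_rd
  refine ⟨hx.inv_mem, ?_, ?_, ?_⟩
  · intro p hp
    have h2 := eval₂_reverse_mul_pow (algebraMap k R) (S.rd x⁻¹) p
    rw [hinvOf] at h2
    rw [aeval_def, ← h2]
    refine IsUnit.mul ?_ (hzu.pow _)
    exact hx.unit _ (by rwa [Ne, reverse_eq_zero])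
  · rw [h1]; exact hx.fin
  · rw [h1]
    obtain ⟨e, he, hind⟩ := hx.frame
    refine ⟨e, he, ?_⟩
    intro p h0
    obtain ⟨D, hD⟩ : ∃ D : ℕ, ∀ i, (p i).natDegree ≤ D :=
      ⟨Finset.univ.sup (fun i => (p i).natDegree), fun i =>
        Finset.le_sup (f := fun i => (p i).natDegree) (Finset.mem_univ i)⟩
    have h3 : ∑ i, aeval (S.rd x) (reflect D (p i)) * S.rd (e i) = 0 := by
      have h4 : ∑ i, aeval (S.rd x) (reflect D (p i)) * S.rd (e i) =
          S.rd x ^ D * ∑ i, aeval (S.rd x⁻¹) (p i) * S.rd (e i) := by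
        rw [Finset.mul_sum]
        refine Finset.sum_congr rfl fun i _ => ?_
        have h5 := eval₂_reflect_mul_pow (algebraMap k R) (S.rd x⁻¹) D (p i) (hD i)
        rw [hinvOf] at h5
        rw [aeval_def, aeval_def, ← h5]
        have h6 : S.rd x ^ D * S.rd x⁻¹ ^ D = 1 := by rw [← mul_pow, hyz, one_pow]
        calc _ = eval₂ (algebraMap k R) (S.rd x) (reflect D (p i)) * S.rd (e i) *
              (S.rd x ^ D * S.rd x⁻¹ ^ D) := by rw [h6, mul_one]
          _ = _ := by ring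
      rw [h4, h0, mul_zero]
    funext i
    have h7 := congrFun (hind _ h3) i
    exact (reflect_eq_zero_iff).mp h7

end

end NSetting

end Fermat.Agent.S34
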