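import Fermat.Agent.S34.NodalZ
import Fermat.Agent.S34.NBasic

/-!
# S34:COUNT — the count lemma for the chart interface `NodalZ`
-/

set_option autoImplicit false

namespace Fermat.Agent.S34

open Polynomial IntermediateField Fermat.Agent.S24 Fermat.Agent.S18 Fermat.Agent.S18.CoreDim Module

namespace Count

/-- the abstract dimension count. -/
theorem count_abs {k E : Type*} [Field k] [AddCommGroup E] [Module k E] {ι κ : Type*} [Fintype κ]
    (ev : ι → E →ₗ[k] k) (s : κ → ι) (π : ι → κ)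
    (L W : Submodule k E) [FiniteDimensional k L] [FiniteDimensional k W]
    (m : ℕ) (hm : 0 < m)
    (hL : ∀ r ∈ L, ∀ i, ev i r = ev (s (π i)) r)
    (hLs : ∀ c : κ → k, ∃ r ∈ L, ∀ j, ev (s j) r = c j)
    (hWp : ∀ r ∈ W, ∀ i, (ev i r) ^ m = (ev (s (π i)) r) ^ m)
    (hWL : ∀ r ∈ W, (∀ i, ev i r = 0) → r ∈ L)
    (hdim : finrank k L ≤ finrank k W) :
    (∀ r ∈ L, (∀ i, ev i r = 0) → r ∈ W) ∧ (∀ i, ∃ r ∈ W, ev i r ≠ 0) := by
  classical
  set f : E →ₗ[k] (κ → k) := LinearMap.pi (fun j => ev (s j)) with hf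
  have hfa : ∀ r j, f r j = ev (s j) r := fun r j => rfl
  have hkW : ∀ r ∈ W, f r = 0 → ∀ i, ev i r = 0 := by
    intro r hr h0 i
    have h1 := hWp r hr i
    rw [← hfa, h0, Pi.zero_apply, zero_pow hm.ne'] at h1
    exact pow_eq_zero_iff hm.ne' |>.1 h1
  have hkL : ∀ r ∈ L, f r = 0 → ∀ i, ev i r = 0 := by
    intro r hr h0 i
    rw [hL r hr i, ← hfa, h0, Pi.zero_apply]
  have hk' : ∀ r, (∀ i, ev i r = 0) → f r = 0 := by
    intro r h
    funext j
    rw [hfa, h, Pi.zero_apply]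
  have hle : W ⊓ LinearMap.ker f ≤ L ⊓ LinearMap.ker f := by
    rintro r ⟨hr, hr0⟩
    exact ⟨hWL r hr (hkW r hr hr0), hr0⟩
  -- rank-nullity
  have rn : ∀ P : Submodule k E, FiniteDimensional k P →
      finrank k (LinearMap.range (f.domRestrict P)) + finrank k (P ⊓ LinearMap.ker f : Submodule k E)
        = finrank k P := by
    intro P _
    have h1 := LinearMap.finrank_range_add_finrank_ker (f.domRestrict P)
    have h2 : finrank k (LinearMap.ker (f.domRestrict P)) =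
        finrank k (P ⊓ LinearMap.ker f : Submodule k E) := by
      rw [← Submodule.finrank_map_subtype_eq P (LinearMap.ker (f.domRestrict P)),
        LinearMap.ker_domRestrict, Submodule.map_comap_subtype]
    rw [← h2]
    exact h1
  have hLtop : LinearMap.range (f.domRestrict L) = ⊤ := by
    rw [LinearMap.range_eq_top]
    intro c
    obtain ⟨r, hr, hc⟩ := hLs c
    exact ⟨⟨r, hr⟩, funext fun j => hc j⟩
  have h1 := rn L inferInstance
  have h2 := rn W inferInstance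
  rw [hLtop, finrank_top] at h1
  have h3 : finrank k (LinearMap.range (f.domRestrict W)) ≤ finrank k (κ → k) :=
    Submodule.finrank_le _
  have : FiniteDimensional k (L ⊓ LinearMap.ker f : Submodule k E) :=
    Submodule.finiteDimensional_of_le inf_le_left
  have h4 : finrank k (W ⊓ LinearMap.ker f : Submodule k E) ≤
      finrank k (L ⊓ LinearMap.ker f : Submodule k E) := Submodule.finrank_mono hle
  have h5 : W ⊓ LinearMap.ker f = L ⊓ LinearMap.ker f :=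
    Submodule.eq_of_le_of_finrank_eq hle (by omega)
  have h6 : LinearMap.range (f.domRestrict W) = ⊤ :=
    Submodule.eq_top_of_finrank_eq (by omega)
  refine ⟨fun r hr h0 => ?_, fun i => ?_⟩
  · have : r ∈ L ⊓ LinearMap.ker f := ⟨hr, hk' r h0⟩
    rw [← h5] at this
    exact this.1
  · rw [LinearMap.range_eq_top] at h6
    obtain ⟨⟨r, hr⟩, hr1⟩ := h6 (fun _ => 1)
    refine ⟨r, hr, fun h0 => ?_⟩
    have h7 := hWp r hr i
    have h8 : ev (s (π i)) r = 1 := congrFun hr1 (π i)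
    rw [h0, h8, zero_pow hm.ne', one_pow] at h7
    exact zero_ne_one h7

/-- finitely many pairwise distinct characters of a `k`-algebra are jointly surjective. -/
theorem pi_algHom_surjective {k B : Type*} [Field k] [CommRing B] [Algebra k B] {κ : Type*}
    [Fintype κ] (χ : κ → (B →ₐ[k] k)) (hχ : Function.Injective χ) (c : κ → k) :
    ∃ b : B, ∀ j, χ j b = c j := by
  classical
  set f : B →ₗ[k] (κ → k) := LinearMap.pi (fun j => (χ j).toLinearMap) with hf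
  have hli : LinearIndependent k (fun j => (χ j).toLinearMap) :=
    (linearIndependent_algHom_toLinearMap k B k).comp χ hχ
  have hs : Function.Surjective f := by
    rw [← LinearMap.dualMap_injective_iff]
    rw [injective_iff_map_eq_zero]
    intro φ hφ
    have h1 : ∑ j, φ (Pi.single j 1) • (χ j).toLinearMap = 0 := by
      ext b
      have h2 : φ (f b) = 0 := by
        have := congrArg (fun ψ => ψ b) hφ
        simpa using this
      have h3 : f b = ∑ j, (χ j b) • (Pi.single j 1 : κ → k) := by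
        funext i
        simp [hf, Finset.sum_apply, Pi.single_apply]
      rw [h3, map_sum] at h2
      simp only [map_smul, smul_eq_mul] at h2
      simp only [LinearMap.sum_apply, LinearMap.smul_apply, AlgHom.toLinearMap_apply, smul_eq_mul,
        LinearMap.zero_apply]
      rw [← h2]
      exact Finset.sum_congr rfl fun j _ => mul_comm _ _
    have h4 := Fintype.linearIndependent_iff.1 hli _ h1
    ext j
    simpa using h4 j
  obtain ⟨b, hb⟩ := hs c
  exact ⟨b, fun j => congrFun hb j⟩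

end Count

variable {K F k R : Type*} [Field K] [Field F] [Algebra K F] [Field k] [CommRing R] [Algebra k R]
variable {S : NSetting K F k R} {x : F}

namespace Count

theorem mem_chart_iff {y : F} {r : R} :
    r ∈ S.chart y ↔ ∃ h : F, h ∈ intRing K y ∧ ∃ hV : h ∈ S.V, S.red ⟨h, hV⟩ = r := Iff.rfl

theorem rd_mem_chart {y h : F} (hh : h ∈ intRing K y) (hV : h ∈ S.V) : S.rd h ∈ S.chart y :=
  ⟨h, hh, hV, (S.rd_of_mem hV).symm⟩

theorem smul_mem_chart (y : F) (c : k) {g : R} (hg : g ∈ S.chart y) : c • g ∈ S.chart y := by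
  obtain ⟨h, hh, hV, rfl⟩ := hg
  obtain ⟨c', rfl⟩ := S.resA_surj c
  refine ⟨algebraMap K F c' * h, ?_, mul_mem (S.map_mem _ c'.2) hV, ?_⟩
  · refine mul_mem ?_ hh
    have : algebraMap K F c' =
        algebraMap (polyRing K y) F (algebraMap K (polyRing K y) c') := rfl
    rw [this]
    exact Subalgebra.algebraMap_mem _ _
  · have h1 : (⟨algebraMap K F c' * h, mul_mem (S.map_mem _ c'.2) hV⟩ : S.V) =
        ⟨algebraMap K F c', S.map_mem _ c'.2⟩ * ⟨h, hV⟩ := rfl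
    rw [h1, map_mul, S.compat, Algebra.smul_def]

/-- the chart as a `k`-subalgebra. -/
def chartAlg (S : NSetting K F k R) (y : F) : Subalgebra k R where
  toSubsemiring := (S.chart y).toSubsemiring
  algebraMap_mem' c := by
    have := smul_mem_chart (S := S) y c (one_mem (S.chart y))
    rw [Algebra.smul_def, mul_one] at this
    exact this

theorem mem_chartAlg {y : F} {r : R} : r ∈ chartAlg S y ↔ r ∈ S.chart y := Iff.rfl

theorem x_mem_intRing (y : F) : y ∈ intRing K y := by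
  have : y = algebraMap (polyRing K y) F ⟨y, Algebra.subset_adjoin (Set.mem_singleton y)⟩ := rfl
  rw [this]
  exact Subalgebra.algebraMap_mem _ _

/-- what an element of `rd (X(0,n) ∩ V)` satisfies. -/
theorem pow_mem_of_Xsp (hxi : x⁻¹ ∈ S.V) {m : ℕ} (hm : 0 < m) {u : F} (huV : u ∈ S.V)
    (hu1 : S.rd u = 1) (n : ℕ) {g : F} (hg : g ∈ Xsp K x u m hm 0 n) (hgV : g ∈ S.V) :
    S.rd g ^ m ∈ S.chart x ∧ (S.rd x⁻¹ ^ n * S.rd g) ^ m ∈ S.chart x⁻¹ := by
  obtain ⟨h1, h2⟩ := mem_Lsp.1 (mem_Xsp.1 hg)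
  have hV : u * g ^ m ∈ S.V := mul_mem huV (pow_mem hgV m)
  have hrd : S.rd (u * g ^ m) = S.rd g ^ m := by
    rw [S.rd_mul huV (pow_mem hgV m), hu1, one_mul, S.rd_pow hgV]
  constructor
  · rw [Nat.mul_zero, pow_zero, one_mul] at h1
    rw [← hrd]
    exact rd_mem_chart h1 hV
  · have := rd_mem_chart (S := S) h2 (mul_mem (pow_mem hxi _) hV)
    rw [S.rd_mul (pow_mem hxi _) hV, hrd, S.rd_pow hxi] at this
    rw [mul_pow, ← pow_mul, Nat.mul_comm n m]
    exact this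

end Count

open Fermat.Agent.S34.Count in
theorem NodalZ.count' (Z : NodalZ S x) (hx : x ∈ S.V) (hxi : x⁻¹ ∈ S.V) (hx0 : x ≠ 0)
    {m : ℕ} (hm : 0 < m) {u : F} (huV : u ∈ S.V) (hu1 : S.rd u = 1) (n : ℕ)
    (hfin : FiniteDimensional k (S.Lbar x 0 n))
    (W : Submodule k R) (hW : ∀ r ∈ W, ∃ g ∈ Xsp K x u m hm 0 n, g ∈ S.V ∧ S.rd g = r)
    (hWfin : FiniteDimensional k W) (hdim : finrank k (S.Lbar x 0 n) ≤ finrank k W)
    (hsurj : ∀ (r : R) (hr : r ∈ S.chart x), ∃ (r' : R) (_ : r' ∈ S.Lbar x 0 n) (hr'' : r' ∈ S.chart x),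
      ∀ ξ ∈ Z.Ξ, ξ ⟨r', Z.chart_le r' hr''⟩ = ξ ⟨r, Z.chart_le r hr⟩) :
    (∀ (r : R) (_ : r ∈ S.Lbar x 0 n) (hr' : r ∈ Z.C0), (∀ ξ ∈ Z.Ξ, ξ ⟨r, hr'⟩ = 0) → r ∈ W) ∧
    (∀ ξ ∈ Z.Ξ, ∃ (r : R) (_ : r ∈ W) (hr' : r ∈ Z.C0), ξ ⟨r, hr'⟩ ≠ 0) := by
  classical
  -- facts on `W`
  have hWpow : ∀ r ∈ W, r ^ m ∈ S.chart x ∧ (S.rd x⁻¹ ^ n * r) ^ m ∈ S.chart x⁻¹ := by
    intro r hr
    obtain ⟨g, hg, hgV, rfl⟩ := hW r hr
    exact pow_mem_of_Xsp hxi hm huV hu1 n hg hgV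
  have hWC : ∀ r ∈ W, r ∈ Z.C0 := fun r hr =>
    Z.root0 r m hm (Z.chart_le _ (hWpow r hr).1)
  have hLB : ∀ r ∈ S.Lbar x 0 n, r ∈ S.chart x := by
    intro r hr
    have := hr.1
    rwa [pow_zero, one_mul] at this
  -- extension of the characters to linear forms on `R`
  have hext : ∀ ξ : Z.C0 →ₐ[k] k, ∃ g : R →ₗ[k] k, ∀ (r : R) (hr : r ∈ Z.C0), g r = ξ ⟨r, hr⟩ := by
    intro ξ
    obtain ⟨g, hg⟩ := LinearMap.exists_extend (p := Subalgebra.toSubmodule Z.C0) ξ.toLinearMap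
    exact ⟨g, fun r hr => congrArg (fun ψ => ψ ⟨r, hr⟩) hg⟩
  choose ext hextp using hext
  have hB0C0 : chartAlg S x ≤ Z.C0 := fun r hr => Z.chart_le r hr
  set ρ : Z.Ξ → (chartAlg S x →ₐ[k] k) := fun ξ => ξ.1.comp (Subalgebra.inclusion hB0C0) with hρ
  have hρa : ∀ (ξ : Z.Ξ) (r : R) (hr : r ∈ S.chart x), ρ ξ ⟨r, hr⟩ = ext ξ.1 r := by
    intro ξ r hr
    rw [hextp ξ.1 r (Z.chart_le r hr)]
    rfl
  have : Fintype (Set.range ρ) := Fintype.ofFinite _
  set π : Z.Ξ → Set.range ρ := Set.rangeFactorization ρ with hπ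
  have hπs : Function.Surjective π := Set.rangeFactorization_surjective
  set s : Set.range ρ → Z.Ξ := Function.surjInv hπs with hs
  have hsπ : ∀ j, ρ (s j) = j.1 := by
    intro j
    have := Function.surjInv_eq hπs j
    exact congrArg Subtype.val this
  have hsπ' : ∀ i, ρ (s (π i)) = ρ i := fun i => hsπ (π i)
  have key := count_abs (fun ξ : Z.Ξ => ext ξ.1) s π (S.Lbar x 0 n) W m hm ?_ ?_ ?_ ?_ hdim
  · refine ⟨fun r hr hr' h0 => key.1 r hr fun i => ?_, fun ξ hξ => ?_⟩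
    · rw [hextp i.1 r hr']
      exact h0 i.1 i.2
    · obtain ⟨r, hr, hne⟩ := key.2 ⟨ξ, hξ⟩
      refine ⟨r, hr, hWC r hr, ?_⟩
      rw [← hextp ξ r (hWC r hr)]
      exact hne
  · intro r hr i
    show ext i.1 r = ext (s (π i)).1 r
    rw [← hρa i r (hLB r hr), ← hρa (s (π i)) r (hLB r hr), hsπ']
  · intro c
    obtain ⟨b, hb⟩ := pi_algHom_surjective (fun j : Set.range ρ => j.1) Subtype.val_injective c
    obtain ⟨r', hr', hr'', h⟩ := hsurj b.1 b.2
    refine ⟨r', hr', fun j => ?_⟩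
    show ext (s j).1 r' = c j
    rw [hextp _ r' (Z.chart_le r' hr''), h _ (s j).2, ← hb j, ← hsπ j]
    rfl
  · intro r hr i
    show ext i.1 r ^ m = ext (s (π i)).1 r ^ m
    have h1 : ∀ ξ : Z.Ξ, ext ξ.1 r ^ m = ρ ξ ⟨r ^ m, (hWpow r hr).1⟩ := by
      intro ξ
      rw [hρa, hextp ξ.1 r (hWC r hr), hextp ξ.1 (r ^ m) (pow_mem (hWC r hr) m), ← map_pow]
      rfl
    rw [h1, h1, hsπ']
  · intro r hr h0
    have hB : r ∈ S.chart x := by
      refine Z.nod ⟨r, hWC r hr⟩ fun ξ hξ => ?_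
      rw [← hextp ξ r (hWC r hr)]
      exact h0 ⟨ξ, hξ⟩
    refine ⟨?_, Z.rootInf _ m hm (hWpow r hr).2⟩
    rw [pow_zero, one_mul]
    exact hB

open Fermat.Agent.S34.Count in
theorem NodalZ.exists_invInf' (Z : NodalZ S x) (hx : x ∈ S.V) (hxi : x⁻¹ ∈ S.V) (hx0 : x ≠ 0)
    {m : ℕ} (hm : 0 < m) {u : F} {n : ℕ} (hn : 0 < n)
    (W : Submodule k R) (hW : ∀ r ∈ W, ∃ g ∈ Xsp K x u m hm 0 n, g ∈ S.V ∧ S.rd g = r)
    (hcount : ∀ (r : R) (_ : r ∈ S.Lbar x 0 n) (hr' : r ∈ Z.C0), (∀ ξ ∈ Z.Ξ, ξ ⟨r, hr'⟩ = 0) → r ∈ W) :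
    ∃ g : F, g ∈ S.V ∧ S.rd g = 1 ∧ u * g ^ m ∈ intRing K x⁻¹ := by
  have hxx : S.rd x⁻¹ * S.rd x = 1 := by
    rw [← S.rd_mul hxi hx, inv_mul_cancel₀ hx0, S.rd_one]
  have hxB : S.rd x ∈ S.chart x := rd_mem_chart (x_mem_intRing x) hx
  have hxC : S.rd x ∈ Z.C0 := Z.chart_le _ hxB
  have h1 : S.rd x ^ n ∈ S.Lbar x 0 n := by
    refine ⟨?_, ?_⟩
    · rw [pow_zero, one_mul]
      exact pow_mem hxB n
    · rw [← mul_pow, hxx, one_pow]
      exact one_mem _
  have h2 : S.rd x ^ n ∈ W := by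
    refine hcount _ h1 (pow_mem hxC n) fun ξ hξ => ?_
    have : (⟨S.rd x ^ n, pow_mem hxC n⟩ : Z.C0) = ⟨S.rd x, hxC⟩ ^ n := rfl
    rw [this, map_pow, Z.zero hxC ξ hξ, zero_pow hn.ne']
  obtain ⟨g, hg, hgV, hgr⟩ := hW _ h2
  refine ⟨x⁻¹ ^ n * g, mul_mem (pow_mem hxi n) hgV, ?_, ?_⟩
  · rw [S.rd_mul (pow_mem hxi n) hgV, hgr, S.rd_pow hxi, ← mul_pow, hxx, one_pow]
  · have := (mem_Lsp.1 (mem_Xsp.1 hg)).2
    convert this using 1
    rw [mul_pow, ← pow_mul, Nat.mul_comm n m]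
    ring

end Fermat.Agent.S34
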