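import Fermat.Agent.S34.NDimRed
import Fermat.Agent.S18.PairDim

/-!
# S34, piece FINB: `L̄(a,b)` is finite dimensional, with a linear bound for the dimension
(abstractly from `NSetting.Coord`; no structure of the residue ring is used)
-/

set_option autoImplicit false

namespace Fermat.Agent.S34

open Polynomial IntermediateField Fermat.Agent.S24 Fermat.Agent.S18

variable {K F k R : Type*} [Field K] [Field F] [Algebra K F] [Field k] [CommRing R] [Algebra k R]
variable (S : NSetting K F k R)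

namespace NSetting

variable {S}

/-- `ȳ^N p(ȳ⁻¹) = (reflect N p)(ȳ)`. -/
theorem Coord.pow_mul_aeval_inv {x : F} (hx : S.Coord x) (N : ℕ) (p : k[X]) (hp : p.natDegree ≤ N) :
    S.rd x ^ N * aeval (S.rd x⁻¹) p = aeval (S.rd x) (reflect N p) := by
  have hyz : S.rd x * S.rd x⁻¹ = 1 := hx.rd_mul_rd_inv
  let _ : Invertible (S.rd x⁻¹) := ⟨S.rd x, hyz, by rw [mul_comm]; exact hyz⟩
  have hinvOf : ⅟(S.rd x⁻¹) = S.rd x := rfl
  have h5 := eval₂_reflect_mul_pow (algebraMap k R) (S.rd x⁻¹) N p hp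
  rw [hinvOf] at h5
  rw [aeval_def, aeval_def, ← h5]
  have h6 : S.rd x ^ N * S.rd x⁻¹ ^ N = 1 := by rw [← mul_pow, hyz, one_pow]
  calc _ = eval₂ (algebraMap k R) (S.rd x) (reflect N p) * (S.rd x ^ N * S.rd x⁻¹ ^ N) := by ring
    _ = _ := by rw [h6, mul_one]

theorem Coord.polyIndepR_inv {x : F} (hx : S.Coord x) {ι : Type*} [Fintype ι] (eb : ι → R)
    (hind : PolyIndepR k (S.rd x) eb) : PolyIndepR k (S.rd x⁻¹) eb := by
  intro p h0
  obtain ⟨D, hD⟩ : ∃ D : ℕ, ∀ i, (p i).natDegree ≤ D :=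
    ⟨Finset.univ.sup (fun i => (p i).natDegree), fun i =>
      Finset.le_sup (f := fun i => (p i).natDegree) (Finset.mem_univ i)⟩
  have h3 : ∑ i, aeval (S.rd x) (reflect D (p i)) * eb i = 0 := by
    have h4 : ∑ i, aeval (S.rd x) (reflect D (p i)) * eb i =
        S.rd x ^ D * ∑ i, aeval (S.rd x⁻¹) (p i) * eb i := by
      rw [Finset.mul_sum]
      refine Finset.sum_congr rfl fun i _ => ?_
      rw [← hx.pow_mul_aeval_inv D (p i) (hD i), mul_assoc]
    rw [h4, h0, mul_zero]
  funext i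
  have h7 := congrFun (hind _ h3) i
  exact (reflect_eq_zero_iff).mp h7

/-- a fixed denominator for the chart `B = rd (O ∩ V)` with respect to a frame. -/
theorem Coord.exists_chart_denom [CharZero K] {x : F} (hx : S.Coord x) {μ : ℕ}
    (hμ : Module.finrank K⟮x⟯ F = μ) (e : Fin μ → F) (he : ∀ i, e i ∈ S.V)
    (hind : PolyIndepR k (S.rd x) (fun i => S.rd (e i))) :
    ∃ qb : k[X], qb ≠ 0 ∧ ∀ r ∈ S.chart x, ∃ P : Fin μ → k[X],
      aeval (S.rd x) qb * r = ∑ i, aeval (S.rd x) (P i) * S.rd (e i) := by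
  classical
  subst hμ
  have := hx.fin
  obtain ⟨o, ho⟩ := exists_isIntBasis (k := K) (E := F) hx.transK
  obtain ⟨q, hqA, hq0, hq⟩ := S.exists_common_denom hx e he hind (Finset.univ.image o)
  choose pb hpb using (fun j => hq (o j) (Finset.mem_image_of_mem _ (Finset.mem_univ j)))
  refine ⟨S.rp q, hq0, ?_⟩
  intro r hr
  obtain ⟨h, hh, hV, rfl⟩ := S.mem_chart.mp hr
  obtain ⟨p, hp⟩ := (ho.2 h).mp hh
  have h1 : aeval x q * h = ∑ i, aeval x (∑ j, p j * pb j i) * e i := by
    rw [hp, Finset.mul_sum]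
    simp only [map_sum, Finset.sum_mul]
    rw [Finset.sum_comm]
    refine Finset.sum_congr rfl fun j _ => ?_
    have h2 : aeval x q * (aeval x (p j) * o j) = aeval x (p j) * (aeval x q * o j) := by ring
    rw [h2, hpb j, Finset.mul_sum]
    refine Finset.sum_congr rfl fun i _ => ?_
    rw [map_mul, mul_assoc]
  have hqV : aeval x q ∈ S.V := S.aeval_mem hx.mem hqA
  have hmem : ∑ i, aeval x (∑ j, p j * pb j i) * e i ∈ S.V := by
    rw [← h1]
    exact mul_mem hqV hV
  have hA := S.coeff_mem_of_sum_mem hx.mem e he hind _ hmem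
  refine ⟨fun i => S.rp (∑ j, p j * pb j i), ?_⟩
  rw [← (S.rd_sum_aeval hx.mem e he _ hA).2, ← h1, S.rd_mul hqV hV, S.rd_aeval hx.mem hqA]

/-- **FINB**: `L̄(a,b)` is finite dimensional of dimension `≤ c (a + b + 1)`. -/
theorem Coord.Lbar_bound [CharZero K] {x : F} (hx : S.Coord x) :
    ∃ c : ℕ, ∀ a b : ℕ, FiniteDimensional k (S.Lbar x a b) ∧
      Module.finrank k (S.Lbar x a b) ≤ c * (a + b + 1) := by
  classical
  obtain ⟨μ, hμ⟩ : ∃ μ : ℕ, Module.finrank K⟮x⟯ F = μ := ⟨_, rfl⟩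
  obtain ⟨e, he, hind⟩ : ∃ e : Fin μ → F, (∀ i, e i ∈ S.V) ∧
      PolyIndepR k (S.rd x) (fun i => S.rd (e i)) := hμ ▸ hx.frame
  have hμ' : Module.finrank K⟮x⁻¹⟯ F = μ := by rw [adjoin_simple_inv_eq K x]; exact hμ
  obtain ⟨qb, hqb0, hqb⟩ := hx.exists_chart_denom hμ e he hind
  obtain ⟨qb', hqb0', hqb'⟩ := hx.inv.exists_chart_denom hμ' e he (hx.polyIndepR_inv _ hind)
  set y := S.rd x with hy
  set z := S.rd x⁻¹ with hz
  have hyz : y * z = 1 := hx.rd_mul_rd_inv
  set d' := qb'.natDegree with hd'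
  refine ⟨μ * (d' + qb.natDegree + 1), fun a b => ?_⟩
  set D := d' + a + b + qb.natDegree with hD
  have hu : IsUnit (aeval y qb * y ^ a) := (hx.unit qb hqb0).mul (hx.isUnit_rd.pow a)
  obtain ⟨uinv, huinv⟩ : ∃ uinv : R, uinv * (aeval y qb * y ^ a) = 1 :=
    ⟨_, hu.val_inv_mul⟩
  let Θ : (Fin μ × Fin (D + 1) → k) →ₗ[k] R :=
    { toFun := fun v => uinv * ∑ i, aeval y (drP v i) * S.rd (e i)
      map_add' := fun v v' => by
        simp only [drP_add, map_add, add_mul, Finset.sum_add_distrib, mul_add]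
      map_smul' := fun c v => by
        simp only [drP_smul, RingHom.id_apply, map_mul, aeval_C]
        rw [Algebra.smul_def, Finset.mul_sum, Finset.mul_sum, Finset.mul_sum]
        refine Finset.sum_congr rfl fun i _ => ?_
        ring }
  have hle : S.Lbar x a b ≤ LinearMap.range Θ := by
    intro r hr
    obtain ⟨hr1, hr2⟩ := S.mem_Lbar.mp hr
    obtain ⟨P, hP⟩ := hqb _ hr1
    obtain ⟨P', hP'⟩ := hqb' _ hr2
    obtain ⟨M', hM'⟩ : ∃ M' : ℕ, ∀ i, (P' i).natDegree ≤ M' :=
      ⟨Finset.univ.sup (fun i => (P' i).natDegree), fun i =>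
        Finset.le_sup (f := fun i => (P' i).natDegree) (Finset.mem_univ i)⟩
    have hQ' : y ^ d' * aeval z qb' = aeval y (reflect d' qb') :=
      hx.pow_mul_aeval_inv d' qb' le_rfl
    have hP'' : ∀ i, y ^ M' * aeval z (P' i) = aeval y (reflect M' (P' i)) :=
      fun i => hx.pow_mul_aeval_inv M' (P' i) (hM' i)
    have hyzb : y ^ b * z ^ b = 1 := by rw [← mul_pow, hyz, one_pow]
    have key : ∑ i, aeval y (reflect d' qb' * X ^ M' * P i -
        X ^ (d' + b + a) * qb * reflect M' (P' i)) * S.rd (e i) = 0 := by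
      have e1 : ∑ i, aeval y (reflect d' qb' * X ^ M' * P i) * S.rd (e i) =
          aeval y (reflect d' qb') * y ^ M' * (aeval y qb * (y ^ a * r)) := by
        rw [hP, Finset.mul_sum]
        refine Finset.sum_congr rfl fun i _ => ?_
        rw [map_mul, map_mul, map_pow, aeval_X, mul_assoc]
      have e2 : ∑ i, aeval y (X ^ (d' + b + a) * qb * reflect M' (P' i)) * S.rd (e i) =
          y ^ (d' + b + a) * aeval y qb * y ^ M' * (aeval z qb' * (z ^ b * r)) := by
        rw [hP', Finset.mul_sum]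
        refine Finset.sum_congr rfl fun i _ => ?_
        rw [map_mul, map_mul, map_pow, aeval_X, ← hP'' i]
        ring
      simp only [map_sub, sub_mul, Finset.sum_sub_distrib]
      rw [e1, e2, ← hQ']
      have e3 : y ^ (d' + b + a) * aeval y qb * y ^ M' * (aeval z qb' * (z ^ b * r)) =
          y ^ d' * aeval z qb' * y ^ M' * (aeval y qb * (y ^ a * r)) * (y ^ b * z ^ b) := by
        rw [pow_add, pow_add]; ring
      rw [e3, hyzb, mul_one, sub_self]
    have hpoly : ∀ i, reflect d' qb' * X ^ M' * P i =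
        X ^ (d' + b + a) * qb * reflect M' (P' i) := fun i =>
      sub_eq_zero.mp (congrFun (hind _ key) i)
    have hQ0 : reflect d' qb' ≠ 0 := by rwa [Ne, reflect_eq_zero_iff]
    have hdeg : ∀ i, (P i).natDegree ≤ D := by
      intro i
      by_cases hPi : P i = 0
      · rw [hPi, natDegree_zero]; exact Nat.zero_le _
      have h1 : (reflect d' qb' * X ^ M' * P i).natDegree =
          (reflect d' qb').natDegree + M' + (P i).natDegree := by
        rw [natDegree_mul (mul_ne_zero hQ0 (pow_ne_zero _ X_ne_zero)) hPi,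
          natDegree_mul hQ0 (pow_ne_zero _ X_ne_zero), natDegree_X_pow]
      have h2 : (X ^ (d' + b + a) * qb * reflect M' (P' i)).natDegree ≤
          (d' + b + a) + qb.natDegree + M' := by
        refine natDegree_mul_le.trans (Nat.add_le_add (natDegree_mul_le.trans ?_) ?_)
        · rw [natDegree_X_pow]
        · exact (natDegree_reflect_le).trans (max_le le_rfl (hM' i))
      rw [← hpoly i, h1] at h2
      omega
    refine ⟨fun jn => (P jn.1).coeff jn.2, ?_⟩
    change uinv * ∑ i, aeval y (drP (fun jn : Fin μ × Fin (D + 1) => (P jn.1).coeff jn.2) i) *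
      S.rd (e i) = r
    have h3 : ∀ i, drP (fun jn : Fin μ × Fin (D + 1) => (P jn.1).coeff jn.2) i = P i :=
      fun i => drP_coeff P hdeg i
    simp only [h3]
    rw [← hP]
    calc uinv * (aeval y qb * (y ^ a * r)) = uinv * (aeval y qb * y ^ a) * r := by ring
      _ = r := by rw [huinv, one_mul]
  have hfin : FiniteDimensional k (S.Lbar x a b) := Submodule.finiteDimensional_of_le hle
  refine ⟨hfin, ?_⟩
  calc Module.finrank k (S.Lbar x a b) ≤ Module.finrank k (LinearMap.range Θ) :=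
        Submodule.finrank_mono hle
    _ ≤ Module.finrank k (Fin μ × Fin (D + 1) → k) := LinearMap.finrank_range_le Θ
    _ = μ * (D + 1) := by
        rw [Module.finrank_fintype_fun_eq_card, Fintype.card_prod, Fintype.card_fin,
          Fintype.card_fin]
    _ ≤ μ * (d' + qb.natDegree + 1) * (a + b + 1) := by
        rw [mul_assoc]
        refine Nat.mul_le_mul_left μ ?_
        rw [hD]
        nlinarith [Nat.zero_le (d' + qb.natDegree), Nat.zero_le (a + b)]

theorem Coord.finb [CharZero K] {x : F} (hx : S.Coord x) (a b : ℕ) :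
    FiniteDimensional k (S.Lbar x a b) := by
  obtain ⟨c, hc⟩ := hx.Lbar_bound
  exact (hc a b).1

theorem Coord.hbd [CharZero K] {x : F} (hx : S.Coord x) :
    ∃ c : ℕ, ∀ a, Module.finrank k (S.Lbar x a 0) ≤ c * (a + 1) := by
  obtain ⟨c, hc⟩ := hx.Lbar_bound
  exact ⟨c, fun a => (hc a 0).2⟩

end NSetting

end Fermat.Agent.S34
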