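import Mathlib

/-!
# S34, piece GOOD (setting-free part): two chains of subspaces which agree "on both charts" agree in
large degrees.

`Rp a` plays the role of `Lbar(a,0) = {r : x̄^a r ∈ B₀, r ∈ B_∞}`, `Rr a` of `rd (L(a,0) ∩ V)`, `y` is the multiplication by `x̄⁻¹`.
-/

set_option autoImplicit false

namespace Fermat.Agent.S34

open Module Submodule

section Seq

/-- a convex sequence of natural numbers with linear growth has eventually constant increments. -/
theorem exists_forall_convex_eq (d : ℕ → ℕ) (c : ℕ) (hmono : ∀ a, d a ≤ d (a + 1))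
    (hconv : ∀ a, 2 * d (a + 1) ≤ d (a + 2) + d a) (hbd : ∀ a, d a ≤ c * (a + 1)) :
    ∃ a₁, ∀ a, a₁ ≤ a → d (a + 2) + d a = 2 * d (a + 1) := by
  -- increments
  set Δ : ℕ → ℕ := fun a => d (a + 1) - d a with hΔ
  have hd : ∀ a, d (a + 1) = d a + Δ a := fun a => by
    simp only [hΔ]; have := hmono a; omega
  have hΔmono : ∀ a, Δ a ≤ Δ (a + 1) := fun a => by
    have h1 := hd a
    have h2 : d (a + 2) = d (a + 1) + Δ (a + 1) := hd (a + 1)
    have h3 := hconv a
    omega
  have hΔmono' : Monotone Δ := monotone_nat_of_le_succ hΔmono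
  -- growth
  have hgrow : ∀ a t, d a + t * Δ a ≤ d (a + t) := by
    intro a t
    induction t with
    | zero => simp
    | succ t ih =>
      have h1 := hd (a + t)
      have h2 : Δ a ≤ Δ (a + t) := hΔmono' (Nat.le_add_right a t)
      have h3 : a + (t + 1) = a + t + 1 := rfl
      rw [h3, h1, Nat.succ_mul]
      omega
  have hΔbd : ∀ a, Δ a ≤ c := by
    intro a
    by_contra hlt
    push Not at hlt
    -- `Δ a ≥ c + 1`
    have h1 := hgrow a (c * (a + 1) + 1)
    have h2 := hbd (a + (c * (a + 1) + 1))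
    have h3 : (c * (a + 1) + 1) * (c + 1) ≤ (c * (a + 1) + 1) * Δ a :=
      Nat.mul_le_mul_left _ hlt
    have h4 : c * (a + (c * (a + 1) + 1) + 1) < (c * (a + 1) + 1) * (c + 1) := by
      nlinarith
    omega
  -- a bounded monotone sequence of naturals is eventually constant
  obtain ⟨a₁, ha₁⟩ : ∃ a₁, ∀ a, a₁ ≤ a → Δ a = Δ a₁ := by
    by_contra hcon
    push Not at hcon
    have hstep : ∀ n : ℕ, ∃ a, n ≤ Δ a := by
      intro n
      induction n with
      | zero => exact ⟨0, Nat.zero_le _⟩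
      | succ n ih =>
        obtain ⟨a, ha⟩ := ih
        obtain ⟨b, hab, hb⟩ := hcon a
        have := hΔmono' hab
        exact ⟨b, by omega⟩
    obtain ⟨a, ha⟩ := hstep (c + 1)
    have := hΔbd a
    omega
  refine ⟨a₁, fun a ha => ?_⟩
  have h1 := hd a
  have h2 : d (a + 2) = d (a + 1) + Δ (a + 1) := hd (a + 1)
  have h3 := ha₁ a ha
  have h4 := ha₁ (a + 1) (by omega)
  omega

end Seq

variable {k E : Type*} [Field k] [AddCommGroup E] [Module k E]

theorem finrank_map_of_injective (y : E →ₗ[k] E) (hy : Function.Injective y) (p : Submodule k E) :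
    finrank k (p.map y) = finrank k p :=
  (LinearEquiv.finrank_eq (Submodule.equivMapOfInjective y hy p)).symm

/-- **The graded argument.** -/
theorem chains_eventually_eq (y : E →ₗ[k] E) (hy : Function.Injective y)
    (Rr Rp : ℕ → Submodule k E)
    (hle : ∀ a, Rr a ≤ Rp a)
    (hrS : ∀ a, Rr a ≤ Rr (a + 1)) (hrT : ∀ a, (Rr a).map y ≤ Rr (a + 1))
    (hpS : ∀ a, Rp a ≤ Rp (a + 1)) (hpT : ∀ a, (Rp a).map y ≤ Rp (a + 1))
    (hpI : ∀ a r, r ∈ Rp (a + 1) → y r ∈ Rp (a + 1) → r ∈ Rp a)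
    (hfin : ∀ a, FiniteDimensional k (Rp a))
    (c : ℕ) (hbd : ∀ a, finrank k (Rp a) ≤ c * (a + 1))
    (h3 : ∀ a, ∀ r ∈ Rp a, ∃ a', r ∈ Rr a')
    (h4 : ∀ a, ∀ r ∈ Rp a, ∃ N, (y ^ N) r ∈ Rr (a + N)) :
    ∃ a₀, ∀ a, a₀ ≤ a → Rp a = Rr a := by
  classical
  have hrmono : Monotone Rr := monotone_nat_of_le_succ hrS
  -- powers of `y`
  have hrTpow : ∀ a j r, r ∈ Rr a → (y ^ j) r ∈ Rr (a + j) := by
    intro a j
    induction j with
    | zero => intro r hr; simpa using hr
    | succ j ih =>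
      intro r hr
      rw [pow_succ', Module.End.mul_apply]
      exact hrT (a + j) (mem_map_of_mem (ih r hr))
  -- Step 1: convexity
  have hconv : ∀ a, 2 * finrank k (Rp (a + 1)) ≤ finrank k (Rp (a + 2)) + finrank k (Rp a) := by
    intro a
    have := hfin (a + 1)
    have := hfin (a + 2)
    have := hfin a
    have e1 := finrank_sup_add_finrank_inf_eq (Rp (a + 1)) ((Rp (a + 1)).map y)
    have e2 : finrank k ((Rp (a + 1)).map y) = finrank k (Rp (a + 1)) :=
      finrank_map_of_injective y hy _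
    have e3 : finrank k ↥(Rp (a + 1) ⊔ (Rp (a + 1)).map y) ≤ finrank k (Rp (a + 2)) :=
      finrank_mono (sup_le (hpS (a + 1)) (hpT (a + 1)))
    have e4 : finrank k ↥(Rp (a + 1) ⊓ (Rp (a + 1)).map y) ≤ finrank k (Rp a) := by
      have hle' : Rp (a + 1) ⊓ (Rp (a + 1)).map y ≤ (Rp a).map y := by
        rintro r ⟨hr1, hr2⟩
        obtain ⟨r', hr', rfl⟩ := hr2
        exact mem_map_of_mem (hpI a r' hr' hr1)
      calc finrank k ↥(Rp (a + 1) ⊓ (Rp (a + 1)).map y) ≤ finrank k ((Rp a).map y) :=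
            finrank_mono hle'
        _ = finrank k (Rp a) := finrank_map_of_injective y hy _
    omega
  obtain ⟨a₁, ha₁⟩ := exists_forall_convex_eq (fun a => finrank k (Rp a)) c
    (fun a => by have := hfin (a + 1); exact finrank_mono (hpS a)) hconv hbd
  -- Step 3: generation
  have hgen : ∀ a, a₁ + 1 ≤ a → Rp (a + 1) = Rp a ⊔ (Rp a).map y := by
    intro a ha
    obtain ⟨a', rfl⟩ : ∃ a', a = a' + 1 := ⟨a - 1, by omega⟩
    have hq : finrank k (Rp (a' + 1 + 1)) + finrank k (Rp a') = 2 * finrank k (Rp (a' + 1)) :=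
      ha₁ a' (by omega)
    have := hfin (a' + 1)
    have := hfin (a' + 2)
    have := hfin a'
    symm
    apply eq_of_le_of_finrank_le (sup_le (hpS (a' + 1)) (hpT (a' + 1)))
    have e1 := finrank_sup_add_finrank_inf_eq (Rp (a' + 1)) ((Rp (a' + 1)).map y)
    have e2 : finrank k ((Rp (a' + 1)).map y) = finrank k (Rp (a' + 1)) :=
      finrank_map_of_injective y hy _
    have e4 : finrank k ↥(Rp (a' + 1) ⊓ (Rp (a' + 1)).map y) ≤ finrank k (Rp a') := by
      have hle' : Rp (a' + 1) ⊓ (Rp (a' + 1)).map y ≤ (Rp a').map y := by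
        rintro r ⟨hr1, hr2⟩
        obtain ⟨r', hr', rfl⟩ := hr2
        exact mem_map_of_mem (hpI a' r' hr' hr1)
      calc finrank k ↥(Rp (a' + 1) ⊓ (Rp (a' + 1)).map y) ≤ finrank k ((Rp a').map y) :=
            finrank_mono hle'
        _ = finrank k (Rp a') := finrank_map_of_injective y hy _
    omega
  set b := a₁ + 1 with hb
  -- Step 4: uniform `N`
  obtain ⟨N, hN⟩ : ∃ N, ∀ r ∈ Rp b, r ∈ Rr (b + N) ∧ (y ^ N) r ∈ Rr (b + N) := by
    have := hfin b
    obtain ⟨s, hs⟩ : (Rp b).FG := (Submodule.fg_iff_finiteDimensional _).2 this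
    have hsmem : ∀ r ∈ s, r ∈ Rp b := fun r hr => hs ▸ subset_span hr
    have hex : ∀ r ∈ s, ∃ N, ∀ N', N ≤ N' → r ∈ Rr (b + N') ∧ (y ^ N') r ∈ Rr (b + N') := by
      intro r hr
      obtain ⟨a', ha'⟩ := h3 b r (hsmem r hr)
      obtain ⟨N₂, hN₂⟩ := h4 b r (hsmem r hr)
      refine ⟨max a' N₂, fun N' hN' => ⟨hrmono (by omega) ha', ?_⟩⟩
      obtain ⟨t, rfl⟩ : ∃ t, N' = N₂ + t := ⟨N' - N₂, by omega⟩
      have := hrTpow (b + N₂) t _ hN₂
      rw [← Module.End.mul_apply, ← pow_add, add_comm t N₂, add_assoc] at this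
      exact this
    choose! Nf hNf using hex
    refine ⟨s.sup Nf, fun r hr => ?_⟩
    rw [← hs] at hr
    induction hr using span_induction with
    | mem x hx => exact hNf x hx _ (Finset.le_sup hx)
    | zero => exact ⟨zero_mem _, by rw [map_zero]; exact zero_mem _⟩
    | add x z _ _ hx hz => exact ⟨add_mem hx.1 hz.1, by rw [map_add]; exact add_mem hx.2 hz.2⟩
    | smul a x _ hx => exact ⟨smul_mem _ _ hx.1, by rw [map_smul]; exact smul_mem _ _ hx.2⟩
  -- Step 5: `Rp (b + t)` is generated by the `y^j Rp b`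
  have hsum : ∀ t, Rp (b + t) ≤ ⨆ j ∈ Finset.range (t + 1), (Rp b).map (y ^ j) := by
    intro t
    induction t with
    | zero =>
      intro r hr
      refine mem_iSup_of_mem 0 (mem_iSup_of_mem (by simp) ?_)
      exact ⟨r, hr, by simp⟩
    | succ t ih =>
      have h1 : b + (t + 1) = b + t + 1 := rfl
      rw [h1, hgen (b + t) (by omega)]
      refine sup_le ?_ ?_
      · refine ih.trans (iSup₂_le fun j hj => ?_)
        exact le_iSup₂_of_le j (by simp only [Finset.mem_range] at hj ⊢; omega) le_rfl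
      · refine (map_mono ih).trans ?_
        rw [Submodule.map_iSup]
        refine iSup_le fun j => ?_
        rw [Submodule.map_iSup]
        refine iSup_le fun hj => ?_
        refine le_iSup₂_of_le (j + 1) (by simp only [Finset.mem_range] at hj ⊢; omega) ?_
        rw [← map_comp]
        have : y ∘ₗ (y ^ j) = y ^ (j + 1) := by rw [pow_succ']; rfl
        rw [this]
  refine ⟨b + 2 * N, fun a ha => le_antisymm ?_ (hle a)⟩
  obtain ⟨t, rfl⟩ : ∃ t, a = b + t := ⟨a - b, by omega⟩
  refine (hsum t).trans (iSup₂_le fun j hj => ?_)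
  rintro _ ⟨r, hr, rfl⟩
  simp only [Finset.mem_range] at hj
  by_cases hjN : N ≤ j
  · obtain ⟨i, rfl⟩ : ∃ i, j = N + i := ⟨j - N, by omega⟩
    have := hrTpow (b + N) i _ (hN r hr).2
    rw [← Module.End.mul_apply, ← pow_add, add_comm i N] at this
    exact hrmono (by omega) this
  · have := hrTpow (b + N) j _ (hN r hr).1
    exact hrmono (by omega) this

end Fermat.Agent.S34
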