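import Fermat.Agent.S34.NBasic
import Fermat.Agent.S34.Graded
import Fermat.Agent.S18.PairDimTR
import Fermat.Agent.S18.CoreDim

/-!
# S34, piece GOOD: `rd (L(a,b) ∩ V) = L̄(a,b)` for `a + b ≫ 0`

`L̄(a,b) = S.Lbar x a b = {r : x̄^a r ∈ B₀, x̄⁻¹^b r ∈ B_∞}`, `B₀ = rd (O₀ ∩ V)`, `B_∞ = rd (O_∞ ∩ V)`.
Only input: `L̄(a,0)` is finite dimensional of dimension `≤ c (a + 1)`.
-/

set_option autoImplicit false

namespace Fermat.Agent.S34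

open Polynomial IntermediateField Fermat.Agent.S24 Fermat.Agent.S18 Fermat.Agent.S18.CoreDim Module

variable {K F k R : Type*} [Field K] [Field F] [Algebra K F] [Field k] [CommRing R] [Algebra k R]

namespace NSetting

variable (S : NSetting K F k R)

theorem gd_mem_chart {y : F} {r : R} :
    r ∈ S.chart y ↔ ∃ h : F, h ∈ intRing K y ∧ h ∈ S.V ∧ S.rd h = r := by
  constructor
  · rintro ⟨h, hh, hV, rfl⟩
    exact ⟨h, hh, hV, S.rd_of_mem hV⟩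
  · rintro ⟨h, hh, hV, rfl⟩
    exact ⟨h, hh, hV, (S.rd_of_mem hV).symm⟩

theorem gd_mem_Lbar {x : F} {a b : ℕ} {r : R} :
    r ∈ S.Lbar x a b ↔ S.rd x ^ a * r ∈ S.chart x ∧ S.rd x⁻¹ ^ b * r ∈ S.chart x⁻¹ := Iff.rfl

theorem gd_rd_self_mem_chart {y : F} (hy : y ∈ S.V) : S.rd y ∈ S.chart y :=
  S.gd_mem_chart.2 ⟨y, self_mem_intRing y, hy, rfl⟩

theorem Lbar_inv (x : F) (a b : ℕ) : S.Lbar x⁻¹ a b = S.Lbar x b a := by
  ext r
  rw [gd_mem_Lbar, gd_mem_Lbar, inv_inv]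
  exact and_comm

/-- the reduction of `L(a,b) ∩ V`. -/
def redL (x : F) (a b : ℕ) : Submodule k R where
  carrier := {r | ∃ f ∈ Lsp K x a b, f ∈ S.V ∧ S.rd f = r}
  add_mem' := by
    rintro _ _ ⟨f, hf, hfV, rfl⟩ ⟨g, hg, hgV, rfl⟩
    exact ⟨f + g, add_mem hf hg, add_mem hfV hgV, S.rd_add hfV hgV⟩
  zero_mem' := ⟨0, zero_mem _, zero_mem _, S.rd_zero⟩
  smul_mem' := by
    rintro c _ ⟨f, hf, hfV, rfl⟩
    obtain ⟨c', hc', rfl⟩ := S.exists_rc_eq c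
    exact ⟨c' • f, Submodule.smul_mem _ _ hf, S.smul_mem hc' hfV, S.rd_smul hc' hfV⟩

theorem mem_redL {x : F} {a b : ℕ} {r : R} :
    r ∈ S.redL x a b ↔ ∃ f ∈ Lsp K x a b, f ∈ S.V ∧ S.rd f = r := Iff.rfl

theorem redL_le_Lbar {x : F} (hx : x ∈ S.V) (hxi : x⁻¹ ∈ S.V) (a b : ℕ) :
    S.redL x a b ≤ S.Lbar x a b := by
  rintro _ ⟨f, hf, hfV, rfl⟩
  refine ⟨S.gd_mem_chart.2 ⟨x ^ a * f, hf.1, mul_mem (pow_mem hx a) hfV, ?_⟩,
    S.gd_mem_chart.2 ⟨x⁻¹ ^ b * f, hf.2, mul_mem (pow_mem hxi b) hfV, ?_⟩⟩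
  · rw [S.rd_mul (pow_mem hx a) hfV, S.rd_pow hx]
  · rw [S.rd_mul (pow_mem hxi b) hfV, S.rd_pow hxi]

theorem rd_mul_rd_inv' {x : F} (hx0 : x ≠ 0) (hx : x ∈ S.V) (hxi : x⁻¹ ∈ S.V) :
    S.rd x * S.rd x⁻¹ = 1 := by
  rw [← S.rd_mul hx hxi, mul_inv_cancel₀ hx0, S.rd_one]

/-- **GOOD**, the case `(a,0)`. -/
theorem good_left {x : F} (hx0 : x ≠ 0) (hx : x ∈ S.V) (hxi : x⁻¹ ∈ S.V)
    (hfin : ∀ a, FiniteDimensional k (S.Lbar x a 0)) (c : ℕ)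
    (hbd : ∀ a, finrank k (S.Lbar x a 0) ≤ c * (a + 1)) :
    ∃ a₀, ∀ a, a₀ ≤ a → S.Lbar x a 0 = S.redL x a 0 := by
  have hxx : S.rd x * S.rd x⁻¹ = 1 := S.rd_mul_rd_inv' hx0 hx hxi
  have hxx' : S.rd x⁻¹ * S.rd x = 1 := by rw [mul_comm]; exact hxx
  have hpw : ∀ n : ℕ, S.rd x ^ n * S.rd x⁻¹ ^ n = 1 := fun n => by
    rw [← mul_pow, hxx, one_pow]
  have hypow : ∀ (N : ℕ) (r : R), ((LinearMap.mulLeft k (S.rd x⁻¹)) ^ N) r = S.rd x⁻¹ ^ N * r := by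
    intro N r
    rw [LinearMap.pow_mulLeft]
    rfl
  apply chains_eventually_eq (LinearMap.mulLeft k (S.rd x⁻¹)) ?_ (fun a => S.redL x a 0)
    (fun a => S.Lbar x a 0) (fun a => S.redL_le_Lbar hx hxi a 0) ?_ ?_ ?_ ?_ ?_ hfin c hbd ?_ ?_
  · -- injectivity
    intro r r' h
    have h' : S.rd x⁻¹ * r = S.rd x⁻¹ * r' := h
    calc r = S.rd x * (S.rd x⁻¹ * r) := by rw [← mul_assoc, hxx, one_mul]
      _ = S.rd x * (S.rd x⁻¹ * r') := by rw [h']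
      _ = r' := by rw [← mul_assoc, hxx, one_mul]
  · -- `Rr a ≤ Rr (a+1)`
    rintro a _ ⟨f, hf, hfV, rfl⟩
    refine ⟨f, ⟨?_, hf.2⟩, hfV, rfl⟩
    rw [pow_succ', mul_assoc]
    exact mul_mem (self_mem_intRing x) hf.1
  · -- `y Rr a ≤ Rr (a+1)`
    rintro a _ ⟨_, ⟨f, hf, hfV, rfl⟩, rfl⟩
    refine ⟨x⁻¹ * f, ⟨?_, ?_⟩, mul_mem hxi hfV, S.rd_mul hxi hfV⟩
    · have e : x ^ (a + 1) * (x⁻¹ * f) = x ^ a * f := by
        rw [pow_succ, mul_assoc, ← mul_assoc x, mul_inv_cancel₀ hx0, one_mul]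
      rw [e]
      exact hf.1
    · have e : x⁻¹ ^ 0 * (x⁻¹ * f) = x⁻¹ * (x⁻¹ ^ 0 * f) := by ring
      rw [e]
      exact mul_mem (self_mem_intRing x⁻¹) hf.2
  · -- `Rp a ≤ Rp (a+1)`
    rintro a r ⟨h1, h2⟩
    refine ⟨?_, h2⟩
    rw [pow_succ', mul_assoc]
    exact mul_mem (S.gd_rd_self_mem_chart hx) h1
  · -- `y Rp a ≤ Rp (a+1)`
    rintro a _ ⟨r, ⟨h1, h2⟩, rfl⟩
    refine ⟨?_, ?_⟩
    · have e : S.rd x ^ (a + 1) * (LinearMap.mulLeft k (S.rd x⁻¹)) r = S.rd x ^ a * r := by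
        rw [LinearMap.mulLeft_apply, pow_succ, mul_assoc, ← mul_assoc (S.rd x), hxx, one_mul]
      rw [e]
      exact h1
    · have e : S.rd x⁻¹ ^ 0 * (LinearMap.mulLeft k (S.rd x⁻¹)) r = S.rd x⁻¹ * (S.rd x⁻¹ ^ 0 * r) := by
        rw [LinearMap.mulLeft_apply]; ring
      rw [e]
      exact mul_mem (S.gd_rd_self_mem_chart hxi) h2
  · -- `r, y r ∈ Rp (a+1) → r ∈ Rp a`
    rintro a r ⟨_, h2⟩ ⟨h3, _⟩
    refine ⟨?_, h2⟩
    have e : S.rd x ^ (a + 1) * (LinearMap.mulLeft k (S.rd x⁻¹)) r = S.rd x ^ a * r := by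
      rw [LinearMap.mulLeft_apply, pow_succ, mul_assoc, ← mul_assoc (S.rd x), hxx, one_mul]
    rw [← e]
    exact h3
  · -- (iii)
    rintro a r ⟨_, h2⟩
    obtain ⟨h, hh, hV, hr⟩ := S.gd_mem_chart.1 h2
    rw [pow_zero, one_mul] at hr
    obtain ⟨a', ha'⟩ := tr_scale_mem (inv_ne_zero hx0) hh
    rw [inv_inv] at ha'
    exact ⟨a', h, ⟨ha', by rw [pow_zero, one_mul]; exact hh⟩, hV, hr⟩
  · -- (iv)
    rintro a r ⟨h1, _⟩
    obtain ⟨g, hg, hV, hr⟩ := S.gd_mem_chart.1 h1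
    obtain ⟨N, hN⟩ := tr_scale_mem hx0 hg
    refine ⟨N, x⁻¹ ^ (a + N) * g, ⟨?_, ?_⟩, mul_mem (pow_mem hxi _) hV, ?_⟩
    · have e : x ^ (a + N) * (x⁻¹ ^ (a + N) * g) = g := by
        rw [← mul_assoc, ← mul_pow, mul_inv_cancel₀ hx0, one_pow, one_mul]
      rw [e]
      exact hg
    · have e : x⁻¹ ^ 0 * (x⁻¹ ^ (a + N) * g) = x⁻¹ ^ a * (x⁻¹ ^ N * g) := by
        rw [pow_add]; ring
      rw [e]
      exact mul_mem (pow_mem (self_mem_intRing x⁻¹) a) hN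
    · rw [S.rd_mul (pow_mem hxi _) hV, S.rd_pow hxi, hr, hypow, pow_add]
      calc S.rd x⁻¹ ^ a * S.rd x⁻¹ ^ N * (S.rd x ^ a * r)
          = (S.rd x ^ a * S.rd x⁻¹ ^ a) * (S.rd x⁻¹ ^ N * r) := by ring
        _ = S.rd x⁻¹ ^ N * r := by rw [hpw, one_mul]

/-- **GOOD**: `L̄(a,b) = rd (L(a,b) ∩ V)` for `a + b ≫ 0`. -/
theorem good {x : F} (hx0 : x ≠ 0) (hx : x ∈ S.V) (hxi : x⁻¹ ∈ S.V)
    (hfin : ∀ a, FiniteDimensional k (S.Lbar x a 0)) (c : ℕ)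
    (hbd : ∀ a, finrank k (S.Lbar x a 0) ≤ c * (a + 1)) :
    ∃ n₀, ∀ a b, n₀ ≤ a + b → ∀ r ∈ S.Lbar x a b, ∃ f ∈ Lsp K x a b, f ∈ S.V ∧ S.rd f = r := by
  have hxx : S.rd x * S.rd x⁻¹ = 1 := S.rd_mul_rd_inv' hx0 hx hxi
  have hpw : ∀ n : ℕ, S.rd x ^ n * S.rd x⁻¹ ^ n = 1 := fun n => by
    rw [← mul_pow, hxx, one_pow]
  obtain ⟨n₀, hn₀⟩ := S.good_left hx0 hx hxi hfin c hbd
  refine ⟨n₀, fun a b hab r hr => ?_⟩
  have h1 : S.rd x⁻¹ ^ b * r ∈ S.Lbar x (a + b) 0 := by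
    refine ⟨?_, ?_⟩
    · have e : S.rd x ^ (a + b) * (S.rd x⁻¹ ^ b * r) = S.rd x ^ a * r := by
        calc S.rd x ^ (a + b) * (S.rd x⁻¹ ^ b * r)
            = (S.rd x ^ b * S.rd x⁻¹ ^ b) * (S.rd x ^ a * r) := by rw [pow_add]; ring
          _ = S.rd x ^ a * r := by rw [hpw, one_mul]
      rw [e]
      exact hr.1
    · rw [pow_zero, one_mul]
      exact hr.2
  rw [hn₀ _ hab] at h1
  obtain ⟨g, hg, hgV, hgr⟩ := h1
  refine ⟨x ^ b * g, ⟨?_, ?_⟩, mul_mem (pow_mem hx b) hgV, ?_⟩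
  · have e : x ^ a * (x ^ b * g) = x ^ (a + b) * g := by rw [pow_add]; ring
    rw [e]
    exact hg.1
  · have e : x⁻¹ ^ b * (x ^ b * g) = x⁻¹ ^ 0 * g := by
      rw [← mul_assoc, ← mul_pow, inv_mul_cancel₀ hx0, one_pow, pow_zero]
    rw [e]
    exact hg.2
  · rw [S.rd_mul (pow_mem hx b) hgV, S.rd_pow hx, hgr, ← mul_assoc, hpw, one_mul]

/-- lifts of `k`-independent elements are `K`-independent. -/
theorem finrank_le_of_lifts (W : Submodule K F) [FiniteDimensional K W] (P : Submodule k R)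
    (hP : ∀ r ∈ P, ∃ f ∈ W, f ∈ S.V ∧ S.rd f = r) : finrank k P ≤ finrank K W := by
  classical
  by_cases hfin : FiniteDimensional k P
  swap
  · rw [finrank_of_not_finite hfin]
    exact Nat.zero_le _
  let b := Module.finBasis k P
  choose f hfW hfV hfr using fun i => hP (b i) (b i).2
  have hli : LinearIndependent K (fun i => (⟨f i, hfW i⟩ : W)) := by
    rw [Fintype.linearIndependent_iff]
    intro g hg
    by_contra hcon
    have hg0 : g ≠ 0 := by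
      intro h0
      apply hcon
      intro i
      rw [h0]; rfl
    obtain ⟨d, hd0, hdA, i₀, hi₀⟩ := S.exists_scale_family g hg0
    have h1 : ∑ i, g i • f i = 0 := by
      have := congrArg (Subtype.val) hg
      simpa using this
    have h2 : ∑ i, (d * g i) • f i = 0 := by
      simp only [mul_smul]
      rw [← Finset.smul_sum, h1, smul_zero]
    have h3 : ∑ i, S.rc (d * g i) • (b i : R) = 0 := by
      have := congrArg S.rd h2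
      rw [S.rd_sum _ _ (fun i _ => S.smul_mem (hdA i) (hfV i)), S.rd_zero] at this
      rw [← this]
      refine Finset.sum_congr rfl fun i _ => ?_
      rw [S.rd_smul (hdA i) (hfV i), hfr]
    have h4 : ∑ i, S.rc (d * g i) • b i = 0 := by
      apply Subtype.ext
      simpa using h3
    exact hi₀ (Fintype.linearIndependent_iff.1 b.linearIndependent _ h4 i₀)
  have := hli.fintype_card_le_finrank
  simpa using this

/-- **GOOD**, in the form used by `core_dim2`. -/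
theorem good_finrank {x : F} (hx0 : x ≠ 0) (hx : x ∈ S.V) (hxi : x⁻¹ ∈ S.V)
    (fin : ∀ a b, FiniteDimensional K (Lsp K x a b))
    (hfin : ∀ a, FiniteDimensional k (S.Lbar x a 0)) (c : ℕ)
    (hbd : ∀ a, finrank k (S.Lbar x a 0) ≤ c * (a + 1)) :
    ∃ n₀, ∀ a b, n₀ ≤ a + b → finrank k (S.Lbar x a b) ≤ finrank K (Lsp K x a b) := by
  obtain ⟨n₀, hn₀⟩ := S.good hx0 hx hxi hfin c hbd
  refine ⟨n₀, fun a b hab => ?_⟩
  have := fin a b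
  exact S.finrank_le_of_lifts _ _ (hn₀ a b hab)

/-- finiteness of all `L̄(a,b)` from finiteness of the `L̄(a,0)`. -/
theorem finb_of_left {x : F} (hx0 : x ≠ 0) (hx : x ∈ S.V) (hxi : x⁻¹ ∈ S.V)
    (hfin : ∀ a, FiniteDimensional k (S.Lbar x a 0)) (a b : ℕ) :
    FiniteDimensional k (S.Lbar x a b) := by
  have hxx : S.rd x * S.rd x⁻¹ = 1 := S.rd_mul_rd_inv' hx0 hx hxi
  have hpw : ∀ n : ℕ, S.rd x ^ n * S.rd x⁻¹ ^ n = 1 := fun n => by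
    rw [← mul_pow, hxx, one_pow]
  have hinj : Function.Injective (LinearMap.mulLeft k (S.rd x⁻¹ ^ b)) := by
    intro r r' h
    have h' : S.rd x⁻¹ ^ b * r = S.rd x⁻¹ ^ b * r' := h
    calc r = S.rd x ^ b * (S.rd x⁻¹ ^ b * r) := by rw [← mul_assoc, hpw, one_mul]
      _ = S.rd x ^ b * (S.rd x⁻¹ ^ b * r') := by rw [h']
      _ = r' := by rw [← mul_assoc, hpw, one_mul]
  have hle : (S.Lbar x a b).map (LinearMap.mulLeft k (S.rd x⁻¹ ^ b)) ≤ S.Lbar x (a + b) 0 := by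
    rintro _ ⟨r, hr, rfl⟩
    refine ⟨?_, ?_⟩
    · have e : S.rd x ^ (a + b) * (LinearMap.mulLeft k (S.rd x⁻¹ ^ b)) r = S.rd x ^ a * r := by
        rw [LinearMap.mulLeft_apply]
        calc S.rd x ^ (a + b) * (S.rd x⁻¹ ^ b * r)
            = (S.rd x ^ b * S.rd x⁻¹ ^ b) * (S.rd x ^ a * r) := by rw [pow_add]; ring
          _ = S.rd x ^ a * r := by rw [hpw, one_mul]
      rw [e]
      exact hr.1
    · rw [pow_zero, one_mul]
      exact hr.2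
  have := hfin (a + b)
  have h2 : FiniteDimensional k ((S.Lbar x a b).map (LinearMap.mulLeft k (S.rd x⁻¹ ^ b))) :=
    Submodule.finiteDimensional_of_le hle
  exact LinearEquiv.finiteDimensional (Submodule.equivMapOfInjective _ hinj (S.Lbar x a b)).symm

/-- **GOOD**, verbatim the hypothesis `good` of `core_dim2_Lbar` / `toricKL_gen`. -/
theorem good' {x : F} (hx0 : x ≠ 0) (hx : x ∈ S.V) (hxi : x⁻¹ ∈ S.V)
    (fin : ∀ a b, FiniteDimensional K (Lsp K x a b))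
    (hfin : ∀ a, FiniteDimensional k (S.Lbar x a 0)) (c : ℕ)
    (hbd : ∀ a, finrank k (S.Lbar x a 0) ≤ c * (a + 1)) :
    ∃ n₀, ∀ n, n₀ ≤ n → finrank k (S.Lbar x 0 n) ≤ finrank K (Lsp K x 0 n) ∧
        finrank k (S.Lbar x n 0) ≤ finrank K (Lsp K x n 0) := by
  obtain ⟨n₀, hn₀⟩ := S.good_finrank hx0 hx hxi fin hfin c hbd
  exact ⟨n₀, fun n hn => ⟨hn₀ 0 n (by omega), hn₀ n 0 (by omega)⟩⟩

end NSetting

end Fermat.Agent.S34
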