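import Fermat.Agent.S34.NodalZ
import Fermat.Agent.S34.NBasic
import Fermat.Agent.S18.PairDimTR

/-!
# S34, piece INV0: `1 ∈ span (M₀(u) M₀(u⁻¹))`

`NodalZ.exists_inv0'` is the statement `NodalZ.exists_inv0` of `NodalZ.lean` (without `[Infinite k]`).
Proof: `I = {∑ rd g_i rd h_i}` is an ideal of `B₀ = S.chart x`, contains `𝔣₀²`; for every `ξ` there is `i_ξ ∈ I` with `ξ i_ξ = 1`;
`z = ∏_ξ (1 - i_ξ) ∈ 𝔣₀`, `1 - z ∈ I`, `1 = (1 + z)(1 - z) + z²`.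
-/

set_option autoImplicit false

namespace Fermat.Agent.S34

open Polynomial IntermediateField Fermat.Agent.S24 Fermat.Agent.S18 Fermat.Agent.S18.CoreDim Module

variable {K F k R : Type*} [Field K] [Field F] [Algebra K F] [Field k] [CommRing R] [Algebra k R]

namespace Inv0

variable (S : NSetting K F k R) (x : F) (m : ℕ)

/-- `M₀(u) = {g ∈ V : u g^m ∈ O₀}`. -/
def M0 (u : F) : Set F := {g | g ∈ S.V ∧ u * g ^ m ∈ intRing K x}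

/-- the ideal `I` of `B₀` spanned by `rd (M₀(u)) rd (M₀(u⁻¹))`. -/
def InI (u : F) (r : R) : Prop :=
  ∃ l : List (F × F), (∀ p ∈ l, p.1 ∈ M0 S x m u ∧ p.2 ∈ M0 S x m u⁻¹) ∧
    (l.map fun p => S.rd p.1 * S.rd p.2).sum = r

variable {S x m}
variable {u : F}

theorem InI.zero : InI S x m u 0 := ⟨[], by simp, by simp⟩

theorem InI.add {r s : R} (hr : InI S x m u r) (hs : InI S x m u s) : InI S x m u (r + s) := by
  obtain ⟨l, hl, rfl⟩ := hr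
  obtain ⟨l', hl', rfl⟩ := hs
  refine ⟨l ++ l', ?_, by simp⟩
  intro p hp
  rcases List.mem_append.1 hp with h | h
  · exact hl p h
  · exact hl' p h

theorem InI.of_pair {g h : F} (hg : g ∈ M0 S x m u) (hh : h ∈ M0 S x m u⁻¹) :
    InI S x m u (S.rd g * S.rd h) :=
  ⟨[(g, h)], by simpa using ⟨hg, hh⟩, by simp⟩

theorem M0.int_mul {v β g : F} (hβ : β ∈ intRing K x) (hβV : β ∈ S.V) (hg : g ∈ M0 S x m v) :
    β * g ∈ M0 S x m v := by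
  refine ⟨mul_mem hβV hg.1, ?_⟩
  have := mul_mem (pow_mem hβ m) hg.2
  convert this using 1
  ring

theorem InI.chart_mul {b r : R} (hb : b ∈ S.chart x) (hr : InI S x m u r) :
    InI S x m u (b * r) := by
  obtain ⟨β, hβ, hβV, rfl⟩ := hb
  obtain ⟨l, hl, rfl⟩ := hr
  refine ⟨l.map fun p => (β * p.1, p.2), ?_, ?_⟩
  · intro p hp
    obtain ⟨p', hp', rfl⟩ := List.mem_map.1 hp
    exact ⟨M0.int_mul hβ hβV (hl p' hp').1, (hl p' hp').2⟩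
  · rw [List.map_map, ← List.sum_map_mul_left]
    congr 1
    apply List.map_congr_left
    intro p hp
    show S.rd (β * p.1) * S.rd p.2 = S.red ⟨β, hβV⟩ * (S.rd p.1 * S.rd p.2)
    rw [S.rd_mul hβV (hl p hp).1.1, S.rd_of_mem hβV, mul_assoc]

theorem pair_mem_chart (hm : 0 < m) (hu : u ≠ 0) {g h : F} (hg : g ∈ M0 S x m u)
    (hh : h ∈ M0 S x m u⁻¹) : S.rd g * S.rd h ∈ S.chart x := by
  refine ⟨g * h, ?_, mul_mem hg.1 hh.1, ?_⟩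
  · apply root_mem_intRing hm
    have := mul_mem hg.2 hh.2
    convert this using 1
    field_simp
    rw [mul_pow]
  · rw [← S.rd_of_mem, S.rd_mul hg.1 hh.1]

theorem InI.mem_chart (hm : 0 < m) (hu : u ≠ 0) {r : R} (hr : InI S x m u r) : r ∈ S.chart x := by
  obtain ⟨l, hl, rfl⟩ := hr
  apply list_sum_mem
  intro y hy
  obtain ⟨p, hp, rfl⟩ := List.mem_map.1 hy
  exact pair_mem_chart hm hu (hl p hp).1 (hl p hp).2

theorem algebraMap_mem_chart (c : k) : algebraMap k R c ∈ S.chart x := by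
  obtain ⟨a, ha, rfl⟩ := S.exists_rc_eq c
  refine ⟨algebraMap K F a, algebraMap_mem_intRing x a, S.map_mem a ha, ?_⟩
  rw [← S.rd_of_mem, S.rd_algebraMap ha]

/-- an element of `B₀` lies in `L̄(0,n)` for all large `n`. -/
theorem exists_mem_Lbar (hxi : x⁻¹ ∈ S.V) (hx0 : x ≠ 0) {r : R} (hr : r ∈ S.chart x) :
    ∃ n₁, ∀ n, n₁ ≤ n → r ∈ S.Lbar x 0 n := by
  obtain ⟨h, hh, hV, rfl⟩ := hr
  obtain ⟨a, ha⟩ := tr_scale_mem hx0 hh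
  refine ⟨a, fun n hn => ⟨?_, ?_⟩⟩
  · rw [pow_zero, one_mul]
    exact ⟨h, hh, hV, rfl⟩
  · obtain ⟨d, rfl⟩ := Nat.exists_eq_add_of_le hn
    refine ⟨x⁻¹ ^ (a + d) * h, ?_, mul_mem (pow_mem hxi _) hV, ?_⟩
    · have := mul_mem (pow_mem (self_mem_intRing (K := K) x⁻¹) d) ha
      convert this using 1
      ring
    · rw [← S.rd_of_mem, S.rd_mul (pow_mem hxi _) hV, S.rd_pow hxi, S.rd_of_mem hV]

theorem mem_M0_of_Xsp {v g : F} {hm : 0 < m} {n : ℕ} (hg : g ∈ Xsp K x v m hm 0 n) (hV : g ∈ S.V) :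
    g ∈ M0 S x m v := by
  refine ⟨hV, ?_⟩
  have := (mem_Xsp.1 hg).1
  rwa [Nat.mul_zero, pow_zero, one_mul] at this

end Inv0

open Inv0

/-- **INV₀.** -/
theorem NodalZ.exists_inv0' {S : NSetting K F k R} {x : F} (Z : NodalZ S x) (hxi : x⁻¹ ∈ S.V)
    (hx0 : x ≠ 0) {m : ℕ} (hm : 0 < m) {u : F} (hu : u ≠ 0)
    (hc : ∃ n₀, ∀ n, n₀ ≤ n → ∀ (r : R) (_ : r ∈ S.Lbar x 0 n) (hr' : r ∈ Z.C0),
      (∀ ξ ∈ Z.Ξ, ξ ⟨r, hr'⟩ = 0) → ∃ g ∈ Xsp K x u m hm 0 n, g ∈ S.V ∧ S.rd g = r)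
    (hc' : ∃ n₀, ∀ n, n₀ ≤ n → ∀ (r : R) (_ : r ∈ S.Lbar x 0 n) (hr' : r ∈ Z.C0),
      (∀ ξ ∈ Z.Ξ, ξ ⟨r, hr'⟩ = 0) → ∃ g ∈ Xsp K x u⁻¹ m hm 0 n, g ∈ S.V ∧ S.rd g = r)
    (hξ : ∀ ξ ∈ Z.Ξ, ∃ (n : ℕ) (g : F) (_ : g ∈ Xsp K x u m hm 0 n) (_ : g ∈ S.V)
      (h : S.rd g ∈ Z.C0), ξ ⟨S.rd g, h⟩ ≠ 0)
    (hξ' : ∀ ξ ∈ Z.Ξ, ∃ (n : ℕ) (g : F) (_ : g ∈ Xsp K x u⁻¹ m hm 0 n) (_ : g ∈ S.V)
      (h : S.rd g ∈ Z.C0), ξ ⟨S.rd g, h⟩ ≠ 0) :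
    ∃ (ι : Type) (_ : Fintype ι) (g h : ι → F), (∀ i, g i ∈ S.V ∧ u * g i ^ m ∈ intRing K x) ∧
      (∀ i, h i ∈ S.V ∧ u⁻¹ * h i ^ m ∈ intRing K x) ∧ ∑ i, S.rd (g i) * S.rd (h i) = 1 := by
  classical
  -- elements of `𝔣₀` are reductions of elements of `M₀(v)`
  have key : ∀ (v : F), (∃ n₀, ∀ n, n₀ ≤ n → ∀ (r : R) (_ : r ∈ S.Lbar x 0 n) (hr' : r ∈ Z.C0),
      (∀ ξ ∈ Z.Ξ, ξ ⟨r, hr'⟩ = 0) → ∃ g ∈ Xsp K x v m hm 0 n, g ∈ S.V ∧ S.rd g = r) →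
      ∀ (r : R) (hr' : r ∈ Z.C0), (∀ ξ ∈ Z.Ξ, ξ ⟨r, hr'⟩ = 0) → ∃ g ∈ M0 S x m v, S.rd g = r := by
    rintro v ⟨n₀, hn₀⟩ r hr' h0
    have hrB : r ∈ S.chart x := Z.nod ⟨r, hr'⟩ h0
    obtain ⟨n₁, hn₁⟩ := exists_mem_Lbar hxi hx0 hrB
    obtain ⟨g, hg, hgV, hgr⟩ := hn₀ (max n₀ n₁) (le_max_left _ _) r (hn₁ _ (le_max_right _ _)) hr' h0
    exact ⟨g, mem_M0_of_Xsp hg hgV, hgr⟩
  -- `i_ξ`
  have hi : ∀ ξ ∈ Z.Ξ, ∃ (i : R) (_ : InI S x m u i) (hi' : i ∈ Z.C0), ξ ⟨i, hi'⟩ = 1 := by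
    intro ξ hξΞ
    obtain ⟨n, g, hg, hgV, hgC, hgξ⟩ := hξ ξ hξΞ
    obtain ⟨n', h, hh, hhV, hhC, hhξ⟩ := hξ' ξ hξΞ
    have hI : InI S x m u (S.rd g * S.rd h) :=
      InI.of_pair (mem_M0_of_Xsp hg hgV) (mem_M0_of_Xsp hh hhV)
    set c : k := (ξ ⟨S.rd g, hgC⟩ * ξ ⟨S.rd h, hhC⟩)⁻¹ with hcdef
    refine ⟨algebraMap k R c * (S.rd g * S.rd h), hI.chart_mul (algebraMap_mem_chart c),
      mul_mem (Z.C0.algebraMap_mem c) (mul_mem hgC hhC), ?_⟩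
    have e : (⟨algebraMap k R c * (S.rd g * S.rd h),
        mul_mem (Z.C0.algebraMap_mem c) (mul_mem hgC hhC)⟩ : Z.C0) =
        algebraMap k Z.C0 c * (⟨S.rd g, hgC⟩ * ⟨S.rd h, hhC⟩) := rfl
    rw [e, map_mul, map_mul, AlgHom.commutes, hcdef]
    exact inv_mul_cancel₀ (mul_ne_zero hgξ hhξ)
  -- the product
  have hz : ∀ T : Finset (Z.C0 →ₐ[k] k), T ⊆ Z.Ξ → ∃ (z : R) (hzB : z ∈ S.chart x),
      InI S x m u (1 - z) ∧ ∀ ξ ∈ T, ξ ⟨z, Z.chart_le z hzB⟩ = 0 := by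
    intro T
    induction T using Finset.induction_on with
    | empty =>
      intro _
      exact ⟨1, one_mem _, by rw [sub_self]; exact InI.zero, by simp⟩
    | insert ξ₀ T hξ₀ ih =>
      intro hT
      obtain ⟨z, hzB, hzI, hzξ⟩ := ih (fun ξ h => hT (Finset.mem_insert_of_mem h))
      obtain ⟨i, hiI, hiC, hiξ⟩ := hi ξ₀ (hT (Finset.mem_insert_self _ _))
      have hiB : i ∈ S.chart x := hiI.mem_chart hm hu
      have hzB' : z * (1 - i) ∈ S.chart x := mul_mem hzB (sub_mem (one_mem _) hiB)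
      refine ⟨z * (1 - i), hzB', ?_, ?_⟩
      · have e : 1 - z * (1 - i) = (1 - z) + z * i := by ring
        rw [e]
        exact hzI.add (hiI.chart_mul hzB)
      · intro ξ hξT
        have e : (⟨z * (1 - i), Z.chart_le _ hzB'⟩ : Z.C0) =
            ⟨z, Z.chart_le z hzB⟩ * (1 - ⟨i, hiC⟩) := rfl
        rw [e, map_mul, map_sub, map_one]
        rcases Finset.mem_insert.1 hξT with rfl | h
        · rw [hiξ, sub_self, mul_zero]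
        · rw [hzξ ξ h, zero_mul]
  obtain ⟨z, hzB, hzI, hzξ⟩ := hz Z.Ξ subset_rfl
  obtain ⟨g₁, hg₁, hg₁z⟩ := key u hc z (Z.chart_le z hzB) hzξ
  obtain ⟨h₁, hh₁, hh₁z⟩ := key u⁻¹ hc' z (Z.chart_le z hzB) hzξ
  have hzz : InI S x m u (z * z) := by
    have := InI.of_pair hg₁ hh₁
    rwa [hg₁z, hh₁z] at this
  have h1 : InI S x m u 1 := by
    have e : (1 : R) = (1 + z) * (1 - z) + z * z := by ring
    rw [e]
    exact (hzI.chart_mul (add_mem (one_mem _) hzB)).add hzz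
  obtain ⟨l, hl, hsum⟩ := h1
  refine ⟨Fin l.length, inferInstance, fun i => (l.get i).1, fun i => (l.get i).2, ?_, ?_, ?_⟩
  · intro i
    exact (hl _ (List.get_mem l i)).1
  · intro i
    exact (hl _ (List.get_mem l i)).2
  · rw [← hsum]
    exact Fin.sum_univ_fun_getElem l (fun p => S.rd p.1 * S.rd p.2)

end Fermat.Agent.S34
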