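import Fermat.Agent.S34.NBasic
import Fermat.Agent.S18.DimRed

/-!
# S34, piece A2: orthonormal frames, dimension of reductions, reduction of integral elements
(copy of `S18/DimRed.lean` for a residue ring)
-/

set_option autoImplicit false

namespace Fermat.Agent.S34

open Polynomial IntermediateField Fermat.Agent.S24 Fermat.Agent.S18

variable {K F k R : Type*} [Field K] [Field F] [Algebra K F] [Field k] [CommRing R] [Algebra k R]
variable (S : NSetting K F k R)

namespace NSetting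

/-- a nonzero finite family of polynomials has a constant multiple with coefficients in `A` and
nonzero reduction. -/
theorem exists_scale_polys {ι : Type*} [Fintype ι] (p : ι → K[X]) (hp : p ≠ 0) :
    ∃ c : K, c ≠ 0 ∧ (∀ i n, (C c * p i).coeff n ∈ S.A) ∧ (fun i => S.rp (C c * p i)) ≠ 0 := by
  have ha : (fun j : (i : ι) × Fin ((p i).natDegree + 1) => (p j.1).coeff j.2) ≠ 0 := by
    intro h
    apply hp
    funext i
    have h1 := congrFun h ⟨i, ⟨(p i).natDegree, Nat.lt_succ_self _⟩⟩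
    exact leadingCoeff_eq_zero.mp h1
  obtain ⟨c, hc, h1, j, hj⟩ := S.exists_scale_family _ ha
  refine ⟨c, hc, fun i n => ?_, fun h0 => ?_⟩
  · rw [coeff_C_mul]
    by_cases hn : n < (p i).natDegree + 1
    · exact h1 ⟨i, ⟨n, hn⟩⟩
    · rw [coeff_eq_zero_of_natDegree_lt (by omega), mul_zero]
      exact zero_mem _
  · apply hj
    have h2 := congrArg (fun q => q.coeff (j.2 : ℕ)) (congrFun h0 j.1)
    simpa only [coeff_rp, coeff_C_mul, Pi.zero_apply, coeff_zero] using h2

theorem rd_sum_aeval {x : F} (hx : x ∈ S.V) {ι : Type*} [Fintype ι] (e : ι → F)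
    (he : ∀ i, e i ∈ S.V) (p : ι → K[X]) (hp : ∀ i n, (p i).coeff n ∈ S.A) :
    ∑ i, aeval x (p i) * e i ∈ S.V ∧
    S.rd (∑ i, aeval x (p i) * e i) = ∑ i, aeval (S.rd x) (S.rp (p i)) * S.rd (e i) := by
  have hmem : ∀ i ∈ Finset.univ, aeval x (p i) * e i ∈ S.V :=
    fun i _ => mul_mem (S.aeval_mem hx (hp i)) (he i)
  refine ⟨sum_mem hmem, ?_⟩
  rw [S.rd_sum _ _ hmem]
  refine Finset.sum_congr rfl fun i _ => ?_
  rw [S.rd_mul (S.aeval_mem hx (hp i)) (he i), S.rd_aeval hx (hp i)]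

theorem sum_aeval_C_mul {x : F} {ι : Type*} [Fintype ι] (e : ι → F) (p : ι → K[X]) (r : K[X]) :
    ∑ i, aeval x (r * p i) * e i = aeval x r * ∑ i, aeval x (p i) * e i := by
  rw [Finset.mul_sum]
  refine Finset.sum_congr rfl fun i _ => ?_
  rw [map_mul, mul_assoc]

theorem coeff_mem_of_sum_mem {x : F} (hx : x ∈ S.V) {ι : Type*} [Fintype ι] (e : ι → F)
    (he : ∀ i, e i ∈ S.V) (hind : PolyIndepR k (S.rd x) (fun i => S.rd (e i)))
    (p : ι → K[X]) (h : ∑ i, aeval x (p i) * e i ∈ S.V) : ∀ i n, (p i).coeff n ∈ S.A := by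
  by_cases hp : p = 0
  · intro i n
    rw [hp, Pi.zero_apply, coeff_zero]
    exact zero_mem _
  obtain ⟨c, hc, h1, h2⟩ := S.exists_scale_polys p hp
  have h3 := (S.rd_sum_aeval hx e he (fun i => C c * p i) h1).2
  by_cases hinv : c⁻¹ ∈ S.A
  · intro i n
    have h4 : (p i).coeff n = c⁻¹ * (C c * p i).coeff n := by
      rw [coeff_C_mul, inv_mul_cancel_left₀ hc]
    rw [h4]
    exact mul_mem hinv (h1 i n)
  · exfalso
    have hcA : c ∈ S.A := by
      have := S.A.mem_or_inv_mem c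
      tauto
    apply h2
    apply hind
    rw [← h3, sum_aeval_C_mul, aeval_C, S.rd_mul (S.map_mem _ hcA) h, S.rd_algebraMap hcA,
      (S.rc_eq_zero_iff hcA).mpr (Or.inr hinv), map_zero, zero_mul]

theorem polyIndep_of_rd {x : F} (hx : x ∈ S.V) {ι : Type*} [Fintype ι] (e : ι → F)
    (he : ∀ i, e i ∈ S.V) (hind : PolyIndepR k (S.rd x) (fun i => S.rd (e i))) :
    PolyIndep K x e := by
  intro p h0
  by_contra hp
  obtain ⟨c, hc, h1, h2⟩ := S.exists_scale_polys p hp
  have h3 := (S.rd_sum_aeval hx e he (fun i => C c * p i) h1).2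
  apply h2
  apply hind
  rw [← h3, sum_aeval_C_mul, h0, mul_zero, S.rd_zero]

theorem exists_mul_eq_sum {x : F} (hx : S.Coord x) (e : Fin (Module.finrank K⟮x⟯ F) → F)
    (he : ∀ i, e i ∈ S.V) (hind : PolyIndepR k (S.rd x) (fun i => S.rd (e i))) (f : F) :
    ∃ (q : K[X]) (p : Fin (Module.finrank K⟮x⟯ F) → K[X]), q ≠ 0 ∧
      aeval x q * f = ∑ i, aeval x (p i) * e i := by
  have htr : Transcendental K x := S.transcendental_of_rd hx.mem hx.trans
  have hli : LinearIndependent K⟮x⟯ e :=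
    linearIndependent_of_polyIndep htr e (S.polyIndep_of_rd hx.mem e he hind)
  have := hx.fin
  have hspan : Submodule.span K⟮x⟯ (Set.range e) = ⊤ :=
    hli.span_eq_top_of_card_eq_finrank' (by rw [Fintype.card_fin])
  have hf : f ∈ Submodule.span K⟮x⟯ (Set.range e) := by rw [hspan]; trivial
  obtain ⟨c, hc⟩ := (Submodule.mem_span_range_iff_exists_fun _).mp hf
  obtain ⟨q, p, hq, hp⟩ := exists_common_denom_adjoin htr c
  refine ⟨q, p, hq, ?_⟩
  rw [← hc, Finset.mul_sum]
  refine Finset.sum_congr rfl fun i _ => ?_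
  rw [← hp i, mul_assoc]
  rfl

theorem exists_frame {x : F} (hx : S.Coord x) :
    ∃ e : Fin (Module.finrank K⟮x⟯ F) → F, (∀ i, e i ∈ S.V) ∧
      PolyIndepR k (S.rd x) (fun i => S.rd (e i)) :=
  hx.frame

/-- a common normalised denominator for a finite set of elements of `F` w.r.t. a frame. -/
theorem exists_common_denom {x : F} (hx : S.Coord x) (e : Fin (Module.finrank K⟮x⟯ F) → F)
    (he : ∀ i, e i ∈ S.V) (hind : PolyIndepR k (S.rd x) (fun i => S.rd (e i))) (G : Finset F) :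
    ∃ q : K[X], (∀ n, q.coeff n ∈ S.A) ∧ S.rp q ≠ 0 ∧
      ∀ g ∈ G, ∃ p : Fin (Module.finrank K⟮x⟯ F) → K[X],
        aeval x q * g = ∑ i, aeval x (p i) * e i := by
  classical
  have h1 : ∃ q : K[X], q ≠ 0 ∧ ∀ g ∈ G, ∃ p : Fin (Module.finrank K⟮x⟯ F) → K[X],
      aeval x q * g = ∑ i, aeval x (p i) * e i := by
    induction G using Finset.induction_on with
    | empty => exact ⟨1, one_ne_zero, by simp⟩
    | insert a G ha ih =>
      obtain ⟨q, hq, h⟩ := ih
      obtain ⟨q', p', hq', h'⟩ := S.exists_mul_eq_sum hx e he hind a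
      refine ⟨q * q', mul_ne_zero hq hq', fun g hg => ?_⟩
      rcases Finset.mem_insert.mp hg with rfl | hg
      · exact ⟨fun i => q * p' i, by rw [sum_aeval_C_mul, ← h', map_mul, mul_assoc]⟩
      · obtain ⟨p, hp⟩ := h g hg
        exact ⟨fun i => q' * p i, by rw [sum_aeval_C_mul, ← hp, map_mul]; ring⟩
  obtain ⟨q, hq, h⟩ := h1
  obtain ⟨c, hc, h2, h3⟩ := S.exists_scale_poly hq
  refine ⟨C c * q, h2, h3, fun g hg => ?_⟩
  obtain ⟨p, hp⟩ := h g hg
  exact ⟨fun i => C c * p i, by rw [sum_aeval_C_mul, ← hp, map_mul, mul_assoc]⟩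

theorem _root_.Fermat.Agent.S34.mem_polyRingR_iff {E L : Type*} [Field E] [CommRing L] [Algebra E L]
    {y z : L} : z ∈ polyRingR E y ↔ ∃ r : E[X], aeval y r = z := by
  change z ∈ Algebra.adjoin E {y} ↔ _
  rw [Algebra.adjoin_singleton_eq_range_aeval]
  rfl

theorem rd_mem_intRingR {x : F} (hx : S.Coord x) {h : F} (hV : h ∈ S.V) (hint : h ∈ intRing K x) :
    S.rd h ∈ intRingR k (S.rd x) := by
  classical
  obtain ⟨e, he, hind⟩ := S.exists_frame hx
  have hint' : IsIntegral (polyRing K x) h := hint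
  obtain ⟨G, hG⟩ := hint'.fg_adjoin_singleton
  obtain ⟨q, hqA, hq0, hq⟩ := S.exists_common_denom hx e he hind G
  have hall : ∀ y ∈ Submodule.span (polyRing K x) (G : Set F),
      ∃ p : Fin (Module.finrank K⟮x⟯ F) → K[X], aeval x q * y = ∑ i, aeval x (p i) * e i := by
    intro y hy
    induction hy using Submodule.span_induction with
    | mem y hy => exact hq y hy
    | zero => exact ⟨0, by simp⟩
    | add y z _ _ hy hz =>
      obtain ⟨p, hp⟩ := hy
      obtain ⟨p', hp'⟩ := hz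
      exact ⟨p + p', by simp [mul_add, hp, hp', add_mul, Finset.sum_add_distrib]⟩
    | smul r y _ hy =>
      obtain ⟨p, hp⟩ := hy
      obtain ⟨r', hr'⟩ : ∃ r' : K[X], aeval x r' = (r : F) := by
        exact mem_polyRing_iff.mp r.2
      refine ⟨fun i => r' * p i, ?_⟩
      rw [sum_aeval_C_mul, ← hp, hr']
      change aeval x q * ((r : F) * y) = _
      ring
  have hpow : ∀ n : ℕ, ∃ p : Fin (Module.finrank K⟮x⟯ F) → K[X],
      aeval x q * h ^ n = ∑ i, aeval x (p i) * e i := fun n => hall _ (by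
    rw [hG, Subalgebra.mem_toSubmodule]
    exact pow_mem (Algebra.self_mem_adjoin_singleton _ _) n)
  have hqb : IsUnit (aeval (S.rd x) (S.rp q)) := hx.unit _ hq0
  let M : Submodule (polyRingR k (S.rd x)) R := Submodule.span _ (Set.range fun i => S.rd (e i))
  let N : Submodule (polyRingR k (S.rd x)) R :=
    Subalgebra.toSubmodule (Algebra.adjoin (polyRingR k (S.rd x)) {S.rd h})
  let φ : R →ₗ[polyRingR k (S.rd x)] R :=
    LinearMap.mulLeft (polyRingR k (S.rd x)) (aeval (S.rd x) (S.rp q))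
  have hφ : Function.Injective φ := fun a b hab => hqb.mul_left_cancel hab
  have hNM : N.map φ ≤ M := by
    change (Subalgebra.toSubmodule (Algebra.adjoin (polyRingR k (S.rd x)) {S.rd h})).map φ ≤ M
    rw [Algebra.adjoin_eq_span, Submodule.map_span, Submodule.span_le]
    rintro _ ⟨y, hy, rfl⟩
    obtain ⟨n, rfl⟩ := Submonoid.mem_closure_singleton.mp hy
    obtain ⟨p, hp⟩ := hpow n
    have hmem : ∑ i, aeval x (p i) * e i ∈ S.V := by
      rw [← hp]
      exact mul_mem (S.aeval_mem hx.mem hqA) (pow_mem hV n)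
    have hpA := S.coeff_mem_of_sum_mem hx.mem e he hind p hmem
    have h1 := (S.rd_sum_aeval hx.mem e he p hpA).2
    rw [← hp, S.rd_mul (S.aeval_mem hx.mem hqA) (pow_mem hV n), S.rd_aeval hx.mem hqA,
      S.rd_pow hV] at h1
    change aeval (S.rd x) (S.rp q) * S.rd h ^ n ∈ M
    rw [h1]
    refine sum_mem fun i _ => ?_
    have h2 : aeval (S.rd x) (S.rp (p i)) ∈ polyRingR k (S.rd x) := mem_polyRingR_iff.mpr ⟨_, rfl⟩
    exact M.smul_mem ⟨_, h2⟩ (Submodule.subset_span ⟨i, rfl⟩)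
  have hnoeth : IsNoetherianRing (polyRingR k (S.rd x)) :=
    isNoetherianRing_of_fg (Subalgebra.fg_def.mpr ⟨{S.rd x}, Set.finite_singleton _, rfl⟩)
  have hNfg : (N.map φ).FG := Submodule.FG.of_le (Submodule.fg_span (Set.finite_range _)) hNM
  have hNfg' : N.FG := Submodule.fg_of_fg_map_injective φ hφ hNfg
  exact IsIntegral.of_mem_of_fg _ hNfg' _ (Algebra.self_mem_adjoin_singleton _ _)

theorem exists_orthobasis {x : F} (hx : S.Coord x) (W : Submodule K F) [FiniteDimensional K W] :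
    ∃ w : Fin (Module.finrank K W) → F, (∀ i, w i ∈ W) ∧ (∀ i, w i ∈ S.V) ∧
      LinearIndependent k (fun i => S.rd (w i)) ∧
      ∀ h ∈ W, h ∈ S.V → ∃ c : Fin (Module.finrank K W) → K, (∀ i, c i ∈ S.A) ∧
        h = ∑ i, c i • w i := by
  classical
  obtain ⟨e, he, hind⟩ := S.exists_frame hx
  have hindK := S.polyIndep_of_rd hx.mem e he hind
  let b := Module.finBasis K W
  obtain ⟨q, hqA, hq0, hq⟩ := S.exists_common_denom hx e he hind
    (Finset.univ.image (fun j => (b j : F)))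
  have hqV : aeval x q ∈ S.V := S.aeval_mem hx.mem hqA
  have hqrd : IsUnit (S.rd (aeval x q)) := hx.isUnit_rd_aeval hqA hq0
  have hq0' : aeval x q ≠ 0 := S.ne_zero_of_isUnit_rd hqrd
  have hqinv : (aeval x q)⁻¹ ∈ S.V := S.inv_mem_of_isUnit_rd hqV hqrd
  have hqrdi : IsUnit (S.rd (aeval x q)⁻¹) := S.isUnit_rd_inv hqrd
  choose pb hpb using (fun j => hq (b j) (Finset.mem_image_of_mem _ (Finset.mem_univ j)))
  obtain ⟨D, hD⟩ : ∃ D : ℕ, ∀ j i, (pb j i).natDegree ≤ D :=
    ⟨Finset.univ.sup (fun ji : Fin (Module.finrank K W) × Fin (Module.finrank K⟮x⟯ F) =>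
      (pb ji.1 ji.2).natDegree), fun j i => Finset.le_sup
        (f := fun ji : Fin (Module.finrank K W) × Fin (Module.finrank K⟮x⟯ F) =>
          (pb ji.1 ji.2).natDegree) (Finset.mem_univ (j, i))⟩
  have hW : ∀ h ∈ W, ∃ p : Fin (Module.finrank K⟮x⟯ F) → K[X], (∀ i, (p i).natDegree ≤ D) ∧
      aeval x q * h = ∑ i, aeval x (p i) * e i := by
    intro h hh
    refine ⟨fun i => ∑ j, C (b.repr ⟨h, hh⟩ j) * pb j i, fun i => ?_, ?_⟩
    · refine natDegree_sum_le_of_forall_le _ _ fun j _ => ?_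
      exact (natDegree_C_mul_le _ _).trans (hD j i)
    · have h1 : h = ∑ j, b.repr ⟨h, hh⟩ j • (b j : F) := by
        have h2 := congrArg (Subtype.val) (b.sum_repr ⟨h, hh⟩)
        change _ = h at h2
        refine h2.symm.trans ?_
        rw [Submodule.coe_sum]
        rfl
      conv_lhs => rw [h1]
      rw [Finset.mul_sum]
      simp only [map_sum, Finset.sum_mul]
      rw [Finset.sum_comm]
      refine Finset.sum_congr rfl fun j _ => ?_
      rw [mul_smul_comm, hpb j, Finset.smul_sum]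
      refine Finset.sum_congr rfl fun i _ => ?_
      rw [map_mul, aeval_C, Algebra.smul_def, mul_assoc]
  let Φ : (Fin (Module.finrank K⟮x⟯ F) × Fin (D + 1) → K) →ₗ[K] F :=
    { toFun := fun v => ∑ i, aeval x (drP v i) * e i
      map_add' := fun v v' => by
        simp only [drP_add, map_add, add_mul, Finset.sum_add_distrib]
      map_smul' := fun c v => by
        simp only [drP_smul, RingHom.id_apply]
        rw [sum_aeval_C_mul, aeval_C, Algebra.smul_def] }
  have hΦ : ∀ v, Φ v = ∑ i, aeval x (drP v i) * e i := fun v => rfl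
  have hΦinj : ∀ v, Φ v = 0 → v = 0 := by
    intro v hv
    have h1 := hindK _ hv
    funext ⟨i, n⟩
    have h2 := congrArg (fun r => r.coeff (n : ℕ)) (congrFun h1 i)
    simp only [coeff_drP, n.2, dif_pos, Pi.zero_apply, coeff_zero] at h2
    exact h2
  let W' : Submodule K (Fin (Module.finrank K⟮x⟯ F) × Fin (D + 1) → K) :=
    Submodule.comap Φ (W.map (LinearMap.mulLeft K (aeval x q)))
  have hW' : ∀ v, v ∈ W' ↔ ∃ h ∈ W, aeval x q * h = Φ v := by
    intro v
    rfl
  obtain ⟨d, w', σ, hδ, hwA, hspan⟩ := exists_echelon_basis S.A W'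
  have hw'mem : ∀ i, w' i ∈ W' := fun i => by
    rw [← hspan]
    exact Submodule.subset_span ⟨i, rfl⟩
  have hcoefA : ∀ i j n, (drP (w' i) j).coeff n ∈ S.A := by
    intro i j n
    rw [coeff_drP]
    split_ifs
    · exact hwA _ _
    · exact zero_mem _
  have hwW : ∀ i, (aeval x q)⁻¹ * Φ (w' i) ∈ W := by
    intro i
    obtain ⟨h, hh, h1⟩ := (hW' _).mp (hw'mem i)
    rw [← h1, inv_mul_cancel_left₀ hq0']
    exact hh
  have hΦV : ∀ i, Φ (w' i) ∈ S.V := fun i => (S.rd_sum_aeval hx.mem e he _ (hcoefA i)).1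
  have hrep : ∀ h ∈ W, ∃ c : Fin d → K, h = ∑ i, c i • ((aeval x q)⁻¹ * Φ (w' i)) ∧
      (h ∈ S.V → ∀ i, c i ∈ S.A) := by
    intro h hh
    obtain ⟨p, hpD, hp⟩ := hW h hh
    have hv : Φ (fun jn => (p jn.1).coeff jn.2) = aeval x q * h := by
      rw [hΦ, hp]
      refine Finset.sum_congr rfl fun i _ => ?_
      rw [drP_coeff p hpD]
    have hvW : (fun jn : Fin (Module.finrank K⟮x⟯ F) × Fin (D + 1) => (p jn.1).coeff jn.2) ∈ W' :=
      (hW' _).mpr ⟨h, hh, hv.symm⟩
    rw [← hspan] at hvW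
    obtain ⟨c, hc⟩ := (Submodule.mem_span_range_iff_exists_fun _).mp hvW
    refine ⟨c, ?_, fun hV i₀ => ?_⟩
    · have h1 : h = (aeval x q)⁻¹ * Φ (∑ i, c i • w' i) := by
        rw [hc, hv, inv_mul_cancel_left₀ hq0']
      rw [h1, map_sum, Finset.mul_sum]
      refine Finset.sum_congr rfl fun i _ => ?_
      rw [map_smul, mul_smul_comm]
    · have h1 : c i₀ = (p (σ i₀).1).coeff (σ i₀).2 := by
        have h2 := congrFun hc (σ i₀)
        rw [← h2, Finset.sum_apply]
        simp only [Pi.smul_apply, hδ, smul_eq_mul, mul_ite, mul_one, mul_zero]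
        rw [Finset.sum_ite_eq' Finset.univ i₀ c, if_pos (Finset.mem_univ _)]
      rw [h1]
      refine S.coeff_mem_of_sum_mem hx.mem e he hind p ?_ _ _
      rw [← hp]
      exact mul_mem hqV hV
  have hliK : LinearIndependent K (fun i => (aeval x q)⁻¹ * Φ (w' i)) := by
    rw [Fintype.linearIndependent_iff]
    intro c hc i₀
    have h1 : Φ (∑ i, c i • w' i) = 0 := by
      have h2 : (aeval x q)⁻¹ * Φ (∑ i, c i • w' i) = 0 := by
        rw [← hc, map_sum, Finset.mul_sum]
        refine Finset.sum_congr rfl fun i _ => ?_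
        rw [map_smul, mul_smul_comm]
      exact (mul_eq_zero.mp h2).resolve_left (inv_ne_zero hq0')
    have h3 := congrFun (hΦinj _ h1) (σ i₀)
    rw [Finset.sum_apply] at h3
    simp only [Pi.smul_apply, hδ, smul_eq_mul, mul_ite, mul_one, mul_zero, Pi.zero_apply] at h3
    rw [Finset.sum_ite_eq' Finset.univ i₀ c, if_pos (Finset.mem_univ _)] at h3
    exact h3
  have hd : Module.finrank K W = d := by
    have h1 : Submodule.span K (Set.range fun i => (aeval x q)⁻¹ * Φ (w' i)) = W := by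
      apply le_antisymm
      · rw [Submodule.span_le]
        rintro _ ⟨i, rfl⟩
        exact hwW i
      · intro h hh
        obtain ⟨c, hc, -⟩ := hrep h hh
        rw [hc]
        exact sum_mem fun i _ => Submodule.smul_mem _ _ (Submodule.subset_span ⟨i, rfl⟩)
    rw [← h1, finrank_span_eq_card hliK, Fintype.card_fin]
  subst hd
  refine ⟨fun i => (aeval x q)⁻¹ * Φ (w' i), hwW, fun i => mul_mem hqinv (hΦV i), ?_, ?_⟩
  · rw [Fintype.linearIndependent_iff]
    intro lam hlam i₀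
    have hrd : ∀ i, S.rd ((aeval x q)⁻¹ * Φ (w' i)) = S.rd (aeval x q)⁻¹ *
        ∑ j, aeval (S.rd x) (S.rp (drP (w' i) j)) * S.rd (e j) := by
      intro i
      rw [S.rd_mul hqinv (hΦV i), hΦ, (S.rd_sum_aeval hx.mem e he _ (hcoefA i)).2]
    have h1 : ∑ j, aeval (S.rd x) (∑ i, C (lam i) * S.rp (drP (w' i) j)) * S.rd (e j) = 0 := by
      have h2 : S.rd (aeval x q)⁻¹ *
          ∑ j, aeval (S.rd x) (∑ i, C (lam i) * S.rp (drP (w' i) j)) * S.rd (e j) = 0 := by
        rw [← hlam]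
        simp only [hrd, map_sum, Finset.sum_mul]
        rw [Finset.sum_comm, Finset.mul_sum]
        refine Finset.sum_congr rfl fun i _ => ?_
        rw [← mul_smul_comm, Finset.smul_sum]
        congr 1
        refine Finset.sum_congr rfl fun j _ => ?_
        rw [map_mul, aeval_C, Algebra.smul_def, mul_assoc]
      exact hqrdi.mul_right_eq_zero.mp h2
    have h3 := congrArg (fun r => r.coeff ((σ i₀).2 : ℕ)) (congrFun (hind _ h1) (σ i₀).1)
    simp only [finsetSum_coeff, coeff_C_mul, coeff_rp, coeff_drP, (σ i₀).2.2, dif_pos,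
      Pi.zero_apply, coeff_zero] at h3
    have h4 : ∀ i, S.rc (w' i (σ i₀)) = if i = i₀ then 1 else 0 := by
      intro i
      rw [hδ]
      split_ifs
      · exact S.rc_one
      · exact S.rc_zero
    have h5 : ∑ i, lam i * S.rc (w' i (σ i₀)) = 0 := h3
    simp only [h4, mul_ite, mul_one, mul_zero] at h5
    rw [Finset.sum_ite_eq' Finset.univ i₀ lam, if_pos (Finset.mem_univ _)] at h5
    exact h5
  · intro h hh hV
    obtain ⟨c, hc, hcA⟩ := hrep h hh
    exact ⟨c, hcA hV, hc⟩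

/-- The reduction of a `K`-subspace of `F`. -/
def redSub (W : Submodule K F) : Submodule k R where
  carrier := {y | ∃ w ∈ W, w ∈ S.V ∧ S.rd w = y}
  add_mem' := by
    rintro _ _ ⟨w, hw, hwV, rfl⟩ ⟨w', hw', hwV', rfl⟩
    exact ⟨w + w', add_mem hw hw', add_mem hwV hwV', S.rd_add hwV hwV'⟩
  zero_mem' := ⟨0, zero_mem _, zero_mem _, S.rd_zero⟩
  smul_mem' := by
    rintro c _ ⟨w, hw, hwV, rfl⟩
    obtain ⟨a, haA, rfl⟩ := S.exists_rc_eq c
    exact ⟨a • w, W.smul_mem _ hw, S.smul_mem haA hwV, S.rd_smul haA hwV⟩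

theorem mem_redSub {W : Submodule K F} {y : R} :
    y ∈ S.redSub W ↔ ∃ w ∈ W, w ∈ S.V ∧ S.rd w = y := Iff.rfl

theorem redSub_mono {W W' : Submodule K F} (h : W ≤ W') : S.redSub W ≤ S.redSub W' := by
  rintro _ ⟨w, hw, hwV, rfl⟩
  exact ⟨w, h hw, hwV, rfl⟩

/-- **DimRed**: the reduction of a finite-dimensional `K`-subspace has the same dimension. -/
theorem finrank_redSub {x : F} (hx : S.Coord x) (W : Submodule K F) [FiniteDimensional K W] :
    Module.finrank k (S.redSub W) = Module.finrank K W := by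
  obtain ⟨w, hwW, hwV, hli, hrep⟩ := S.exists_orthobasis hx W
  have hspan : Submodule.span k (Set.range fun i => S.rd (w i)) = S.redSub W := by
    apply le_antisymm
    · rw [Submodule.span_le]
      rintro _ ⟨i, rfl⟩
      exact ⟨w i, hwW i, hwV i, rfl⟩
    · rintro _ ⟨h, hh, hV, rfl⟩
      obtain ⟨c, hcA, hc⟩ := hrep h hh hV
      rw [hc, S.rd_sum _ _ (fun i _ => S.smul_mem (hcA i) (hwV i))]
      refine sum_mem fun i _ => ?_
      rw [S.rd_smul (hcA i) (hwV i)]
      exact Submodule.smul_mem _ _ (Submodule.subset_span ⟨i, rfl⟩)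
  rw [← hspan, finrank_span_eq_card hli, Fintype.card_fin]

theorem finiteDimensional_redSub {x : F} (hx : S.Coord x) (W : Submodule K F)
    [FiniteDimensional K W] : FiniteDimensional k (S.redSub W) := by
  obtain ⟨w, hwW, hwV, hli, hrep⟩ := S.exists_orthobasis hx W
  have hspan : S.redSub W ≤ Submodule.span k (Set.range fun i => S.rd (w i)) := by
    rintro _ ⟨h, hh, hV, rfl⟩
    obtain ⟨c, hcA, hc⟩ := hrep h hh hV
    rw [hc, S.rd_sum _ _ (fun i _ => S.smul_mem (hcA i) (hwV i))]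
    refine sum_mem fun i _ => ?_
    rw [S.rd_smul (hcA i) (hwV i)]
    exact Submodule.smul_mem _ _ (Submodule.subset_span ⟨i, rfl⟩)
  have : FiniteDimensional k (Submodule.span k (Set.range fun i => S.rd (w i))) :=
    FiniteDimensional.span_of_finite k (Set.finite_range _)
  exact Submodule.finiteDimensional_of_le hspan

/-- the chart `B = rd (O ∩ V)` consists of elements integral over `k[x̄]`. -/
theorem chart_le_intRingR {x : F} (hx : S.Coord x) {r : R} (hr : r ∈ S.chart x) :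
    r ∈ intRingR k (S.rd x) := by
  obtain ⟨h, hh, hV, rfl⟩ := hr
  rw [← S.rd_of_mem hV]
  exact S.rd_mem_intRingR hx hV hh

theorem mem_chart {x : F} {r : R} :
    r ∈ S.chart x ↔ ∃ h : F, h ∈ intRing K x ∧ h ∈ S.V ∧ S.rd h = r := by
  constructor
  · rintro ⟨h, hh, hV, rfl⟩
    exact ⟨h, hh, hV, S.rd_of_mem hV⟩
  · rintro ⟨h, hh, hV, rfl⟩
    exact ⟨h, hh, hV, (S.rd_of_mem hV).symm⟩

theorem mem_Lbar {x : F} {a b : ℕ} {r : R} :
    r ∈ S.Lbar x a b ↔ S.rd x ^ a * r ∈ S.chart x ∧ S.rd x⁻¹ ^ b * r ∈ S.chart x⁻¹ := Iff.rfl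

/-- the trivial inclusion `rd (L(a,b) ∩ V) ⊆ L̄(a,b)`. -/
theorem redSub_Lsp_le {x : F} (hx : S.Coord x) (a b : ℕ) :
    S.redSub (Lsp K x a b) ≤ S.Lbar x a b := by
  rintro _ ⟨h, ⟨h1, h2⟩, hV, rfl⟩
  refine ⟨S.mem_chart.mpr ⟨x ^ a * h, h1, mul_mem (pow_mem hx.mem a) hV, ?_⟩,
    S.mem_chart.mpr ⟨x⁻¹ ^ b * h, h2, mul_mem (pow_mem hx.inv_mem b) hV, ?_⟩⟩
  · rw [S.rd_mul (pow_mem hx.mem a) hV, S.rd_pow hx.mem]
  · rw [S.rd_mul (pow_mem hx.inv_mem b) hV, S.rd_pow hx.inv_mem]

end NSetting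

end Fermat.Agent.S34
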