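import Fermat.Agent.S34.NSetting
import Fermat.Agent.S18.CoreDim

/-!
# S34: the chart interface `NodalZ` ("all possible nodes lie on `x̄ = 0`") and the count lemma

`B₀ = S.chart x`, `B_∞ = S.chart x⁻¹`.  The modular side (S34:COORD) provides a coordinate `x` such that
* `B_∞` is root closed (the chart `x̄ ≠ 0` is normal),
* `B₀ ⊆ C₀` (root closed), and `B₀` contains the ideal `𝔣₀ = ⋂_{ξ ∈ Ξ} ker ξ` of `C₀`, `Ξ` a finite set of `k`-points of `C₀`,
* `ξ (x̄) = 0` for all `ξ ∈ Ξ`.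
Nothing is known about which points of `Ξ` are glued in `B₀`.
-/

set_option autoImplicit false

namespace Fermat.Agent.S34

open Polynomial IntermediateField Fermat.Agent.S24 Fermat.Agent.S18 Fermat.Agent.S18.CoreDim Module

variable {K F k R : Type*} [Field K] [Field F] [Algebra K F] [Field k] [CommRing R] [Algebra k R]

/-- The chart interface. -/
structure NodalZ (S : NSetting K F k R) (x : F) where
  /-- the normalisation of the chart `x̄ ≠ ∞` -/
  C0 : Subalgebra k R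
  chart_le : ∀ r ∈ S.chart x, r ∈ C0
  root0 : ∀ (r : R) (m : ℕ), 0 < m → r ^ m ∈ C0 → r ∈ C0
  rootInf : ∀ (r : R) (m : ℕ), 0 < m → r ^ m ∈ S.chart x⁻¹ → r ∈ S.chart x⁻¹
  /-- the possible nodes -/
  Ξ : Finset (C0 →ₐ[k] k)
  nod : ∀ r : C0, (∀ ξ ∈ Ξ, ξ r = 0) → (r : R) ∈ S.chart x
  zero : ∀ (h : S.rd x ∈ C0), ∀ ξ ∈ Ξ, ξ ⟨S.rd x, h⟩ = 0

/-! The three abstract consequences COUNT, INV∞, INV₀ are proved in `Count.lean` (`NodalZ.count'`,
`NodalZ.exists_invInf'`) and `Inv0.lean` (`NodalZ.exists_inv0'`). -/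

end Fermat.Agent.S34
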