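import Mathlib
import Fermat.Agent.S34.CoreDim2

/-!
# S34, piece ZC (connectedness of the special fibre): `L̄(0,0) = k`

Abstract Zariski connectedness for the unit ball `R` of a sup-norm on a function field `F / K`
(`RedCore`), in the design-independent style of `core_dim2`: the family `Lb a b` is arbitrary, all the
inputs are hypotheses (bundled in `ZCHyp`).

* `RedCore.idem_const`: an idempotent `e ∈ Lb 0 0` is a constant.  Proof: lifts `u₁ ∈ L(0,n)`, `u₂ ∈ L(n,0)`;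
  Newton `u ↦ 3u² - 2u³` makes `u₁ - u₂ ∈ c^j R` for all `j`; bounded torsion of `H¹`
  (`c₀ (W_N ∩ R) ⊆ L(0,N) ∩ R + L(N,0) ∩ R` with `c₀` independent of `N`: dimension count + orthonormal bases);
  rank one: `c^j ∈ c₀ 𝔪_A`; so `u₁ - c' v₁ = u₂ + c' v₂ ∈ L(0,0) = K`.
* `const_of_idem_const`: a finite dimensional subalgebra of a reduced algebra over an algebraically closed
  field all of whose idempotents are constants consists of constants.
-/

set_option autoImplicit false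

namespace Fermat.Agent.S34

open Polynomial IntermediateField Fermat.Agent.S24 Fermat.Agent.S18 Fermat.Agent.S18.CoreDim Module

namespace RedCore

section basic
variable {K F k E : Type*} [Field K] [Field F] [Algebra K F] [Field k] [CommRing E] [Algebra k E]
variable (S : RedCore K F k E)

/-- `ker rd = 𝔪_A R`. -/
theorem exists_of_rd_eq_zero {f : F} (hf : f ∈ S.R) (h0 : S.rd f = 0) (hne : f ≠ 0) :
    ∃ c : K, c ≠ 0 ∧ c ∈ S.A ∧ c⁻¹ ∉ S.A ∧ ∃ g ∈ S.R, f = algebraMap K F c * g := by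
  obtain ⟨c', hc'0, hV, hne'⟩ := S.exists_scale hne
  have hc'A : c' ∉ S.A := by
    intro h
    apply hne'
    rw [S.rd_mul (S.map_mem _ h) hf, h0, mul_zero]
  refine ⟨c'⁻¹, inv_ne_zero hc'0, (S.A.mem_or_inv_mem c').resolve_left hc'A, by rwa [inv_inv],
    _, hV, ?_⟩
  rw [← mul_assoc, ← map_mul, inv_mul_cancel₀ hc'0, map_one, one_mul]

theorem mem_A_of_algebraMap_mem [Nontrivial E] {κ : K} (h : algebraMap K F κ ∈ S.R) : κ ∈ S.A := by
  by_contra hκ
  have hinv : κ⁻¹ ∈ S.A := (S.A.mem_or_inv_mem κ).resolve_left hκ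
  have hκ0 : κ ≠ 0 := by rintro rfl; exact hκ (zero_mem _)
  have h0 : S.resA ⟨κ⁻¹, hinv⟩ = 0 := S.resA_eq_zero hinv (by rwa [inv_inv])
  have h1 : S.rd (algebraMap K F κ⁻¹ * algebraMap K F κ) = 0 := by
    rw [S.rd_mul (S.map_mem _ hinv) h, S.rd_algebraMap hinv, h0, map_zero, zero_mul]
  rw [← map_mul, inv_mul_cancel₀ hκ0, map_one, S.rd_one] at h1
  exact one_ne_zero h1

/-- every element can be scaled into `R` by a nonzero element of `A`. -/
theorem exists_scale_mem (f : F) : ∃ c : K, c ∈ S.A ∧ c ≠ 0 ∧ algebraMap K F c * f ∈ S.R := by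
  by_cases hf : f = 0
  · exact ⟨1, one_mem _, one_ne_zero, by rw [hf, mul_zero]; exact zero_mem _⟩
  obtain ⟨c, hc0, hV, -⟩ := S.exists_scale hf
  by_cases hcA : c ∈ S.A
  · exact ⟨c, hcA, hc0, hV⟩
  · have hinv : c⁻¹ ∈ S.A := (S.A.mem_or_inv_mem c).resolve_left hcA
    refine ⟨1, one_mem _, one_ne_zero, ?_⟩
    have := mul_mem (S.map_mem _ hinv) hV
    rwa [← mul_assoc, ← map_mul, inv_mul_cancel₀ hc0] at this

private theorem orth_aux {ι : Type*} [Fintype ι] {p : ι → F} (hp : ∀ i, p i ∈ S.R)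
    (hind : LinearIndependent k (fun i => S.rd (p i))) (c : ι → K) (j : ι) (hj0 : c j ≠ 0)
    (hd : ∀ i, (c j)⁻¹ * c i ∈ S.A)
    (h1 : S.rd (∑ i, algebraMap K F ((c j)⁻¹ * c i) * p i) = 0) : False := by
  rw [S.rd_sum _ _ (fun i _ => mul_mem (S.map_mem _ (hd i)) (hp i))] at h1
  have h3 : ∑ i, S.resA ⟨_, hd i⟩ • S.rd (p i) = 0 := by
    rw [← h1]
    refine Finset.sum_congr rfl fun i _ => ?_
    rw [S.rd_mul (S.map_mem _ (hd i)) (hp i), S.rd_algebraMap (hd i), Algebra.smul_def]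
  have h4 := Fintype.linearIndependent_iff.1 hind _ h3 j
  have h5 : (⟨(c j)⁻¹ * c j, hd j⟩ : S.A) = 1 := Subtype.ext (inv_mul_cancel₀ hj0)
  rw [h5, map_one] at h4
  exact one_ne_zero h4

private theorem exists_max {ι : Type*} [Fintype ι] (c : ι → K) (i1 : ι) :
    ∃ j, S.A.valuation (c i1) ≤ S.A.valuation (c j) ∧ ∀ i, c j ≠ 0 → (c j)⁻¹ * c i ∈ S.A := by
  classical
  obtain ⟨j, -, hj⟩ := Finset.exists_max_image Finset.univ (fun i => S.A.valuation (c i))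
    ⟨i1, Finset.mem_univ _⟩
  refine ⟨j, hj i1 (Finset.mem_univ _), fun i hj0 => ?_⟩
  rw [← S.A.valuation_le_one_iff, map_mul, map_inv₀]
  have hv0 : S.A.valuation (c j) ≠ 0 := (Valuation.ne_zero_iff _).2 hj0
  rw [inv_mul_le_iff₀ (zero_lt_iff.2 hv0), mul_one]
  exact hj i (Finset.mem_univ _)

/-- a family of `R` with `k`-independent reductions is orthonormal. -/
theorem coeff_mem_of_sum_mem {ι : Type*} [Fintype ι] {p : ι → F} (hp : ∀ i, p i ∈ S.R)
    (hind : LinearIndependent k (fun i => S.rd (p i))) (c : ι → K)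
    (hsum : ∑ i, algebraMap K F (c i) * p i ∈ S.R) : ∀ i, c i ∈ S.A := by
  by_contra hcon
  push Not at hcon
  obtain ⟨i1, hi1⟩ := hcon
  obtain ⟨j, hj1, hj⟩ := S.exists_max c i1
  have hjA : c j ∉ S.A := by
    intro h
    apply hi1
    rw [← S.A.valuation_le_one_iff] at h ⊢
    exact le_trans hj1 h
  have hj0 : c j ≠ 0 := by intro h; exact hjA (h ▸ zero_mem _)
  have hinvA : (c j)⁻¹ ∈ S.A := (S.A.mem_or_inv_mem _).resolve_left hjA
  have hres0 : S.resA ⟨(c j)⁻¹, hinvA⟩ = 0 := S.resA_eq_zero hinvA (by rwa [inv_inv])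
  have h1 : S.rd (algebraMap K F (c j)⁻¹ * ∑ i, algebraMap K F (c i) * p i) = 0 := by
    rw [S.rd_mul (S.map_mem _ hinvA) hsum, S.rd_algebraMap hinvA, hres0, map_zero, zero_mul]
  have h2 : algebraMap K F (c j)⁻¹ * ∑ i, algebraMap K F (c i) * p i =
      ∑ i, algebraMap K F ((c j)⁻¹ * c i) * p i := by
    rw [Finset.mul_sum]
    refine Finset.sum_congr rfl fun i _ => ?_
    rw [map_mul, mul_assoc]
  rw [h2] at h1
  exact S.orth_aux hp hind c j hj0 (fun i => hj i hj0) h1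

theorem linearIndependent_of_rd {ι : Type*} [Fintype ι] {p : ι → F} (hp : ∀ i, p i ∈ S.R)
    (hind : LinearIndependent k (fun i => S.rd (p i))) : LinearIndependent K p := by
  rw [Fintype.linearIndependent_iff]
  intro c hc i1
  by_contra hi1
  obtain ⟨j, hj1, hj⟩ := S.exists_max c i1
  have hj0 : c j ≠ 0 := by
    intro h
    rw [h, map_zero] at hj1
    exact hi1 ((Valuation.zero_iff _).1 (le_antisymm hj1 zero_le))
  have h2 : ∑ i, algebraMap K F ((c j)⁻¹ * c i) * p i = 0 := by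
    have : ∑ i, algebraMap K F ((c j)⁻¹ * c i) * p i = algebraMap K F (c j)⁻¹ * ∑ i, c i • p i := by
      rw [Finset.mul_sum]
      refine Finset.sum_congr rfl fun i _ => ?_
      rw [map_mul, mul_assoc, Algebra.smul_def]
    rw [this, hc, mul_zero]
  exact S.orth_aux hp hind c j hj0 (fun i => hj i hj0) (by rw [h2, S.rd_zero])

/-- an orthonormal family of the right cardinality is an `A`-basis of `W ∩ R`. -/
theorem exists_coeff {ι : Type*} [Fintype ι] (W : Submodule K F) [FiniteDimensional K W]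
    {p : ι → F} (hpW : ∀ i, p i ∈ W) (hp : ∀ i, p i ∈ S.R)
    (hind : LinearIndependent k (fun i => S.rd (p i))) (hcard : finrank K W ≤ Fintype.card ι)
    {h : F} (hW : h ∈ W) (hR : h ∈ S.R) :
    ∃ α : ι → K, (∀ i, α i ∈ S.A) ∧ h = ∑ i, algebraMap K F (α i) * p i := by
  have hK := S.linearIndependent_of_rd hp hind
  have hspan : Submodule.span K (Set.range p) = W := by
    apply Submodule.eq_of_le_of_finrank_le
    · rw [Submodule.span_le]
      rintro _ ⟨i, rfl⟩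
      exact hpW i
    · rw [finrank_span_eq_card hK]
      exact hcard
  rw [← hspan] at hW
  obtain ⟨α, hα⟩ := (Submodule.mem_span_range_iff_exists_fun K).1 hW
  have hα' : h = ∑ i, algebraMap K F (α i) * p i := by
    rw [← hα]
    exact Finset.sum_congr rfl fun i _ => by rw [Algebra.smul_def]
  exact ⟨α, S.coeff_mem_of_sum_mem hp hind α (hα' ▸ hR), hα'⟩

end basic

section hyp
variable {K F k E : Type*} [Field K] [Field F] [Algebra K F] [Field k] [CommRing E] [Algebra k E]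

/-- The hypotheses of the connectedness theorem (the same as those of `core_dim2`, plus monotonicity). -/
structure ZCHyp (S : RedCore K F k E) (x : F) (Lb : ℕ → ℕ → Submodule k E) : Prop where
  mono : ∀ a b a' b', a ≤ a' → b ≤ b' → Lb a b ≤ Lb a' b'
  inf_le : ∀ n, Lb 0 n ⊓ Lb n 0 ≤ Lb 0 0
  sat : ∀ (n N : ℕ) (a1 a2 : E), a1 ∈ Lb 0 N → a2 ∈ Lb N 0 → a1 + a2 ∈ Lb n n →
    a1 ∈ Lb 0 n ∧ a2 ∈ Lb n 0
  hredL : ∀ (a b : ℕ) (f : F), f ∈ Lsp K x a b → f ∈ S.R → S.rd f ∈ Lb a b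
  dimRed : ∀ W : Submodule K F, FiniteDimensional K W → finrank k (S.redSub W) = finrank K W
  const : ∀ h ∈ Lsp K x 0 0, ∃ c : K, h = algebraMap K F c
  fin : ∀ a b, FiniteDimensional K (Lsp K x a b)
  finb : ∀ a b, FiniteDimensional k (Lb a b)

variable {S : RedCore K F k E} {x : F} {Lb : ℕ → ℕ → Submodule k E}

/-- `n` is in the good range. -/
def Good (_S : RedCore K F k E) (x : F) (Lb : ℕ → ℕ → Submodule k E) (n₀ : ℕ) : Prop :=
  ∀ n, n₀ ≤ n → finrank k (Lb 0 n) ≤ finrank K (Lsp K x 0 n) ∧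
    finrank k (Lb n 0) ≤ finrank K (Lsp K x n 0)

/-- `W_N = L(0,N) + L(N,0)`. -/
abbrev WW (K : Type*) {F : Type*} [Field K] [Field F] [Algebra K F] (x : F) (N : ℕ) :
    Submodule K F := Lsp K x 0 N ⊔ Lsp K x N 0

theorem WW_le (N : ℕ) : WW K x N ≤ Lsp K x N N :=
  sup_le (Lsp_mono (Nat.zero_le _) le_rfl) (Lsp_mono le_rfl (Nat.zero_le _))

theorem WW_mono {n N : ℕ} (h : n ≤ N) : WW K x n ≤ WW K x N :=
  sup_le_sup (Lsp_mono le_rfl h) (Lsp_mono h le_rfl)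

namespace ZCHyp

variable (H : ZCHyp S x Lb)
include H

theorem red1 {n₀ : ℕ} (hg : Good S x Lb n₀) {n : ℕ} (hn : n₀ ≤ n) :
    S.redSub (Lsp K x 0 n) = Lb 0 n := by
  have := H.finb 0 n
  apply Submodule.eq_of_le_of_finrank_le
  · rintro _ ⟨f, hf, hfV, rfl⟩
    exact H.hredL _ _ _ hf hfV
  · rw [H.dimRed _ (H.fin _ _)]
    exact (hg n hn).1

theorem red2 {n₀ : ℕ} (hg : Good S x Lb n₀) {n : ℕ} (hn : n₀ ≤ n) :
    S.redSub (Lsp K x n 0) = Lb n 0 := by
  have := H.finb n 0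
  apply Submodule.eq_of_le_of_finrank_le
  · rintro _ ⟨f, hf, hfV, rfl⟩
    exact H.hredL _ _ _ hf hfV
  · rw [H.dimRed _ (H.fin _ _)]
    exact (hg n hn).2

theorem finWW (N : ℕ) : FiniteDimensional K (WW K x N) := by
  have := H.fin 0 N
  have := H.fin N 0
  infer_instance

theorem redWW_le (N : ℕ) : S.redSub (WW K x N) ≤ Lb N N := by
  rintro _ ⟨f, hf, hfV, rfl⟩
  exact H.hredL _ _ _ (WW_le N hf) hfV

theorem finZZ (N : ℕ) : FiniteDimensional k (S.redSub (WW K x N)) := by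
  have := H.finb N N
  exact Submodule.finiteDimensional_of_le (H.redWW_le N)

theorem finrank_WW (N : ℕ) :
    finrank K (WW K x N) + 1 = finrank K (Lsp K x 0 N) + finrank K (Lsp K x N 0) := by
  have := H.fin 0 N
  have := H.fin N 0
  have e := Submodule.finrank_sup_add_finrank_inf_eq (Lsp K x 0 N) (Lsp K x N 0)
  have h1 : Lsp K x 0 N ⊓ Lsp K x N 0 = Submodule.span K {(1 : F)} := by
    apply le_antisymm
    · rintro f ⟨h1, h2⟩
      obtain ⟨c, hc⟩ := H.const f (mem_Lsp.2 ⟨(mem_Lsp.1 h1).1, (mem_Lsp.1 h2).2⟩)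
      rw [Submodule.mem_span_singleton]
      exact ⟨c, by rw [hc, Algebra.smul_def, mul_one]⟩
    · rw [Submodule.span_singleton_le_iff_mem]
      exact ⟨one_mem_Lsp _ _ _, one_mem_Lsp _ _ _⟩
  rw [h1, finrank_span_singleton one_ne_zero] at e
  exact e

theorem inf_eq (N : ℕ) : Lb 0 N ⊓ Lb N 0 = Lb 0 0 :=
  le_antisymm (H.inf_le N)
    (le_inf (H.mono _ _ _ _ le_rfl (Nat.zero_le _)) (H.mono _ _ _ _ (Nat.zero_le _) le_rfl))

theorem finrank_MM (N : ℕ) :
    finrank k ↥(Lb 0 N ⊔ Lb N 0) + finrank k (Lb 0 0) = finrank k (Lb 0 N) + finrank k (Lb N 0) := by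
  have := H.finb 0 N
  have := H.finb N 0
  have e := Submodule.finrank_sup_add_finrank_inf_eq (Lb 0 N) (Lb N 0)
  rwa [H.inf_eq N] at e

/-- stabilisation of `H¹`: `rd (W_N ∩ R) = rd (W_n ∩ R) + L̄(0,N) + L̄(N,0)`. -/
theorem ZZ_eq {n₀ : ℕ} (hg : Good S x Lb n₀) {n N : ℕ} (hn : n₀ ≤ n) (hN : n ≤ N) :
    S.redSub (WW K x N) = S.redSub (WW K x n) ⊔ (Lb 0 N ⊔ Lb N 0) := by
  have hN0 : n₀ ≤ N := le_trans hn hN
  have hMZ : ∀ M, n₀ ≤ M → Lb 0 M ⊔ Lb M 0 ≤ S.redSub (WW K x M) := fun M hM =>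
    sup_le (H.red1 hg hM ▸ S.redSub_mono le_sup_left) (H.red2 hg hM ▸ S.redSub_mono le_sup_right)
  have hle : S.redSub (WW K x n) ⊔ (Lb 0 N ⊔ Lb N 0) ≤ S.redSub (WW K x N) :=
    sup_le (S.redSub_mono (WW_mono hN)) (hMZ N hN0)
  have := H.finZZ N
  have := H.finZZ n
  have := H.finb 0 N
  have := H.finb N 0
  have := H.finb 0 n
  have := H.finb n 0
  refine (Submodule.eq_of_le_of_finrank_le hle ?_).symm
  have e1 := Submodule.finrank_sup_add_finrank_inf_eq (S.redSub (WW K x n)) (Lb 0 N ⊔ Lb N 0)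
  have hinf : S.redSub (WW K x n) ⊓ (Lb 0 N ⊔ Lb N 0) = Lb 0 n ⊔ Lb n 0 := by
    apply le_antisymm
    · rintro z ⟨hz1, hz2⟩
      obtain ⟨a1, ha1, a2, ha2, rfl⟩ := Submodule.mem_sup.1 hz2
      obtain ⟨h1, h2⟩ := H.sat n N a1 a2 ha1 ha2 (H.redWW_le n hz1)
      exact Submodule.add_mem_sup h1 h2
    · exact le_inf (hMZ n hn) (sup_le_sup (H.mono _ _ _ _ le_rfl hN) (H.mono _ _ _ _ hN le_rfl))
  rw [hinf] at e1
  have a1 := H.finrank_WW n
  have a2 := H.finrank_WW N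
  have a3 := H.finrank_MM n
  have a4 := H.finrank_MM N
  have a5 := H.dimRed _ (H.finWW n)
  have a6 := H.dimRed _ (H.finWW N)
  have b1 : finrank k (Lb 0 n) = finrank K (Lsp K x 0 n) := by
    rw [← H.red1 hg hn, H.dimRed _ (H.fin _ _)]
  have b2 : finrank k (Lb n 0) = finrank K (Lsp K x n 0) := by
    rw [← H.red2 hg hn, H.dimRed _ (H.fin _ _)]
  have b3 : finrank k (Lb 0 N) = finrank K (Lsp K x 0 N) := by
    rw [← H.red1 hg hN0, H.dimRed _ (H.fin _ _)]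
  have b4 : finrank k (Lb N 0) = finrank K (Lsp K x N 0) := by
    rw [← H.red2 hg hN0, H.dimRed _ (H.fin _ _)]
  omega

end ZCHyp

end hyp

section dec
variable {K F k E : Type*} [Field K] [Field F] [Algebra K F] [Field k] [CommRing E] [Algebra k E]
variable (S : RedCore K F k E) (x : F)

/-- `f ∈ L(0,N) ∩ R + L(N,0) ∩ R`. -/
def Dec (N : ℕ) (f : F) : Prop :=
  ∃ v1 ∈ Lsp K x 0 N, ∃ v2 ∈ Lsp K x N 0, v1 ∈ S.R ∧ v2 ∈ S.R ∧ f = v1 + v2

variable {S x}

theorem Dec.zero (N : ℕ) : S.Dec x N 0 :=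
  ⟨0, zero_mem _, 0, zero_mem _, zero_mem _, zero_mem _, (add_zero 0).symm⟩

theorem Dec.add {N : ℕ} {f g : F} (hf : S.Dec x N f) (hg : S.Dec x N g) : S.Dec x N (f + g) := by
  obtain ⟨v1, h1, v2, h2, r1, r2, rfl⟩ := hf
  obtain ⟨w1, k1, w2, k2, s1, s2, rfl⟩ := hg
  exact ⟨v1 + w1, add_mem h1 k1, v2 + w2, add_mem h2 k2, add_mem r1 s1, add_mem r2 s2, by ring⟩

theorem Dec.smul {N : ℕ} {f : F} (hf : S.Dec x N f) {c : K} (hc : c ∈ S.A) :
    S.Dec x N (algebraMap K F c * f) := by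
  obtain ⟨v1, h1, v2, h2, r1, r2, rfl⟩ := hf
  refine ⟨algebraMap K F c * v1, ?_, algebraMap K F c * v2, ?_, mul_mem (S.map_mem _ hc) r1,
    mul_mem (S.map_mem _ hc) r2, by ring⟩
  · rw [← Algebra.smul_def]; exact Submodule.smul_mem _ _ h1
  · rw [← Algebra.smul_def]; exact Submodule.smul_mem _ _ h2

theorem Dec.sum {N : ℕ} {ι : Type*} (s : Finset ι) (f : ι → F) (hf : ∀ i ∈ s, S.Dec x N (f i)) :
    S.Dec x N (∑ i ∈ s, f i) := by
  classical
  induction s using Finset.induction_on with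
  | empty => simpa using Dec.zero N
  | insert a s ha ih =>
    rw [Finset.sum_insert ha]
    exact (hf a (Finset.mem_insert_self a s)).add
      (ih fun i hi => hf i (Finset.mem_insert_of_mem hi))

theorem Dec.mono {n N : ℕ} (h : n ≤ N) {f : F} (hf : S.Dec x n f) : S.Dec x N f := by
  obtain ⟨v1, h1, v2, h2, r1, r2, rfl⟩ := hf
  exact ⟨v1, Lsp_mono le_rfl h h1, v2, Lsp_mono h le_rfl h2, r1, r2, rfl⟩

theorem Dec.of_left {N : ℕ} {f : F} (h : f ∈ Lsp K x 0 N) (hR : f ∈ S.R) : S.Dec x N f :=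
  ⟨f, h, 0, zero_mem _, hR, zero_mem _, (add_zero f).symm⟩

theorem Dec.of_right {N : ℕ} {f : F} (h : f ∈ Lsp K x N 0) (hR : f ∈ S.R) : S.Dec x N f :=
  ⟨0, zero_mem _, f, h, zero_mem _, hR, (zero_add f).symm⟩

variable {Lb : ℕ → ℕ → Submodule k E}

/-- if a set of elements `p` of `W_N ∩ R` with `Dec (c₀ p)` reduces onto `rd (W_N ∩ R)`, then `Dec (c₀ h)` for all
`h ∈ W_N ∩ R` (Nakayama via orthonormal bases). -/
theorem ZCHyp.dec_of_surj (H : ZCHyp S x Lb) (N : ℕ) (c0 : K)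
    (hsurj : ∀ y ∈ S.redSub (WW K x N), ∃ p ∈ WW K x N, p ∈ S.R ∧ S.rd p = y ∧
      S.Dec x N (algebraMap K F c0 * p))
    {h : F} (hW : h ∈ WW K x N) (hR : h ∈ S.R) : S.Dec x N (algebraMap K F c0 * h) := by
  have := H.finZZ N
  have := H.finWW N
  let b := Module.finBasis k (S.redSub (WW K x N))
  choose p hpW hpR hprd hpD using fun i => hsurj (b i) (b i).2
  have hind : LinearIndependent k (fun i => S.rd (p i)) := by
    have h1 : (fun i => S.rd (p i)) = fun i => ((b i : S.redSub (WW K x N)) : E) := funext hprd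
    rw [h1]
    exact b.linearIndependent.map' (Submodule.subtype _) (Submodule.ker_subtype _)
  obtain ⟨α, hαA, hα⟩ := S.exists_coeff (WW K x N) hpW hpR hind
    (by rw [Fintype.card_fin, H.dimRed _ (H.finWW N)]) hW hR
  rw [hα, Finset.mul_sum]
  apply Dec.sum
  intro i _
  have e : algebraMap K F c0 * (algebraMap K F (α i) * p i) =
      algebraMap K F (α i) * (algebraMap K F c0 * p i) := by ring
  rw [e]
  exact (hpD i).smul (hαA i)

/-- bounded torsion at a fixed level. -/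
theorem ZCHyp.bt_level (H : ZCHyp S x Lb) (n : ℕ) :
    ∃ c0 : K, c0 ∈ S.A ∧ c0 ≠ 0 ∧ ∀ h ∈ WW K x n, h ∈ S.R → S.Dec x n (algebraMap K F c0 * h) := by
  classical
  have := H.finZZ n
  let b := Module.finBasis k (S.redSub (WW K x n))
  choose p hpW hpR hprd using fun i => S.mem_redSub.1 (b i).2
  choose a1 ha1 a2 ha2 hsum using fun i => Submodule.mem_sup.1 (hpW i)
  choose c hcA hc0 hcR using fun i => S.exists_scale_mem (a1 i)
  refine ⟨∏ i, c i, prod_mem fun i _ => hcA i, Finset.prod_ne_zero_iff.2 fun i _ => hc0 i, ?_⟩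
  have hbase : ∀ i, S.Dec x n (algebraMap K F (∏ i, c i) * p i) := by
    intro i
    have hc0A : ∏ i, c i ∈ S.A := prod_mem fun i _ => hcA i
    have e1 : ∏ j, c j = (∏ j ∈ Finset.univ.erase i, c j) * c i :=
      (Finset.prod_erase_mul _ _ (Finset.mem_univ i)).symm
    have h1R : algebraMap K F (∏ i, c i) * a1 i ∈ S.R := by
      rw [e1, map_mul, mul_assoc]
      exact mul_mem (S.map_mem _ (prod_mem fun j _ => hcA j)) (hcR i)
    have h2R : algebraMap K F (∏ i, c i) * a2 i ∈ S.R := by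
      have := sub_mem (mul_mem (S.map_mem _ hc0A) (hpR i)) h1R
      rwa [← hsum i, mul_add, add_sub_cancel_left] at this
    refine ⟨_, ?_, _, ?_, h1R, h2R, by rw [← hsum i, mul_add]⟩
    · rw [← Algebra.smul_def]; exact Submodule.smul_mem _ _ (ha1 i)
    · rw [← Algebra.smul_def]; exact Submodule.smul_mem _ _ (ha2 i)
  intro h hW hR
  refine H.dec_of_surj n _ ?_ hW hR
  intro y hy
  -- `y = ∑ λ_i b_i`
  have hy' := b.sum_repr ⟨y, hy⟩
  choose lam hlam using fun i => S.resA_surj (b.repr ⟨y, hy⟩ i)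
  refine ⟨∑ i, algebraMap K F (lam i : K) * p i, ?_, ?_, ?_, ?_⟩
  · refine sum_mem fun i _ => ?_
    rw [← Algebra.smul_def]; exact Submodule.smul_mem _ _ (hpW i)
  · exact sum_mem fun i _ => mul_mem (S.map_mem _ (lam i).2) (hpR i)
  · rw [S.rd_sum _ _ fun i _ => mul_mem (S.map_mem _ (lam i).2) (hpR i)]
    have h2 : ((∑ i, (b.repr ⟨y, hy⟩) i • b i : S.redSub (WW K x n)) : E) = y :=
      congrArg (Subtype.val) hy'
    rw [← h2]
    simp only [Submodule.coe_sum, Submodule.coe_smul]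
    refine Finset.sum_congr rfl fun i _ => ?_
    rw [S.rd_mul (S.map_mem _ (lam i).2) (hpR i), S.rd_algebraMap (lam i).2, hprd i,
      Algebra.smul_def]
    exact congrArg (fun t => algebraMap k E t * _) (hlam i)
  · rw [Finset.mul_sum]
    apply Dec.sum
    intro i _
    have e : algebraMap K F (∏ i, c i) * (algebraMap K F (lam i : K) * p i) =
        algebraMap K F (lam i : K) * (algebraMap K F (∏ i, c i) * p i) := by ring
    rw [e]
    exact (hbase i).smul (lam i).2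

/-- **Bounded torsion of `H¹`**, uniformly in the level. -/
theorem ZCHyp.bt (H : ZCHyp S x Lb) {n₀ : ℕ} (hg : Good S x Lb n₀) :
    ∃ c0 : K, c0 ∈ S.A ∧ c0 ≠ 0 ∧ ∀ N, n₀ ≤ N → ∀ h ∈ WW K x N, h ∈ S.R →
      S.Dec x N (algebraMap K F c0 * h) := by
  obtain ⟨c0, hc0A, hc0, hlev⟩ := H.bt_level n₀
  refine ⟨c0, hc0A, hc0, fun N hN h hW hR => H.dec_of_surj N c0 ?_ hW hR⟩
  intro y hy
  rw [H.ZZ_eq hg le_rfl hN] at hy
  obtain ⟨z, hz, m, hm, rfl⟩ := Submodule.mem_sup.1 hy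
  obtain ⟨m1, hm1, m2, hm2, rfl⟩ := Submodule.mem_sup.1 hm
  obtain ⟨h', hh'W, hh'R, rfl⟩ := hz
  rw [← H.red1 hg hN] at hm1
  rw [← H.red2 hg hN] at hm2
  obtain ⟨v1, hv1, hv1R, rfl⟩ := hm1
  obtain ⟨v2, hv2, hv2R, rfl⟩ := hm2
  refine ⟨h' + (v1 + v2), ?_, add_mem hh'R (add_mem hv1R hv2R), ?_, ?_⟩
  · exact add_mem (WW_mono hN hh'W) (Submodule.add_mem_sup hv1 hv2)
  · rw [S.rd_add hh'R (add_mem hv1R hv2R), S.rd_add hv1R hv2R]
  · rw [mul_add, mul_add]
    exact ((hlev h' hh'W hh'R).mono hN).add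
      (((Dec.of_left hv1 hv1R).smul hc0A).add ((Dec.of_right hv2 hv2R).smul hc0A))

end dec

section newton
variable {K F k E : Type*} [Field K] [Field F] [Algebra K F] [Field k] [CommRing E] [Algebra k E]
variable (S : RedCore K F k E) (x : F)

/-- approximate glueing of lifts of `e` modulo `C ^ j`. -/
def Appr (e : E) (C : S.R) (j : ℕ) : Prop :=
  ∃ (N : ℕ) (U1 U2 D Ep : S.R), (U1 : F) ∈ Lsp K x 0 N ∧ (U2 : F) ∈ Lsp K x N 0 ∧
    S.red U1 = e ∧ S.red U2 = e ∧ U1 - U2 = C ^ j * D ∧ U1 * U1 - U1 = C ^ j * Ep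

variable {S x}

private theorem newton_mem {a b : ℕ} {u : F} (hu : u ∈ Lsp K x a b) :
    3 * u ^ 2 - 2 * u ^ 3 ∈ Lsp K x (3 * a) (3 * b) := by
  have h2 : u ^ 2 ∈ Lsp K x (3 * a) (3 * b) :=
    Lsp_mono (Nat.mul_le_mul_right _ (by norm_num)) (Nat.mul_le_mul_right _ (by norm_num))
      (Lsp_pow hu 2)
  have h3 : u ^ 3 ∈ Lsp K x (3 * a) (3 * b) := Lsp_pow hu 3
  have e : 3 * u ^ 2 - 2 * u ^ 3 = (3 : K) • u ^ 2 - (2 : K) • u ^ 3 := by
    rw [Algebra.smul_def, Algebra.smul_def, map_ofNat, map_ofNat]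
  rw [e]
  exact sub_mem (Submodule.smul_mem _ _ h2) (Submodule.smul_mem _ _ h3)

theorem Appr.step {e : E} (he : e * e = e) {C : S.R} {j : ℕ} (h : S.Appr x e C j) :
    S.Appr x e C (2 * j) := by
  obtain ⟨N, U1, U2, D, Ep, h1, h2, r1, r2, hd, hε⟩ := h
  set c := C ^ j with hc
  have hc2 : C ^ (2 * j) = c * c := by rw [hc]; ring
  have hred : ∀ U : S.R, S.red U = e → S.red (3 * U ^ 2 - 2 * U ^ 3) = e := by
    intro U hU
    rw [map_sub, map_mul, map_mul, map_pow, map_pow, hU, map_ofNat, map_ofNat]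
    linear_combination (1 - 2 * e) * he
  refine ⟨3 * N, 3 * U1 ^ 2 - 2 * U1 ^ 3, 3 * U2 ^ 2 - 2 * U2 ^ 3,
    D * (-6 * Ep + D * (-3 + 6 * U1 - 2 * c * D)), Ep ^ 2 * (4 * c * Ep - 3), ?_, ?_,
    hred U1 r1, hred U2 r2, ?_, ?_⟩
  · have := newton_mem h1
    rwa [Nat.mul_zero] at this
  · have := newton_mem h2
    rwa [Nat.mul_zero] at this
  · obtain rfl : U2 = U1 - c * D := by linear_combination -hd
    rw [hc2]
    linear_combination (-6 * c * D) * hε
  · rw [hc2]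
    linear_combination (4 * ((U1 * U1 - U1) ^ 2 + (U1 * U1 - U1) * (c * Ep) + (c * Ep) ^ 2) -
      3 * ((U1 * U1 - U1) + c * Ep)) * hε

theorem Appr.succ {e : E} (he : e * e = e) {C : S.R} {j : ℕ} (hj : 1 ≤ j) (h : S.Appr x e C j) :
    S.Appr x e C (j + 1) := by
  obtain ⟨N, U1, U2, D, Ep, h1, h2, r1, r2, hd, hε⟩ := h.step he
  obtain ⟨i, rfl⟩ : ∃ i, j = i + 1 := ⟨j - 1, by omega⟩
  have e1 : C ^ (2 * (i + 1)) = C ^ (i + 1 + 1) * C ^ i := by ring
  exact ⟨N, U1, U2, C ^ i * D, C ^ i * Ep, h1, h2, r1, r2, by rw [hd, e1, mul_assoc],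
    by rw [hε, e1, mul_assoc]⟩

theorem Appr.all {e : E} (he : e * e = e) {C : S.R} (h : S.Appr x e C 1) :
    ∀ j, 1 ≤ j → S.Appr x e C j := by
  intro j hj
  induction j, hj using Nat.le_induction with
  | base => exact h
  | succ j hj ih => exact ih.succ he hj

/-- two elements of `ker rd` are divisible by a common element of `𝔪_A`. -/
theorem exists_common {f1 f2 : F} (h1 : f1 ∈ S.R) (h2 : f2 ∈ S.R) (r1 : S.rd f1 = 0)
    (r2 : S.rd f2 = 0) (hne : f1 ≠ 0) :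
    ∃ c : K, c ≠ 0 ∧ c ∈ S.A ∧ c⁻¹ ∉ S.A ∧ ∃ g1 ∈ S.R, ∃ g2 ∈ S.R,
      f1 = algebraMap K F c * g1 ∧ f2 = algebraMap K F c * g2 := by
  obtain ⟨c1, hc10, hc1A, hc1i, g1, hg1, e1⟩ := S.exists_of_rd_eq_zero h1 r1 hne
  by_cases hf2 : f2 = 0
  · exact ⟨c1, hc10, hc1A, hc1i, g1, hg1, 0, zero_mem _, e1, by rw [hf2, mul_zero]⟩
  obtain ⟨c2, hc20, hc2A, hc2i, g2, hg2, e2⟩ := S.exists_of_rd_eq_zero h2 r2 hf2
  rcases S.A.mem_or_inv_mem (c1 * c2⁻¹) with h | h
  · refine ⟨c2, hc20, hc2A, hc2i, algebraMap K F (c1 * c2⁻¹) * g1, mul_mem (S.map_mem _ h) hg1,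
      g2, hg2, ?_, e2⟩
    rw [← mul_assoc, ← map_mul, mul_comm c1, ← mul_assoc, mul_inv_cancel₀ hc20, one_mul]
    exact e1
  · have h' : c2 * c1⁻¹ ∈ S.A := by
      rwa [mul_inv, inv_inv, mul_comm] at h
    refine ⟨c1, hc10, hc1A, hc1i, g1, hg1, algebraMap K F (c2 * c1⁻¹) * g2,
      mul_mem (S.map_mem _ h') hg2, e1, ?_⟩
    rw [← mul_assoc, ← map_mul, mul_comm c2, ← mul_assoc, mul_inv_cancel₀ hc10, one_mul]
    exact e2

variable {Lb : ℕ → ℕ → Submodule k E}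

private theorem close_aux [Nontrivial E] (H : ZCHyp S x Lb) {e : E} {N : ℕ} {u1 u2 v1 v2 : F} {c' : K}
    (hu1 : u1 ∈ Lsp K x 0 N) (hu2 : u2 ∈ Lsp K x N 0) (hu1R : u1 ∈ S.R) (hr : S.rd u1 = e)
    (hv1 : v1 ∈ Lsp K x 0 N) (hv2 : v2 ∈ Lsp K x N 0) (hv1R : v1 ∈ S.R)
    (hc'A : c' ∈ S.A) (hc' : S.resA ⟨c', hc'A⟩ = 0)
    (hd : u1 - u2 = algebraMap K F c' * (v1 + v2)) : ∃ c : k, e = algebraMap k E c := by
  set κ := u1 - algebraMap K F c' * v1 with hκ
  have hκ2 : κ = u2 + algebraMap K F c' * v2 := by rw [hκ]; linear_combination hd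
  have hm1 : κ ∈ Lsp K x 0 N := by
    rw [hκ, ← Algebra.smul_def]
    exact sub_mem hu1 (Submodule.smul_mem _ _ hv1)
  have hm2 : κ ∈ Lsp K x N 0 := by
    rw [hκ2, ← Algebra.smul_def]
    exact add_mem hu2 (Submodule.smul_mem _ _ hv2)
  obtain ⟨κ0, hκ0⟩ := H.const κ (mem_Lsp.2 ⟨(mem_Lsp.1 hm1).1, (mem_Lsp.1 hm2).2⟩)
  have hκR : κ ∈ S.R := sub_mem hu1R (mul_mem (S.map_mem _ hc'A) hv1R)
  have hκ0A : κ0 ∈ S.A := S.mem_A_of_algebraMap_mem (hκ0 ▸ hκR)
  refine ⟨S.resA ⟨κ0, hκ0A⟩, ?_⟩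
  rw [← S.rd_algebraMap hκ0A, ← hκ0, hκ, S.rd_sub hu1R (mul_mem (S.map_mem _ hc'A) hv1R),
    S.rd_mul (S.map_mem _ hc'A) hv1R, S.rd_algebraMap hc'A, hc', map_zero, zero_mul, sub_zero, hr]

/-- **Connectedness, idempotent form.** -/
theorem idem_const [Nontrivial E] (H : ZCHyp S x Lb) (good : ∃ n₀, Good S x Lb n₀)
    (arch : ∀ c : K, c ∈ S.A → c⁻¹ ∉ S.A → ∀ c0 : K, c0 ≠ 0 → ∃ n : ℕ, c ^ n * c0⁻¹ ∈ S.A)
    {e : E} (he : e * e = e) (heL : e ∈ Lb 0 0) : ∃ c : k, e = algebraMap k E c := by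
  obtain ⟨n₀, hg⟩ := good
  have he1 : e ∈ S.redSub (Lsp K x 0 n₀) := by
    rw [H.red1 hg le_rfl]; exact H.mono _ _ _ _ le_rfl (Nat.zero_le _) heL
  have he2 : e ∈ S.redSub (Lsp K x n₀ 0) := by
    rw [H.red2 hg le_rfl]; exact H.mono _ _ _ _ (Nat.zero_le _) le_rfl heL
  obtain ⟨u1, hu1, hu1R, hr1⟩ := he1
  obtain ⟨u2, hu2, hu2R, hr2⟩ := he2
  by_cases hne : u1 - u2 = 0
  · exact close_aux H hu1 hu2 hu1R hr1 (zero_mem _) (zero_mem _) (zero_mem _) (zero_mem _)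
      (map_zero _) (by rw [hne, add_zero, mul_zero])
  obtain ⟨c, hc0, hcA, hci, d, hdR, ε, hεR, e1, e2⟩ :=
    S.exists_common (sub_mem hu1R hu2R) (sub_mem (mul_mem hu1R hu1R) hu1R)
      (by rw [S.rd_sub hu1R hu2R, hr1, hr2, sub_self])
      (by rw [S.rd_sub (mul_mem hu1R hu1R) hu1R, S.rd_mul hu1R hu1R, hr1, he, sub_self]) hne
  set C : S.R := ⟨algebraMap K F c, S.map_mem _ hcA⟩ with hC
  have h1 : S.Appr x e C 1 :=
    ⟨n₀, ⟨u1, hu1R⟩, ⟨u2, hu2R⟩, ⟨d, hdR⟩, ⟨ε, hεR⟩, hu1, hu2, by rw [← S.rd_of_mem, hr1],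
      by rw [← S.rd_of_mem, hr2], Subtype.ext (by simpa using e1), Subtype.ext (by simpa using e2)⟩
  obtain ⟨c0, hc0A, hc00, hbt⟩ := H.bt hg
  obtain ⟨n, hn⟩ := arch c hcA hci c0 hc00
  obtain ⟨N, U1, U2, D, Ep, m1, m2, r1, r2, hd, -⟩ := h1.all he (n + 1) (Nat.le_add_left 1 n)
  set N' := max N n₀ with hN'
  have m1' : (U1 : F) ∈ Lsp K x 0 N' := Lsp_mono le_rfl (le_max_left _ _) m1
  have m2' : (U2 : F) ∈ Lsp K x N' 0 := Lsp_mono (le_max_left _ _) le_rfl m2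
  have hd' : (U1 : F) - U2 = algebraMap K F (c ^ (n + 1)) * D := by
    have := congrArg (Subtype.val) hd
    simpa [hC] using this
  have hcn0 : c ^ (n + 1) ≠ 0 := pow_ne_zero _ hc0
  have hDW : (D : F) ∈ WW K x N' := by
    have h3 : (U1 : F) - U2 ∈ WW K x N' := by
      rw [sub_eq_add_neg]
      exact Submodule.add_mem_sup m1' (neg_mem m2')
    have h4 := (WW K x N').smul_mem (c ^ (n + 1))⁻¹ h3
    rwa [hd', Algebra.smul_def, ← mul_assoc, ← map_mul, inv_mul_cancel₀ hcn0, map_one, one_mul] at h4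
  obtain ⟨v1, hv1, v2, hv2, hv1R, -, hv⟩ := hbt N' (le_max_right _ _) D hDW D.2
  have hc'A : c * (c ^ n * c0⁻¹) ∈ S.A := mul_mem hcA hn
  have hc' : S.resA ⟨c * (c ^ n * c0⁻¹), hc'A⟩ = 0 := by
    have : (⟨c * (c ^ n * c0⁻¹), hc'A⟩ : S.A) = ⟨c, hcA⟩ * ⟨c ^ n * c0⁻¹, hn⟩ := rfl
    rw [this, map_mul, S.resA_eq_zero hcA hci, zero_mul]
  refine close_aux H m1' m2' U1.2 (by rw [S.rd_of_mem U1.2]; exact r1) hv1 hv2 hv1R hc'A hc' ?_
  rw [hd', ← hv, ← mul_assoc, ← map_mul]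
  congr 2
  field_simp
  ring

end newton

end RedCore

section alg
variable {k E : Type*} [Field k] [CommRing E] [Algebra k E]

/-- a finite dimensional subalgebra of a reduced algebra over an algebraically closed field, all of whose
idempotents are constants, consists of constants. -/
theorem const_of_idem_const [IsAlgClosed k] [IsReduced E] [Nontrivial E] (B : Subalgebra k E)
    [FiniteDimensional k B]
    (hidem : ∀ e ∈ B, e * e = e → ∃ c : k, e = algebraMap k E c) :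
    ∀ h ∈ B, ∃ c : k, h = algebraMap k E c := by
  intro h hh
  have hint : IsIntegral k h := by
    have h1 : IsIntegral k (⟨h, hh⟩ : B) := Algebra.IsIntegral.isIntegral _
    exact h1.map B.val
  have hmemB : ∀ q : k[X], aeval h q ∈ B := fun q => by
    have := Subalgebra.aeval_coe B ⟨h, hh⟩ q
    rw [show ((⟨h, hh⟩ : B) : E) = h from rfl] at this
    rw [this]
    exact (aeval (⟨h, hh⟩ : B) q).2
  set p := minpoly k h with hp
  have hp0 : p ≠ 0 := minpoly.ne_zero hint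
  obtain ⟨lam, hlam⟩ := IsAlgClosed.exists_root p (ne_of_gt (minpoly.degree_pos hint))
  obtain ⟨g, hpg, hnd⟩ := p.exists_eq_pow_rootMultiplicity_mul_and_not_dvd hp0 lam
  set a := p.rootMultiplicity lam with ha
  have ha1 : 1 ≤ a := (rootMultiplicity_pos hp0).2 hlam
  have hcop : IsCoprime ((X - C lam) ^ a) g :=
    ((irreducible_X_sub_C lam).coprime_iff_not_dvd.2 hnd).pow_left
  obtain ⟨s, t, hst⟩ := hcop
  have hpz : aeval h p = 0 := minpoly.aeval k h
  have hnu : ¬ (X - C lam) ∣ (1 : k[X]) := fun hd =>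
    (irreducible_X_sub_C lam).not_isUnit (isUnit_of_dvd_one hd)
  have hidem' : aeval h (t * g) * aeval h (t * g) = aeval h (t * g) := by
    have e1 : aeval h (t * g) * aeval h (s * (X - C lam) ^ a) = 0 := by
      rw [← map_mul]
      have : t * g * (s * (X - C lam) ^ a) = s * t * p := by rw [hpg]; ring
      rw [this, map_mul, hpz, mul_zero]
    have e2 : aeval h (s * (X - C lam) ^ a) + aeval h (t * g) = 1 := by
      rw [← map_add, hst, map_one]
    linear_combination aeval h (t * g) * e2 - e1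
  obtain ⟨c, hc⟩ := hidem _ (hmemB _) hidem'
  have hinj : Function.Injective (algebraMap k E) := (algebraMap k E).injective
  have hcc : c * c = c := by
    apply hinj
    rw [map_mul, ← hc, hidem']
  have hc01 : c = 0 ∨ c = 1 := by
    have : c * (c - 1) = 0 := by linear_combination hcc
    rcases mul_eq_zero.1 this with h0 | h0
    · exact Or.inl h0
    · exact Or.inr (sub_eq_zero.1 h0)
  rcases hc01 with rfl | rfl
  · exfalso
    rw [map_zero] at hc
    have h1 : p ∣ t * g := minpoly.dvd k h hc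
    have h2 : (X - C lam) ∣ t * g :=
      dvd_trans (dvd_trans (dvd_pow_self _ (by omega)) (Dvd.intro _ hpg.symm)) h1
    apply hnu
    rw [← hst]
    exact dvd_add (Dvd.dvd.mul_left (dvd_pow_self _ (by omega)) _) h2
  · rw [map_one] at hc
    have e2 : aeval h (s * (X - C lam) ^ a) + aeval h (t * g) = 1 := by
      rw [← map_add, hst, map_one]
    have h0 : aeval h (s * (X - C lam) ^ a) = 0 := by linear_combination e2 - hc
    have h1 : p ∣ s * (X - C lam) ^ a := minpoly.dvd k h h0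
    have h2 : g ∣ s * (X - C lam) ^ a := dvd_trans (Dvd.intro_left _ hpg.symm) h1
    have h3 : g ∣ s := (IsCoprime.dvd_of_dvd_mul_right (show IsCoprime g ((X - C lam) ^ a) from
      ⟨t, s, by linear_combination hst⟩) h2)
    have h4 : g ∣ 1 := by
      rw [← hst]
      exact dvd_add (Dvd.dvd.mul_right h3 _) (Dvd.intro_left _ rfl)
    obtain ⟨g', hg'⟩ := h4
    have h5 : aeval h ((X - C lam) ^ a) = 0 := by
      have : (X - C lam) ^ a = p * g' := by rw [hpg, mul_assoc, ← hg', mul_one]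
      rw [this, map_mul, hpz, zero_mul]
    rw [map_pow, map_sub, aeval_X, aeval_C] at h5
    exact ⟨lam, sub_eq_zero.1 (pow_eq_zero_iff (by omega) |>.1 h5)⟩

theorem LB_mono {B0 Binf : Subalgebra k E} {xb xbi : E} (hxb : xb ∈ B0) (hxbi : xbi ∈ Binf)
    (a b a' b' : ℕ) (ha : a ≤ a') (hb : b ≤ b') :
    LB B0 Binf xb xbi a b ≤ LB B0 Binf xb xbi a' b' := by
  rintro f ⟨h1, h2⟩
  obtain ⟨c, rfl⟩ := Nat.exists_eq_add_of_le ha
  obtain ⟨d, rfl⟩ := Nat.exists_eq_add_of_le hb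
  refine ⟨?_, ?_⟩
  · have := mul_mem (pow_mem hxb c) h1
    convert this using 1
    ring
  · have := mul_mem (pow_mem hxbi d) h2
    convert this using 1
    ring

end alg

section final
variable {K F k E : Type*} [Field K] [Field F] [Algebra K F] [Field k] [CommRing E] [Algebra k E]
variable {S : RedCore K F k E} {x : F} {B0 Binf : Subalgebra k E} {xb xbi : E}

/-- the hypotheses `ZCHyp` for the family `LB`. -/
theorem RedCore.ZCHyp.of_LB (hxb : xb ∈ B0) (hxbi : xbi ∈ Binf)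
    (hredL : ∀ (a b : ℕ) (f : F), f ∈ Lsp K x a b → f ∈ S.R → S.rd f ∈ LB B0 Binf xb xbi a b)
    (dimRed : ∀ W : Submodule K F, FiniteDimensional K W → finrank k (S.redSub W) = finrank K W)
    (const : ∀ h ∈ Lsp K x 0 0, ∃ c : K, h = algebraMap K F c)
    (fin : ∀ a b, FiniteDimensional K (Lsp K x a b))
    (finb : ∀ a b, FiniteDimensional k (LB B0 Binf xb xbi a b)) :
    S.ZCHyp x (LB B0 Binf xb xbi) where
  mono := LB_mono hxb hxbi
  inf_le := LB_inf_le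
  sat := LB_sat hxb hxbi
  hredL := hredL
  dimRed := dimRed
  const := const
  fin := fin
  finb := finb

/-- **Connectedness of the special fibre**: `L̄(0,0) = k` (the hypothesis `constb` of `core_dim2`). -/
theorem RedCore.constb_LB [Nontrivial E] [IsAlgClosed k] [IsReduced E]
    (H : S.ZCHyp x (LB B0 Binf xb xbi))
    (good : ∃ n₀, ∀ n, n₀ ≤ n →
      finrank k (LB B0 Binf xb xbi 0 n) ≤ finrank K (Lsp K x 0 n) ∧
      finrank k (LB B0 Binf xb xbi n 0) ≤ finrank K (Lsp K x n 0))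
    (arch : ∀ c : K, c ∈ S.A → c⁻¹ ∉ S.A → ∀ c0 : K, c0 ≠ 0 → ∃ n : ℕ, c ^ n * c0⁻¹ ∈ S.A) :
    ∀ h ∈ LB B0 Binf xb xbi 0 0, ∃ c : k, h = algebraMap k E c := by
  have hiff : ∀ h : E, h ∈ B0 ⊓ Binf ↔ h ∈ LB B0 Binf xb xbi 0 0 := by
    intro h
    rw [mem_LB, pow_zero, pow_zero, one_mul]
    exact Algebra.mem_inf
  have hfin : FiniteDimensional k ↥(B0 ⊓ Binf) := by
    have := H.finb 0 0
    have e : Subalgebra.toSubmodule (B0 ⊓ Binf) = LB B0 Binf xb xbi 0 0 :=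
      Submodule.ext fun h => hiff h
    have h2 : FiniteDimensional k ↥(Subalgebra.toSubmodule (B0 ⊓ Binf)) := by rw [e]; exact this
    exact h2
  intro h hh
  exact const_of_idem_const (B0 ⊓ Binf)
    (fun e he hee => RedCore.idem_const H good arch hee ((hiff e).1 he)) h ((hiff h).2 hh)

end final

end Fermat.Agent.S34
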