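import Fermat.Agent.S34.NBasic
import Fermat.Agent.S34.NDimRed
import Fermat.Agent.S34.Good
import Fermat.Agent.S34.FinB
import Fermat.Agent.S34.ZC
import Fermat.Agent.S34.NodalZ
import Fermat.Agent.S34.Count
import Fermat.Agent.S34.Inv0
import Fermat.Agent.S34.CoreDim2
import Fermat.Agent.S18.Riemann
import Fermat.Agent.S18.KL

/-!
# S34, piece A9: the abstract toric Kummer lemma (assembly)

`toricKL_of`: in an `NSetting` with a `NodalZ` chart, an endomorphism `γ` of `F` which fixes `x`, preserves `K`, `V`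
and induces the identity on the residue ring acts trivially on the classes of the `u ≡ 1` with `m ∣ div u`.
-/

set_option autoImplicit false

namespace Fermat.Agent.S34

open Polynomial IntermediateField Fermat.Agent.S24 Fermat.Agent.S18 Fermat.Agent.S18.CoreDim Module
open AlgebraicCurve

variable {K F k R : Type*} [Field K] [Field F] [Algebra K F] [Field k] [CommRing R] [Algebra k R]

/-- forget `red_surj`, `inv_mem`. -/
def NSetting.core (S : NSetting K F k R) : RedCore K F k R where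
  A := S.A
  R := S.V
  resA := S.resA
  red := S.red
  resA_surj := S.resA_surj
  map_mem := S.map_mem
  compat := S.compat
  scale := S.scale

variable (S : NSetting K F k R)

theorem NSetting.core_rd (f : F) : S.core.rd f = S.rd f := rfl

theorem NSetting.mem_core_redAlg {y : F} {r : R} :
    r ∈ S.core.redAlg (chartAlg K y) ↔ r ∈ S.chart y := by
  rw [S.mem_chart]; exact Iff.rfl

theorem NSetting.core_Lbar (x : F) (a b : ℕ) : S.core.Lbar x a b = S.Lbar x a b := by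
  ext r
  constructor
  · rintro ⟨h1, h2⟩
    exact ⟨S.mem_core_redAlg.1 h1, S.mem_core_redAlg.1 h2⟩
  · rintro ⟨h1, h2⟩
    exact ⟨S.mem_core_redAlg.2 h1, S.mem_core_redAlg.2 h2⟩

theorem NSetting.rd_self_mem_chart {y : F} (hy : y ∈ S.V) : S.rd y ∈ S.chart y :=
  S.mem_chart.2 ⟨y, self_mem_intRing y, hy, rfl⟩

theorem NSetting.Lbar_mono_right {x : F} (hxi : x⁻¹ ∈ S.V) (a : ℕ) {b b' : ℕ} (h : b ≤ b') :
    S.Lbar x a b ≤ S.Lbar x a b' := by
  rintro r ⟨h1, h2⟩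
  refine ⟨h1, ?_⟩
  obtain ⟨c, rfl⟩ := Nat.exists_eq_add_of_le h
  rw [add_comm, pow_add, mul_assoc]
  exact mul_mem (pow_mem (S.rd_self_mem_chart hxi) c) h2

/-- every element of `B₀` lies in some `L̄(0,n)`. -/
theorem NSetting.exists_mem_Lbar_of_mem_chart {x : F} (hx0 : x ≠ 0) (hxi : x⁻¹ ∈ S.V) {r : R}
    (hr : r ∈ S.chart x) : ∃ n, r ∈ S.Lbar x 0 n := by
  obtain ⟨h, hh, hV, rfl⟩ := S.mem_chart.1 hr
  obtain ⟨a, ha⟩ := tr_scale_mem hx0 hh
  refine ⟨a, ?_, ?_⟩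
  · rw [pow_zero, one_mul]; exact hr
  · refine S.mem_chart.2 ⟨x⁻¹ ^ a * h, ha, mul_mem (pow_mem hxi a) hV, ?_⟩
    rw [S.rd_mul (pow_mem hxi a) hV, S.rd_pow hxi]

variable {S}

/-- the hypothesis `hsurj` of `NodalZ.count` holds for all large `n`. -/
theorem NodalZ.exists_hsurj {x : F} (Z : NodalZ S x) (hx0 : x ≠ 0) (hxi : x⁻¹ ∈ S.V) :
    ∃ n₂ : ℕ, ∀ n, n₂ ≤ n → ∀ (r : R) (hr : r ∈ S.chart x),
      ∃ (r' : R) (_ : r' ∈ S.Lbar x 0 n) (hr'' : r' ∈ S.chart x),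
        ∀ ξ ∈ Z.Ξ, ξ ⟨r', Z.chart_le r' hr''⟩ = ξ ⟨r, Z.chart_le r hr⟩ := by
  classical
  let ev : Z.C0 →ₗ[k] (Z.Ξ → k) :=
    { toFun := fun r ξ => ξ.1 r
      map_add' := fun r s => by funext ξ; exact map_add ξ.1 r s
      map_smul' := fun c r => by funext ξ; exact map_smul ξ.1 c r }
  let E : ℕ →o Submodule k (Z.Ξ → k) :=
    { toFun := fun n => ((S.Lbar x 0 n).comap Z.C0.val.toLinearMap).map ev
      monotone' := fun a b hab =>
        Submodule.map_mono (Submodule.comap_mono (S.Lbar_mono_right hxi 0 hab)) }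
  obtain ⟨n₂, hn₂⟩ := monotone_stabilizes_iff_noetherian.mpr
    (inferInstance : IsNoetherian k (Z.Ξ → k)) E
  refine ⟨n₂, fun n hn r hr => ?_⟩
  obtain ⟨nr, hnr⟩ := S.exists_mem_Lbar_of_mem_chart hx0 hxi hr
  have h1 : ev ⟨r, Z.chart_le r hr⟩ ∈ E nr := ⟨⟨r, Z.chart_le r hr⟩, hnr, rfl⟩
  have h2 : ev ⟨r, Z.chart_le r hr⟩ ∈ E n := by
    have h3 : E nr ≤ E (max nr n₂) := E.monotone (le_max_left _ _)
    have h4 : E (max nr n₂) = E n := by
      rw [← hn₂ _ (le_max_right _ _), ← hn₂ n hn]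
    rw [← h4]; exact h3 h1
  obtain ⟨r', hr', hev⟩ := h2
  have hr'c : (r' : R) ∈ S.chart x := by
    have := (S.mem_Lbar.1 hr').1
    rwa [pow_zero, one_mul] at this
  refine ⟨r', hr', hr'c, fun ξ hξ => ?_⟩
  exact congrFun hev ⟨ξ, hξ⟩

/-- COUNT for all large `n`. -/
theorem NodalZ.count_all {x : F} (Z : NodalZ S x) (hx : x ∈ S.V) (hxi : x⁻¹ ∈ S.V) (hx0 : x ≠ 0)
    (dimRed : ∀ W : Submodule K F, FiniteDimensional K W → finrank k (S.core.redSub W) = finrank K W)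
    (finK : ∀ a b, FiniteDimensional K (Lsp K x a b))
    (finb : ∀ a b, FiniteDimensional k (S.Lbar x a b))
    (good0 : ∃ n₀, ∀ n, n₀ ≤ n → finrank k (S.Lbar x 0 n) ≤ finrank K (Lsp K x 0 n))
    {m : ℕ} (hm : 0 < m) {u : F} (hu0 : u ≠ 0) (huV : u ∈ S.V) (hu1 : S.rd u = 1)
    (riem0 : ∃ n₁, ∀ n, n₁ ≤ n → finrank K (Lsp K x 0 n) ≤ finrank K (Xsp K x u m hm 0 n)) :
    ∃ n₃ : ℕ, ∀ n, n₃ ≤ n →
      (∀ (r : R) (_ : r ∈ S.Lbar x 0 n) (hr' : r ∈ Z.C0), (∀ ξ ∈ Z.Ξ, ξ ⟨r, hr'⟩ = 0) →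
        ∃ g ∈ Xsp K x u m hm 0 n, g ∈ S.V ∧ S.rd g = r) ∧
      (∀ ξ ∈ Z.Ξ, ∃ (g : F) (_ : g ∈ Xsp K x u m hm 0 n) (_ : g ∈ S.V) (h : S.rd g ∈ Z.C0),
        ξ ⟨S.rd g, h⟩ ≠ 0) := by
  obtain ⟨n₀, hn₀⟩ := good0
  obtain ⟨n₁, hn₁⟩ := riem0
  obtain ⟨n₂, hn₂⟩ := Z.exists_hsurj hx0 hxi
  refine ⟨max n₀ (max n₁ n₂), fun n hn => ?_⟩
  have h0 : n₀ ≤ n := le_trans (le_max_left _ _) hn
  have h1 : n₁ ≤ n := le_trans (le_trans (le_max_left _ _) (le_max_right _ _)) hn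
  have h2 : n₂ ≤ n := le_trans (le_trans (le_max_right _ _) (le_max_right _ _)) hn
  have fX : FiniteDimensional K (Xsp K x u m hm 0 n) := by
    have := finK (m * 0) (m * n)
    exact Xsp_finite hu0
  set W := S.core.redSub (Xsp K x u m hm 0 n) with hW
  have hWdim : finrank k W = finrank K (Xsp K x u m hm 0 n) := dimRed _ fX
  have hWspec : ∀ r ∈ W, ∃ g ∈ Xsp K x u m hm 0 n, g ∈ S.V ∧ S.rd g = r := fun r hr => hr
  have hWfin : FiniteDimensional k W := by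
    by_cases hz : finrank k W = 0
    · -- then `L̄(0,n)` has dimension `0`, impossible since it contains `1`; argue directly
      exfalso
      have h3 : finrank k (S.Lbar x 0 n) = 0 := by
        have := (hn₀ n h0).trans (hn₁ n h1)
        omega
      have := finb 0 n
      have h4 : (⟨1, by
          refine ⟨?_, ?_⟩
          · rw [mul_one]; exact pow_mem (S.rd_self_mem_chart hx) 0
          · rw [mul_one]; exact pow_mem (S.rd_self_mem_chart hxi) n⟩ : S.Lbar x 0 n) = 0 :=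
        (finrank_zero_iff.1 h3).elim _ _
      have h5 : (1 : R) = 0 := congrArg Subtype.val h4
      have := S.nontrivial
      exact one_ne_zero h5
    · exact FiniteDimensional.of_finrank_pos (Nat.pos_of_ne_zero hz)
  have hdim : finrank k (S.Lbar x 0 n) ≤ finrank k W := by
    rw [hWdim]; exact (hn₀ n h0).trans (hn₁ n h1)
  obtain ⟨c1, c2⟩ := Z.count' hx hxi hx0 hm huV hu1 n (finb 0 n) W hWspec hWfin hdim (hn₂ n h2)
  refine ⟨fun r hr hr' hξ => hWspec r (c1 r hr hr' hξ), fun ξ hξ => ?_⟩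
  obtain ⟨r, hrW, hr', hne⟩ := c2 ξ hξ
  obtain ⟨g, hg, hgV, rfl⟩ := hWspec r hrW
  exact ⟨g, hg, hgV, hr', hne⟩

/-! ### `K`-side facts -/

theorem finK_of [IsAlgClosed K] [CharZero K] {x : F} (hx : Transcendental K x)
    [FiniteDimensional K⟮x⟯ F] : ∀ a b, FiniteDimensional K (Lsp K x a b) := by
  have hx0 : x ≠ 0 := by
    rintro rfl
    exact hx isAlgebraic_zero
  have hxi : Transcendental K x⁻¹ := by
    intro halg
    apply hx
    have := halg.inv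
    rwa [inv_inv] at this
  have hfdi : FiniteDimensional K⟮x⁻¹⟯ F := by rw [adjoin_simple_inv_eq]; infer_instance
  set μ := Module.finrank K⟮x⟯ F with hμ
  obtain ⟨o, ho⟩ := exists_isIntBasis (k := K) hx
  obtain ⟨o', ho'⟩ : ∃ o' : Fin μ → F, IsIntBasis (K := K) x⁻¹ o' := by
    have h1 := exists_isIntBasis (k := K) hxi
    rwa [adjoin_simple_inv_eq] at h1
  obtain ⟨a, s, G, c, hc, hdet, hG⟩ := exists_transition hx o o' ho ho'
  obtain ⟨N₁, hN₁⟩ := finrank_Lsp hx o o' ho ho' G c hc s a hdet hG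
  intro a' b'
  have := (hN₁ (a' + N₁) b' (by omega)).1
  exact Submodule.finiteDimensional_of_le (Lsp_mono (Nat.le_add_right a' N₁) le_rfl)

theorem riem_of [IsAlgClosed K] [CharZero K] (hFF : IsFF K F) {x : F} (hx : Transcendental K x)
    [FiniteDimensional K⟮x⟯ F] {u : F} (hu : u ≠ 0) {m : ℕ} (hm : 0 < m)
    (hord : ∀ P : Place K F, (m : ℤ) ∣ P.ord u) :
    ∃ n₁, ∀ n, n₁ ≤ n → finrank K (Lsp K x 0 n) ≤ finrank K (Xsp K x u m hm 0 n) ∧
        finrank K (Lsp K x n 0) ≤ finrank K (Xsp K x u m hm n 0) := by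
  have hxi : Transcendental K x⁻¹ := by
    intro halg
    apply hx
    have := halg.inv
    rwa [inv_inv] at this
  have hfdi : FiniteDimensional K⟮x⁻¹⟯ F := by rw [adjoin_simple_inv_eq]; infer_instance
  have fin := finK_of (K := K) hx
  obtain ⟨n₁, hn₁⟩ := riemann_lower hFF hx hu hm hord
  obtain ⟨n₂, hn₂⟩ := riemann_lower hFF hxi hu hm hord
  refine ⟨max n₁ n₂, fun n hn => ?_⟩
  have hfX : ∀ a b, FiniteDimensional K (Xsp K x u m hm a b) := by
    intro a b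
    have := fin (m * a) (m * b)
    exact Xsp_finite hu
  constructor
  · obtain ⟨X, _, hX1, hX2⟩ := hn₂ n (le_trans (le_max_right _ _) hn)
    rw [Lsp_inv] at hX1
    refine le_trans hX1 ?_
    have := hfX 0 n
    apply Submodule.finrank_mono
    intro f hf
    have := hX2 f hf
    rw [Lsp_inv] at this
    rw [mem_Xsp, Nat.mul_zero]
    exact this
  · obtain ⟨X, _, hX1, hX2⟩ := hn₁ n (le_trans (le_max_left _ _) hn)
    refine le_trans hX1 ?_
    have := hfX n 0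
    apply Submodule.finrank_mono
    intro f hf
    have := hX2 f hf
    rw [mem_Xsp, Nat.mul_zero]
    exact this

/-- a ring endomorphism of `F` preserving `K` and fixing `y` preserves the integral closure of `K[y]`. -/
theorem map_mem_intRing (γ : F →+* F)
    (hγK : ∀ c : K, ∃ c' : K, γ (algebraMap K F c) = algebraMap K F c') {y : F} (hγy : γ y = y)
    {h : F} (hh : h ∈ intRing K y) : γ h ∈ intRing K y := by
  have hpoly : ∀ z ∈ polyRing K y, γ z ∈ polyRing K y := by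
    intro z hz
    induction hz using Algebra.adjoin_induction with
    | mem z hz =>
      rw [Set.mem_singleton_iff] at hz
      rw [hz, hγy]
      exact Algebra.subset_adjoin (Set.mem_singleton y)
    | algebraMap c =>
      obtain ⟨c', hc'⟩ := hγK c
      rw [hc']
      exact Subalgebra.algebraMap_mem _ c'
    | add a b _ _ ha hb => rw [map_add]; exact add_mem ha hb
    | mul a b _ _ ha hb => rw [map_mul]; exact mul_mem ha hb
  let φ : polyRing K y →+* polyRing K y :=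
    (γ.comp (polyRing K y).val.toRingHom).codRestrict (polyRing K y) (fun z => hpoly z z.2)
  have hint : IsIntegral (polyRing K y) h := hh
  exact IsIntegral.map_of_comp_eq φ γ (by ext z; rfl) hint

theorem map_mem_Xch (γ : F →+* F)
    (hγK : ∀ c : K, ∃ c' : K, γ (algebraMap K F c) = algebraMap K F c') {y : F} (hγy : γ y = y)
    {u g : F} {m : ℕ} {hm : 0 < m} (hg : g ∈ Xch K y u m hm) : γ g ∈ Xch K y (γ u) m hm := by
  have := map_mem_intRing γ hγK hγy (mem_Xch.1 hg)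
  rw [map_mul, map_pow] at this
  exact this

/-- **The abstract toric Kummer lemma, general (semilinear) form** (inputs DimRed, GOOD, ZC as hypotheses).
`θ` is a ring endomorphism of `F` preserving `K`, `V`, fixing `x`, inducing `θb` on the residue ring, and
`ξ (θb r) = (ξ r) ^ Q` for all possible nodes `ξ` (`Q` a power of the characteristic exponent of `k`; `Q = 1`,
`θb = id` for inertia; `Q = q²` for the square of a Frobenius lift).  Then `θ u / u ^ Q` is an `m`-th power for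
every `u ≡ 1` with `m ∣ div u`. -/
theorem toricKL_gen [IsAlgClosed K] [CharZero K] [IsAlgClosed k] (hFF : IsFF K F) {x : F}
    (hx : S.Coord x) (Z : NodalZ S x)
    (dimRed : ∀ W : Submodule K F, FiniteDimensional K W → finrank k (S.core.redSub W) = finrank K W)
    (finb : ∀ a b, FiniteDimensional k (S.Lbar x a b))
    (good : ∃ n₀, ∀ n, n₀ ≤ n → finrank k (S.Lbar x 0 n) ≤ finrank K (Lsp K x 0 n) ∧
        finrank k (S.Lbar x n 0) ≤ finrank K (Lsp K x n 0))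
    (constb : ∀ h ∈ S.Lbar x 0 0, ∃ c : k, h = algebraMap k R c)
    {m : ℕ} (hmk : (m : k) ≠ 0) (θ : F →+* F) (θb : R →+* R) (Q : ℕ)
    (hQ : ∀ a b : k, (a + b) ^ Q = a ^ Q + b ^ Q) (hQ0 : 0 < Q)
    (hθK : ∀ c : K, ∃ c' : K, θ (algebraMap K F c) = algebraMap K F c') (hθx : θ x = x)
    (hθV : ∀ f ∈ S.V, θ f ∈ S.V ∧ S.rd (θ f) = θb (S.rd f))
    (hθC : ∀ r ∈ Z.C0, θb r ∈ Z.C0)
    (hθξ : ∀ ξ ∈ Z.Ξ, ∀ (r : R) (hr : r ∈ Z.C0), ξ ⟨θb r, hθC r hr⟩ = ξ ⟨r, hr⟩ ^ Q)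
    {u : F} (huV : u ∈ S.V) (hu1 : S.rd u = 1)
    (hord : ∀ P : Place K F, (m : ℤ) ∣ P.ord u) (hord' : ∀ P : Place K F, (m : ℤ) ∣ P.ord (θ u)) :
    ∃ h : F, h ^ m = θ u / u ^ Q := by
  classical
  have hnt := S.nontrivial
  have hm : 0 < m := by
    rcases Nat.eq_zero_or_pos m with rfl | h
    · exact absurd Nat.cast_zero hmk
    · exact h
  have hxV := hx.mem
  have hxi := hx.inv_mem
  have hx0 := hx.ne_zero
  have hxt := hx.transK
  have := hx.fin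
  have finK := finK_of (K := K) hxt
  have hu0 : u ≠ 0 := by
    rintro rfl
    rw [S.rd_zero] at hu1
    exact zero_ne_one hu1
  have huU : IsUnit (S.rd u) := by rw [hu1]; exact isUnit_one
  have huiV : u⁻¹ ∈ S.V := S.inv_mem_of_isUnit_rd huV huU
  have hui1 : S.rd u⁻¹ = 1 := by
    have := S.rd_mul_rd_inv huU
    rwa [hu1, one_mul] at this
  have hui0 : u⁻¹ ≠ 0 := inv_ne_zero hu0
  have hordi : ∀ P : Place K F, (m : ℤ) ∣ P.ord u⁻¹ := by
    intro P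
    rw [P.ord_inv]
    exact (dvd_neg).2 (hord P)
  -- the class `v = θ u / u ^ Q`
  set v : F := θ u * u⁻¹ ^ Q with hv
  have hθu0 : θ u ≠ 0 := (map_ne_zero θ).2 hu0
  have hv0 : v ≠ 0 := mul_ne_zero hθu0 (pow_ne_zero _ hui0)
  have hvV : v ∈ S.V := mul_mem (hθV u huV).1 (pow_mem huiV Q)
  have hv1 : S.rd v = 1 := by
    rw [hv, S.rd_mul (hθV u huV).1 (pow_mem huiV Q), (hθV u huV).2, hu1, S.rd_pow huiV, hui1, map_one,
      one_pow, one_mul]
  have hordv : ∀ P : Place K F, (m : ℤ) ∣ P.ord v := by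
    intro P
    rw [hv, P.ord_mul hθu0 (pow_ne_zero _ hui0), Fermat.Agent.S24.ord_pow]
    exact dvd_add (hord' P) (Dvd.dvd.mul_left (hordi P) _)
  -- COUNT for `u`, `u⁻¹`, `v`
  have good0 : ∃ n₀, ∀ n, n₀ ≤ n → finrank k (S.Lbar x 0 n) ≤ finrank K (Lsp K x 0 n) := by
    obtain ⟨n₀, h⟩ := good
    exact ⟨n₀, fun n hn => (h n hn).1⟩
  obtain ⟨r₁, hr₁⟩ := riem_of hFF hxt hu0 hm hord
  obtain ⟨r₂, hr₂⟩ := riem_of hFF hxt hui0 hm hordi
  obtain ⟨r₃, hr₃⟩ := riem_of hFF hxt hv0 hm hordv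
  obtain ⟨n₃, hn₃⟩ := Z.count_all hxV hxi hx0 dimRed finK finb good0 hm hu0 huV hu1
    ⟨r₁, fun n hn => (hr₁ n hn).1⟩
  obtain ⟨n₄, hn₄⟩ := Z.count_all hxV hxi hx0 dimRed finK finb good0 hm hui0 huiV hui1
    ⟨r₂, fun n hn => (hr₂ n hn).1⟩
  obtain ⟨n₅, hn₅⟩ := Z.count_all hxV hxi hx0 dimRed finK finb good0 hm hv0 hvV hv1
    ⟨r₃, fun n hn => (hr₃ n hn).1⟩
  -- INV∞ for `v`
  obtain ⟨f1, hf1V, hf11, hf1X⟩ := Z.exists_invInf' hxV hxi hx0 hm (u := v) (n := n₅ + 1)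
    (Nat.succ_pos _) (S.core.redSub (Xsp K x v m hm 0 (n₅ + 1))) (fun r hr => hr)
    (fun r hr hr' hξ => (hn₅ (n₅ + 1) (Nat.le_succ _)).1 r hr hr' hξ)
  -- INV₀ for `u`
  obtain ⟨ι, _, g, h, hg, hh, hsum⟩ := Z.exists_inv0' hxi hx0 hm hu0
    ⟨n₃, fun n hn => (hn₃ n hn).1⟩ ⟨n₄, fun n hn => (hn₄ n hn).1⟩
    (fun ξ hξ => ⟨n₃, (hn₃ n₃ le_rfl).2 ξ hξ⟩) (fun ξ hξ => ⟨n₄, (hn₄ n₄ le_rfl).2 ξ hξ⟩)
  -- reductions of sections lie in `C₀`
  have hC : ∀ (w f : F), w ∈ S.V → S.rd w = 1 → f ∈ S.V → w * f ^ m ∈ intRing K x → S.rd f ∈ Z.C0 := by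
    intro w f hwV hw1 hfV hf
    apply Z.root0 _ m hm
    apply Z.chart_le
    refine S.mem_chart.2 ⟨w * f ^ m, hf, mul_mem hwV (pow_mem hfV m), ?_⟩
    rw [S.rd_mul hwV (pow_mem hfV m), hw1, one_mul, S.rd_pow hfV]
  have hgC : ∀ i, S.rd (g i) ∈ Z.C0 := fun i => hC u (g i) huV hu1 (hg i).1 (hg i).2
  have hhC : ∀ i, S.rd (h i) ∈ Z.C0 := fun i => hC u⁻¹ (h i) huiV hui1 (hh i).1 (hh i).2
  -- a section of `X_v` which is `1` at all possible nodes
  set f0' : F := ∑ i, θ (g i) * h i ^ Q with hf0'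
  have hpowX : ∀ i, h i ^ Q ∈ Xch K x (u⁻¹ ^ Q) m hm := by
    intro i
    rw [mem_Xch]
    have := pow_mem (hh i).2 Q
    convert this using 1
    rw [mul_pow, ← pow_mul, ← pow_mul, mul_comm Q m]
  have hf0'X : f0' ∈ Xch K x v m hm :=
    sum_mem fun i _ => Xch_mul (map_mem_Xch θ hθK hθx (hm := hm) (hg i).2) (hpowX i)
  have hf0'mem : ∀ i ∈ Finset.univ, θ (g i) * h i ^ Q ∈ S.V :=
    fun i _ => mul_mem (hθV _ (hg i).1).1 (pow_mem (hh i).1 Q)
  have hf0'V : f0' ∈ S.V := sum_mem hf0'mem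
  have hf0'rd : S.rd f0' = ∑ i, θb (S.rd (g i)) * S.rd (h i) ^ Q := by
    rw [hf0', S.rd_sum _ _ hf0'mem]
    refine Finset.sum_congr rfl fun i _ => ?_
    rw [S.rd_mul (hθV _ (hg i).1).1 (pow_mem (hh i).1 Q), (hθV _ (hg i).1).2, S.rd_pow (hh i).1]
  have hρC : S.rd f0' ∈ Z.C0 := hC v f0' hvV hv1 hf0'V hf0'X
  have hsumQ : ∀ (s : Finset ι) (a : ι → k), (∑ i ∈ s, a i) ^ Q = ∑ i ∈ s, a i ^ Q := by
    intro s a
    induction s using Finset.induction_on with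
    | empty => simp [zero_pow hQ0.ne']
    | insert j s hj ih => rw [Finset.sum_insert hj, Finset.sum_insert hj, hQ, ih]
  have hρξ : ∀ ξ ∈ Z.Ξ, ξ ⟨S.rd f0', hρC⟩ = 1 := by
    intro ξ hξ
    have e1 : (⟨S.rd f0', hρC⟩ : Z.C0) =
        ∑ i, (⟨θb (S.rd (g i)), hθC _ (hgC i)⟩ : Z.C0) * (⟨S.rd (h i), hhC i⟩ : Z.C0) ^ Q := by
      apply Subtype.ext
      show S.rd f0' = _
      rw [hf0'rd]
      simp
    have e2 : (1 : Z.C0) = ∑ i, (⟨S.rd (g i), hgC i⟩ : Z.C0) * (⟨S.rd (h i), hhC i⟩ : Z.C0) := by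
      apply Subtype.ext
      simp [hsum]
    have e3 : (1 : k) = ∑ i, ξ ⟨S.rd (g i), hgC i⟩ * ξ ⟨S.rd (h i), hhC i⟩ := by
      rw [← map_one ξ, e2, map_sum]
      exact Finset.sum_congr rfl fun i _ => map_mul ξ _ _
    rw [e1, map_sum]
    have e4 : ∀ i ∈ Finset.univ, ξ ((⟨θb (S.rd (g i)), hθC _ (hgC i)⟩ : Z.C0) *
        (⟨S.rd (h i), hhC i⟩ : Z.C0) ^ Q) =
        (ξ ⟨S.rd (g i), hgC i⟩ * ξ ⟨S.rd (h i), hhC i⟩) ^ Q := by
      intro i _
      rw [map_mul, map_pow, hθξ ξ hξ _ (hgC i), mul_pow]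
    rw [Finset.sum_congr rfl e4, ← hsumQ, ← e3, one_pow]
  -- correct it by an element of `𝔣₀`
  have h1C : (1 : R) - S.rd f0' ∈ Z.C0 := sub_mem (one_mem _) hρC
  have h1ξ : ∀ ξ ∈ Z.Ξ, ξ ⟨1 - S.rd f0', h1C⟩ = 0 := by
    intro ξ hξ
    have e : (⟨1 - S.rd f0', h1C⟩ : Z.C0) = 1 - ⟨S.rd f0', hρC⟩ := rfl
    rw [e, map_sub, map_one, hρξ ξ hξ, sub_self]
  have h1B : (1 : R) - S.rd f0' ∈ S.chart x := Z.nod ⟨_, h1C⟩ h1ξ
  obtain ⟨n₆, hn₆⟩ := S.exists_mem_Lbar_of_mem_chart hx0 hxi h1B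
  obtain ⟨g', hg'X, hg'V, hg'rd⟩ := (hn₅ (max n₅ n₆) (le_max_left _ _)).1 _
    (S.Lbar_mono_right hxi 0 (le_max_right _ _) hn₆) h1C h1ξ
  have hg'X' : g' ∈ Xch K x v m hm := by
    have := pow_mul_mem_Xch_of_Xsp hg'X
    rwa [pow_zero, one_mul] at this
  set f0 : F := f0' + g' with hf0
  have hf0X : f0 ∈ Xch K x v m hm := add_mem hf0'X hg'X'
  have hf0V : f0 ∈ S.V := add_mem hf0'V hg'V
  have hf01 : S.rd f0 = 1 := by
    rw [hf0, S.rd_add hf0'V hg'V, hg'rd]; ring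
  obtain ⟨h', hh'0, c, hc⟩ := core_dim2_Lbar S.core hxV hxi dimRed
    (fun h hh => const_of_mem_Lsp (finK 0 0) hh)
    (fun h hh => constb h (by rwa [S.core_Lbar] at hh))
    finK (fun a b => by rw [S.core_Lbar]; exact finb a b)
    (by
      obtain ⟨n₀, hn₀⟩ := good
      refine ⟨n₀, fun n hn => ?_⟩
      rw [S.core_Lbar, S.core_Lbar]
      exact hn₀ n hn)
    hm hmk hv0 hvV hv1 hf0X hf0V hf01 (f1 := f1) hf1X hf1V hf11 ⟨r₃, hr₃⟩
  obtain ⟨d, hd⟩ := IsAlgClosed.exists_pow_nat_eq c hm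
  refine ⟨algebraMap K F d * h'⁻¹, ?_⟩
  rw [mul_pow, ← map_pow, hd, ← hc, inv_pow, mul_assoc, mul_inv_cancel₀ (pow_ne_zero _ hh'0), mul_one,
    hv, div_eq_mul_inv, inv_pow]

/-- **The abstract toric Kummer lemma** (inertia form: `γ` induces the identity on the residue ring). -/
theorem toricKL_of [IsAlgClosed K] [CharZero K] [IsAlgClosed k] (hFF : IsFF K F) {x : F}
    (hx : S.Coord x) (Z : NodalZ S x)
    (dimRed : ∀ W : Submodule K F, FiniteDimensional K W → finrank k (S.core.redSub W) = finrank K W)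
    (finb : ∀ a b, FiniteDimensional k (S.Lbar x a b))
    (good : ∃ n₀, ∀ n, n₀ ≤ n → finrank k (S.Lbar x 0 n) ≤ finrank K (Lsp K x 0 n) ∧
        finrank k (S.Lbar x n 0) ≤ finrank K (Lsp K x n 0))
    (constb : ∀ h ∈ S.Lbar x 0 0, ∃ c : k, h = algebraMap k R c)
    {m : ℕ} (hmk : (m : k) ≠ 0) (γ : F →+* F)
    (hγK : ∀ c : K, ∃ c' : K, γ (algebraMap K F c) = algebraMap K F c') (hγx : γ x = x)
    (hγV : ∀ f ∈ S.V, γ f ∈ S.V ∧ S.rd (γ f) = S.rd f)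
    {u : F} (huV : u ∈ S.V) (hu1 : S.rd u = 1)
    (hord : ∀ P : Place K F, (m : ℤ) ∣ P.ord u) (hord' : ∀ P : Place K F, (m : ℤ) ∣ P.ord (γ u)) :
    ∃ h : F, h ^ m = γ u / u := by
  have := toricKL_gen hFF hx Z dimRed finb good constb hmk γ (RingHom.id R) 1
    (fun a b => by simp) Nat.one_pos hγK hγx hγV (fun r hr => hr) (fun ξ _ r hr => by simp)
    huV hu1 hord hord'
  simpa using this

/-! ## The final forms: all abstract inputs (DimRed, GOOD, ZC) discharged -/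

theorem NSetting.core_redSub (S : NSetting K F k R) (W : Submodule K F) :
    S.core.redSub W = S.redSub W := by
  ext r
  exact Iff.rfl

/-- the four abstract inputs of `toricKL_gen`, from `Coord` and rank one of `A`. -/
theorem NSetting.inputs [IsAlgClosed K] [CharZero K] [IsAlgClosed k] [IsReduced R] (S : NSetting K F k R) {x : F}
    (hx : S.Coord x)
    (arch : ∀ c : K, c ∈ S.A → c⁻¹ ∉ S.A → ∀ c0 : K, c0 ≠ 0 → ∃ n : ℕ, c ^ n * c0⁻¹ ∈ S.A) :
    (∀ W : Submodule K F, FiniteDimensional K W → finrank k (S.core.redSub W) = finrank K W) ∧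
    (∀ a b, FiniteDimensional k (S.Lbar x a b)) ∧
    (∃ n₀, ∀ n, n₀ ≤ n → finrank k (S.Lbar x 0 n) ≤ finrank K (Lsp K x 0 n) ∧
        finrank k (S.Lbar x n 0) ≤ finrank K (Lsp K x n 0)) ∧
    (∀ h ∈ S.Lbar x 0 0, ∃ c : k, h = algebraMap k R c) := by
  have hnt := S.nontrivial
  have hxV := hx.mem
  have hxi := hx.inv_mem
  have hx0 := hx.ne_zero
  have hxt := hx.transK
  have := hx.fin
  have finK := finK_of (K := K) hxt
  have dimRed : ∀ W : Submodule K F, FiniteDimensional K W →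
      finrank k (S.core.redSub W) = finrank K W := by
    intro W hW
    rw [S.core_redSub]
    exact S.finrank_redSub hx W
  have finb : ∀ a b, FiniteDimensional k (S.Lbar x a b) := fun a b => hx.finb a b
  obtain ⟨c, hbd⟩ := hx.hbd
  have good : ∃ n₀, ∀ n, n₀ ≤ n → finrank k (S.Lbar x 0 n) ≤ finrank K (Lsp K x 0 n) ∧
        finrank k (S.Lbar x n 0) ≤ finrank K (Lsp K x n 0) := by
    obtain ⟨n₀, hn₀⟩ := S.good_finrank hx0 hxV hxi finK (fun a => finb a 0) c hbd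
    exact ⟨n₀, fun n hn => ⟨hn₀ 0 n (by omega), hn₀ n 0 (by omega)⟩⟩
  refine ⟨dimRed, finb, good, ?_⟩
  have H : S.core.ZCHyp x (LB (S.core.redAlg (chartAlg K x)) (S.core.redAlg (chartAlg K x⁻¹))
      (S.core.rd x) (S.core.rd x⁻¹)) :=
    RedCore.ZCHyp.of_LB (S.core.rd_self_mem hxV) (S.core.rd_self_mem hxi)
      (S.core.rd_mem_Lbar hxV hxi) dimRed (fun h hh => const_of_mem_Lsp (finK 0 0) hh) finK
      (fun a b => by
        have := finb a b
        rw [← S.core_Lbar] at this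
        exact this)
  have hc := RedCore.constb_LB H
    (by
      obtain ⟨n₀, hn₀⟩ := good
      refine ⟨n₀, fun n hn => ?_⟩
      have := hn₀ n hn
      rw [← S.core_Lbar, ← S.core_Lbar] at this
      exact this) arch
  intro h hh
  rw [← S.core_Lbar] at hh
  exact hc h hh

/-- **The abstract toric Kummer lemma, semilinear `Q`-power form, final version.** -/
theorem toricKL_gen' [IsAlgClosed K] [CharZero K] [IsAlgClosed k] [IsReduced R] (hFF : IsFF K F)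
    {x : F} (hx : S.Coord x) (Z : NodalZ S x)
    (arch : ∀ c : K, c ∈ S.A → c⁻¹ ∉ S.A → ∀ c0 : K, c0 ≠ 0 → ∃ n : ℕ, c ^ n * c0⁻¹ ∈ S.A)
    {m : ℕ} (hmk : (m : k) ≠ 0) (θ : F →+* F) (θb : R →+* R) (Q : ℕ)
    (hQ : ∀ a b : k, (a + b) ^ Q = a ^ Q + b ^ Q) (hQ0 : 0 < Q)
    (hθK : ∀ c : K, ∃ c' : K, θ (algebraMap K F c) = algebraMap K F c') (hθx : θ x = x)
    (hθV : ∀ f ∈ S.V, θ f ∈ S.V ∧ S.rd (θ f) = θb (S.rd f))
    (hθC : ∀ r ∈ Z.C0, θb r ∈ Z.C0)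
    (hθξ : ∀ ξ ∈ Z.Ξ, ∀ (r : R) (hr : r ∈ Z.C0), ξ ⟨θb r, hθC r hr⟩ = ξ ⟨r, hr⟩ ^ Q)
    {u : F} (huV : u ∈ S.V) (hu1 : S.rd u = 1)
    (hord : ∀ P : Place K F, (m : ℤ) ∣ P.ord u) (hord' : ∀ P : Place K F, (m : ℤ) ∣ P.ord (θ u)) :
    ∃ h : F, h ^ m = θ u / u ^ Q := by
  obtain ⟨dimRed, finb, good, constb⟩ := S.inputs hx arch
  exact toricKL_gen hFF hx Z dimRed finb good constb hmk θ θb Q hQ hQ0 hθK hθx hθV hθC hθξ huV hu1
    hord hord'

/-- **The abstract toric Kummer lemma, inertia form, final version.** -/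
theorem toricKL [IsAlgClosed K] [CharZero K] [IsAlgClosed k] [IsReduced R] (hFF : IsFF K F)
    {x : F} (hx : S.Coord x) (Z : NodalZ S x)
    (arch : ∀ c : K, c ∈ S.A → c⁻¹ ∉ S.A → ∀ c0 : K, c0 ≠ 0 → ∃ n : ℕ, c ^ n * c0⁻¹ ∈ S.A)
    {m : ℕ} (hmk : (m : k) ≠ 0) (γ : F →+* F)
    (hγK : ∀ c : K, ∃ c' : K, γ (algebraMap K F c) = algebraMap K F c') (hγx : γ x = x)
    (hγV : ∀ f ∈ S.V, γ f ∈ S.V ∧ S.rd (γ f) = S.rd f)
    {u : F} (huV : u ∈ S.V) (hu1 : S.rd u = 1)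
    (hord : ∀ P : Place K F, (m : ℤ) ∣ P.ord u) (hord' : ∀ P : Place K F, (m : ℤ) ∣ P.ord (γ u)) :
    ∃ h : F, h ^ m = γ u / u := by
  obtain ⟨dimRed, finb, good, constb⟩ := S.inputs hx arch
  exact toricKL_of hFF hx Z dimRed finb good constb hmk γ hγK hγx hγV huV hu1 hord hord'

end Fermat.Agent.S34
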