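import Mathlib

/-!
# S34: KEY 1 (seminormality for free), abstract part

* `Xi.isRadical_of_pow`: if `C ⧸ g` is Noetherian and every element of `C` is an `e`-th power mod `g`
  (`e ≥ 2`), then `g` is a radical ideal.
* `Xi.exists_characters`: a radical ideal `g` with `C ⧸ g` finite dimensional over an algebraically closed
  field `k` is the intersection of the kernels of finitely many `k`-points.
* `Xi.exists_Xi`: the product version used for `NodalZ`.
-/

set_option autoImplicit false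

namespace Fermat.Agent.S34.Xi

open Polynomial

theorem isRadical_of_pow {C : Type*} [CommRing C] (g : Ideal C) [IsNoetherianRing (C ⧸ g)]
    {e : ℕ} (he : 2 ≤ e) (hpow : ∀ a : C, ∃ b : C, a - b ^ e ∈ g) : g.IsRadical := by
  rw [Ideal.isRadical_iff_quotient_reduced]
  obtain ⟨n, hn⟩ := IsNoetherianRing.isNilpotent_nilradical (C ⧸ g)
  have hpow' : ∀ a : C ⧸ g, ∃ b : C ⧸ g, a = b ^ e := by
    intro a
    obtain ⟨a, rfl⟩ := Ideal.Quotient.mk_surjective a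
    obtain ⟨b, hb⟩ := hpow a
    refine ⟨Ideal.Quotient.mk g b, ?_⟩
    rw [← map_pow]
    exact Ideal.Quotient.eq.2 hb
  have key : ∀ j : ℕ, ∀ a ∈ nilradical (C ⧸ g), a ∈ nilradical (C ⧸ g) ^ (j + 1) := by
    intro j
    induction j with
    | zero => intro a ha; simpa using ha
    | succ j ih =>
      intro a ha
      obtain ⟨b, rfl⟩ := hpow' a
      have hb : b ∈ nilradical (C ⧸ g) := by
        rw [mem_nilradical] at ha ⊢
        exact IsNilpotent.of_pow ha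
      have h1 := Ideal.pow_mem_pow (ih b hb) e
      rw [← pow_mul] at h1
      refine Ideal.pow_le_pow_right ?_ h1
      nlinarith
  constructor
  intro a ha
  have h1 := key n a (mem_nilradical.2 ha)
  rw [pow_succ, hn] at h1
  simpa using h1

theorem isRadical_of_pow_of_finite (k : Type*) {C : Type*} [Field k] [CommRing C] [Algebra k C]
    (g : Ideal C) [Module.Finite k (C ⧸ g)]
    {e : ℕ} (he : 2 ≤ e) (hpow : ∀ a : C, ∃ b : C, a - b ^ e ∈ g) : g.IsRadical := by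
  have : IsNoetherianRing (C ⧸ g) := IsNoetherianRing.of_finite k _
  exact isRadical_of_pow g he hpow

theorem exists_characters {k C : Type*} [Field k] [IsAlgClosed k] [CommRing C] [Algebra k C]
    (g : Ideal C) [Module.Finite k (C ⧸ g)] (hg : g.IsRadical) :
    ∃ Ξ : Finset (C →ₐ[k] k), (∀ ξ ∈ Ξ, ∀ a ∈ g, ξ a = 0) ∧ ∀ r, (∀ ξ ∈ Ξ, ξ r = 0) → r ∈ g := by
  classical
  have hred : IsReduced (C ⧸ g) := (Ideal.isRadical_iff_quotient_reduced g).1 hg
  have hart : IsArtinianRing (C ⧸ g) := IsArtinianRing.of_finite k (C ⧸ g)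
  have := Fintype.ofFinite ((C ⧸ g) →ₐ[k] k)
  refine ⟨Finset.univ.image fun ξ : (C ⧸ g) →ₐ[k] k => ξ.comp (Ideal.Quotient.mkₐ k g), ?_, ?_⟩
  · intro ξ hξ a ha
    obtain ⟨ξ', -, rfl⟩ := Finset.mem_image.1 hξ
    have : Ideal.Quotient.mk g a = 0 := Ideal.Quotient.eq_zero_iff_mem.2 ha
    simp [this]
  · intro r hr
    rw [← Ideal.Quotient.eq_zero_iff_mem]
    have h1 : Ideal.Quotient.mk g r ∈ (⊥ : Ideal (C ⧸ g)).jacobson := by
      rw [Ideal.jacobson, Ideal.mem_sInf]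
      rintro m ⟨-, hm⟩
      have : Module.Finite k ((C ⧸ g) ⧸ m) := Module.Finite.quotient k m
      have hbij : Function.Bijective (algebraMap k ((C ⧸ g) ⧸ m)) :=
        IsAlgClosed.algebraMap_bijective_of_isIntegral
      let ε : k ≃ₐ[k] ((C ⧸ g) ⧸ m) := AlgEquiv.ofBijective (Algebra.ofId k _) hbij
      let ξ' : (C ⧸ g) →ₐ[k] k := (ε.symm : ((C ⧸ g) ⧸ m) →ₐ[k] k).comp (Ideal.Quotient.mkₐ k m)
      have h2 := hr (ξ'.comp (Ideal.Quotient.mkₐ k g)) (Finset.mem_image.2 ⟨ξ', Finset.mem_univ _, rfl⟩)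
      have h3 : ε.symm (Ideal.Quotient.mk m (Ideal.Quotient.mk g r)) = 0 := h2
      rw [map_eq_zero_iff _ ε.symm.injective] at h3
      exact Ideal.Quotient.eq_zero_iff_mem.1 h3
    rw [IsArtinianRing.jacobson_eq_radical] at h1
    have h2 : IsNilpotent (Ideal.Quotient.mk g r) := by
      obtain ⟨n, hn⟩ := h1
      exact ⟨n, by simpa using hn⟩
    exact h2.eq_zero

/-- finite dimensionality of `C ⧸ g` when `C = ∑ k[y] o_i` and `y ^ e - y ∈ g`. -/
theorem finite_quotient {k C ι : Type*} [Field k] [CommRing C] [Algebra k C] [Fintype ι]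
    (g : Ideal C) (y : C) (o : ι → C) {e : ℕ} (he : 2 ≤ e) (hy : y ^ e - y ∈ g)
    (hspan : ∀ a : C, ∃ p : ι → k[X], a = ∑ i, aeval y (p i) * o i) :
    Module.Finite k (C ⧸ g) := by
  classical
  let T : Finset (C ⧸ g) := (Finset.univ : Finset (ι × Fin e)).image
    fun ij => Ideal.Quotient.mk g (y ^ (ij.2 : ℕ) * o ij.1)
  have hmon : ∀ (i : ι) (n : ℕ), Ideal.Quotient.mk g (y ^ n * o i) ∈ Submodule.span k (T : Set (C ⧸ g)) := by
    intro i n
    induction n using Nat.strong_induction_on with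
    | _ n ih =>
      by_cases hn : n < e
      · exact Submodule.subset_span (Finset.mem_coe.2 (Finset.mem_image.2 ⟨(i, ⟨n, hn⟩), Finset.mem_univ _, rfl⟩))
      · obtain ⟨n', rfl⟩ : ∃ n', n = e + n' := ⟨n - e, by omega⟩
        have h1 : Ideal.Quotient.mk g (y ^ (e + n') * o i) = Ideal.Quotient.mk g (y ^ (n' + 1) * o i) := by
          rw [Ideal.Quotient.eq]
          have : y ^ (e + n') * o i - y ^ (n' + 1) * o i = (y ^ e - y) * (y ^ n' * o i) := by ring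
          rw [this]
          exact g.mul_mem_right _ hy
        rw [h1]
        exact ih _ (by omega)
  have hpoly : ∀ (i : ι) (p : k[X]),
      Ideal.Quotient.mk g (aeval y p * o i) ∈ Submodule.span k (T : Set (C ⧸ g)) := by
    intro i p
    induction p using Polynomial.induction_on' with
    | add p q hp hq =>
      rw [map_add, add_mul, map_add]
      exact add_mem hp hq
    | monomial n c =>
      have : Ideal.Quotient.mk g (aeval y (monomial n c) * o i) =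
          c • Ideal.Quotient.mk g (y ^ n * o i) := by
        rw [aeval_monomial, mul_assoc, ← Algebra.smul_def]
        rfl
      rw [this]
      exact Submodule.smul_mem _ _ (hmon i n)
  refine ⟨⟨T, ?_⟩⟩
  rw [eq_top_iff]
  rintro a -
  obtain ⟨a, rfl⟩ := Ideal.Quotient.mk_surjective a
  obtain ⟨p, rfl⟩ := hspan a
  rw [map_sum]
  exact Submodule.sum_mem _ fun i _ => hpoly i (p i)

/-- **KEY 1.**  `C'` a `k`-subalgebra of `E` (the normal chart of one component), `C₀ = C' × C'`, `B` a subring of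
`E × E` containing the graph of `Fr` and its transpose over `C'`; `Fr² a` is an `e`-th power in `C'`, `C' = ∑ k[y] o_i`,
`Fr² y = y ^ e`.  Then there is a finite set `Ξ` of `k`-points of `C₀` with `⋂ ker ξ ⊆ B`, and all `ξ ∈ Ξ` are
`Fr²`-invariant. -/
theorem exists_Xi {k E : Type*} [Field k] [IsAlgClosed k] [CommRing E] [Algebra k E]
    (C' : Subalgebra k E) (B : Subring (E × E)) (Fr : E → E) {e : ℕ} (he : 2 ≤ e)
    (hFrC : ∀ a ∈ C', Fr a ∈ C')
    (h1 : ∀ a ∈ C', (a, Fr a) ∈ B) (h2 : ∀ a ∈ C', (Fr a, a) ∈ B)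
    (hpow : ∀ a ∈ C', ∃ b ∈ C', Fr (Fr a) = b ^ e)
    {μ : ℕ} (o : Fin μ → E) (y : E) (hy : y ∈ C') (hyFr : Fr (Fr y) = y ^ e)
    (ho : ∀ i, o i ∈ C')
    (hspan : ∀ a ∈ C', ∃ p : Fin μ → k[X], a = ∑ i, aeval y (p i) * o i) :
    ∃ Ξ : Finset ((C'.prod C') →ₐ[k] k),
      (∀ r : C'.prod C', (∀ ξ ∈ Ξ, ξ r = 0) → (r : E × E) ∈ B) ∧
      (∀ ξ ∈ Ξ, ∀ (a₁ a₂ : E) (ha₁ : a₁ ∈ C') (ha₂ : a₂ ∈ C'),
        ξ ⟨(Fr (Fr a₁), Fr (Fr a₂)), Subalgebra.mem_prod.2 ⟨hFrC _ (hFrC _ ha₁), hFrC _ (hFrC _ ha₂)⟩⟩ =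
          ξ ⟨(a₁, a₂), Subalgebra.mem_prod.2 ⟨ha₁, ha₂⟩⟩) := by
  classical
  have hF2 : ∀ a ∈ C', Fr (Fr a) ∈ C' := fun a ha => hFrC _ (hFrC _ ha)
  let gen1 : C' → C'.prod C' := fun a =>
    ⟨((a : E) - Fr (Fr a), 0), Subalgebra.mem_prod.2 ⟨sub_mem a.2 (hF2 _ a.2), zero_mem _⟩⟩
  let gen2 : C' → C'.prod C' := fun a =>
    ⟨(0, (a : E) - Fr (Fr a)), Subalgebra.mem_prod.2 ⟨zero_mem _, sub_mem a.2 (hF2 _ a.2)⟩⟩
  let I : Ideal (C'.prod C') := Ideal.span (Set.range gen1 ∪ Set.range gen2)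
  have hg1 : ∀ a, gen1 a ∈ I := fun a => Ideal.subset_span (Or.inl ⟨a, rfl⟩)
  have hg2 : ∀ a, gen2 a ∈ I := fun a => Ideal.subset_span (Or.inr ⟨a, rfl⟩)
  -- `I ⊆ B`
  have hIB : ∀ r ∈ I, ∀ c : C'.prod C', ((c * r : C'.prod C') : E × E) ∈ B := by
    intro r hr
    induction hr using Submodule.span_induction with
    | mem r hr =>
      intro c
      have hc := Subalgebra.mem_prod.1 c.2
      rcases hr with ⟨a, rfl⟩ | ⟨a, rfl⟩
      · have e1 : ((c * gen1 a : C'.prod C') : E × E) =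
            ((c : E × E).1, Fr (c : E × E).1) * (((a : E), Fr a) - (Fr (Fr a), Fr a)) := by
          ext <;> simp [gen1]
        rw [e1]
        exact mul_mem (h1 _ hc.1) (sub_mem (h1 _ a.2) (h2 _ (hFrC _ a.2)))
      · have e1 : ((c * gen2 a : C'.prod C') : E × E) =
            (Fr (c : E × E).2, (c : E × E).2) * ((Fr a, (a : E)) - (Fr a, Fr (Fr a))) := by
          ext <;> simp [gen2]
        rw [e1]
        exact mul_mem (h2 _ hc.2) (sub_mem (h2 _ a.2) (h1 _ (hFrC _ a.2)))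
    | zero => intro c; simp [zero_mem]
    | add r s _ _ hr hs =>
      intro c
      rw [mul_add]
      exact add_mem (hr c) (hs c)
    | smul d r _ hr =>
      intro c
      rw [smul_eq_mul, ← mul_assoc]
      exact hr _
  -- the difference `a - Fr² a` lies in `I`
  have hdiff : ∀ (a₁ a₂ : E) (ha₁ : a₁ ∈ C') (ha₂ : a₂ ∈ C'),
      (⟨(a₁, a₂), Subalgebra.mem_prod.2 ⟨ha₁, ha₂⟩⟩ : C'.prod C') -
        ⟨(Fr (Fr a₁), Fr (Fr a₂)), Subalgebra.mem_prod.2 ⟨hF2 _ ha₁, hF2 _ ha₂⟩⟩ ∈ I := by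
    intro a₁ a₂ ha₁ ha₂
    have : (⟨(a₁, a₂), Subalgebra.mem_prod.2 ⟨ha₁, ha₂⟩⟩ : C'.prod C') -
        ⟨(Fr (Fr a₁), Fr (Fr a₂)), Subalgebra.mem_prod.2 ⟨hF2 _ ha₁, hF2 _ ha₂⟩⟩ =
        gen1 ⟨a₁, ha₁⟩ + gen2 ⟨a₂, ha₂⟩ := by
      apply Subtype.ext
      ext <;> simp [gen1, gen2]
    rw [this]
    exact add_mem (hg1 _) (hg2 _)
  -- finiteness
  have hfin : Module.Finite k ((C'.prod C') ⧸ I) := by
    let yD : C'.prod C' := ⟨(y, y), Subalgebra.mem_prod.2 ⟨hy, hy⟩⟩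
    let oD : Fin μ ⊕ Fin μ → C'.prod C' := fun i => match i with
      | Sum.inl i => ⟨(o i, 0), Subalgebra.mem_prod.2 ⟨ho i, zero_mem _⟩⟩
      | Sum.inr i => ⟨(0, o i), Subalgebra.mem_prod.2 ⟨zero_mem _, ho i⟩⟩
    have haev : ∀ p : k[X], ((aeval yD p : C'.prod C') : E × E) = (aeval y p, aeval y p) := by
      intro p
      rw [Polynomial.aeval_subalgebra_coe]
      ext
      · exact (Polynomial.aeval_algHom_apply (AlgHom.fst k E E) ((y, y) : E × E) p).symm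
      · exact (Polynomial.aeval_algHom_apply (AlgHom.snd k E E) ((y, y) : E × E) p).symm
    refine finite_quotient I yD oD he ?_ ?_
    · have h3 := hdiff y y hy hy
      have : yD ^ e - yD = -((⟨(y, y), Subalgebra.mem_prod.2 ⟨hy, hy⟩⟩ : C'.prod C') -
          ⟨(Fr (Fr y), Fr (Fr y)), Subalgebra.mem_prod.2 ⟨hF2 _ hy, hF2 _ hy⟩⟩) := by
        apply Subtype.ext
        ext <;> simp [yD, hyFr]
      rw [this]
      exact neg_mem h3
    · intro a
      have ha := Subalgebra.mem_prod.1 a.2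
      obtain ⟨p, hp⟩ := hspan _ ha.1
      obtain ⟨p', hp'⟩ := hspan _ ha.2
      refine ⟨fun i => match i with | Sum.inl i => p i | Sum.inr i => p' i, ?_⟩
      apply Subtype.ext
      rw [Fintype.sum_sum_type]
      simp only [Subalgebra.coe_add, AddSubmonoidClass.coe_finsetSum, Subalgebra.coe_mul, haev, oD]
      ext
      · simp [Prod.fst_sum, ← hp]
      · simp [Prod.snd_sum, ← hp']
  have hrad : I.IsRadical := by
    refine isRadical_of_pow_of_finite k I he ?_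
    intro a
    have ha := Subalgebra.mem_prod.1 a.2
    obtain ⟨b₁, hb₁, hb₁'⟩ := hpow _ ha.1
    obtain ⟨b₂, hb₂, hb₂'⟩ := hpow _ ha.2
    refine ⟨⟨(b₁, b₂), Subalgebra.mem_prod.2 ⟨hb₁, hb₂⟩⟩, ?_⟩
    have h3 := hdiff _ _ ha.1 ha.2
    convert h3 using 1
    apply Subtype.ext
    ext <;> simp [hb₁', hb₂']
  obtain ⟨Ξ, hΞ1, hΞ2⟩ := exists_characters (k := k) I hrad
  refine ⟨Ξ, ?_, ?_⟩
  · intro r hr
    have := hIB r (hΞ2 r hr) 1
    simpa using this
  · intro ξ hξ a₁ a₂ ha₁ ha₂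
    have := hΞ1 ξ hξ _ (hdiff a₁ a₂ ha₁ ha₂)
    rw [map_sub, sub_eq_zero] at this
    exact this.symm

/-- **`zero` field of `NodalZ`.**  `s_j = t^j w` (`w = 1/π(t)`, `deg π = e + 1`), `j ≤ e + 1`, are regular on the chart and
`ξ (s_j) ^ e = ξ (s_j)` ("`ξ` is an `𝔽_e`-point").  Then `ξ ((t^e - t) w) = 0`. -/
theorem xi_zero {k R : Type*} [Field k] [CommRing R] [Algebra k R] (C0 : Subalgebra k R)
    (ξ : C0 →ₐ[k] k) (t w : R) {e : ℕ} (he : 1 ≤ e)
    (hs : ∀ j ≤ e + 1, t ^ j * w ∈ C0)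
    (hξ : ∀ j (hj : j ≤ e + 1), ξ ⟨_, hs j hj⟩ ^ e = ξ ⟨_, hs j hj⟩)
    (hmem : t ^ e * w - t * w ∈ C0) :
    ξ ⟨t ^ e * w - t * w, hmem⟩ = 0 := by
  have hmul : ∀ (a b c d : ℕ) (ha : a ≤ e + 1) (hb : b ≤ e + 1) (hc : c ≤ e + 1) (hd : d ≤ e + 1),
      a + b = c + d → ξ ⟨_, hs a ha⟩ * ξ ⟨_, hs b hb⟩ = ξ ⟨_, hs c hc⟩ * ξ ⟨_, hs d hd⟩ := by
    intro a b c d ha hb hc hd h
    rw [← map_mul, ← map_mul]
    congr 1
    apply Subtype.ext
    show t ^ a * w * (t ^ b * w) = t ^ c * w * (t ^ d * w)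
    have : t ^ a * t ^ b = t ^ c * t ^ d := by rw [← pow_add, ← pow_add, h]
    calc t ^ a * w * (t ^ b * w) = (t ^ a * t ^ b) * (w * w) := by ring
      _ = (t ^ c * t ^ d) * (w * w) := by rw [this]
      _ = _ := by ring
  have hsub : ξ ⟨t ^ e * w - t * w, hmem⟩ = ξ ⟨_, hs e (by omega)⟩ - ξ ⟨_, hs 1 (by omega)⟩ := by
    rw [← map_sub]
    congr 1
    apply Subtype.ext
    show t ^ e * w - t * w = t ^ e * w - t ^ 1 * w
    rw [pow_one]
  rw [hsub]
  by_cases h0 : ξ ⟨_, hs 0 (by omega)⟩ = 0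
  · have key : ∀ j (hj : j ≤ e), ξ ⟨_, hs j (by omega)⟩ = 0 := by
      intro j
      induction j with
      | zero => intro _; exact h0
      | succ j ih =>
        intro hj
        have h1 := hmul (j + 1) (j + 1) j (j + 2) (by omega) (by omega) (by omega) (by omega) (by omega)
        rw [ih (by omega), zero_mul] at h1
        exact mul_self_eq_zero.1 h1
    rw [key e le_rfl, key 1 he, sub_zero]
  · set σ0 := ξ ⟨_, hs 0 (by omega)⟩ with hσ0
    set σ1 := ξ ⟨_, hs 1 (by omega)⟩ with hσ1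
    have key : ∀ j (hj : j ≤ e + 1), ξ ⟨_, hs j hj⟩ * σ0 ^ j = σ1 ^ j * σ0 := by
      intro j
      induction j with
      | zero => intro _; simp [hσ0]
      | succ j ih =>
        intro hj
        have h1 := hmul (j + 1) 0 j 1 hj (by omega) (by omega) (by omega) (by omega)
        have h2 := ih (by omega)
        calc ξ ⟨_, hs (j + 1) hj⟩ * σ0 ^ (j + 1) = (ξ ⟨_, hs (j + 1) hj⟩ * σ0) * σ0 ^ j := by ring
          _ = (ξ ⟨_, hs j (by omega)⟩ * σ1) * σ0 ^ j := by rw [hσ0, h1]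
          _ = (ξ ⟨_, hs j (by omega)⟩ * σ0 ^ j) * σ1 := by ring
          _ = _ := by rw [h2]; ring
    have h1 := key e (by omega)
    rw [hσ0, hσ1, hξ 0 (by omega), hξ 1 (by omega), ← hσ0, ← hσ1] at h1
    have := mul_right_cancel₀ h0 h1
    rw [this, sub_self]

end Fermat.Agent.S34.Xi
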