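import Fermat.Agent.S34.NodalZ
import Fermat.Agent.S34.NDimRed
import Fermat.Agent.S34.Xi
import Fermat.Agent.S18.PairDimIB

/-!
# S34: construction of the chart interface `NodalZ S x` for a residue ring `E × E`

Input: the lifts `(a, Fr a)`, `(Fr a, a)` in both charts, a function `t̄` regular on the chart `x̄ ≠ 0` with
`Fr² t̄ - t̄` a unit there, and `x̄ = (y, y)`, `y = ((t̄^(q²) - t̄) w)^(q+1)`, `t̄^j w` regular on the chart `x̄ ≠ ∞` (`j ≤ q² + 1`).
-/

set_option autoImplicit false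

namespace Fermat.Agent.S34

open Polynomial IntermediateField Fermat.Agent.S24 Fermat.Agent.S18

/-- integrality over `k[Y]` is transported by a `k`-linear ring homomorphism `f` with `f Y ∈ k[Y']`. -/
theorem nz_isIntegral_map {k R R' : Type*} [CommRing k] [CommRing R] [CommRing R'] [Algebra k R]
    [Algebra k R'] (f : R →+* R') (hfk : ∀ c : k, f (algebraMap k R c) = algebraMap k R' c)
    {Y : R} {Y' : R'} (hY : f Y ∈ Algebra.adjoin k {Y'}) {r : R}
    (hr : IsIntegral (Algebra.adjoin k {Y}) r) : IsIntegral (Algebra.adjoin k {Y'}) (f r) := by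
  let f' : R →ₐ[k] R' := { f with commutes' := hfk }
  have hmap : ∀ z : Algebra.adjoin k {Y}, f (z : R) ∈ Algebra.adjoin k {Y'} := by
    intro z
    have h1 : (Algebra.adjoin k {Y}).map f' ≤ Algebra.adjoin k {Y'} := by
      rw [AlgHom.map_adjoin, Set.image_singleton]
      exact Algebra.adjoin_le (Set.singleton_subset_iff.2 hY)
    exact h1 ⟨z, z.2, rfl⟩
  let φ : Algebra.adjoin k {Y} →+* Algebra.adjoin k {Y'} :=
    (f.comp (algebraMap (Algebra.adjoin k {Y}) R)).codRestrict (Algebra.adjoin k {Y'}) hmap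
  exact hr.map_of_comp_eq φ f (RingHom.ext fun _ => rfl)

variable {K F k E : Type*} [Field K] [Field F] [Algebra K F] [Field k] [Field E] [Algebra k E]

/-- the normal chart of one component, as a `k`-subalgebra. -/
def nzC (k : Type*) {E : Type*} [Field k] [Field E] [Algebra k E] (y : E) : Subalgebra k E :=
  (intRing k y).restrictScalars k

theorem mem_nzC {y a : E} : a ∈ nzC k y ↔ a ∈ intRing k y := Iff.rfl

theorem nzC_of_pow {y a : E} {m : ℕ} (hm : 0 < m) (h : a ^ m ∈ nzC k y) : a ∈ nzC k y :=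
  IsIntegral.of_pow hm h

theorem nz_fst_mem {y : E} {r : E × E} (hr : r ∈ intRingR k ((y, y) : E × E)) : r.1 ∈ nzC k y :=
  nz_isIntegral_map (RingHom.fst E E) (fun _ => rfl) (Algebra.self_mem_adjoin_singleton k y) hr

theorem nz_snd_mem {y : E} {r : E × E} (hr : r ∈ intRingR k ((y, y) : E × E)) : r.2 ∈ nzC k y :=
  nz_isIntegral_map (RingHom.snd E E) (fun _ => rfl) (Algebra.self_mem_adjoin_singleton k y) hr

theorem nz_Fr_mem {y : E} (Fr : E →+* E) (hFrk : ∀ c : k, Fr (algebraMap k E c) = algebraMap k E c)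
    {q : ℕ} (hFry : Fr y = y ^ q) {a : E} (ha : a ∈ nzC k y) : Fr a ∈ nzC k y :=
  nz_isIntegral_map Fr hFrk (by rw [hFry]; exact pow_mem (Algebra.self_mem_adjoin_singleton k y) q) ha

/-- **Construction of `NodalZ`.** -/
theorem exists_nodalZ [IsAlgClosed k] (S : NSetting K F k (E × E)) {x : F} (hx : S.Coord x)
    {y : E} (hrd : S.rd x = (y, y)) (hy : Transcendental k y) [FiniteDimensional k⟮y⟯ E]
    [Algebra.IsSeparable k⟮y⟯ E]
    (Fr : E →+* E) (hFrk : ∀ c : k, Fr (algebraMap k E c) = algebraMap k E c)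
    {q : ℕ} (hq : 2 ≤ q) (hFrq : ∀ a : E, ∃ b : E, Fr a = b ^ q) (hFry : Fr y = y ^ q)
    (lift0 : ∀ a ∈ intRing k y, (a, Fr a) ∈ S.chart x ∧ (Fr a, a) ∈ S.chart x)
    (liftInf : ∀ a ∈ intRing k y⁻¹, (a, Fr a) ∈ S.chart x⁻¹ ∧ (Fr a, a) ∈ S.chart x⁻¹)
    {tb w : E} (htb : tb ∈ intRing k y⁻¹) (hG0 : Fr (Fr tb) - tb ≠ 0)
    (hG : (Fr (Fr tb) - tb)⁻¹ ∈ intRing k y⁻¹)
    (hFrt : Fr tb = tb ^ q) (hFrw : Fr w = w ^ q)
    (hs : ∀ j ≤ q ^ 2 + 1, tb ^ j * w ∈ intRing k y)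
    (hyv : y = (tb ^ (q ^ 2) * w - tb * w) ^ (q + 1)) :
    ∃ Z : NodalZ S x, Z.C0 = (nzC k y).prod (nzC k y) ∧
      ∀ ξ ∈ Z.Ξ, ∀ (r : E × E) (hr : r ∈ Z.C0) (hr' : (Fr (Fr r.1), Fr (Fr r.2)) ∈ Z.C0),
        ξ ⟨(Fr (Fr r.1), Fr (Fr r.2)), hr'⟩ = ξ ⟨r, hr⟩ := by
  classical
  have hy0 : y ≠ 0 := by
    rintro rfl
    exact hy (isAlgebraic_zero)
  have he : 2 ≤ q ^ 2 := by nlinarith
  have hFrC : ∀ a ∈ nzC k y, Fr a ∈ nzC k y := fun a ha => nz_Fr_mem Fr hFrk hFry ha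
  -- the reduction of `x⁻¹`
  have hrdi : S.rd x⁻¹ = (y⁻¹, y⁻¹) := by
    have h1 := hx.rd_mul_rd_inv
    rw [hrd] at h1
    have h2 := congrArg Prod.fst h1
    have h3 := congrArg Prod.snd h1
    simp only [Prod.fst_mul, Prod.snd_mul, Prod.fst_one, Prod.snd_one] at h2 h3
    ext
    · exact eq_inv_of_mul_eq_one_right h2
    · exact eq_inv_of_mul_eq_one_right h3
  -- the chart at infinity is the full product
  have hInf : ∀ r : E × E, r ∈ S.chart x⁻¹ ↔ r.1 ∈ nzC k y⁻¹ ∧ r.2 ∈ nzC k y⁻¹ := by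
    intro r
    constructor
    · intro hr
      have h1 := S.chart_le_intRingR hx.inv hr
      rw [hrdi] at h1
      exact ⟨nz_fst_mem h1, nz_snd_mem h1⟩
    · rintro ⟨h1, h2⟩
      have hFt : Fr tb ∈ intRing k y⁻¹ := by
        rw [hFrt]; exact pow_mem htb q
      have e1 : ((1, 0) : E × E) ∈ S.chart x⁻¹ := by
        have a1 : ((Fr (Fr tb), Fr tb) : E × E) - (tb, Fr tb) ∈ S.chart x⁻¹ :=
          sub_mem (liftInf _ hFt).2 (liftInf _ htb).1
        have a2 := mul_mem a1 (liftInf _ hG).1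
        convert a2 using 1
        ext
        · simp [hG0]
        · simp
      have e2 : ((0, 1) : E × E) ∈ S.chart x⁻¹ := by
        have := sub_mem (one_mem (S.chart x⁻¹)) e1
        convert this using 1
        ext <;> simp
      have := add_mem (mul_mem (liftInf _ h1).1 e1) (mul_mem (liftInf _ h2).2 e2)
      convert this using 1
      ext <;> simp
  obtain ⟨o, -, ho⟩ := ib_exists_isIntBasis (k := k) hy
  have ho' : ∀ i, o i ∈ nzC k y := by
    intro i
    refine (ho (o i)).2 ⟨fun j => if j = i then 1 else 0, ?_⟩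
    simp [ite_mul]
  have hpow : ∀ a ∈ nzC k y, ∃ b ∈ nzC k y, Fr (Fr a) = b ^ (q ^ 2) := by
    intro a ha
    obtain ⟨b₁, hb₁⟩ := hFrq a
    obtain ⟨b₂, hb₂⟩ := hFrq b₁
    have h1 : Fr (Fr a) = b₂ ^ (q ^ 2) := by
      rw [hb₁, map_pow, hb₂, ← pow_mul, sq]
    refine ⟨b₂, nzC_of_pow (m := q ^ 2) (by positivity) ?_, h1⟩
    rw [← h1]
    exact hFrC _ (hFrC _ ha)
  have hymem : y ∈ nzC k y := by
    have : y = algebraMap (polyRing k y) E ⟨y, Algebra.self_mem_adjoin_singleton k y⟩ := rfl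
    rw [mem_nzC, this]
    exact Subalgebra.algebraMap_mem _ _
  obtain ⟨Ξ, hΞ1, hΞ2⟩ := Xi.exists_Xi (nzC k y) (S.chart x) Fr he hFrC
    (fun a ha => (lift0 a ha).1) (fun a ha => (lift0 a ha).2) hpow o y hymem
    (by rw [hFry, map_pow, hFry, ← pow_mul, sq]) ho'
    (fun a ha => (ho a).1 ha)
  refine ⟨{ C0 := (nzC k y).prod (nzC k y)
            chart_le := ?_
            root0 := ?_
            rootInf := ?_
            Ξ := Ξ
            nod := hΞ1
            zero := ?_ }, rfl, ?_⟩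
  · intro r hr
    have h1 := S.chart_le_intRingR hx hr
    rw [hrd] at h1
    exact Subalgebra.mem_prod.2 ⟨nz_fst_mem h1, nz_snd_mem h1⟩
  · intro r m hm hr
    have := Subalgebra.mem_prod.1 hr
    exact Subalgebra.mem_prod.2 ⟨nzC_of_pow hm this.1, nzC_of_pow hm this.2⟩
  · intro r m hm hr
    have := (hInf _).1 hr
    exact (hInf _).2 ⟨nzC_of_pow hm this.1, nzC_of_pow hm this.2⟩
  · intro h ξ hξ
    have hs' : ∀ j ≤ q ^ 2 + 1, ((tb, tb) : E × E) ^ j * (w, w) ∈ (nzC k y).prod (nzC k y) :=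
      fun j hj => Subalgebra.mem_prod.2 ⟨hs j hj, hs j hj⟩
    have hF2 : ∀ j, Fr (Fr (tb ^ j * w)) = (tb ^ j * w) ^ (q ^ 2) := by
      intro j
      simp only [map_mul, map_pow, hFrt, hFrw]
      ring
    have hvmem : ((tb, tb) : E × E) ^ (q ^ 2) * (w, w) - (tb, tb) * (w, w) ∈
        (nzC k y).prod (nzC k y) := by
      have h1 := hs' 1 (by omega)
      rw [pow_one] at h1
      exact sub_mem (hs' _ (by omega)) h1
    have hz := Xi.xi_zero ((nzC k y).prod (nzC k y)) ξ ((tb, tb) : E × E) (w, w)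
      (e := q ^ 2) (by omega) hs' (by
        intro j hj
        have h1 := hΞ2 ξ hξ _ _ (hs j hj) (hs j hj)
        rw [← map_pow]
        refine Eq.trans ?_ h1
        congr 1
        apply Subtype.ext
        ext
        · exact (hF2 j).symm
        · exact (hF2 j).symm) hvmem
    have hpw : (⟨S.rd x, h⟩ : (nzC k y).prod (nzC k y)) =
        ⟨((tb, tb) : E × E) ^ (q ^ 2) * (w, w) - (tb, tb) * (w, w), hvmem⟩ ^ (q + 1) := by
      apply Subtype.ext
      show S.rd x = (((tb, tb) : E × E) ^ (q ^ 2) * (w, w) - (tb, tb) * (w, w)) ^ (q + 1)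
      rw [hrd]
      ext
      · exact hyv
      · exact hyv
    rw [hpw, map_pow, hz, zero_pow (by omega)]
  · intro ξ hξ r hr hr'
    have := Subalgebra.mem_prod.1 hr
    exact hΞ2 ξ hξ r.1 r.2 this.1 this.2

end Fermat.Agent.S34
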