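import Fermat.Agent.GR.TraceInv
import Fermat.Prelude.Def_GaloisRep_LocalConditions

/-!
# S34, piece CONS: from `(τ - 1)² = 0` on the Kummer tower to unipotent inertia of a Hecke-Galois datum

`unipotent_of_tower`: if every `τ` in an inertia group at `q ≠ p` satisfies `τ + τ⁻¹ = 2` on all levels of
a tower `𝔗 : GR.Tower p N`, then `H.ρ.IsUnipotentOnInertiaAt q` for every Hecke-Galois datum of level `N`.
-/

set_option autoImplicit false

namespace Fermat.Agent.S34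

open IsLocalRing Fermat.Agent.GR

/-- An endomorphism congruent to `1` modulo `I` has determinant congruent to `1`. -/
theorem det_sub_one_mem {T V : Type*} [CommRing T] [AddCommGroup V] [Module T V]
    [Module.Free T V] [Module.Finite T V] (I : Ideal T) (f : Module.End T V)
    (hf : ∀ v, f v - v ∈ I • (⊤ : Submodule T V)) : LinearMap.det f - 1 ∈ I := by
  classical
  let b := Module.Free.chooseBasis T V
  have key : ∀ w ∈ I • (⊤ : Submodule T V), ∀ i, b.repr w i ∈ I := by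
    intro w hw i
    induction hw using Submodule.smul_induction_on' with
    | smul a ha v _ =>
      rw [map_smul, Finsupp.smul_apply, smul_eq_mul]
      exact I.mul_mem_right _ ha
    | add x _ y _ hx hy =>
      rw [map_add, Finsupp.add_apply]
      exact I.add_mem hx hy
  rw [← LinearMap.det_toMatrix b]
  have h1 : (Ideal.Quotient.mk I).mapMatrix (LinearMap.toMatrix b b f) = 1 := by
    ext i j
    rw [RingHom.mapMatrix_apply, Matrix.map_apply, LinearMap.toMatrix_apply, Matrix.one_apply]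
    have h2 := key _ (hf (b j)) i
    rw [map_sub, Finsupp.sub_apply, Module.Basis.repr_self, Finsupp.single_apply] at h2
    have h3 := (Ideal.Quotient.mk_eq_mk_iff_sub_mem _ _).mpr h2
    rw [h3]
    by_cases hij : i = j
    · rw [if_pos hij, if_pos hij.symm, map_one]
    · rw [if_neg hij, if_neg (fun h => hij h.symm), map_zero]
  have h4 : Ideal.Quotient.mk I (Matrix.det (LinearMap.toMatrix b b f)) = Ideal.Quotient.mk I 1 := by
    rw [RingHom.map_det, h1, Matrix.det_one, map_one]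
  exact (Ideal.Quotient.mk_eq_mk_iff_sub_mem _ _).mp h4

/-- characteristic polynomial of an endomorphism of a free module of rank two. -/
theorem charpoly_eq_of_finrank_two {T V : Type*} [CommRing T] [Nontrivial T] [AddCommGroup V]
    [Module T V] [Module.Free T V] [Module.Finite T V] (hV : Module.finrank T V = 2)
    (f : Module.End T V) :
    f.charpoly = Polynomial.X ^ 2 - Polynomial.C (LinearMap.trace T V f) * Polynomial.X +
      Polynomial.C (LinearMap.det f) := by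
  let b := Module.finBasisOfFinrankEq T V hV
  rw [← LinearMap.charpoly_toMatrix f b, Matrix.charpoly_fin_two,
    LinearMap.trace_eq_matrix_trace T b, ← LinearMap.det_toMatrix b]

/-- determinant from the characteristic polynomial, rank two. -/
theorem det_eq_of_charpoly {T V : Type*} [CommRing T] [Nontrivial T] [AddCommGroup V]
    [Module T V] [Module.Free T V] [Module.Finite T V] (hV : Module.finrank T V = 2)
    (f : Module.End T V) (a d : T)
    (hf : f.charpoly = Polynomial.X ^ 2 - Polynomial.C a * Polynomial.X + Polynomial.C d) :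
    LinearMap.det f = d := by
  have h := charpoly_eq_of_finrank_two hV f
  rw [hf] at h
  have h0 := congrArg (fun P => Polynomial.coeff P 0) h
  simp at h0
  exact h0.symm

variable {p : ℕ} {N : ℕ} [NeZero N] {S : Finset ℕ}
  {𝒪 : Type} [CommRing 𝒪] [IsDomain 𝒪] [IsDiscreteValuationRing 𝒪]
  [IsAdicComplete (IsLocalRing.maximalIdeal 𝒪) 𝒪]
  {θ : CuspForm.heckeAlgebra N 2 (↑S : Set ℕ) →+* IsLocalRing.ResidueField 𝒪}
  {T : Type} [CommRing T] [IsLocalRing T] [IsNoetherianRing T]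
  [IsAdicComplete (IsLocalRing.maximalIdeal T) T] [Algebra 𝒪 T] [IsLocalHom (algebraMap 𝒪 T)]
  [Module.Finite 𝒪 T] [Module.Free 𝒪 T]

theorem natCast_mem_maximalIdeal (hp𝒪 : (p : 𝒪) ∈ IsLocalRing.maximalIdeal 𝒪) :
    (p : T) ∈ maximalIdeal T := by
  rw [← map_natCast (algebraMap 𝒪 T)]
  exact map_nonunit (algebraMap 𝒪 T) _ hp𝒪

/-- The determinant of a Hecke-Galois datum is trivial on elements fixing all `p`-power roots of unity. -/
theorem det_eq_one_of_fixes (hp : p.Prime) (hp𝒪 : (p : 𝒪) ∈ IsLocalRing.maximalIdeal 𝒪) (hpS : p ∈ S)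
    (hNS : ∀ q : ℕ, q.Prime → q ∣ N → q ∈ S)
    (H : CuspForm.HeckeGaloisRepDatum N (↑S : Set ℕ) 𝒪 θ T) (τ : GQ)
    (hτ : ∀ (n : ℕ) (ζ : Qb), ζ ^ (p ^ n) = 1 → τ ζ = ζ) :
    LinearMap.det (H.ρ.ρ τ) = 1 := by
  classical
  rw [← sub_eq_zero]
  refine IsHausdorff.haus (inferInstance : IsHausdorff (maximalIdeal T) T) _ fun n => ?_
  rw [SModEq.zero, smul_eq_mul, Ideal.mul_top]
  obtain ⟨L₁, hL₁, ha⟩ := H.ρ.isAdicContinuous n
  have : NeZero p := ⟨hp.ne_zero⟩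
  obtain ⟨ζ, hζ⟩ := HasEnoughRootsOfUnity.exists_primitiveRoot Qb (p ^ n)
  have hζi : IsIntegral ℚ ζ := ((AlgebraicClosure.isAlgebraic ℚ).isAlgebraic ζ).isIntegral
  have : FiniteDimensional ℚ (IntermediateField.adjoin ℚ {ζ}) :=
    IntermediateField.adjoin.finiteDimensional hζi
  let L : IntermediateField ℚ Qb := L₁ ⊔ IntermediateField.adjoin ℚ {ζ}
  have : FiniteDimensional ℚ L := inferInstance
  have hL1 : L₁ ≤ L := le_sup_left
  have hζL : ζ ∈ L :=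
    (le_sup_right : IntermediateField.adjoin ℚ {ζ} ≤ L) (IntermediateField.mem_adjoin_simple_self ℚ ζ)
  obtain ⟨ℓ, hℓ, hℓS, P, hP, σ, hσ, k, hk⟩ := frobenius_density L τ S
  have hℓN : ¬ ℓ ∣ N := fun h => hℓS (hNS ℓ hℓ h)
  have hℓp : ℓ ≠ p := fun h => hℓS (h ▸ hpS)
  have hℓS' : ℓ ∉ (↑S : Set ℕ) := by simpa using hℓS
  obtain ⟨ε, hε⟩ : ∃ ε : GQ, ε = τ⁻¹ * σ ^ k := ⟨_, rfl⟩
  have hεL : ∀ x ∈ L, ε x = x := by
    intro x hx
    rw [hε, AlgEquiv.mul_apply, hk x hx]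
    exact τ.symm_apply_apply x
  have hσk : σ ^ k = τ * ε := by rw [hε, mul_inv_cancel_left]
  have hdσ : LinearMap.det (H.ρ.ρ σ) = (ℓ : T) :=
    det_eq_of_charpoly H.ρ.finrank_eq _ _ _ (H.charpoly_frob ℓ hℓ hℓN hℓS' P hP σ hσ)
  have hdk : LinearMap.det (H.ρ.ρ τ) * LinearMap.det (H.ρ.ρ ε) = (ℓ : T) ^ k := by
    rw [← map_mul, ← map_mul, ← hσk, map_pow, map_pow, hdσ]
  have hdε : LinearMap.det (H.ρ.ρ ε) - 1 ∈ maximalIdeal T ^ n :=
    det_sub_one_mem _ _ (ha ε fun x hx => hεL x (hL1 hx))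
  -- `ℓ ^ k ≡ 1 mod p ^ n`
  have hroot : ζ ^ (ℓ ^ k) = ζ := by
    have h1 : (σ ^ k) ζ = ζ ^ (ℓ ^ k) :=
      frob_pow_root hℓ hP hσ (fun hd => hℓp
        ((Nat.prime_dvd_prime_iff_eq hℓ hp).mp (hℓ.dvd_of_dvd_pow hd))) k hζ.pow_eq_one
    rw [← h1, hk ζ hζL, hτ n ζ hζ.pow_eq_one]
  have hmod : ((p ^ n : ℕ) : ℤ) ∣ ((ℓ ^ k : ℕ) : ℤ) - 1 := by
    have hζ0 : ζ ≠ 0 := hζ.ne_zero (pow_ne_zero _ hp.ne_zero)
    rw [← hζ.zpow_eq_one_iff_dvd, zpow_sub₀ hζ0, zpow_natCast, zpow_one, hroot, div_self hζ0]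
  have hpT : (p : T) ∈ maximalIdeal T := natCast_mem_maximalIdeal hp𝒪
  have hℓk : (ℓ : T) ^ k - 1 ∈ maximalIdeal T ^ n := by
    obtain ⟨d, hd⟩ := hmod
    have h1 := congrArg (Int.cast : ℤ → T) hd
    push_cast at h1
    rw [h1]
    exact Ideal.mul_mem_right _ _ (Ideal.pow_mem_pow hpT n)
  have : LinearMap.det (H.ρ.ρ τ) - 1 =
      ((ℓ : T) ^ k - 1) - LinearMap.det (H.ρ.ρ τ) * (LinearMap.det (H.ρ.ρ ε) - 1) := by
    rw [← hdk]; ring
  rw [this]
  exact sub_mem hℓk (Ideal.mul_mem_left _ _ hdε)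

/-- The trace of `τ` is `2` if `τ + τ⁻¹ = 2` on the tower and `τ` fixes the `p`-power roots of unity. -/
theorem trace_eq_two_of_tower (hp : p.Prime) (𝔗 : Tower p N)
    (hp𝒪 : (p : 𝒪) ∈ IsLocalRing.maximalIdeal 𝒪) (hpS : p ∈ S)
    (hNS : ∀ q : ℕ, q.Prime → q ∣ N → q ∈ S)
    (H : CuspForm.HeckeGaloisRepDatum N (↑S : Set ℕ) 𝒪 θ T) (τ : GQ)
    (hτ : ∀ (n : ℕ) (ζ : Qb), ζ ^ (p ^ n) = 1 → τ ζ = ζ)
    (hunip : ∀ (m : ℕ) (x : 𝔗.A m), 𝔗.act m τ x + 𝔗.act m τ⁻¹ x = 2 • x) :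
    LinearMap.trace T H.ρ.V (H.ρ.ρ τ) = 2 := by
  classical
  obtain ⟨c, e, he, hsat⟩ := exists_saturation_bound (𝔗.actH.comp (heckeInc N S))
    (𝔗.actH_inj.comp (heckeInc_injective N S)) p hp
  rw [← sub_eq_zero]
  refine IsHausdorff.haus (inferInstance : IsHausdorff (maximalIdeal T) T) _ fun n => ?_
  rw [SModEq.zero, smul_eq_mul, Ideal.mul_top]
  obtain ⟨m, hm⟩ : ∃ m, m = n + c := ⟨_, rfl⟩
  obtain ⟨L₁, hL₁, ha⟩ := H.ρ.isAdicContinuous n
  obtain ⟨L₂, hL₂, hb⟩ := 𝔗.exists_field_fixing_hom m (𝔗.ι m)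
  obtain ⟨L₃, hL₃, hc⟩ := 𝔗.exists_field_fixing_hom m ((𝔗.act m τ⁻¹).comp (𝔗.ι m))
  have : NeZero p := ⟨hp.ne_zero⟩
  obtain ⟨ζ, hζ⟩ := HasEnoughRootsOfUnity.exists_primitiveRoot Qb (p ^ m)
  have hζi : IsIntegral ℚ ζ := ((AlgebraicClosure.isAlgebraic ℚ).isAlgebraic ζ).isIntegral
  have : FiniteDimensional ℚ (IntermediateField.adjoin ℚ {ζ}) :=
    IntermediateField.adjoin.finiteDimensional hζi
  let L : IntermediateField ℚ Qb := L₁ ⊔ L₂ ⊔ L₃ ⊔ IntermediateField.adjoin ℚ {ζ}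
  have : FiniteDimensional ℚ L := inferInstance
  have hL1 : L₁ ≤ L := le_sup_left.trans (le_sup_left.trans le_sup_left)
  have hL2 : L₂ ≤ L := le_sup_right.trans (le_sup_left.trans le_sup_left)
  have hL3 : L₃ ≤ L := le_sup_right.trans le_sup_left
  have hζL : ζ ∈ L :=
    (le_sup_right : IntermediateField.adjoin ℚ {ζ} ≤ L) (IntermediateField.mem_adjoin_simple_self ℚ ζ)
  obtain ⟨D, a, ht, hζa, hr⟩ := tri_half hp 𝔗 hpS hNS H n m L τ ζ hζ.pow_eq_one hζL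
    (fun ε hε => ha ε fun x hx => hε x (hL1 hx)) (fun ε hε => hb ε fun x hx => hε x (hL2 hx))
    (fun ε hε => hc ε fun x hx => hε x (hL3 hx))
  -- `a ≡ 1`
  have hmod : ((p ^ m : ℕ) : ℤ) ∣ (a : ℤ) - 1 := by
    have hζ0 : ζ ≠ 0 := hζ.ne_zero (pow_ne_zero _ hp.ne_zero)
    rw [← hζ.zpow_eq_one_iff_dvd, zpow_sub₀ hζ0, zpow_natCast, zpow_one, ← hζa,
      hτ m ζ hζ.pow_eq_one, div_self hζ0]
  have hsm : ∀ y : 𝔗.A m, a • y = y := by
    intro y
    obtain ⟨d, hd⟩ := hmod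
    have h1 : ((a : ℤ) - 1) • y = 0 := by
      rw [hd, mul_comm, mul_smul]
      have := 𝔗.pow_smul m y
      rw [show ((p ^ m : ℕ) : ℤ) • y = (p ^ m) • y from natCast_zsmul _ _, this, smul_zero]
    rw [sub_smul, natCast_zsmul, one_smul, sub_eq_zero] at h1
    exact h1
  obtain ⟨r', hr'⟩ := hsat n (D - 2) (fun h => by
    rw [← hm]
    apply 𝔗.ι_ker m
    have h1 := hr h
    rw [hsm] at h1
    have h2 := hunip m (𝔗.ι m h)
    rw [RingHom.comp_apply, map_sub, map_sub, LinearMap.sub_apply, map_sub]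
    have h3 : 𝔗.actH (heckeInc N S 2) h = 2 • h := by
      rw [map_ofNat, map_ofNat]
      rw [show (2 : Module.End ℤ 𝔗.H) = (2 : ℕ) • (1 : Module.End ℤ 𝔗.H) by simp]
      rw [LinearMap.smul_apply, Module.End.one_apply]
    rw [h3, map_nsmul, ← h2]
    rw [sub_eq_zero]
    have h4 : 𝔗.act m τ (𝔗.ι m h) + 𝔗.act m τ⁻¹ (𝔗.ι m h)
        - 𝔗.ι m (𝔗.actH (heckeInc N S D) h) = 0 := by
      rw [← h1]; abel
    exact (sub_eq_zero.mp h4).symm)
  have hpT : (p : T) ∈ maximalIdeal T := natCast_mem_maximalIdeal hp𝒪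
  have heT : IsUnit (e : T) := by
    have hpp : Prime (p : ℤ) := Nat.prime_iff_prime_int.mp hp
    obtain ⟨u, v, huv⟩ := (Prime.coprime_iff_not_dvd hpp).mpr he
    have h1 : (v : T) * (e : T) = 1 - (u : T) * (p : T) := by
      have := congrArg (Int.cast : ℤ → T) huv
      push_cast at this
      linear_combination this
    have h2 : IsUnit ((v : T) * (e : T)) := by
      rw [h1]
      exact IsLocalRing.isUnit_one_sub_self_of_mem_nonunits _ (Ideal.mul_mem_left _ _ hpT)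
    exact isUnit_of_mul_isUnit_right h2
  have hπ : H.π (D - 2) ∈ maximalIdeal T ^ n := by
    have h1 := congrArg H.π hr'
    rw [map_zsmul, map_zsmul, zsmul_eq_mul, zsmul_eq_mul] at h1
    rw [← Ideal.unit_mul_mem_iff_mem _ heT, h1]
    push_cast
    exact Ideal.mul_mem_right _ _ (Ideal.pow_mem_pow hpT n)
  have : LinearMap.trace T H.ρ.V (H.ρ.ρ τ) - 2 =
      (LinearMap.trace T H.ρ.V (H.ρ.ρ τ) - H.π D) + H.π (D - 2) := by
    rw [map_sub, map_ofNat]; ring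
  rw [this]
  exact add_mem ht hπ

/-- **CONS.** Unipotent inertia of a Hecke-Galois datum from `(τ - 1)² = 0` on the tower. -/
theorem unipotent_of_tower (hp : p.Prime) (𝔗 : Tower p N)
    (hp𝒪 : (p : 𝒪) ∈ IsLocalRing.maximalIdeal 𝒪) (hpS : p ∈ S)
    (hNS : ∀ q : ℕ, q.Prime → q ∣ N → q ∈ S)
    (H : CuspForm.HeckeGaloisRepDatum N (↑S : Set ℕ) 𝒪 θ T)
    (q : ℕ) (hq : q.Prime) (hqp : q ≠ p)
    (hunip : ∀ (m : ℕ) (P : ValuationSubring Qb), P.LiesOverPrime q →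
      ∀ τ ∈ P.inertiaSubgroupIn ℚ, ∀ x : 𝔗.A m,
        𝔗.act m τ (𝔗.act m τ x) - 2 • 𝔗.act m τ x + x = 0) :
    H.ρ.IsUnipotentOnInertiaAt q := by
  intro P hP τ hτ
  have hfix : ∀ (n : ℕ) (ζ : Qb), ζ ^ (p ^ n) = 1 → τ ζ = ζ := by
    intro n ζ hζ
    refine inertia_root hq hP hτ (fun hd => hqp ?_) hζ
    exact (Nat.prime_dvd_prime_iff_eq hq hp).mp (hq.dvd_of_dvd_pow hd)
  have h2 : ∀ (m : ℕ) (x : 𝔗.A m), 𝔗.act m τ x + 𝔗.act m τ⁻¹ x = 2 • x := by
    intro m x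
    have h := hunip m P hP τ hτ (𝔗.act m τ⁻¹ x)
    have h1 : 𝔗.act m τ (𝔗.act m τ⁻¹ x) = x := by
      rw [← end_mul_apply, ← map_mul, mul_inv_cancel, map_one]; rfl
    rw [h1] at h
    have : 𝔗.act m τ x + 𝔗.act m τ⁻¹ x - 2 • x = 0 := by rw [← h]; abel
    exact sub_eq_zero.mp this
  rw [charpoly_eq_of_finrank_two H.ρ.finrank_eq,
    trace_eq_two_of_tower hp 𝔗 hp𝒪 hpS hNS H τ hfix h2,
    det_eq_one_of_fixes hp hp𝒪 hpS hNS H τ hfix]
  simp only [map_ofNat, map_one]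
  ring

end Fermat.Agent.S34
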