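import Fermat.Agent.S34.Gauss2

/-!
# S34, piece G2: unfolding lemmas, the Galois action and the inertia input for `gauss2`
-/

set_option autoImplicit false
set_option linter.unusedSectionVars false

namespace Fermat.Agent.S34

open Polynomial IntermediateField Fermat.Agent.S24 Fermat.Agent.S28 Fermat.Agent.S18 ModularCurve
open Fermat.Agent.GR (GQ galF)
open scoped Pointwise

/-! ### the decomposition group preserves the valuation -/

theorem g2_exists_pow_fix (σ : GQ) (z : Kb) : ∃ n : ℕ, 0 < n ∧ (σ ^ n) z = z := by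
  have hz : IsIntegral ℚ z := ((AlgebraicClosure.isAlgebraic ℚ).isAlgebraic z).isIntegral
  have hfin : ((minpoly ℚ z).rootSet Kb).Finite := Polynomial.rootSet_finite _ _
  have hmem : ∀ k : ℕ, (σ ^ k) z ∈ (minpoly ℚ z).rootSet Kb := by
    intro k
    rw [Polynomial.mem_rootSet]
    refine ⟨minpoly.ne_zero hz, ?_⟩
    have := Polynomial.aeval_algHom_apply ((σ ^ k : GQ) : Kb →ₐ[ℚ] Kb) z (minpoly ℚ z)
    rw [minpoly.aeval, _root_.map_zero] at this
    exact this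
  have := hfin.to_subtype
  obtain ⟨i, j, hij, h⟩ := Finite.exists_ne_map_eq_of_infinite
    (fun k : ℕ => (⟨(σ ^ k) z, hmem k⟩ : (minpoly ℚ z).rootSet Kb))
  have h' : (σ ^ i) z = (σ ^ j) z := congrArg Subtype.val h
  have key : ∀ i j : ℕ, i < j → (σ ^ i) z = (σ ^ j) z → ∃ n : ℕ, 0 < n ∧ (σ ^ n) z = z := by
    intro i j hlt h
    refine ⟨j - i, by omega, ?_⟩
    have hj : σ ^ j = σ ^ i * σ ^ (j - i) := by rw [← pow_add]; congr 1; omega
    rw [hj, AlgEquiv.mul_apply] at h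
    exact ((σ ^ i).injective h).symm
  rcases lt_or_gt_of_ne hij with hlt | hlt
  · exact key i j hlt h'
  · exact key j i hlt h'.symm

/-- elements of the decomposition group preserve the valuation. -/
theorem g2_valuation_gal (A : ValuationSubring Kb) {σ : GQ}
    (hσ : σ ∈ A.decompositionSubgroup ℚ) (z : Kb) : A.valuation (σ z) = A.valuation z := by
  have hmem : ∀ x : Kb, σ x ∈ A ↔ x ∈ A := by
    intro x
    have h1 : σ • A = A := MulAction.mem_stabilizer_iff.mp hσ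
    have h2 := ValuationSubring.smul_mem_pointwise_smul_iff (g := σ) (S := A) (x := x)
    rw [h1] at h2
    exact h2
  have hle : ∀ x : Kb, A.valuation (σ x) ≤ 1 ↔ A.valuation x ≤ 1 := by
    intro x
    rw [A.valuation_le_one_iff, A.valuation_le_one_iff, hmem]
  have hlt1 : ∀ x : Kb, A.valuation x < 1 → A.valuation (σ x) < 1 := by
    intro x hx
    by_cases hx0 : x = 0
    · rw [hx0, _root_.map_zero, _root_.map_zero]; exact zero_lt_one
    · by_contra hcon
      rw [not_lt] at hcon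
      have hσx0 : σ x ≠ 0 := fun h => hx0 (by simpa using h)
      have h1 : A.valuation (σ x⁻¹) ≤ 1 := by
        rw [map_inv₀, map_inv₀]
        exact inv_le_one_of_one_le₀ hcon
      rw [hle, map_inv₀] at h1
      have h2 : 1 ≤ A.valuation x := by
        have hv0 : 0 < A.valuation x := zero_lt_iff.mpr ((A.valuation.ne_zero_iff).mpr hx0)
        exact (inv_le_one₀ hv0).mp h1
      exact absurd hx (not_lt.mpr h2)
  have hlt : ∀ x y : Kb, A.valuation x < A.valuation y →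
      A.valuation (σ x) < A.valuation (σ y) := by
    intro x y hxy
    have hy0 : y ≠ 0 := by
      intro h
      rw [h, _root_.map_zero] at hxy
      exact not_lt_zero hxy
    have hσy0 : σ y ≠ 0 := fun h => hy0 (by simpa using h)
    have hvy : 0 < A.valuation y := zero_lt_iff.mpr ((A.valuation.ne_zero_iff).mpr hy0)
    have hvσy : 0 < A.valuation (σ y) := zero_lt_iff.mpr ((A.valuation.ne_zero_iff).mpr hσy0)
    have h1 : A.valuation (x / y) < 1 := by
      rw [map_div₀]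
      exact (div_lt_one₀ hvy).mpr hxy
    have h2 := hlt1 _ h1
    rw [map_div₀, map_div₀] at h2
    exact (div_lt_one₀ hvσy).mp h2
  obtain ⟨n, hn, hnz⟩ := g2_exists_pow_fix σ z
  have hsucc : ∀ k : ℕ, (σ ^ (k + 1)) z = σ ((σ ^ k) z) := by
    intro k
    rw [pow_succ', AlgEquiv.mul_apply]
  rcases lt_trichotomy (A.valuation (σ z)) (A.valuation z) with h | h | h
  · exfalso
    have hanti : StrictAnti (fun k : ℕ => A.valuation ((σ ^ k) z)) := by
      apply strictAnti_nat_of_succ_lt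
      intro k
      induction k with
      | zero => simpa using h
      | succ k ih =>
        show A.valuation ((σ ^ (k + 1 + 1)) z) < A.valuation ((σ ^ (k + 1)) z)
        rw [hsucc (k + 1), hsucc k]
        exact hlt _ _ (by rw [← hsucc k]; exact ih)
    have := hanti hn
    simp only [pow_zero, hnz, AlgEquiv.one_apply, lt_self_iff_false] at this
  · exact h
  · exfalso
    have hmono : StrictMono (fun k : ℕ => A.valuation ((σ ^ k) z)) := by
      apply strictMono_nat_of_lt_succ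
      intro k
      induction k with
      | zero => simpa using h
      | succ k ih =>
        show A.valuation ((σ ^ (k + 1)) z) < A.valuation ((σ ^ (k + 1 + 1)) z)
        rw [hsucc (k + 1), hsucc k]
        exact hlt _ _ (by rw [← hsucc k]; exact ih)
    have := hmono hn
    simp only [pow_zero, hnz, AlgEquiv.one_apply, lt_self_iff_false] at this

/-- `σ c / c` is a unit of `A` for `σ` in the decomposition group. -/
theorem g2_gal_div_mem (A : ValuationSubring Kb) {σ : GQ}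
    (hσ : σ ∈ A.decompositionSubgroup ℚ) {c : Kb} (hc : c ≠ 0) :
    σ c * c⁻¹ ∈ A ∧ (σ c * c⁻¹)⁻¹ ∈ A := by
  have hv0 : A.valuation c ≠ 0 := (A.valuation.ne_zero_iff).mpr hc
  have h1 : A.valuation (σ c * c⁻¹) = 1 := by
    rw [map_mul, map_inv₀, g2_valuation_gal A hσ, mul_inv_cancel₀ hv0]
  refine ⟨(A.valuation_le_one_iff _).mp h1.le, (A.valuation_le_one_iff _).mp ?_⟩
  rw [map_inv₀, h1, inv_one]

/-! ### the decomposition group and the Gauss valuation -/

theorem g2_gsMem_gal {A : ValuationSubring Kb} (g : A.decompositionSubgroup ℚ)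
    (φ : kA A →+* kA A)
    (hφ : ∀ x : A, IsLocalRing.residue A (g • x) = φ (IsLocalRing.residue A x))
    {f : LaurentSeries Kb} (hf : gsMem A f) :
    gsMem A (coeffMap ((g : GQ) : Kb →+* Kb) f) ∧
      gr A (coeffMap ((g : GQ) : Kb →+* Kb) f) = coeffMap φ (gr A f) := by
  obtain ⟨Y₁, Y₂, h0, h⟩ := hf
  have hres : ∀ Y : LaurentSeries A,
      coeffMap (IsLocalRing.residue A) (coeffMap (Fermat.Agent.GR.dA g) Y) =
      coeffMap φ (coeffMap (IsLocalRing.residue A) Y) := by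
    intro Y
    rw [coeffMap_coeffMap, coeffMap_coeffMap]
    exact coeffMap_congr (RingHom.ext fun x => hφ x) _
  have hinj := coeffMap_injective φ φ.injective
  have h0' : coeffMap (IsLocalRing.residue A) (coeffMap (Fermat.Agent.GR.dA g) Y₂) ≠ 0 := by
    rw [hres]; exact fun hh => h0 (hinj (by rw [hh, map_zero]))
  have h' : coeffMap ((g : GQ) : Kb →+* Kb) f *
      coeffMap A.subtype (coeffMap (Fermat.Agent.GR.dA g) Y₂) =
      coeffMap A.subtype (coeffMap (Fermat.Agent.GR.dA g) Y₁) := by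
    rw [Fermat.Agent.GR.coeffMap_subtype_dA, Fermat.Agent.GR.coeffMap_subtype_dA, ← map_mul, h]
  refine ⟨⟨_, _, h0', h'⟩, ?_⟩
  apply mul_right_cancel₀ h0'
  rw [gr_mul_eq h0' h', hres, hres, ← map_mul, gr_mul_eq h0 h]

/-- the residue action of an inertia element is trivial. -/
theorem g2_inertia_res {A : ValuationSubring Kb} (g : A.decompositionSubgroup ℚ)
    (hg : g ∈ A.inertiaSubgroup ℚ) (x : A) :
    IsLocalRing.residue A (g • x) = RingHom.id (kA A) (IsLocalRing.residue A x) := by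
  rw [IsLocalRing.ResidueField.residue_smul]
  have := MonoidHom.mem_ker.mp hg
  exact congrArg (fun e => e (IsLocalRing.residue A x)) this

section

variable (A : ValuationSubring Kb) {q M : ℕ} [NeZero q] [NeZero M] [Fact q.Prime]
  [CharP (kA A) q] {w : FN (q * M) ≃ₐ[Kb] FN (q * M)}

local notation "EE" => modularFunctionFieldFullC (kA A) M

/-! ### unfolding `gauss2` -/

theorem gauss2_A (hqM : ¬ q ∣ M) (hw : WqSpec q M w) : (gauss2 A hqM hw).A = A := rfl

theorem mem_gauss2_V (hqM : ¬ q ∣ M) (hw : WqSpec q M w) (f : FN (q * M)) :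
    f ∈ (gauss2 A hqM hw).V ↔
      gsMem A (f : LaurentSeries Kb) ∧ gsMem A ((w f : FN (q * M)) : LaurentSeries Kb) := Iff.rfl

theorem gauss2_rd_fst (hqM : ¬ q ∣ M) (hw : WqSpec q M w) {f : FN (q * M)}
    (hf : f ∈ (gauss2 A hqM hw).V) :
    ((((gauss2 A hqM hw).rd f).1 : EE) : LaurentSeries (kA A)) =
      gr A (f : LaurentSeries Kb) := by
  rw [(gauss2 A hqM hw).rd_of_mem hf]; rfl

theorem gauss2_rd_snd (hqM : ¬ q ∣ M) (hw : WqSpec q M w) {f : FN (q * M)}
    (hf : f ∈ (gauss2 A hqM hw).V) :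
    ((((gauss2 A hqM hw).rd f).2 : EE) : LaurentSeries (kA A)) =
      gr A ((w f : FN (q * M)) : LaurentSeries Kb) := by
  rw [(gauss2 A hqM hw).rd_of_mem hf]; rfl

/-- extensionality for `rd`. -/
theorem gauss2_rd_eq (hqM : ¬ q ∣ M) (hw : WqSpec q M w) {f : FN (q * M)}
    (hf : f ∈ (gauss2 A hqM hw).V) (r : EE × EE)
    (h1 : gr A (f : LaurentSeries Kb) = r.1)
    (h2 : gr A ((w f : FN (q * M)) : LaurentSeries Kb) = r.2) :
    (gauss2 A hqM hw).rd f = r :=
  Prod.ext (Subtype.ext ((gauss2_rd_fst A hqM hw hf).trans h1))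
    (Subtype.ext ((gauss2_rd_snd A hqM hw hf).trans h2))

theorem gauss2_rc (hqM : ¬ q ∣ M) (hw : WqSpec q M w) {c : Kb} (hc : c ∈ A) :
    (gauss2 A hqM hw).rc c = IsLocalRing.residue A ⟨c, hc⟩ :=
  (gauss2 A hqM hw).rc_of_mem hc

/-- `w_q` preserves `V` and swaps the two components. -/
theorem gauss2_w (hqM : ¬ q ∣ M) (hw : WqSpec q M w) {f : FN (q * M)}
    (hf : f ∈ (gauss2 A hqM hw).V) :
    w f ∈ (gauss2 A hqM hw).V ∧ (gauss2 A hqM hw).rd (w f) = ((gauss2 A hqM hw).rd f).swap := by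
  have h1 : w f ∈ (gauss2 A hqM hw).V := ⟨hf.2, by rw [hw.invol]; exact hf.1⟩
  refine ⟨h1, gauss2_rd_eq A hqM hw h1 _ ?_ ?_⟩
  · exact (gauss2_rd_snd A hqM hw hf).symm
  · rw [hw.invol]; exact (gauss2_rd_fst A hqM hw hf).symm

theorem gauss2_i1 (hqM : ¬ q ∣ M) (hw : WqSpec q M w) {a : FN M}
    (ha : gsMem A (a : LaurentSeries Kb)) (α : EE) (hα : gr A (a : LaurentSeries Kb) = α) :
    g2i1 q M a ∈ (gauss2 A hqM hw).V ∧ (gauss2 A hqM hw).rd (g2i1 q M a) = (α, g2Phi A α) := by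
  have h1 : g2i1 q M a ∈ (gauss2 A hqM hw).V := g2_i1_mem A hw ha
  exact ⟨h1, ((gauss2 A hqM hw).rd_of_mem h1).trans (g2Red_i1 A hqM hw ha α hα)⟩

theorem gauss2_i2 (hqM : ¬ q ∣ M) (hw : WqSpec q M w) {a : FN M}
    (ha : gsMem A (a : LaurentSeries Kb)) (α : EE) (hα : gr A (a : LaurentSeries Kb) = α) :
    w (g2i1 q M a) ∈ (gauss2 A hqM hw).V ∧
      (gauss2 A hqM hw).rd (w (g2i1 q M a)) = (g2Phi A α, α) := by
  have h1 : w (g2i1 q M a) ∈ (gauss2 A hqM hw).V := g2_i2_mem A hw ha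
  exact ⟨h1, ((gauss2 A hqM hw).rd_of_mem h1).trans (g2Red_i2 A hqM hw ha α hα)⟩

/-- the same with the level `M` Gauss setting of S18. -/
theorem gauss2_i1' (hqM : ¬ q ∣ M) (hw : WqSpec q M w) {a : FN M}
    (ha : a ∈ (gaussSetting A M (g2_natCast_ne_zero A hqM)).V) :
    g2i1 q M a ∈ (gauss2 A hqM hw).V ∧ (gauss2 A hqM hw).rd (g2i1 q M a) =
      ((gaussSetting A M (g2_natCast_ne_zero A hqM)).rd a,
        g2Phi A ((gaussSetting A M (g2_natCast_ne_zero A hqM)).rd a)) := by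
  refine gauss2_i1 A hqM hw ha _ ?_
  rw [(gaussSetting A M (g2_natCast_ne_zero A hqM)).rd_of_mem ha]; rfl

theorem gauss2_i2' (hqM : ¬ q ∣ M) (hw : WqSpec q M w) {a : FN M}
    (ha : a ∈ (gaussSetting A M (g2_natCast_ne_zero A hqM)).V) :
    w (g2i1 q M a) ∈ (gauss2 A hqM hw).V ∧ (gauss2 A hqM hw).rd (w (g2i1 q M a)) =
      (g2Phi A ((gaussSetting A M (g2_natCast_ne_zero A hqM)).rd a),
        (gaussSetting A M (g2_natCast_ne_zero A hqM)).rd a) := by
  refine gauss2_i2 A hqM hw ha _ ?_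
  rw [(gaussSetting A M (g2_natCast_ne_zero A hqM)).rd_of_mem ha]; rfl

/-! ### the Galois action -/

theorem g2_coeffMap_mem (hqM : ¬ q ∣ M) (g : A.decompositionSubgroup ℚ)
    (φ : kA A →+* kA A)
    (hφ : ∀ x : A, IsLocalRing.residue A (g • x) = φ (IsLocalRing.residue A x)) (r : EE) :
    coeffMap φ (r : LaurentSeries (kA A)) ∈ EE := by
  have hMk := g2_natCast_ne_zero A hqM
  obtain ⟨a, ha⟩ := gsRed_surjective A M hMk r
  have ha' : gr A ((a : FN M) : LaurentSeries Kb) = r := congrArg Subtype.val ha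
  have h1 := g2_gsMem_gal g φ hφ a.2
  rw [← ha', ← h1.2]
  exact gr_mem A M hMk (galF M (g : GQ) (a : FN M)).2 h1.1

/-- the action of an element of the decomposition group on `k(X₀(M))` (on the coefficients). -/
noncomputable def g2Gal (hqM : ¬ q ∣ M) (g : A.decompositionSubgroup ℚ)
    (φ : kA A →+* kA A)
    (hφ : ∀ x : A, IsLocalRing.residue A (g • x) = φ (IsLocalRing.residue A x)) : EE →+* EE where
  toFun r := ⟨coeffMap φ (r : LaurentSeries (kA A)), g2_coeffMap_mem A hqM g φ hφ r⟩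
  map_one' := Subtype.ext (map_one _)
  map_mul' _ _ := Subtype.ext (map_mul _ _ _)
  map_zero' := Subtype.ext (map_zero _)
  map_add' _ _ := Subtype.ext (map_add _ _ _)

theorem coe_g2Gal (hqM : ¬ q ∣ M) (g : A.decompositionSubgroup ℚ)
    (φ : kA A →+* kA A)
    (hφ : ∀ x : A, IsLocalRing.residue A (g • x) = φ (IsLocalRing.residue A x)) (r : EE) :
    ((g2Gal A hqM g φ hφ r : EE) : LaurentSeries (kA A)) = coeffMap φ (r : LaurentSeries (kA A)) :=
  rfl

/-- **Galois.** The decomposition group preserves `V` and acts on the reduction through the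
coefficients, componentwise. -/
theorem gauss2_gal (hqM : ¬ q ∣ M) (hw : WqSpec q M w) (g : A.decompositionSubgroup ℚ)
    (φ : kA A →+* kA A)
    (hφ : ∀ x : A, IsLocalRing.residue A (g • x) = φ (IsLocalRing.residue A x))
    {f : FN (q * M)} (hf : f ∈ (gauss2 A hqM hw).V) :
    galF (q * M) (g : GQ) f ∈ (gauss2 A hqM hw).V ∧
      (gauss2 A hqM hw).rd (galF (q * M) (g : GQ) f) =
        (g2Gal A hqM g φ hφ).prodMap (g2Gal A hqM g φ hφ) ((gauss2 A hqM hw).rd f) := by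
  have h1 := g2_gsMem_gal g φ hφ hf.1
  have h2 := g2_gsMem_gal g φ hφ hf.2
  have hV : galF (q * M) (g : GQ) f ∈ (gauss2 A hqM hw).V :=
    ⟨h1.1, by rw [hw.gal]; exact h2.1⟩
  refine ⟨hV, gauss2_rd_eq A hqM hw hV _ ?_ ?_⟩
  · rw [Fermat.Agent.GR.coe_galF, h1.2]
    exact congrArg (coeffMap φ) (gauss2_rd_fst A hqM hw hf).symm
  · rw [hw.gal, Fermat.Agent.GR.coe_galF, h2.2]
    exact congrArg (coeffMap φ) (gauss2_rd_snd A hqM hw hf).symm

/-- the residue action of a Frobenius element. -/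
theorem g2_frob_res {σ : GQ} (hσ : A.IsFrobeniusAt σ q) (x : A) :
    IsLocalRing.residue A ((⟨σ, hσ.1⟩ : A.decompositionSubgroup ℚ) • x) =
      frobenius (kA A) q (IsLocalRing.residue A x) := by
  rw [IsLocalRing.ResidueField.residue_smul, hσ.2, frobenius_def]

/-- **Frobenius.** -/
theorem gauss2_frob (hqM : ¬ q ∣ M) (hw : WqSpec q M w) {σ : GQ} (hσ : A.IsFrobeniusAt σ q)
    {f : FN (q * M)} (hf : f ∈ (gauss2 A hqM hw).V) :
    galF (q * M) σ f ∈ (gauss2 A hqM hw).V ∧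
      (gauss2 A hqM hw).rd (galF (q * M) σ f) =
        (g2Gal A hqM ⟨σ, hσ.1⟩ _ (g2_frob_res A hσ)).prodMap
          (g2Gal A hqM ⟨σ, hσ.1⟩ _ (g2_frob_res A hσ)) ((gauss2 A hqM hw).rd f) :=
  gauss2_gal A hqM hw ⟨σ, hσ.1⟩ _ (g2_frob_res A hσ) hf

/-- **inertia acts trivially on the reduction.** -/
theorem gauss2_inertiaIn (hqM : ¬ q ∣ M) (hw : WqSpec q M w) {τ : GQ}
    (hτ : τ ∈ A.inertiaSubgroupIn ℚ) {f : FN (q * M)} (hf : f ∈ (gauss2 A hqM hw).V) :
    galF (q * M) τ f ∈ (gauss2 A hqM hw).V ∧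
      (gauss2 A hqM hw).rd (galF (q * M) τ f) = (gauss2 A hqM hw).rd f := by
  obtain ⟨g, hg, rfl⟩ := hτ
  have h1 := g2_gsMem_gal g _ (g2_inertia_res g hg) hf.1
  have h2 := g2_gsMem_gal g _ (g2_inertia_res g hg) hf.2
  rw [coeffMap_id] at h1 h2
  have hV : galF (q * M) (g : GQ) f ∈ (gauss2 A hqM hw).V :=
    ⟨h1.1, by rw [hw.gal]; exact h2.1⟩
  refine ⟨hV, gauss2_rd_eq A hqM hw hV _ ?_ ?_⟩
  · rw [Fermat.Agent.GR.coe_galF, h1.2, gauss2_rd_fst A hqM hw hf]
  · rw [hw.gal, Fermat.Agent.GR.coe_galF, h2.2, gauss2_rd_snd A hqM hw hf]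

/-- **the inertia input of PROV.**  For `u ≠ 0` and `τ ∈ I_A`, the element `τu / u` lies in `V` and
its reduction is a pair of nonzero constants. -/
theorem gauss2_inertia_const (hqM : ¬ q ∣ M) (hw : WqSpec q M w) {τ : GQ}
    (hτ : τ ∈ A.inertiaSubgroupIn ℚ) (u : FN (q * M)) (hu : u ≠ 0) :
    ∃ κ₁ κ₂ : kA A, κ₁ ≠ 0 ∧ κ₂ ≠ 0 ∧ galF (q * M) τ u * u⁻¹ ∈ (gauss2 A hqM hw).V ∧
      (gauss2 A hqM hw).rd (galF (q * M) τ u * u⁻¹) =
        (algebraMap (kA A) EE κ₁, algebraMap (kA A) EE κ₂) := by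
  obtain ⟨g, hg, rfl⟩ := hτ
  -- the one-component statement
  have key : ∀ v : FN (q * M), v ≠ 0 → ∃ κ : kA A, κ ≠ 0 ∧
      gsMem A ((galF (q * M) (g : GQ) v * v⁻¹ : FN (q * M)) : LaurentSeries Kb) ∧
      gr A ((galF (q * M) (g : GQ) v * v⁻¹ : FN (q * M)) : LaurentSeries Kb) =
        HahnSeries.C κ := by
    intro v hv
    obtain ⟨c, hc, m1, hr, -⟩ := g2_normalForm A hqM hw v hv
    have h1 := g2_gsMem_gal g _ (g2_inertia_res g hg) m1
    rw [coeffMap_id] at h1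
    obtain ⟨i1, i2⟩ := g2_inv m1 hr
    have hv0 : (v : LaurentSeries Kb) ≠ 0 := fun h => hv (Subtype.ext h)
    have hC : (HahnSeries.C c : LaurentSeries Kb) ≠ 0 := by
      rw [Ne, map_eq_zero_iff _ HahnSeries.C_injective]; exact hc
    obtain ⟨a1, a2⟩ := g2_gal_div_mem A g.2 hc
    obtain ⟨a, ha⟩ : ∃ a : Kb, a = (g : GQ) c * c⁻¹ := ⟨_, rfl⟩
    rw [← ha] at a1 a2
    have ha0 : a ≠ 0 := by
      rw [ha]; exact mul_ne_zero (by simpa using hc) (inv_ne_zero hc)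
    have hcoe : ((galF (q * M) (g : GQ) v * v⁻¹ : FN (q * M)) : LaurentSeries Kb) =
        HahnSeries.C a⁻¹ * (coeffMap ((g : GQ) : Kb →+* Kb) (HahnSeries.C c * (v : LaurentSeries Kb)) *
          (HahnSeries.C c * (v : LaurentSeries Kb))⁻¹) := by
      have hCa : (HahnSeries.C a⁻¹ : LaurentSeries Kb) * HahnSeries.C ((g : GQ) c) *
          (HahnSeries.C c)⁻¹ = 1 := by
        rw [← map_inv₀, ← map_mul, ← map_mul, mul_assoc, ← ha, inv_mul_cancel₀ ha0, map_one]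
      rw [map_mul (coeffMap _), coeffMap_C, mul_inv]
      show coeffMap _ (v : LaurentSeries Kb) * (v : LaurentSeries Kb)⁻¹ = _
      simp only [RingHom.coe_coe]
      linear_combination (-(coeffMap ((g : GQ) : Kb →+* Kb) (v : LaurentSeries Kb) *
        (v : LaurentSeries Kb)⁻¹)) * hCa
    have m2 := gsMem.mul h1.1 i1
    have g2' := gr_mul h1.1 i1
    rw [h1.2, i2, mul_inv_cancel₀ hr] at g2'
    refine ⟨IsLocalRing.residue A ⟨a⁻¹, a2⟩, ?_, ?_, ?_⟩
    · intro h0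
      have h3 : (⟨a⁻¹, a2⟩ : A) * ⟨a, a1⟩ = 1 := Subtype.ext (inv_mul_cancel₀ ha0)
      have h4 := congrArg (IsLocalRing.residue A) h3
      rw [map_mul, h0, zero_mul, map_one] at h4
      exact zero_ne_one h4
    · rw [hcoe]; exact gsMem.mul (gsMem_C a2) m2
    · rw [hcoe, gr_mul (gsMem_C a2) m2, g2', mul_one, gr_C a2]
  have hwu : w u ≠ 0 := (map_ne_zero_iff w w.injective).mpr hu
  obtain ⟨κ₁, hκ₁, m1, e1⟩ := key u hu
  obtain ⟨κ₂, hκ₂, m2, e2⟩ := key (w u) hwu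
  have hwe : w (galF (q * M) (g : GQ) u * u⁻¹) = galF (q * M) (g : GQ) (w u) * (w u)⁻¹ := by
    rw [map_mul, map_inv₀, hw.gal]
  have hV : galF (q * M) (g : GQ) u * u⁻¹ ∈ (gauss2 A hqM hw).V := ⟨m1, by rw [hwe]; exact m2⟩
  refine ⟨κ₁, κ₂, hκ₁, hκ₂, hV, gauss2_rd_eq A hqM hw hV _ ?_ ?_⟩
  · rw [e1, ← Fermat.Agent.S28.algebraMap_eq_C]; rfl
  · rw [hwe, e2, ← Fermat.Agent.S28.algebraMap_eq_C]; rfl

/-- **the inertia input of PROV, normalised.**  For `u ≠ 0`, `τ ∈ I_A` and `m > 0` there is `h ≠ 0`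
with `τu / u · h^m ∈ V` of reduction `1`. -/
theorem gauss2_inertia_unit (hqM : ¬ q ∣ M) (hw : WqSpec q M w) {τ : GQ}
    (hτ : τ ∈ A.inertiaSubgroupIn ℚ) (u : FN (q * M)) (hu : u ≠ 0) {m : ℕ} (hm : 0 < m) :
    ∃ h : FN (q * M), h ≠ 0 ∧ galF (q * M) τ u * u⁻¹ * h ^ m ∈ (gauss2 A hqM hw).V ∧
      (gauss2 A hqM hw).rd (galF (q * M) τ u * u⁻¹ * h ^ m) = 1 := by
  have := isAlgClosed_kA A
  obtain ⟨κ₁, κ₂, hκ₁, hκ₂, hV, hrd⟩ := gauss2_inertia_const A hqM hw hτ u hu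
  obtain ⟨d₁, hd₁⟩ := IsAlgClosed.exists_pow_nat_eq κ₁⁻¹ hm
  obtain ⟨d₂, hd₂⟩ := IsAlgClosed.exists_pow_nat_eq κ₂⁻¹ hm
  obtain ⟨h, hhV, hh⟩ := (gauss2 A hqM hw).exists_rd_eq
    (algebraMap (kA A) EE d₁, algebraMap (kA A) EE d₂)
  have hd₁0 : d₁ ≠ 0 := by
    rintro rfl
    rw [zero_pow hm.ne'] at hd₁
    exact inv_ne_zero hκ₁ hd₁.symm
  refine ⟨h, ?_, mul_mem hV (pow_mem hhV m), ?_⟩
  · rintro rfl
    rw [(gauss2 A hqM hw).rd_zero] at hh
    have := congrArg Prod.fst hh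
    exact hd₁0 ((map_eq_zero (algebraMap (kA A) EE)).mp this.symm)
  · rw [(gauss2 A hqM hw).rd_mul hV (pow_mem hhV m), (gauss2 A hqM hw).rd_pow hhV, hrd, hh]
    refine Prod.ext ?_ ?_
    · show algebraMap (kA A) EE κ₁ * algebraMap (kA A) EE d₁ ^ m = 1
      rw [← map_pow, hd₁, ← map_mul, mul_inv_cancel₀ hκ₁, map_one]
    · show algebraMap (kA A) EE κ₂ * algebraMap (kA A) EE d₂ ^ m = 1
      rw [← map_pow, hd₂, ← map_mul, mul_inv_cancel₀ hκ₂, map_one]

end

end Fermat.Agent.S34
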