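import Fermat.Agent.S34.WQGen
import Fermat.Agent.GR.ES

/-!
# S34, piece WQ: the Atkin-Lehner involution `w_q` of `ℚ̄(X₀(q M))`, `q ∤ M`
-/

set_option autoImplicit false

namespace Fermat.Agent.S34

open UpperHalfPlane ModularForm EisensteinSeries Filter Topology CongruenceSubgroup ModularCurve
open Fermat.Agent.S20 Fermat.Agent.S23 Fermat.Agent.S24 Fermat.Agent.GR
open scoped MatrixGroups Manifold ModularForm

theorem mem_FN_iff (N : ℕ) (x : LaurentSeries Kb) :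
    x ∈ FN N ↔ x ∈ IntermediateField.adjoin Kb (divisorExpansionsC Kb N) := by
  show x ∈ modularFunctionFieldBar N ↔ _
  rw [modularFunctionFieldBar_eq]
  rfl

theorem jd_mem {d N : ℕ} [NeZero d] (hd : d ∣ N) : jd d ∈ FN N := by
  rw [mem_FN_iff]
  exact IntermediateField.subset_adjoin _ _ (mem_divisorExpansionsC Kb N hd)

theorem exists_rel {q M : ℕ} [NeZero (q * M)] (hq : q.Prime) (hqM : ¬ q ∣ M) (b c : ℤ)
    (h : (q : ℤ) * c - (M : ℤ) * b = 1) (s : LaurentSeries Kb) (hs : s ∈ FN (q * M)) :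
    ∃ s' ∈ FN (q * M), Rel (wqMat q M b c hq.pos h) s s' := by
  have hdet := det_wqMat q M b c hq.pos h
  rw [mem_FN_iff] at hs
  induction hs using IntermediateField.adjoin_induction with
  | mem x hx =>
    obtain ⟨d, hne, hd, rfl⟩ := hx
    have hM0 : M ≠ 0 := fun h0 => NeZero.ne (q * M) (by rw [h0, mul_zero])
    by_cases hqd : q ∣ d
    · obtain ⟨d₁, rfl⟩ := hqd
      have hd₁ : d₁ ∣ M := Nat.dvd_of_mul_dvd_mul_left hq.pos hd
      have : NeZero d₁ := ⟨fun h0 => NeZero.ne (q * d₁) (by rw [h0, mul_zero])⟩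
      obtain ⟨e, rfl⟩ := hd₁
      have he : e ≠ 0 := fun h0 => hM0 (by rw [h0, mul_zero])
      obtain ⟨γ, hγ⟩ := wq_smul_B q d₁ e he b c hq.pos h
      exact ⟨jd d₁, jd_mem (Dvd.dvd.mul_left (Dvd.intro _ rfl) _), rel_jd γ hγ⟩
    · have hcop : Nat.Coprime d q := ((Nat.Prime.coprime_iff_not_dvd hq).mpr hqd).symm
      have hd₁ : d ∣ M := hcop.dvd_of_dvd_mul_left hd
      have : NeZero (q * d) := ⟨Nat.mul_ne_zero hq.ne_zero (NeZero.ne d)⟩
      obtain ⟨e, rfl⟩ := hd₁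
      have he : e ≠ 0 := fun h0 => hM0 (by rw [h0, mul_zero])
      obtain ⟨γ, hγ⟩ := wq_smul_A q d e he b c hq.pos h
      exact ⟨jd (q * d), jd_mem (Nat.mul_dvd_mul_left _ (Dvd.intro _ rfl)), rel_jd γ hγ⟩
  | algebraMap x => exact ⟨_, IntermediateField.algebraMap_mem _ _, Rel.const x⟩
  | add x y _ _ hx hy =>
    obtain ⟨x', hx', rx⟩ := hx
    obtain ⟨y', hy', ry⟩ := hy
    exact ⟨_, add_mem hx' hy', rx.add ry⟩
  | inv x _ hx =>
    obtain ⟨x', hx', rx⟩ := hx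
    exact ⟨_, inv_mem hx', rx.inv hdet⟩
  | mul x y _ _ hx hy =>
    obtain ⟨x', hx', rx⟩ := hx
    obtain ⟨y', hy', ry⟩ := hy
    exact ⟨_, mul_mem hx' hy', rx.mul ry⟩

theorem rel_jd_A {q M : ℕ} [NeZero (q * M)] (hq : q.Prime) (b c : ℤ)
    (h : (q : ℤ) * c - (M : ℤ) * b = 1) (d : ℕ) [NeZero d] [NeZero (q * d)] (hd : d ∣ M) :
    Rel (wqMat q M b c hq.pos h) (jd d) (jd (q * d)) := by
  have hM0 : M ≠ 0 := fun h0 => NeZero.ne (q * M) (by rw [h0, mul_zero])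
  obtain ⟨e, rfl⟩ := hd
  have he : e ≠ 0 := fun h0 => hM0 (by rw [h0, mul_zero])
  obtain ⟨γ, hγ⟩ := wq_smul_A q d e he b c hq.pos h
  exact rel_jd γ hγ

theorem rel_jd_B {q M : ℕ} [NeZero (q * M)] (hq : q.Prime) (b c : ℤ)
    (h : (q : ℤ) * c - (M : ℤ) * b = 1) (d : ℕ) [NeZero d] [NeZero (q * d)] (hd : d ∣ M) :
    Rel (wqMat q M b c hq.pos h) (jd (q * d)) (jd d) := by
  have hM0 : M ≠ 0 := fun h0 => NeZero.ne (q * M) (by rw [h0, mul_zero])
  obtain ⟨e, rfl⟩ := hd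
  have he : e ≠ 0 := fun h0 => hM0 (by rw [h0, mul_zero])
  obtain ⟨γ, hγ⟩ := wq_smul_B q d e he b c hq.pos h
  exact rel_jd γ hγ

/-- the algebra endomorphism `w_q`, characterised on the generators. -/
theorem exists_wqHom {q M : ℕ} [NeZero (q * M)] (hq : q.Prime) (hqM : ¬ q ∣ M) :
    ∃ w : FN (q * M) →ₐ[Kb] FN (q * M),
      ∀ (d : ℕ) [NeZero d] [NeZero (q * d)], d ∣ M → ∀ f : FN (q * M),
        ((f : LaurentSeries Kb) = jd d → (w f : LaurentSeries Kb) = jd (q * d)) ∧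
        ((f : LaurentSeries Kb) = jd (q * d) → (w f : LaurentSeries Kb) = jd d) := by
  obtain ⟨b, c, h⟩ : ∃ b c : ℤ, (q : ℤ) * c - (M : ℤ) * b = 1 := by
    have hcop : IsCoprime (q : ℤ) (M : ℤ) :=
      Nat.isCoprime_iff_coprime.mpr ((Nat.Prime.coprime_iff_not_dvd hq).mpr hqM)
    obtain ⟨u, v, huv⟩ := hcop
    exact ⟨-v, u, by linear_combination huv⟩
  have hdet := det_wqMat q M b c hq.pos h
  choose f hfmem hfrel using fun s : FN (q * M) => exists_rel hq hqM b c h s s.2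
  have huniq : ∀ (s : FN (q * M)) (t : LaurentSeries Kb),
      Rel (wqMat q M b c hq.pos h) (s : LaurentSeries Kb) t → f s = t :=
    fun s t ht => (hfrel s).unique hdet ht
  refine ⟨{ toFun := fun s => ⟨f s, hfmem s⟩
            map_one' := Subtype.ext (huniq 1 1 (by
              have := Rel.const (δ := wqMat q M b c hq.pos h) 1
              rwa [map_one] at this))
            map_mul' := fun x y => Subtype.ext (huniq (x * y) _ ((hfrel x).mul (hfrel y)))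
            map_zero' := Subtype.ext (huniq 0 0 Rel.zero)
            map_add' := fun x y => Subtype.ext (huniq (x + y) _ ((hfrel x).add (hfrel y)))
            commutes' := fun r => Subtype.ext (huniq _ _ (Rel.const r)) }, ?_⟩
  intro d _ _ hd s
  refine ⟨fun hs => ?_, fun hs => ?_⟩
  · apply huniq
    rw [hs]
    exact rel_jd_A hq b c h d hd
  · apply huniq
    rw [hs]
    exact rel_jd_B hq b c h d hd

/-- induction principle for `ℚ̄(X₀(N))`. -/
theorem FN_induction {N : ℕ} {p : FN N → Prop}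
    (gen : ∀ (d : ℕ) [NeZero d] (hd : d ∣ N), p ⟨jd d, jd_mem hd⟩)
    (alg : ∀ c : Kb, p (algebraMap Kb (FN N) c))
    (add : ∀ x y, p x → p y → p (x + y)) (inv : ∀ x, p x → p x⁻¹)
    (mul : ∀ x y, p x → p y → p (x * y)) (f : FN N) : p f := by
  obtain ⟨x, hx⟩ := f
  have hx' := (mem_FN_iff N x).mp hx
  induction hx' using IntermediateField.adjoin_induction with
  | mem x hx₁ =>
    obtain ⟨d, hne, hd, rfl⟩ := hx₁
    exact gen d hd
  | algebraMap c => exact alg c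
  | add x y hx₁ hy₁ ihx ihy =>
    exact add ⟨x, (mem_FN_iff N x).mpr hx₁⟩ ⟨y, (mem_FN_iff N y).mpr hy₁⟩ (ihx _) (ihy _)
  | inv x hx₁ ihx => exact inv ⟨x, (mem_FN_iff N x).mpr hx₁⟩ (ihx _)
  | mul x y hx₁ hy₁ ihx ihy =>
    exact mul ⟨x, (mem_FN_iff N x).mpr hx₁⟩ ⟨y, (mem_FN_iff N y).mpr hy₁⟩ (ihx _) (ihy _)

theorem coeffMap_jd (σ : Kb →+* Kb) (d : ℕ) [NeZero d] : coeffMap σ (jd d) = jd d := by
  rw [jd, coeffMap_qExpand, coeffMap_jqModC]

theorem qExpand_jd (q d : ℕ) [NeZero q] [NeZero d] [NeZero (q * d)] :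
    qExpand Kb q (jd d) = jd (q * d) := by
  rw [jd, jd, qExpand_qExpand]


/-- what we know about the endomorphism `w`. -/
def IsWq (q M : ℕ) (w : FN (q * M) →ₐ[Kb] FN (q * M)) : Prop :=
  ∀ (d : ℕ) [NeZero d] [NeZero (q * d)], d ∣ M → ∀ f : FN (q * M),
    ((f : LaurentSeries Kb) = jd d → (w f : LaurentSeries Kb) = jd (q * d)) ∧
    ((f : LaurentSeries Kb) = jd (q * d) → (w f : LaurentSeries Kb) = jd d)

section
variable {q M : ℕ} {w : FN (q * M) →ₐ[Kb] FN (q * M)}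

theorem IsWq.gen (hw : IsWq q M w) (hq : q.Prime) (d : ℕ) [NeZero d] (hd : d ∣ q * M) :
    ∃ (d' : ℕ) (_ : NeZero d') (hd' : d' ∣ q * M),
      w ⟨jd d, jd_mem hd⟩ = ⟨jd d', jd_mem hd'⟩ ∧ w ⟨jd d', jd_mem hd'⟩ = ⟨jd d, jd_mem hd⟩ := by
  by_cases hqd : q ∣ d
  · obtain ⟨d₁, rfl⟩ := hqd
    have hd₁ : d₁ ∣ M := Nat.dvd_of_mul_dvd_mul_left hq.pos hd
    have i1 : NeZero d₁ := ⟨fun h0 => NeZero.ne (q * d₁) (by rw [h0, mul_zero])⟩
    exact ⟨d₁, i1, Dvd.dvd.mul_left hd₁ _, Subtype.ext ((hw d₁ hd₁ _).2 rfl),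
      Subtype.ext ((hw d₁ hd₁ _).1 rfl)⟩
  · have hcop : Nat.Coprime d q := ((Nat.Prime.coprime_iff_not_dvd hq).mpr hqd).symm
    have hd₁ : d ∣ M := hcop.dvd_of_dvd_mul_left hd
    have i1 : NeZero (q * d) := ⟨Nat.mul_ne_zero hq.ne_zero (NeZero.ne d)⟩
    exact ⟨q * d, i1, Nat.mul_dvd_mul_left _ hd₁, Subtype.ext ((hw d hd₁ _).1 rfl),
      Subtype.ext ((hw d hd₁ _).2 rfl)⟩

theorem IsWq.invol (hw : IsWq q M w) (hq : q.Prime) (f : FN (q * M)) : w (w f) = f := by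
  induction f using FN_induction with
  | gen d hd =>
    obtain ⟨d', _, hd', h1, h2⟩ := hw.gen hq d hd
    rw [h1, h2]
  | alg c => rw [AlgHom.commutes, AlgHom.commutes]
  | add x y hx hy => rw [map_add, map_add, hx, hy]
  | inv x hx => rw [map_inv₀, map_inv₀, hx]
  | mul x y hx hy => rw [map_mul, map_mul, hx, hy]

theorem galF_jd (N : ℕ) (σ : GQ) (d : ℕ) [NeZero d] (hd : d ∣ N) :
    galF N σ ⟨jd d, jd_mem hd⟩ = ⟨jd d, jd_mem hd⟩ := by
  apply Subtype.ext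
  rw [coe_galF]
  exact coeffMap_jd _ d

theorem IsWq.gal (hw : IsWq q M w) (hq : q.Prime) (σ : GQ) (f : FN (q * M)) :
    w (galF (q * M) σ f) = galF (q * M) σ (w f) := by
  induction f using FN_induction with
  | gen d hd =>
    obtain ⟨d', _, hd', h1, -⟩ := hw.gen hq d hd
    rw [galF_jd _ σ d hd, h1, galF_jd _ σ d' hd']
  | alg c =>
    rw [AlgHom.commutes]
    have : galF (q * M) σ (algebraMap Kb (FN (q * M)) c) = algebraMap Kb (FN (q * M)) (σ c) :=
      arithmeticRingAut_algebraMap _ σ c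
    rw [this, AlgHom.commutes]
  | add x y hx hy => rw [map_add, map_add, map_add, map_add, hx, hy]
  | inv x hx => rw [map_inv₀, map_inv₀, map_inv₀, map_inv₀, hx]
  | mul x y hx hy => rw [map_mul, map_mul, map_mul, map_mul, hx, hy]

theorem coe_algebraMap_FN (N : ℕ) (c : Kb) :
    ((algebraMap Kb (FN N) c : FN N) : LaurentSeries Kb) = HahnSeries.C c := by
  rw [← Fermat.Agent.S28.algebraMap_eq_C]; rfl

theorem IsWq.incl (hw : IsWq q M w) (hq : q.Prime) [NeZero q] (g : FN M) :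
    ((w (Fermat.Agent.S18.inclFN (Dvd.intro_left q rfl) g) : FN (q * M)) : LaurentSeries Kb) =
      qExpand Kb q (g : LaurentSeries Kb) := by
  induction g using FN_induction with
  | gen d hd =>
    have i1 : NeZero (q * d) := ⟨Nat.mul_ne_zero hq.ne_zero (NeZero.ne d)⟩
    rw [(hw d hd _).1 (Fermat.Agent.S18.coe_inclFN _ _)]
    exact (qExpand_jd q d).symm
  | alg c =>
    rw [AlgHom.commutes, AlgHom.commutes, coe_algebraMap_FN, coe_algebraMap_FN, qExpand_C]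
  | add x y hx hy =>
    rw [map_add, map_add, AddMemClass.coe_add, AddMemClass.coe_add, hx, hy, map_add]
  | inv x hx =>
    rw [map_inv₀, map_inv₀, IntermediateField.coe_inv, IntermediateField.coe_inv, hx, map_inv₀]
  | mul x y hx hy =>
    rw [map_mul, map_mul, MulMemClass.coe_mul, MulMemClass.coe_mul, hx, hy, map_mul]

end

/-- **WQ.**  The Atkin-Lehner involution `w_q` of `ℚ̄(X₀(q M))`: a `ℚ̄`-algebra involution commuting with the Galois
action, which maps `g(t)` to `g(t^q)` and `g(t^q)` to `g(t)` for `g ∈ ℚ̄(X₀(M))`. -/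
theorem exists_wq {q M : ℕ} [NeZero (q * M)] [NeZero q] (hq : q.Prime) (hqM : ¬ q ∣ M) :
    ∃ w : FN (q * M) ≃ₐ[Kb] FN (q * M),
      (∀ f, w (w f) = f) ∧
      (∀ (σ : GQ) (f : FN (q * M)), w (galF (q * M) σ f) = galF (q * M) σ (w f)) ∧
      (∀ f : FN (q * M), (f : LaurentSeries Kb) ∈ FN M →
        (w f : LaurentSeries Kb) = qExpand Kb q (f : LaurentSeries Kb)) ∧
      (∀ (f : FN (q * M)) (g : LaurentSeries Kb), g ∈ FN M →
        (f : LaurentSeries Kb) = qExpand Kb q g → (w f : LaurentSeries Kb) = g) := by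
  obtain ⟨w, hw'⟩ := exists_wqHom hq hqM
  have hw : IsWq q M w := hw'
  have hinv := hw.invol hq
  have hA : ∀ f : FN (q * M), ∀ hf : (f : LaurentSeries Kb) ∈ FN M,
      f = Fermat.Agent.S18.inclFN (Dvd.intro_left q rfl) (⟨f, hf⟩ : FN M) := by
    intro f hf
    apply Subtype.ext
    rw [Fermat.Agent.S18.coe_inclFN]
  refine ⟨AlgEquiv.ofAlgHom w w (AlgHom.ext hinv) (AlgHom.ext hinv), hinv, hw.gal hq,
    fun f hf => ?_, fun f g hg hf => ?_⟩
  · show ((w f : FN (q * M)) : LaurentSeries Kb) = _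
    conv_lhs => rw [hA f hf]
    rw [hw.incl hq]
  · have h1 : w (Fermat.Agent.S18.inclFN (Dvd.intro_left q rfl) (⟨g, hg⟩ : FN M)) = f :=
      Subtype.ext (by rw [hw.incl hq, hf])
    show ((w f : FN (q * M)) : LaurentSeries Kb) = g
    rw [← h1, hinv, Fermat.Agent.S18.coe_inclFN]

end Fermat.Agent.S34
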