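import Fermat.Agent.S34.Gauss2D
import Fermat.Agent.S34.NBasic
import Fermat.Agent.S34.WQ

/-!
# S34, piece G2: the reduction setting `gauss2` at level `qM` (`q ∤ M`, residue characteristic `q`)

`V = {f : f and w_q f are Gauss integral}`, `rd f = (gr f, gr (w_q f)) ∈ E × E`,
`E = k(X₀(M)) = modularFunctionFieldFullC k M`.
-/

set_option autoImplicit false
set_option linter.unusedSectionVars false

namespace Fermat.Agent.S34

open Polynomial IntermediateField Fermat.Agent.S24 Fermat.Agent.S28 Fermat.Agent.S18 ModularCurve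
open Fermat.Agent.GR (GQ galF)

theorem exists_wqSpec {q M : ℕ} [NeZero M] [NeZero q] (hq : q.Prime) (hqM : ¬ q ∣ M) :
    ∃ w : FN (q * M) ≃ₐ[Kb] FN (q * M), WqSpec q M w := by
  have : NeZero (q * M) := ⟨mul_ne_zero (NeZero.ne q) (NeZero.ne M)⟩
  obtain ⟨w, h1, h2, h3, -⟩ := exists_wq hq hqM
  exact ⟨w, h3, h1, h2⟩

section

variable (A : ValuationSubring Kb) {q M : ℕ} [NeZero q] [NeZero M] [Fact q.Prime]
  [CharP (kA A) q] {w : FN (q * M) ≃ₐ[Kb] FN (q * M)}

local notation "EE" => modularFunctionFieldFullC (kA A) M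

/-- **normal form for the Gauss valuation at `∞`.** -/
theorem g2_normalForm (hqM : ¬ q ∣ M) (hw : WqSpec q M w) (f : FN (q * M)) (hf : f ≠ 0) :
    ∃ c : Kb, c ≠ 0 ∧ gsMem A (HahnSeries.C c * (f : LaurentSeries Kb)) ∧
      gr A (HahnSeries.C c * (f : LaurentSeries Kb)) ≠ 0 ∧
      gr A (HahnSeries.C c * (f : LaurentSeries Kb)) ∈ EE := by
  obtain ⟨c, hc, m1, m2, e1, e2, hne⟩ := g2_supForm A hqM hw f hf
  by_cases h1 : gr A (HahnSeries.C c * (f : LaurentSeries Kb)) = 0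
  swap
  · exact ⟨c, hc, m1, h1, e1⟩
  have h2 : gr A (HahnSeries.C c * ((w f : FN (q * M)) : LaurentSeries Kb)) ≠ 0 :=
    hne.resolve_left (not_not.mpr h1)
  obtain ⟨c', hc', m1', m2', e1', e2', hne'⟩ := g2_supForm A hqM hw f⁻¹ (inv_ne_zero hf)
  have hf0 : (f : LaurentSeries Kb) ≠ 0 := fun h => hf (Subtype.ext h)
  have hwf0 : ((w f : FN (q * M)) : LaurentSeries Kb) ≠ 0 := fun h =>
    hf ((map_eq_zero_iff w w.injective).mp (Subtype.ext h))
  have hi1 : ((f⁻¹ : FN (q * M)) : LaurentSeries Kb) = (f : LaurentSeries Kb)⁻¹ := rfl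
  have hi2 : ((w f⁻¹ : FN (q * M)) : LaurentSeries Kb) =
      ((w f : FN (q * M)) : LaurentSeries Kb)⁻¹ := by
    rw [map_inv₀]; rfl
  rw [hi1] at m1' e1' hne'
  rw [hi2] at m2' e2' hne'
  have p1 : HahnSeries.C c * (f : LaurentSeries Kb) * (HahnSeries.C c' * (f : LaurentSeries Kb)⁻¹) =
      HahnSeries.C (c * c') := by
    rw [map_mul]; field_simp
  have p2 : HahnSeries.C c * ((w f : FN (q * M)) : LaurentSeries Kb) *
      (HahnSeries.C c' * ((w f : FN (q * M)) : LaurentSeries Kb)⁻¹) = HahnSeries.C (c * c') := by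
    rw [map_mul]; field_simp
  have g1 := gr_mul m1 m1'
  have g2 := gr_mul m2 m2'
  rw [p1, h1, zero_mul] at g1
  rw [p2, g1] at g2
  have h3 : gr A (HahnSeries.C c' * ((w f : FN (q * M)) : LaurentSeries Kb)⁻¹) = 0 :=
    (mul_eq_zero.mp g2.symm).resolve_left h2
  have h4 : gr A (HahnSeries.C c' * (f : LaurentSeries Kb)⁻¹) ≠ 0 :=
    hne'.resolve_right (not_not.mpr h3)
  obtain ⟨i1, i2⟩ := g2_inv m1' h4
  have hC' : (HahnSeries.C c' : LaurentSeries Kb) ≠ 0 := by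
    rw [Ne, map_eq_zero_iff _ HahnSeries.C_injective]; exact hc'
  have p3 : (HahnSeries.C c' * (f : LaurentSeries Kb)⁻¹)⁻¹ =
      HahnSeries.C c'⁻¹ * (f : LaurentSeries Kb) := by
    rw [mul_inv, inv_inv, map_inv₀]
  rw [p3] at i1 i2
  exact ⟨c'⁻¹, inv_ne_zero hc', i1, by rw [i2]; exact inv_ne_zero h4, by
    rw [i2]; exact inv_mem e1'⟩

/-- the reduction of a Gauss integral element of `ℚ̄(X₀(qM))` lies in `k(X₀(M))`. -/
theorem g2_gr_mem (hqM : ¬ q ∣ M) (hw : WqSpec q M w) (f : FN (q * M))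
    (hf : gsMem A (f : LaurentSeries Kb)) : gr A (f : LaurentSeries Kb) ∈ EE := by
  by_cases hf0 : f = 0
  · rw [hf0]
    show gr A 0 ∈ _
    rw [gr_zero]; exact zero_mem _
  obtain ⟨c, hc, m1, h1, e1⟩ := g2_normalForm A hqM hw f hf0
  have hci := g2_inv_mem hf h1
  have h2 : (f : LaurentSeries Kb) = HahnSeries.C c⁻¹ * (HahnSeries.C c * (f : LaurentSeries Kb)) := by
    rw [← mul_assoc, g2_C_mul_C_inv hc, one_mul]
  rw [h2, gr_mul (gsMem_C hci) m1, gr_C hci, ← Fermat.Agent.S28.algebraMap_eq_C]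
  exact mul_mem (IntermediateField.algebraMap_mem _ _) e1

/-- the unit ball of the sup-norm. -/
noncomputable def g2V (w : FN (q * M) ≃ₐ[Kb] FN (q * M)) : Subring (FN (q * M)) where
  carrier := {f | gsMem A (f : LaurentSeries Kb) ∧ gsMem A ((w f : FN (q * M)) : LaurentSeries Kb)}
  mul_mem' := fun ha hb => ⟨gsMem.mul ha.1 hb.1, by rw [map_mul]; exact gsMem.mul ha.2 hb.2⟩
  one_mem' := ⟨gsMem_one, by rw [map_one]; exact gsMem_one⟩
  add_mem' := fun ha hb => ⟨gsMem.add ha.1 hb.1, by rw [map_add]; exact gsMem.add ha.2 hb.2⟩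
  zero_mem' := ⟨gsMem_zero, by rw [map_zero]; exact gsMem_zero⟩
  neg_mem' := fun ha => ⟨gsMem.neg ha.1, by rw [map_neg]; exact gsMem.neg ha.2⟩

theorem mem_g2V (f : FN (q * M)) : f ∈ g2V A w ↔
    gsMem A (f : LaurentSeries Kb) ∧ gsMem A ((w f : FN (q * M)) : LaurentSeries Kb) := Iff.rfl

/-- the reduction map. -/
noncomputable def g2Red (hqM : ¬ q ∣ M) (hw : WqSpec q M w) : g2V A w →+* EE × EE where
  toFun f := (⟨gr A ((f : FN (q * M)) : LaurentSeries Kb), g2_gr_mem A hqM hw f f.2.1⟩,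
    ⟨gr A ((w (f : FN (q * M)) : FN (q * M)) : LaurentSeries Kb), g2_gr_mem A hqM hw _ f.2.2⟩)
  map_one' := Prod.ext (Subtype.ext gr_one) (Subtype.ext (by
    show gr A ((w (1 : FN (q * M)) : FN (q * M)) : LaurentSeries Kb) = 1
    rw [map_one]; exact gr_one))
  map_mul' f g := Prod.ext (Subtype.ext (gr_mul f.2.1 g.2.1)) (Subtype.ext (by
    show gr A ((w ((f : FN (q * M)) * (g : FN (q * M))) : FN (q * M)) : LaurentSeries Kb) = _
    rw [map_mul]; exact gr_mul f.2.2 g.2.2))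
  map_zero' := Prod.ext (Subtype.ext gr_zero) (Subtype.ext (by
    show gr A ((w (0 : FN (q * M)) : FN (q * M)) : LaurentSeries Kb) = 0
    rw [map_zero]; exact gr_zero))
  map_add' f g := Prod.ext (Subtype.ext (gr_add f.2.1 g.2.1)) (Subtype.ext (by
    show gr A ((w ((f : FN (q * M)) + (g : FN (q * M))) : FN (q * M)) : LaurentSeries Kb) = _
    rw [map_add]; exact gr_add f.2.2 g.2.2))

theorem g2Red_fst (hqM : ¬ q ∣ M) (hw : WqSpec q M w) (f : g2V A w) :
    (((g2Red A hqM hw f).1 : EE) : LaurentSeries (kA A)) =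
      gr A ((f : FN (q * M)) : LaurentSeries Kb) := rfl

theorem g2Red_snd (hqM : ¬ q ∣ M) (hw : WqSpec q M w) (f : g2V A w) :
    (((g2Red A hqM hw f).2 : EE) : LaurentSeries (kA A)) =
      gr A ((w (f : FN (q * M)) : FN (q * M)) : LaurentSeries Kb) := rfl


/-! ### the two embeddings of level `M` -/

/-- `φ = (t ↦ t^q)` on `k(X₀(M))`. -/
noncomputable def g2Phi : EE →+* EE where
  toFun x := ⟨qExpand (kA A) q (x : LaurentSeries (kA A)), g2_phi_mem q M x.2⟩
  map_one' := Subtype.ext (map_one _)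
  map_mul' _ _ := Subtype.ext (map_mul _ _ _)
  map_zero' := Subtype.ext (map_zero _)
  map_add' _ _ := Subtype.ext (map_add _ _ _)

theorem coe_g2Phi (x : EE) :
    ((g2Phi (q := q) A x : EE) : LaurentSeries (kA A)) = qExpand (kA A) q x := rfl

/-- `i₁ : ℚ̄(X₀(M)) → ℚ̄(X₀(qM))`, the inclusion. -/
noncomputable def g2i1 (q M : ℕ) : FN M →ₐ[Kb] FN (q * M) := inclFN (Dvd.intro_left q rfl)

theorem coe_g2i1 (a : FN M) : ((g2i1 q M a : FN (q * M)) : LaurentSeries Kb) = a :=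
  coe_inclFN _ a

theorem WqSpec.coe_w_i1 (hw : WqSpec q M w) (a : FN M) :
    ((w (g2i1 q M a) : FN (q * M)) : LaurentSeries Kb) = qExpand Kb q (a : LaurentSeries Kb) := by
  rw [hw.incl _ (by rw [coe_g2i1]; exact a.2), coe_g2i1]

theorem g2_i1_mem (hw : WqSpec q M w) {a : FN M} (ha : gsMem A (a : LaurentSeries Kb)) :
    g2i1 q M a ∈ g2V A w :=
  ⟨by rw [coe_g2i1]; exact ha, by rw [hw.coe_w_i1]; exact (g2_gsMem_qExpand q ha).1⟩

theorem g2_i2_mem (hw : WqSpec q M w) {a : FN M} (ha : gsMem A (a : LaurentSeries Kb)) :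
    w (g2i1 q M a) ∈ g2V A w :=
  ⟨(g2_i1_mem A hw ha).2, by rw [hw.invol]; exact (g2_i1_mem A hw ha).1⟩

theorem g2Red_i1 (hqM : ¬ q ∣ M) (hw : WqSpec q M w) {a : FN M}
    (ha : gsMem A (a : LaurentSeries Kb)) (α : EE)
    (hα : gr A (a : LaurentSeries Kb) = α) :
    g2Red A hqM hw ⟨g2i1 q M a, g2_i1_mem A hw ha⟩ = (α, g2Phi A α) := by
  refine Prod.ext (Subtype.ext ?_) (Subtype.ext ?_)
  · rw [g2Red_fst]
    show gr A ((g2i1 q M a : FN (q * M)) : LaurentSeries Kb) = _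
    rw [coe_g2i1, hα]
  · rw [g2Red_snd]
    show gr A ((w (g2i1 q M a) : FN (q * M)) : LaurentSeries Kb) = _
    rw [hw.coe_w_i1, (g2_gsMem_qExpand q ha).2, hα, coe_g2Phi]

theorem g2Red_i2 (hqM : ¬ q ∣ M) (hw : WqSpec q M w) {a : FN M}
    (ha : gsMem A (a : LaurentSeries Kb)) (α : EE)
    (hα : gr A (a : LaurentSeries Kb) = α) :
    g2Red A hqM hw ⟨w (g2i1 q M a), g2_i2_mem A hw ha⟩ = (g2Phi A α, α) := by
  refine Prod.ext (Subtype.ext ?_) (Subtype.ext ?_)
  · rw [g2Red_fst]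
    show gr A ((w (g2i1 q M a) : FN (q * M)) : LaurentSeries Kb) = _
    rw [hw.coe_w_i1, (g2_gsMem_qExpand q ha).2, hα, coe_g2Phi]
  · rw [g2Red_snd]
    show gr A ((w (w (g2i1 q M a)) : FN (q * M)) : LaurentSeries Kb) = _
    rw [hw.invol, coe_g2i1, hα]

/-- units of the sup-ball. -/
theorem g2_inv_mem_V (hqM : ¬ q ∣ M) (hw : WqSpec q M w) (f : FN (q * M)) (h : f ∈ g2V A w)
    (hu : IsUnit (g2Red A hqM hw ⟨f, h⟩)) : f⁻¹ ∈ g2V A w := by
  rw [Prod.isUnit_iff] at hu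
  have h1 : gr A (f : LaurentSeries Kb) ≠ 0 := by
    intro h0
    exact hu.1.ne_zero (Subtype.ext ((g2Red_fst A hqM hw ⟨f, h⟩).trans h0))
  have h2 : gr A ((w f : FN (q * M)) : LaurentSeries Kb) ≠ 0 := by
    intro h0
    exact hu.2.ne_zero (Subtype.ext ((g2Red_snd A hqM hw ⟨f, h⟩).trans h0))
  refine ⟨(g2_inv h.1 h1).1, ?_⟩
  rw [map_inv₀]
  exact (g2_inv h.2 h2).1

/-- weak approximation: an element with reduction `(0,1)`. -/
theorem g2_exists_idem (hqM : ¬ q ∣ M) (hw : WqSpec q M w) :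
    ∃ e : g2V A w, g2Red A hqM hw e = (0, 1) := by
  have hMk := g2_natCast_ne_zero A hqM
  -- `j_M` at level `M`
  set jM : FN M := ⟨jce Kb 1 M, g2_jce_mem_FN (NeZero.ne M) dvd_rfl⟩ with hjM
  have hjV : gsMem A (jM : LaurentSeries Kb) := (g2_gsMem_jce (A := A) M).1
  set y : EE := ⟨jce (kA A) 1 M, jce_one_mem_full _ (NeZero.ne M) dvd_rfl⟩ with hy
  have hjy : gr A (jM : LaurentSeries Kb) = y := (g2_gsMem_jce (A := A) M).2
  set J : g2V A w := ⟨g2i1 q M jM, g2_i1_mem A hw hjV⟩ with hJ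
  set Y : g2V A w := ⟨w (g2i1 q M jM), g2_i2_mem A hw hjV⟩ with hY
  have rJ : g2Red A hqM hw J = (y, g2Phi A y) := g2Red_i1 A hqM hw hjV y hjy
  have rY : g2Red A hqM hw Y = (g2Phi A y, y) := g2Red_i2 A hqM hw hjV y hjy
  have hφy : g2Phi (q := q) A y = y ^ q := Subtype.ext (by
    rw [coe_g2Phi]
    exact g2_qExpand_jce q M)
  set z : EE := y - y ^ (q ^ 2) with hz
  have hz0 : z ≠ 0 := by
    intro h0
    have h1 : jce (kA A) 1 M = jce (kA A) 1 M ^ (q ^ 2) := by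
      have := congrArg (fun t : EE => (t : LaurentSeries (kA A))) (sub_eq_zero.mp h0)
      exact this
    have l1 := g2_leadsWith_jce (kA A) M
    have l2 := l1.pow (q ^ 2)
    rw [← h1, one_pow] at l2
    have h2 := (l1.unique l2 one_ne_zero one_ne_zero).1
    have hM0 : (M : ℤ) ≠ 0 := by exact_mod_cast NeZero.ne M
    have hq2 : (2 : ℤ) ≤ q := by exact_mod_cast (Fact.out : q.Prime).two_le
    have h3 : (M : ℤ) * ((q : ℤ) ^ 2 - 1) = 0 := by
      push_cast at h2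
      linear_combination h2
    rcases mul_eq_zero.mp h3 with h4 | h4
    · exact hM0 h4
    · nlinarith
  set s : g2V A w := Y - J ^ q with hs
  set u : g2V A w := Y - Y ^ (q ^ 2) with hu
  have rs : g2Red A hqM hw s = (0, z) := by
    rw [hs, map_sub, map_pow, rJ, rY, hφy]
    refine Prod.ext ?_ ?_
    · simp
    · simp only [Prod.snd_sub, Prod.pow_snd, hz]
      rw [← pow_mul, sq]
  have ru : g2Red A hqM hw u = (g2Phi A z, z) := by
    rw [hu, map_sub, map_pow, rY]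
    refine Prod.ext ?_ ?_
    · simp only [Prod.fst_sub, Prod.pow_fst, hz, map_sub, map_pow]
    · simp only [Prod.snd_sub, Prod.pow_snd, hz]
  have hφz : g2Phi (q := q) A z ≠ 0 := (_root_.map_ne_zero _).mpr hz0
  have huu : IsUnit (g2Red A hqM hw u) := by
    rw [ru, Prod.isUnit_iff]
    exact ⟨hφz.isUnit, hz0.isUnit⟩
  have hui : ((u : FN (q * M)))⁻¹ ∈ g2V A w := g2_inv_mem_V A hqM hw _ u.2 huu
  set v : g2V A w := ⟨_, hui⟩ with hv
  have huv : u * v = 1 := by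
    apply Subtype.ext
    show (u : FN (q * M)) * (u : FN (q * M))⁻¹ = 1
    apply mul_inv_cancel₀
    intro h0
    have : u = 0 := Subtype.ext h0
    rw [this, map_zero] at ru
    exact hz0 (congrArg Prod.snd ru).symm
  have rv := congrArg (g2Red A hqM hw) huv
  rw [map_mul, map_one, ru] at rv
  have rv2 : z * (g2Red A hqM hw v).2 = 1 := congrArg Prod.snd rv
  refine ⟨s * v, ?_⟩
  rw [map_mul, rs]
  exact Prod.ext (by simp) (by simpa using rv2)

theorem g2Red_surjective (hqM : ¬ q ∣ M) (hw : WqSpec q M w) :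
    Function.Surjective (g2Red A hqM hw) := by
  have hMk := g2_natCast_ne_zero A hqM
  rintro ⟨α, β⟩
  obtain ⟨e, he⟩ := g2_exists_idem A hqM hw
  obtain ⟨a, ha⟩ := gsRed_surjective A M hMk α
  obtain ⟨b, hb⟩ := gsRed_surjective A M hMk β
  have ha' : gr A ((a : FN M) : LaurentSeries Kb) = α := congrArg Subtype.val ha
  have hb' : gr A ((b : FN M) : LaurentSeries Kb) = β := congrArg Subtype.val hb
  refine ⟨(1 - e) * ⟨g2i1 q M a, g2_i1_mem A hw a.2⟩ + e * ⟨w (g2i1 q M b), g2_i2_mem A hw b.2⟩, ?_⟩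
  rw [map_add, map_mul, map_mul, map_sub, map_one, he, g2Red_i1 A hqM hw a.2 α ha',
    g2Red_i2 A hqM hw b.2 β hb']
  exact Prod.ext (by simp) (by simp)

/-- **G2.** The reduction setting at level `qM`. -/
noncomputable def gauss2 (hqM : ¬ q ∣ M) (hw : WqSpec q M w) :
    NSetting Kb (FN (q * M)) (kA A) (EE × EE) where
  A := A
  V := g2V A w
  resA := IsLocalRing.residue A
  red := g2Red A hqM hw
  resA_surj := IsLocalRing.residue_surjective
  red_surj := g2Red_surjective A hqM hw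
  map_mem c hc := by
    refine ⟨?_, ?_⟩
    · rw [gs_coe_algebraMap]; exact gsMem_C hc
    · rw [AlgEquiv.commutes, gs_coe_algebraMap]; exact gsMem_C hc
  compat c hc := by
    refine Prod.ext (Subtype.ext ?_) (Subtype.ext ?_)
    · rw [g2Red_fst]
      show gr A ((algebraMap Kb (FN (q * M)) c : FN (q * M)) : LaurentSeries Kb) = _
      rw [gs_coe_algebraMap, gr_C hc, ← Fermat.Agent.S28.algebraMap_eq_C]; rfl
    · rw [g2Red_snd]
      show gr A ((w (algebraMap Kb (FN (q * M)) c) : FN (q * M)) : LaurentSeries Kb) = _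
      rw [AlgEquiv.commutes, gs_coe_algebraMap, gr_C hc, ← Fermat.Agent.S28.algebraMap_eq_C]; rfl
  scale f hf := by
    obtain ⟨c, hc, m1, m2, -, -, hne⟩ := g2_supForm A hqM hw f hf
    have hmem : algebraMap Kb (FN (q * M)) c * f ∈ g2V A w := by
      refine ⟨?_, ?_⟩
      · rw [MulMemClass.coe_mul, gs_coe_algebraMap]; exact m1
      · rw [WqSpec.w_C_mul]; exact m2
    refine ⟨c, hc, hmem, fun h0 => ?_⟩
    have h1 := congrArg (fun t : EE × EE => ((t.1 : EE) : LaurentSeries (kA A))) h0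
    have h2 := congrArg (fun t : EE × EE => ((t.2 : EE) : LaurentSeries (kA A))) h0
    simp only [g2Red_fst, g2Red_snd] at h1 h2
    rw [MulMemClass.coe_mul, gs_coe_algebraMap] at h1
    rw [WqSpec.w_C_mul] at h2
    rcases hne with h | h
    · exact h h1
    · exact h h2
  inv_mem f h hu := g2_inv_mem_V A hqM hw f h hu

end

end Fermat.Agent.S34
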