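import Fermat.Agent.S34.TwoLevel
import Fermat.Agent.S34.Gauss2
import Fermat.Agent.S18.ModCoord

/-!
# S34, piece GALX: the coordinate `x = Rf(t) Rf(t_q)` is Galois invariant
-/

set_option autoImplicit false

namespace Fermat.Agent.S34

open Polynomial Fermat.Agent.S24 Fermat.Agent.S28 Fermat.Agent.S18 ModularCurve
open Fermat.Agent.GR (GQ galF coe_galF)

theorem gx_aeval_Tpol {E L : Type*} [CommRing E] [CommRing L] [Algebra E L] (q : ℕ) (s : L) :
    aeval s (Tpol E q) = s ^ (q ^ 2) - s := by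
  simp [Tpol]

theorem gx_aeval_Ppol {E L : Type*} [CommRing E] [CommRing L] [Algebra E L] (q : ℕ) (s : L) :
    aeval s (Ppol E q) = s * (s ^ (q ^ 2) - s) + 1 := by
  simp [Ppol, gx_aeval_Tpol]

/-- `Rf` commutes with every ring homomorphism (also semilinear ones). -/
theorem TwoLevel.map_Rf {E E' L L' : Type*} [Field E] [Field L] [Algebra E L] [Field E'] [Field L']
    [Algebra E' L'] (γ : L →+* L') (q : ℕ) (s : L) :
    γ (TwoLevel.Rf E q s) = TwoLevel.Rf E' q (γ s) := by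
  simp only [TwoLevel.Rf, gx_aeval_Tpol, gx_aeval_Ppol, map_div₀, map_sub, map_pow, map_add, map_mul, map_one]

/-- abstract GALX. -/
theorem TwoLevel.map_x {q : ℕ} {K F1 F k Fb : Type*} [Field K] [Field F1] [Field F] [Algebra K F1]
    [Algebra K F] [Field k] [Field Fb] [Algebra k Fb] (D : TwoLevel q K F1 F k Fb) (γ : F →+* F)
    (h1 : γ (D.ι D.t) = D.ι D.t) (h2 : γ (D.w (D.ι D.t)) = D.w (D.ι D.t)) : γ D.x = D.x := by
  rw [TwoLevel.x, map_mul, TwoLevel.map_Rf (E' := K), TwoLevel.map_Rf (E' := K), TwoLevel.tt,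
    TwoLevel.tq, h1, h2]

/-- elements with integer `q`-expansion are Galois invariant. -/
theorem galF_eq_of_int {N : ℕ} (σ : GQ) (f : FN N) (Z : LaurentSeries ℤ)
    (hf : (f : LaurentSeries Kb) = coeffMap (Int.castRingHom Kb) Z) : galF N σ f = f := by
  apply Subtype.ext
  rw [coe_galF, hf, coeffMap_coeffMap]
  exact coeffMap_congr (RingHom.ext fun n => by simp) _

theorem galF_t2 (N : ℕ) (hN : 2 ∣ N) (σ : GQ) : galF N σ (t2 N hN) = t2 N hN :=
  galF_eq_of_int σ _ tZ2 rfl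

theorem galF_t3 (N : ℕ) (hN : 3 ∣ N) (σ : GQ) : galF N σ (t3 N hN) = t3 N hN :=
  galF_eq_of_int σ _ tZ3 rfl

section

variable {q M : ℕ} [NeZero q] [NeZero M] [Fact q.Prime] {w : FN (q * M) ≃ₐ[Kb] FN (q * M)}

theorem galF_g2i1 (σ : GQ) (f : FN M) :
    galF (q * M) σ (g2i1 q M f) = g2i1 q M (galF M σ f) := by
  apply Subtype.ext
  rw [coe_galF, coe_g2i1, coe_g2i1, coe_galF]

/-- **GALX.** -/
theorem galF_i1_of_fixed (σ : GQ) {t : FN M} (ht : galF M σ t = t) :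
    galF (q * M) σ (g2i1 q M t) = g2i1 q M t := by
  rw [galF_g2i1, ht]

theorem galF_w_i1_of_fixed (hw : WqSpec q M w) (σ : GQ) {t : FN M} (ht : galF M σ t = t) :
    galF (q * M) σ (w (g2i1 q M t)) = w (g2i1 q M t) := by
  rw [← hw.gal, galF_i1_of_fixed σ ht]

/-- the explicit coordinate is Galois invariant. -/
theorem galF_Rf_mul_Rf (hw : WqSpec q M w) (σ : GQ) {t : FN M} (ht : galF M σ t = t) :
    galF (q * M) σ (TwoLevel.Rf Kb q (g2i1 q M t) * TwoLevel.Rf Kb q (w (g2i1 q M t))) =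
      TwoLevel.Rf Kb q (g2i1 q M t) * TwoLevel.Rf Kb q (w (g2i1 q M t)) := by
  have h1 := TwoLevel.map_Rf (E := Kb) (E' := Kb) (galF (q * M) σ).toRingHom q (g2i1 q M t)
  have h2 := TwoLevel.map_Rf (E := Kb) (E' := Kb) (galF (q * M) σ).toRingHom q (w (g2i1 q M t))
  have e1 : (galF (q * M) σ).toRingHom (g2i1 q M t) = g2i1 q M t := galF_i1_of_fixed σ ht
  have e2 : (galF (q * M) σ).toRingHom (w (g2i1 q M t)) = w (g2i1 q M t) :=
    galF_w_i1_of_fixed hw σ ht
  rw [e1] at h1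
  rw [e2] at h2
  rw [map_mul]
  exact congrArg₂ (· * ·) h1 h2

end

end Fermat.Agent.S34
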