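import Mathlib
import Fermat.Prelude.Def_FLTPrelim_Ramification
import Fermat.Agent.S24.MDefs

/-!
# S34, piece ARCH: a valuation ring of `ℚ̄` above a prime `q` has rank one
-/

set_option autoImplicit false

namespace Fermat.Agent.S34

open Polynomial Fermat.Agent.S24

theorem arch_val_q_lt (A : ValuationSubring Kb) {q : ℕ} (hA : A.LiesOverPrime q) :
    A.valuation (q : Kb) < 1 :=
  (ValuationSubring.mem_nonunits_iff A).mp hA

theorem arch_val_int_le (A : ValuationSubring Kb) (n : ℤ) : A.valuation (n : Kb) ≤ 1 :=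
  (A.valuation_le_one_iff _).mpr (intCast_mem A n)

/-- integers prime to `q` are units. -/
theorem arch_val_int_eq_one (A : ValuationSubring Kb) {q : ℕ} (hq : q.Prime)
    (hA : A.LiesOverPrime q) {n : ℤ} (hn : ¬ (q : ℤ) ∣ n) : A.valuation (n : Kb) = 1 := by
  refine le_antisymm (arch_val_int_le A n) (not_lt.mp fun hlt => ?_)
  have hpp : Prime (q : ℤ) := Nat.prime_iff_prime_int.mp hq
  obtain ⟨a, b, hab⟩ := (Prime.coprime_iff_not_dvd hpp).mpr hn
  have h1 : (a : Kb) * (q : Kb) + (b : Kb) * (n : Kb) = 1 := by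
    have := congrArg (Int.cast : ℤ → Kb) hab
    push_cast at this
    exact this
  have h2 : A.valuation ((a : Kb) * (q : Kb) + (b : Kb) * (n : Kb)) < 1 := by
    refine Valuation.map_add_lt _ ?_ ?_
    · rw [map_mul]
      exact Right.mul_lt_one_of_le_of_lt (arch_val_int_le A a) (arch_val_q_lt A hA)
    · rw [map_mul]
      exact Right.mul_lt_one_of_le_of_lt (arch_val_int_le A b) hlt
  rw [h1, map_one] at h2
  exact lt_irrefl _ h2

/-- every element of `ℚ̄` becomes integral after multiplication by a power of `q`. -/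
theorem arch_exists_pow_mul_mem (A : ValuationSubring Kb) {q : ℕ} (hq : q.Prime)
    (hA : A.LiesOverPrime q) (x : Kb) : ∃ e : ℕ, (q : Kb) ^ e * x ∈ A := by
  have halg : IsAlgebraic ℤ x :=
    (IsFractionRing.isAlgebraic_iff ℤ ℚ Kb).mpr ((AlgebraicClosure.isAlgebraic ℚ).isAlgebraic x)
  obtain ⟨n, hn0, hint⟩ := halg.exists_integral_multiple
  have hmem : n • x ∈ A := by
    have h1 : IsIntegral A (n • x) := hint.tower_top
    obtain ⟨y, hy⟩ := IsIntegrallyClosed.isIntegral_iff.mp h1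
    rw [← hy]
    exact y.2
  have hpp : Prime (q : ℤ) := Nat.prime_iff_prime_int.mp hq
  obtain ⟨n', hce, hn'⟩ := (FiniteMultiplicity.of_prime_left hpp hn0).exists_eq_pow_mul_and_not_dvd
  refine ⟨multiplicity (q : ℤ) n, ?_⟩
  rw [← A.valuation_le_one_iff] at hmem ⊢
  have h2 : n • x = (n' : Kb) * ((q : Kb) ^ multiplicity (q : ℤ) n * x) := by
    rw [zsmul_eq_mul]
    conv_lhs => rw [hce]
    push_cast
    ring
  rw [h2, map_mul, arch_val_int_eq_one A hq hA hn', one_mul] at hmem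
  exact hmem

/-- a non-unit of `A` is nilpotent modulo `q`. -/
theorem arch_exists_pow_mem (A : ValuationSubring Kb) {q : ℕ} (hq : q.Prime)
    (hA : A.LiesOverPrime q) {c : Kb} (hc : c ∈ A) (hc' : c⁻¹ ∉ A) :
    ∃ r : ℕ, c ^ r * (q : Kb)⁻¹ ∈ A := by
  classical
  have hc0 : c ≠ 0 := by
    rintro rfl
    exact hc' (by rw [inv_zero]; exact zero_mem A)
  have hv0 : A.valuation c ≠ 0 := (Valuation.ne_zero_iff _).mpr hc0
  have hvc : A.valuation c < 1 := by
    have h1 : ¬ A.valuation c⁻¹ ≤ 1 := fun h => hc' ((A.valuation_le_one_iff _).mp h)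
    rw [map_inv₀, not_le] at h1
    exact (one_lt_inv₀ (zero_lt_iff.mpr hv0)).mp h1
  have hq0 : (q : Kb) ≠ 0 := Nat.cast_ne_zero.mpr hq.ne_zero
  have halg : IsAlgebraic ℤ c :=
    (IsFractionRing.isAlgebraic_iff ℤ ℚ Kb).mpr ((AlgebraicClosure.isAlgebraic ℚ).isAlgebraic c)
  obtain ⟨p, hp0, hp⟩ := halg
  -- the primitive part
  have hpp0 : aeval c p.primPart = 0 := by
    have h1 := p.eq_C_content_mul_primPart
    rw [h1, map_mul, aeval_C] at hp
    rcases mul_eq_zero.mp hp with h | h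
    · exfalso
      have : (p.content : Kb) = 0 := by simpa using h
      exact (content_eq_zero_iff.not.mpr hp0) (by exact_mod_cast this)
    · exact h
  set P := p.primPart with hP
  have hprim : P.IsPrimitive := p.isPrimitive_primPart
  have hex : ∃ n, ¬ (q : ℤ) ∣ P.coeff n := by
    by_contra hcon
    push Not at hcon
    have h1 : C (q : ℤ) ∣ P := (C_dvd_iff_dvd_coeff _ _).mpr hcon
    have h2 := hprim _ h1
    exact (Nat.prime_iff_prime_int.mp hq).not_isUnit h2
  let n₀ := Nat.find hex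
  have hn₀ : ¬ (q : ℤ) ∣ P.coeff n₀ := Nat.find_spec hex
  have hmin : ∀ n < n₀, (q : ℤ) ∣ P.coeff n := fun n hn => by
    by_contra h
    exact Nat.find_min hex hn h
  refine ⟨n₀, ?_⟩
  rw [← A.valuation_le_one_iff, map_mul, map_inv₀, map_pow]
  by_contra hcon
  rw [not_le] at hcon
  have hvq0 : A.valuation (q : Kb) ≠ 0 := (Valuation.ne_zero_iff _).mpr hq0
  have hlt : A.valuation (q : Kb) < A.valuation c ^ n₀ := by
    have := (lt_mul_inv_iff₀ (zero_lt_iff.mpr hvq0)).mp hcon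
    rwa [one_mul] at this
  -- the sum
  rw [aeval_eq_sum_range] at hpp0
  have hn₀le : n₀ ∈ Finset.range (P.natDegree + 1) := by
    rw [Finset.mem_range, Nat.lt_succ_iff]
    exact le_natDegree_of_ne_zero fun h => hn₀ (by rw [h]; exact dvd_zero _)
  rw [← Finset.add_sum_erase _ _ hn₀le] at hpp0
  have hrest : A.valuation (∑ i ∈ (Finset.range (P.natDegree + 1)).erase n₀, P.coeff i • c ^ i)
      < A.valuation c ^ n₀ := by
    refine Valuation.map_sum_lt _ (pow_ne_zero _ hv0) fun i hi => ?_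
    have hine : i ≠ n₀ := (Finset.mem_erase.mp hi).1
    rw [zsmul_eq_mul, map_mul, map_pow]
    rcases lt_or_gt_of_ne hine with h | h
    · obtain ⟨t, ht⟩ := hmin i h
      have h1 : A.valuation ((P.coeff i : ℤ) : Kb) ≤ A.valuation (q : Kb) := by
        rw [ht]
        push_cast
        rw [map_mul]
        exact mul_le_of_le_one_right' (arch_val_int_le A t)
      calc A.valuation ((P.coeff i : ℤ) : Kb) * A.valuation c ^ i
          ≤ A.valuation (q : Kb) * 1 := mul_le_mul' h1 (pow_le_one' hvc.le i)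
        _ = A.valuation (q : Kb) := mul_one _
        _ < _ := hlt
    · calc A.valuation ((P.coeff i : ℤ) : Kb) * A.valuation c ^ i
          ≤ 1 * A.valuation c ^ i := mul_le_mul' (arch_val_int_le A _) le_rfl
        _ = A.valuation c ^ i := one_mul _
        _ < A.valuation c ^ n₀ := pow_lt_pow_right_of_lt_one₀ (zero_lt_iff.mpr hv0) hvc h
  have hmain : A.valuation (P.coeff n₀ • c ^ n₀) = A.valuation c ^ n₀ := by
    rw [zsmul_eq_mul, map_mul, map_pow, arch_val_int_eq_one A hq hA hn₀, one_mul]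
  have heq : P.coeff n₀ • c ^ n₀ =
      -(∑ i ∈ (Finset.range (P.natDegree + 1)).erase n₀, P.coeff i • c ^ i) :=
    eq_neg_of_add_eq_zero_left hpp0
  rw [heq, Valuation.map_neg] at hmain
  exact absurd hmain hrest.ne

/-- **ARCH.** A valuation ring of `ℚ̄` above a prime has rank one. -/
theorem arch_of_liesOver (A : ValuationSubring Kb) {q : ℕ} (hq : q.Prime) (hA : A.LiesOverPrime q) :
    ∀ c ∈ A, c⁻¹ ∉ A → ∀ d : Kb, d ≠ 0 → ∃ n : ℕ, c ^ n * d⁻¹ ∈ A := by
  intro c hc hc' d _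
  obtain ⟨e, he⟩ := arch_exists_pow_mul_mem A hq hA d⁻¹
  obtain ⟨r, hr⟩ := arch_exists_pow_mem A hq hA hc hc'
  have hq0 : (q : Kb) ≠ 0 := Nat.cast_ne_zero.mpr hq.ne_zero
  refine ⟨r * e, ?_⟩
  have h1 : c ^ (r * e) * d⁻¹ = (c ^ r * (q : Kb)⁻¹) ^ e * ((q : Kb) ^ e * d⁻¹) := by
    rw [mul_pow, pow_mul, inv_pow]
    field_simp
  rw [h1]
  exact mul_mem (pow_mem hr e) he

/-- variant: `c` in the maximal ideal, written as `c = 0 ∨ c⁻¹ ∉ A`. -/
theorem arch_of_liesOver' (A : ValuationSubring Kb) {q : ℕ} (hq : q.Prime)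
    (hA : A.LiesOverPrime q) :
    ∀ c ∈ A, (c = 0 ∨ c⁻¹ ∉ A) → ∀ d : Kb, d ≠ 0 → ∃ n : ℕ, c ^ n * d⁻¹ ∈ A := by
  intro c hc hc' d hd
  rcases hc' with rfl | hc'
  · exact ⟨1, by rw [pow_one, zero_mul]; exact zero_mem A⟩
  · exact arch_of_liesOver A hq hA c hc hc' d hd

end Fermat.Agent.S34
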