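import Fermat.Agent.S34.UnipMod
import Fermat.Agent.S34.ToricKL
import Fermat.Agent.S34.FinB
import Fermat.Agent.S34.Arch

/-!
# S34: `UnipAt (q * M) q` from a Galois invariant coordinate with a `NodalZ` chart for `gauss2`
-/

set_option autoImplicit false

namespace Fermat.Agent.S34

open ModularCurve AlgebraicCurve Fermat.Agent.S24 Fermat.Agent.S28 Fermat.Agent.S18 Fermat.Agent.GR

theorem galF_algebraMap (N : ℕ) [NeZero N] (σ : GQ) (c : Kb) :
    galF N σ (algebraMap Kb (FN N) c) = algebraMap Kb (FN N) (σ c) := by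
  apply Subtype.ext
  rw [coe_galF, gs_coe_algebraMap, gs_coe_algebraMap, coeffMap_C]
  rfl

/-- **S34, modular reduction.** What the coordinate team (COORD) has to provide. -/
theorem unipAt_of_coord {q M : ℕ} [NeZero q] [NeZero M] [Fact q.Prime] (hqM : ¬ q ∣ M)
    (HC : ∀ (A : ValuationSubring Kb) [CharP (kA A) q], A.LiesOverPrime q →
      ∀ (w : FN (q * M) ≃ₐ[Kb] FN (q * M)) (hw : WqSpec q M w),
      ∃ x : FN (q * M), (gauss2 A hqM hw).Coord x ∧ Nonempty (NodalZ (gauss2 A hqM hw) x) ∧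
        ∀ g : A.decompositionSubgroup ℚ, g ∈ A.inertiaSubgroup ℚ → galF (q * M) (g : GQ) x = x) :
    UnipAt (q * M) q := by
  have hq : q.Prime := Fact.out
  have : NeZero (q * M) := ⟨mul_ne_zero (NeZero.ne q) (NeZero.ne M)⟩
  refine unipAt_of_toric hqM fun A _ hA w hw m hm g hg u huV hu1 hord => ?_
  have := isAlgClosed_kA A
  obtain ⟨x, hx, ⟨Z⟩, hxG⟩ := HC A hA w hw
  exact toricKL (isFF_FN (q * M)) hx Z (arch_of_liesOver A hq hA)
    (Fermat.Agent.S18.natCast_kA_ne_zero A hq hA hm) (galF (q * M) (g : GQ)).toRingHom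
    (fun c => ⟨(g : GQ) c, galF_algebraMap _ _ c⟩) (hxG g hg)
    (fun f hf => gauss2_inertia A hqM hw g hg f hf) huV hu1 hord (hord.galF _)

end Fermat.Agent.S34
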