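import Fermat.Agent.S18.ModCoord
import Fermat.Agent.S18.GRC
import Fermat.Agent.S18.Gauss
import Fermat.Agent.S34.Gauss2

/-!
# S34, piece INST (a): the explicit coordinates `t₂`, `t₃` at level `M` (good reduction)
`Coord t`, `NormalRed t`, `NormalRed t⁻¹` for the Gauss setting of level `M`.
-/

set_option autoImplicit false

namespace Fermat.Agent.S34

open Polynomial IntermediateField Fermat.Agent.S24 Fermat.Agent.S28 Fermat.Agent.S18 ModularCurve

theorem instA_odd (A : ValuationSubring Kb) {ℓ : ℕ} (hℓ : ℓ.Prime) (hA : A.LiesOverPrime ℓ)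
    (hodd : ℓ ≠ 2) (N : ℕ) [NeZero N] (h4 : 4 ∣ N) (hN : ¬ ℓ ∣ N)
    (S : RedSetting Kb (FN N) (kA A) (modularFunctionFieldFullC (kA A) N)) (hS : IsGauss A N S) :
    S.Coord (t2 N (Dvd.dvd.trans (by norm_num) h4)) ∧
      S.NormalRed (t2 N (Dvd.dvd.trans (by norm_num) h4)) ∧
      S.NormalRed (t2 N (Dvd.dvd.trans (by norm_num) h4))⁻¹ := by
  have := isAlgClosed_kA A
  have hNk : (N : kA A) ≠ 0 := fun h => hN ((hh_natCast_eq_zero_iff A hℓ hA N).1 h)
  have h2 : 2 ∣ N := Dvd.dvd.trans (by norm_num) h4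
  have hc := coord_t2 A N h2 hNk S hS
  have h64 : ¬ ℓ ∣ 64 := by
    intro h
    have h' : ℓ ∣ 2 ^ 6 := by norm_num; exact h
    exact hodd ((Nat.prime_dvd_prime_iff_eq hℓ Nat.prime_two).1 (hℓ.dvd_of_dvd_pow h'))
  obtain ⟨hβA, hβ⟩ := hh_rc_neg_natCast A hℓ hA N S hS 64 h64
  have hx0 : t2 N h2 ≠ 0 := by
    intro h0
    apply hc.trans
    rw [h0, S.rd_zero]
    exact isAlgebraic_zero
  have hB := S.branchHyp_pair hx0 hβA hβ fun τ hτ0 hτ =>
    card_fiber_t2 N h4 τ hτ0 (by simpa using hτ)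
  exact ⟨hc, S.normalRed (isFF_FN N) hc hB.1, S.normalRed (isFF_FN N) hc.inv hB.2⟩

theorem instA_two (A : ValuationSubring Kb) (hA : A.LiesOverPrime 2)
    (N : ℕ) [NeZero N] (h9 : 9 ∣ N) (hN : ¬ 2 ∣ N)
    (S : RedSetting Kb (FN N) (kA A) (modularFunctionFieldFullC (kA A) N)) (hS : IsGauss A N S) :
    S.Coord (t3 N (Dvd.dvd.trans (by norm_num) h9)) ∧
      S.NormalRed (t3 N (Dvd.dvd.trans (by norm_num) h9)) ∧
      S.NormalRed (t3 N (Dvd.dvd.trans (by norm_num) h9))⁻¹ := by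
  have := isAlgClosed_kA A
  have hNk : (N : kA A) ≠ 0 := fun h => hN ((hh_natCast_eq_zero_iff A Nat.prime_two hA N).1 h)
  have h3 : 3 ∣ N := Dvd.dvd.trans (by norm_num) h9
  have hc := coord_t3 A N h3 hNk S hS
  obtain ⟨hβA, hβ⟩ := hh_rc_neg_natCast A Nat.prime_two hA N S hS 27 (by norm_num)
  have hx0 : t3 N h3 ≠ 0 := by
    intro h0
    apply hc.trans
    rw [h0, S.rd_zero]
    exact isAlgebraic_zero
  have hB := S.branchHyp_pair hx0 hβA hβ fun τ hτ0 hτ =>
    card_fiber_t3 N h9 τ hτ0 (by simpa using hτ)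
  exact ⟨hc, S.normalRed (isFF_FN N) hc hB.1, S.normalRed (isFF_FN N) hc.inv hB.2⟩

/-- an element of `F_N` with integer `q`-expansion is Gauss integral; its reduction is the
coefficientwise reduction. -/
theorem instA_rd_int (A : ValuationSubring Kb) (N : ℕ) [NeZero N]
    (S : RedSetting Kb (FN N) (kA A) (modularFunctionFieldFullC (kA A) N)) (hS : IsGauss A N S)
    (tZ : LaurentSeries ℤ) (x : FN N)
    (hx : (x : LaurentSeries Kb) = coeffMap (Int.castRingHom Kb) tZ) :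
    x ∈ S.V ∧ ((S.rd x : modularFunctionFieldFullC (kA A) N) : LaurentSeries (kA A))
      = coeffMap (Int.castRingHom (kA A)) tZ := by
  have hY2 : coeffMap (IsLocalRing.residue A) (1 : LaurentSeries A) ≠ 0 := by
    rw [map_one]; exact one_ne_zero
  have hY : (x : LaurentSeries Kb) * coeffMap A.subtype (1 : LaurentSeries A)
      = coeffMap A.subtype (coeffMap (Int.castRingHom A) tZ) := by
    rw [map_one, mul_one, hx, coeffMap_coeffMap]
    exact coeffMap_congr (RingHom.ext_int _ _) _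
  refine ⟨(hS.mem_iff x).2 ⟨_, 1, hY2, hY⟩, ?_⟩
  have := hS.rd_mul x _ 1 hY2 hY
  rw [map_one, mul_one, coeffMap_coeffMap] at this
  rw [this]
  exact coeffMap_congr (RingHom.ext_int _ _) _

/-- `Φ(t̄) = t̄^q` for the reduction of an element with integer `q`-expansion. -/
theorem instA_phi_int (A : ValuationSubring Kb) {q M : ℕ} [NeZero q] [NeZero M] [Fact q.Prime]
    [CharP (kA A) q]
    (S : RedSetting Kb (FN M) (kA A) (modularFunctionFieldFullC (kA A) M)) (hS : IsGauss A M S)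
    (tZ : LaurentSeries ℤ) (x : FN M)
    (hx : (x : LaurentSeries Kb) = coeffMap (Int.castRingHom Kb) tZ) :
    g2Phi (q := q) A (S.rd x) = S.rd x ^ q := by
  apply Subtype.ext
  rw [coe_g2Phi, (instA_rd_int A M S hS tZ x hx).2, g2_qExpand_intSeries]
  show _ = ((S.rd x : modularFunctionFieldFullC (kA A) M) : LaurentSeries (kA A)) ^ q
  rw [(instA_rd_int A M S hS tZ x hx).2]

theorem instA_coe_t2 (N : ℕ) (hN : 2 ∣ N) :
    (t2 N hN : LaurentSeries Kb) = coeffMap (Int.castRingHom Kb) tZ2 := rfl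

theorem instA_coe_t3 (N : ℕ) (hN : 3 ∣ N) :
    (t3 N hN : LaurentSeries Kb) = coeffMap (Int.castRingHom Kb) tZ3 := rfl

end Fermat.Agent.S34
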