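import Fermat.Agent.S34.Gauss2

/-!
# S34: the formal properties of `Fr = g2Phi A` (`t ↦ t^q`) needed by `exists_nodalZ`
-/

set_option autoImplicit false
set_option linter.unusedSectionVars false
set_option linter.style.haveILetI false

namespace Fermat.Agent.S34

open Polynomial IntermediateField Fermat.Agent.S24 Fermat.Agent.S28 Fermat.Agent.S18 ModularCurve

/-- in characteristic `q`, over a perfect (e.g. algebraically closed) field, `X(t^q)` is a `q`-th power in `k(X₀(M))`. -/
theorem nzmod_exists_pow {k : Type} [Field k] [IsAlgClosed k] (q : ℕ) [NeZero q] [Fact q.Prime]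
    [CharP k q] (M : ℕ) {x : LaurentSeries k} (hx : x ∈ modularFunctionFieldFullC k M) :
    ∃ b ∈ modularFunctionFieldFullC k M, qExpand k q x = b ^ q := by
  induction hx using IntermediateField.adjoin_induction with
  | mem x hx =>
    obtain ⟨d, hd, hdN, rfl⟩ := hx
    have := hd
    have h1 : qExpand k d (jqModC k) = jce k 1 d := by rw [jce_one_eq, qE_apply]
    rw [h1, g2_qExpand_jce]
    exact ⟨_, jce_one_mem_full k (NeZero.ne d) hdN, rfl⟩
  | algebraMap c =>
    obtain ⟨c', hc'⟩ := IsAlgClosed.exists_pow_nat_eq c (NeZero.pos q)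
    refine ⟨algebraMap k _ c', IntermediateField.algebraMap_mem _ _, ?_⟩
    rw [Fermat.Agent.S28.algebraMap_eq_C, qExpand_C, ← Fermat.Agent.S28.algebraMap_eq_C, ← map_pow, hc']
  | add x y _ _ hx hy =>
    obtain ⟨a, ha, ha'⟩ := hx
    obtain ⟨b, hb, hb'⟩ := hy
    haveI : CharP (LaurentSeries k) q := charP_of_injective_algebraMap (algebraMap k _).injective q
    exact ⟨a + b, add_mem ha hb, by rw [map_add, ha', hb', add_pow_char]⟩
  | inv x _ hx =>
    obtain ⟨a, ha, ha'⟩ := hx
    exact ⟨a⁻¹, inv_mem ha, by rw [map_inv₀, ha', inv_pow]⟩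
  | mul x y _ _ hx hy =>
    obtain ⟨a, ha, ha'⟩ := hx
    obtain ⟨b, hb, hb'⟩ := hy
    exact ⟨a * b, mul_mem ha hb, by rw [map_mul, ha', hb', mul_pow]⟩

section

variable (A : ValuationSubring Kb) {q M : ℕ} [NeZero q] [NeZero M] [Fact q.Prime]
  [CharP (kA A) q]

local notation "EE" => modularFunctionFieldFullC (kA A) M

theorem g2Phi_algebraMap (c : kA A) :
    g2Phi (q := q) A (algebraMap (kA A) EE c) = algebraMap (kA A) EE c := by
  apply Subtype.ext
  rw [coe_g2Phi]
  show qExpand (kA A) q (algebraMap (kA A) (LaurentSeries (kA A)) c) =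
    algebraMap (kA A) (LaurentSeries (kA A)) c
  rw [Fermat.Agent.S28.algebraMap_eq_C, qExpand_C]

theorem g2Phi_exists_pow (a : EE) : ∃ b : EE, g2Phi (q := q) A a = b ^ q := by
  haveI := isAlgClosed_kA A
  obtain ⟨b, hb, h⟩ := nzmod_exists_pow q M a.2
  exact ⟨⟨b, hb⟩, Subtype.ext h⟩

/-- `Fr a = a ^ q` for the reduction of a series with integer coefficients. -/
theorem g2Phi_of_int (a : EE) (X : LaurentSeries ℤ)
    (h : (a : LaurentSeries (kA A)) = coeffMap (Int.castRingHom (kA A)) X) :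
    g2Phi (q := q) A a = a ^ q := by
  apply Subtype.ext
  rw [coe_g2Phi, h, g2_qExpand_intSeries]
  show _ = (a : LaurentSeries (kA A)) ^ q
  rw [h]

/-- the set of `a` with `Fr a = a ^ q` is a subfield. -/
theorem g2Phi_pow_mul {a b : EE} (ha : g2Phi (q := q) A a = a ^ q) (hb : g2Phi (q := q) A b = b ^ q) :
    g2Phi (q := q) A (a * b) = (a * b) ^ q := by
  rw [map_mul, ha, hb, mul_pow]

theorem g2Phi_pow_inv {a : EE} (ha : g2Phi (q := q) A a = a ^ q) :
    g2Phi (q := q) A a⁻¹ = a⁻¹ ^ q := by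
  rw [map_inv₀, ha, inv_pow]

theorem g2Phi_pow_add {a b : EE} (ha : g2Phi (q := q) A a = a ^ q) (hb : g2Phi (q := q) A b = b ^ q) :
    g2Phi (q := q) A (a + b) = (a + b) ^ q := by
  haveI : CharP EE q := charP_of_injective_algebraMap (algebraMap (kA A) EE).injective q
  rw [map_add, ha, hb, add_pow_char]

theorem g2Phi_pow_sub {a b : EE} (ha : g2Phi (q := q) A a = a ^ q) (hb : g2Phi (q := q) A b = b ^ q) :
    g2Phi (q := q) A (a - b) = (a - b) ^ q := by
  haveI : CharP EE q := charP_of_injective_algebraMap (algebraMap (kA A) EE).injective q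
  rw [map_sub, ha, hb, sub_pow_char]

theorem g2Phi_pow_pow {a : EE} (ha : g2Phi (q := q) A a = a ^ q) (n : ℕ) :
    g2Phi (q := q) A (a ^ n) = (a ^ n) ^ q := by
  rw [map_pow, ha, ← pow_mul, ← pow_mul, mul_comm]

theorem g2Phi_pow_one : g2Phi (q := q) A (1 : EE) = 1 ^ q := by
  rw [map_one, one_pow]

end

end Fermat.Agent.S34
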