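import Fermat.Agent.S24.TowerDegree

/-!
# S34, piece G2, part B: `k(X₀(qM)) = ⊕_{r ≤ q} k(X₀(M)) j(t^{qM})^r` (spanning part)
-/

set_option autoImplicit false

namespace Fermat.Agent.S34

open Polynomial IntermediateField Fermat.Agent.S24 Fermat.Agent.S28 ModularCurve

theorem g2_span (L : Type) [Field L] [IsAlgClosed L] {q M : ℕ} (hq : q.Prime)
    (hqM : ((q * M : ℕ) : L) ≠ 0) (f : LaurentSeries L)
    (hf : f ∈ modularFunctionFieldFullC L (q * M)) :
    ∃ a : Fin (q + 1) → LaurentSeries L, (∀ r, a r ∈ modularFunctionFieldFullC L M) ∧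
      f = ∑ r, a r * jce L 1 (q * M) ^ (r : ℕ) := by
  classical
  have hM : M ≠ 0 := by
    rintro rfl
    simp at hqM
  have hFH : FieldHyp L (q * M) := towerDegree_fieldHyp L (q * M) hqM
  have hmp : HasModPoly L q := hFH.1 q hq (dvd_mul_right q M)
  have hmod : ∀ r : ℕ, r.Prime → r ∣ M → HasModPoly L r := fun r hr hrM =>
    hFH.1 r hr (hrM.trans (dvd_mul_left M q))
  obtain ⟨_, ζ, Φ, hζ, hΦ⟩ := id hmp
  set F₁ := modularFunctionFieldFullC L M with hF₁
  set y := jce L 1 (q * M) with hy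
  have hjM : jce L 1 M ∈ F₁ := jce_one_mem_full L hM dvd_rfl
  set g : F₁[X] := PhiAt Φ (⟨jce L 1 M, hjM⟩ : F₁) with hg
  have hgm : g.Monic := hΦ.PhiAt_monic _
  have hgd : g.natDegree = q + 1 := hΦ.PhiAt_natDegree _
  have hgy : aeval y g = 0 := by
    have h1 := PhiAt_eval₂ Φ F₁.val (⟨jce L 1 M, hjM⟩ : F₁) y
    have h2 : (PhiAt Φ (jce L 1 M)).eval y = 0 := by
      rw [hy, mul_comm]; exact hΦ.eval_up hM
    rw [aeval_def]
    exact h1.trans h2
  have hint : IsIntegral F₁ y := ⟨g, hgm, hgy⟩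
  set E := F₁⟮y⟯ with hE
  let ψ : E →ₐ[L] LaurentSeries L := E.val.restrictScalars L
  have hψ : ∀ z : E, ψ z = (z : LaurentSeries L) := fun _ => rfl
  have hall := full_step ψ hM hq hmp hmod
    (fun m hm => by
      have hm0 : m ≠ 0 := by rintro rfl; exact hM (Nat.eq_zero_of_zero_dvd hm)
      have h1 : jce L 1 m ∈ F₁ := jce_one_mem_full L hm0 hm
      exact ⟨⟨jce L 1 m, by
        have := E.algebraMap_mem (⟨jce L 1 m, h1⟩ : F₁)
        exact this⟩, rfl⟩)
    ⟨⟨y, mem_adjoin_simple_self F₁ y⟩, rfl⟩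
  have hle : modularFunctionFieldFullC L (q * M) ≤ E.restrictScalars L := by
    rw [modularFunctionFieldFullC, adjoin_le_iff]
    rintro _ ⟨d, hd, hdN, rfl⟩
    obtain ⟨z, hz⟩ := hall d hdN
    have := hd
    rw [jce_one_eq, qE_apply] at hz
    rw [← hz]
    exact z.2
  have hfE : f ∈ E := hle hf
  let pb := adjoin.powerBasis hint
  have hdim : pb.dim ≤ q + 1 := by
    have h1 : pb.dim = (minpoly F₁ y).natDegree := rfl
    rw [h1, ← hgd]
    exact natDegree_le_natDegree (minpoly.min F₁ y hgm hgy)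
  obtain ⟨p, hp, hpf⟩ := pb.exists_eq_aeval (⟨f, hfE⟩ : E)
  have hgen : ((pb.gen : E) : LaurentSeries L) = y := by
    show ((adjoin.powerBasis hint).gen : LaurentSeries L) = y
    rw [adjoin.powerBasis_gen]
    rfl
  have hpf' : f = aeval y p := by
    have h1 := congrArg (fun z : E => (z : LaurentSeries L)) hpf
    simp only at h1
    rw [h1]
    have h2 := Polynomial.aeval_algHom_apply E.val pb.gen p
    have h3 : E.val pb.gen = y := hgen
    rw [h3] at h2
    exact h2.symm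
  refine ⟨fun r => ((p.coeff r : F₁) : LaurentSeries L), fun r => (p.coeff r).2, ?_⟩
  rw [hpf', aeval_eq_sum_range' (lt_of_lt_of_le hp hdim), Finset.sum_range]
  refine Finset.sum_congr rfl fun r _ => ?_
  rw [Algebra.smul_def]
  rfl

end Fermat.Agent.S34
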