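import Fermat.Agent.S34.Gauss2
import Fermat.Agent.S34.Gauss2B
import Fermat.Agent.S34.NDimRed

/-!
# S34, piece TCOORD: a good coordinate of level `M` is a good coordinate of `gauss2` at level `qM`
(frame `e_i Y^r`, degree `(q+1) [F_M : K(t)]`)
-/

set_option autoImplicit false
set_option linter.unusedSectionVars false

namespace Fermat.Agent.S34

open Polynomial IntermediateField Fermat.Agent.S24 Fermat.Agent.S28 Fermat.Agent.S18 ModularCurve

section abstract

variable {K F k R : Type*} [Field K] [Field F] [Algebra K F] [Field k] [CommRing R] [Algebra k R]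

/-- **criterion for a good coordinate**: a finite family in `V` which spans `F` over `K(x)` and whose
reduction is `k[x̄]`-independent. -/
theorem NSetting.Coord.of_family (S : NSetting K F k R) {x : F} (hx : x ∈ S.V)
    (hunit : ∀ p : k[X], p ≠ 0 → IsUnit (aeval (S.rd x) p))
    {ι : Type*} [Fintype ι] (e : ι → F) (he : ∀ i, e i ∈ S.V)
    (hind : PolyIndepR k (S.rd x) (fun i => S.rd (e i)))
    (hspan : ∀ f : F, ∃ (Q : K[X]) (P : ι → K[X]), Q ≠ 0 ∧
      aeval x Q * f = ∑ i, aeval x (P i) * e i) :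
    S.Coord x ∧ Module.finrank K⟮x⟯ F = Fintype.card ι := by
  classical
  have hnt := S.nontrivial
  have htrb : Transcendental k (S.rd x) := by
    rw [transcendental_iff]
    intro p hp
    by_contra h
    have h1 := hunit p h
    rw [hp] at h1
    exact not_isUnit_zero h1
  have htr : Transcendental K x := S.transcendental_of_rd hx htrb
  have hli : LinearIndependent K⟮x⟯ e :=
    linearIndependent_of_polyIndep htr e (S.polyIndep_of_rd hx e he hind)
  have hsp : ⊤ ≤ Submodule.span K⟮x⟯ (Set.range e) := by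
    intro f _
    obtain ⟨Q, P, hQ, hf⟩ := hspan f
    have hQ' : aeval x Q ≠ 0 := fun h => hQ ((transcendental_iff.mp htr) Q h)
    have h1 : f = ∑ i, (⟨aeval x (P i) / aeval x Q,
        (mem_adjoin_simple_iff K _).mpr ⟨P i, Q, rfl⟩⟩ : K⟮x⟯) • e i := by
      have h2 : ∀ i, (⟨aeval x (P i) / aeval x Q,
          (mem_adjoin_simple_iff K _).mpr ⟨P i, Q, rfl⟩⟩ : K⟮x⟯) • e i =
          (aeval x Q)⁻¹ * (aeval x (P i) * e i) := by
        intro i
        change aeval x (P i) / aeval x Q * e i = _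
        rw [div_eq_mul_inv]; ring
      simp only [h2]
      rw [← Finset.mul_sum, ← hf, inv_mul_cancel_left₀ hQ']
    rw [h1]
    exact sum_mem fun i _ => Submodule.smul_mem _ _ (Submodule.subset_span ⟨i, rfl⟩)
  let b := Module.Basis.mk hli hsp
  have hfin : FiniteDimensional K⟮x⟯ F := Module.Finite.of_basis b
  have hcard : Module.finrank K⟮x⟯ F = Fintype.card ι := Module.finrank_eq_card_basis b
  refine ⟨⟨hx, hunit, hfin, ?_⟩, hcard⟩
  let φ : ι ≃ Fin (Module.finrank K⟮x⟯ F) := Fintype.equivFinOfCardEq hcard.symm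
  refine ⟨fun j => e (φ.symm j), fun j => he _, ?_⟩
  intro p h0
  have h1 : ∑ i, aeval (S.rd x) (p (φ i)) * S.rd (e i) = 0 := by
    rw [← h0, ← Equiv.sum_comp φ]
    refine Finset.sum_congr rfl fun i _ => ?_
    show _ = aeval (S.rd x) (p (φ i)) * S.rd (e (φ.symm (φ i)))
    rw [Equiv.symm_apply_apply]
  have h2 := hind _ h1
  funext j
  have h3 := congrFun h2 (φ.symm j)
  simpa using h3

theorem aeval_prod_fst {E₁ E₂ : Type*} [CommRing E₁] [CommRing E₂] [Algebra k E₁] [Algebra k E₂]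
    (a : E₁ × E₂) (p : k[X]) : (aeval a p).1 = aeval a.1 p :=
  (aeval_algHom_apply (AlgHom.fst k E₁ E₂) a p).symm

theorem aeval_prod_snd {E₁ E₂ : Type*} [CommRing E₁] [CommRing E₂] [Algebra k E₁] [Algebra k E₂]
    (a : E₁ × E₂) (p : k[X]) : (aeval a p).2 = aeval a.2 p :=
  (aeval_algHom_apply (AlgHom.snd k E₁ E₂) a p).symm

end abstract

section

variable (A : ValuationSubring Kb) {q M : ℕ} [NeZero q] [NeZero M] [Fact q.Prime]
  [CharP (kA A) q] {w : FN (q * M) ≃ₐ[Kb] FN (q * M)}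

local notation "EE" => modularFunctionFieldFullC (kA A) M

theorem tc_rd_i1 (hqM : ¬ q ∣ M) (hw : WqSpec q M w) {a : FN M}
    (ha : a ∈ (gaussSetting A M (g2_natCast_ne_zero A hqM)).V) :
    g2i1 q M a ∈ (gauss2 A hqM hw).V ∧
    (gauss2 A hqM hw).rd (g2i1 q M a) =
      ((gaussSetting A M (g2_natCast_ne_zero A hqM)).rd a,
        g2Phi A ((gaussSetting A M (g2_natCast_ne_zero A hqM)).rd a)) := by
  have ha' : gsMem A (a : LaurentSeries Kb) := ha
  have hm : g2i1 q M a ∈ (gauss2 A hqM hw).V := g2_i1_mem A hw ha'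
  refine ⟨hm, ?_⟩
  rw [(gauss2 A hqM hw).rd_of_mem hm]
  refine g2Red_i1 A hqM hw ha' _ ?_
  rw [(gaussSetting A M (g2_natCast_ne_zero A hqM)).rd_of_mem ha]
  rfl

theorem tc_rd_i2 (hqM : ¬ q ∣ M) (hw : WqSpec q M w) {a : FN M}
    (ha : a ∈ (gaussSetting A M (g2_natCast_ne_zero A hqM)).V) :
    w (g2i1 q M a) ∈ (gauss2 A hqM hw).V ∧
    (gauss2 A hqM hw).rd (w (g2i1 q M a)) =
      (g2Phi A ((gaussSetting A M (g2_natCast_ne_zero A hqM)).rd a),
        (gaussSetting A M (g2_natCast_ne_zero A hqM)).rd a) := by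
  have ha' : gsMem A (a : LaurentSeries Kb) := ha
  have hm : w (g2i1 q M a) ∈ (gauss2 A hqM hw).V := g2_i2_mem A hw ha'
  refine ⟨hm, ?_⟩
  rw [(gauss2 A hqM hw).rd_of_mem hm]
  refine g2Red_i2 A hqM hw ha' _ ?_
  rw [(gaussSetting A M (g2_natCast_ne_zero A hqM)).rd_of_mem ha]
  rfl

theorem tc_phi_algebraMap (c : kA A) :
    g2Phi (q := q) A (algebraMap (kA A) EE c) = algebraMap (kA A) EE c := by
  apply Subtype.ext
  rw [coe_g2Phi]
  show qExpand (kA A) q (algebraMap (kA A) (LaurentSeries (kA A)) c) = 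
    algebraMap (kA A) (LaurentSeries (kA A)) c
  rw [Fermat.Agent.S28.algebraMap_eq_C, qExpand_C]

theorem tc_phi_aeval (τ : EE) (p : (kA A)[X]) :
    aeval (g2Phi (q := q) A τ) p = g2Phi (q := q) A (aeval τ p) := by
  rw [aeval_def, aeval_def, hom_eval₂]
  congr 1
  refine RingHom.ext fun c => ?_
  exact (tc_phi_algebraMap (q := q) (M := M) A c).symm

set_option maxHeartbeats 2000000 in
/-- **TCOORD.** A good coordinate `t` of the Gauss setting of level `M` is a good coordinate of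
`gauss2` at level `qM`, and `[F_{qM} : K(t)] = (q+1) [F_M : K(t)]`. -/
theorem gauss2_coord (hqM : ¬ q ∣ M) (hw : WqSpec q M w) {t : FN M}
    (ht : (gaussSetting A M (g2_natCast_ne_zero A hqM)).Coord t) :
    (gauss2 A hqM hw).Coord (g2i1 q M t) ∧
      Module.finrank Kb⟮g2i1 q M t⟯ (FN (q * M)) = Module.finrank Kb⟮t⟯ (FN M) * (q + 1) := by
  classical
  have hNZ : NeZero (q * M) := ⟨mul_ne_zero (NeZero.ne q) (NeZero.ne M)⟩
  set S' := gaussSetting A M (g2_natCast_ne_zero A hqM) with hS'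
  set S := gauss2 A hqM hw with hS
  obtain ⟨e', he', hind'⟩ := S'.exists_frame ht
  -- `j_M` at level `M`
  set jM : FN M := ⟨jce Kb 1 M, g2_jce_mem_FN (NeZero.ne M) dvd_rfl⟩ with hjM
  have hjV : jM ∈ S'.V := (g2_gsMem_jce (A := A) M).1
  set y : EE := ⟨jce (kA A) 1 M, jce_one_mem_full _ (NeZero.ne M) dvd_rfl⟩ with hy
  have hjy : S'.rd jM = y := by
    rw [S'.rd_of_mem hjV]
    exact Subtype.ext (g2_gsMem_jce (A := A) M).2
  set Y : FN (q * M) := w (g2i1 q M jM) with hY
  have hYV : Y ∈ S.V := (tc_rd_i2 A hqM hw hjV).1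
  have hYrd : S.rd Y = (g2Phi A y, y) := by rw [← hjy]; exact (tc_rd_i2 A hqM hw hjV).2
  have hYcoe : (Y : LaurentSeries Kb) = jce Kb 1 (q * M) := by
    rw [hY, hw.coe_w_i1]
    show qExpand Kb q (jce Kb 1 M) = jce Kb 1 (q * M)
    rw [← qE_apply, qE_jce (NeZero.ne q) (NeZero.ne M)]
  set τ : EE := S'.rd t with hτ
  have hxV : g2i1 q M t ∈ S.V := (tc_rd_i1 A hqM hw ht.mem).1
  have hxrd : S.rd (g2i1 q M t) = (τ, g2Phi A τ) := (tc_rd_i1 A hqM hw ht.mem).2
  have haev : ∀ p : (kA A)[X], aeval (S.rd (g2i1 q M t)) p =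
      (aeval τ p, g2Phi A (aeval τ p)) := by
    intro p
    refine Prod.ext ?_ ?_
    · rw [aeval_prod_fst, hxrd]
    · rw [aeval_prod_snd, hxrd]
      exact tc_phi_aeval A τ p
  have hunit : ∀ p : (kA A)[X], p ≠ 0 → IsUnit (aeval (S.rd (g2i1 q M t)) p) := by
    intro p hp
    have h1 : aeval τ p ≠ 0 := fun h => hp ((transcendental_iff.mp ht.trans) p h)
    rw [haev, Prod.isUnit_iff]
    exact ⟨h1.isUnit, ((_root_.map_ne_zero _).mpr h1).isUnit⟩
  -- the frame
  let e : Fin (Module.finrank Kb⟮t⟯ (FN M)) × Fin (q + 1) → FN (q * M) := fun ir => g2i1 q M (e' ir.1) * Y ^ (ir.2 : ℕ)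
  have heV : ∀ ir, e ir ∈ S.V := fun ir =>
    mul_mem (tc_rd_i1 A hqM hw (he' ir.1)).1 (pow_mem hYV _)
  have herd : ∀ ir, S.rd (e ir) = (S'.rd (e' ir.1) * g2Phi A y ^ (ir.2 : ℕ),
      g2Phi A (S'.rd (e' ir.1)) * y ^ (ir.2 : ℕ)) := by
    intro ir
    rw [S.rd_mul (tc_rd_i1 A hqM hw (he' ir.1)).1 (pow_mem hYV _), S.rd_pow hYV,
      (tc_rd_i1 A hqM hw (he' ir.1)).2, hYrd]
    rfl
  have hind : PolyIndepR (kA A) (S.rd (g2i1 q M t)) (fun ir => S.rd (e ir)) := by
    intro p h0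
    simp only [haev, herd] at h0
    rw [Fintype.sum_prod_type_right] at h0
    set b : Fin (q + 1) → EE := fun r => ∑ i, aeval τ (p (i, r)) * S'.rd (e' i) with hb
    have h1 : ∑ r, b r * g2Phi A y ^ (r : ℕ) = 0 := by
      have := congrArg Prod.fst h0
      rw [Prod.fst_sum] at this
      simp only [Prod.fst_sum, Prod.fst_mul, Prod.fst_zero] at this
      rw [← this]
      refine Finset.sum_congr rfl fun r _ => ?_
      rw [hb, Finset.sum_mul]
      exact Finset.sum_congr rfl fun i _ => (mul_assoc _ _ _)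
    have h2 : ∑ r, g2Phi A (b r) * y ^ (r : ℕ) = 0 := by
      have := congrArg Prod.snd h0
      rw [Prod.snd_sum] at this
      simp only [Prod.snd_sum, Prod.snd_mul, Prod.snd_zero] at this
      rw [← this]
      refine Finset.sum_congr rfl fun r _ => ?_
      rw [hb, map_sum, Finset.sum_mul]
      refine Finset.sum_congr rfl fun i _ => ?_
      rw [map_mul, mul_assoc]
    have h3 : ∀ r, ((b r : EE) : LaurentSeries (kA A)) = 0 := by
      refine g2_orth A hqM (fun r => ((b r : EE) : LaurentSeries (kA A))) ?_ ?_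
      · have := congrArg (fun z : EE => (z : LaurentSeries (kA A))) h1
        simpa only [AddSubmonoidClass.coe_finsetSum, MulMemClass.coe_mul, SubmonoidClass.coe_pow,
          coe_g2Phi, ZeroMemClass.coe_zero] using this
      · have := congrArg (fun z : EE => (z : LaurentSeries (kA A))) h2
        simpa only [AddSubmonoidClass.coe_finsetSum, MulMemClass.coe_mul, SubmonoidClass.coe_pow,
          coe_g2Phi, ZeroMemClass.coe_zero] using this
    funext ⟨i, r⟩
    have h4 : b r = 0 := Subtype.ext (h3 r)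
    exact congrFun (hind' (fun i => p (i, r)) h4) i
  have hspan : ∀ f : FN (q * M), ∃ (Q : Kb[X]) (P : Fin (Module.finrank Kb⟮t⟯ (FN M)) × Fin (q + 1) → Kb[X]), Q ≠ 0 ∧
      aeval (g2i1 q M t) Q * f = ∑ ir, aeval (g2i1 q M t) (P ir) * e ir := by
    intro f
    have hqMK : ((q * M : ℕ) : Kb) ≠ 0 :=
      Nat.cast_ne_zero.mpr (mul_ne_zero (NeZero.ne q) (NeZero.ne M))
    obtain ⟨a, ha, hfa⟩ := g2_span Kb (Fact.out : q.Prime) hqMK (f : LaurentSeries Kb)
      ((gs_mem_FN_iff (q * M) _).mp f.2)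
    have ha' : ∀ r, a r ∈ FN M := fun r => (gs_mem_FN_iff M _).mpr (ha r)
    set a' : Fin (q + 1) → FN M := fun r => ⟨a r, ha' r⟩ with ha'def
    have hf : f = ∑ r, g2i1 q M (a' r) * Y ^ (r : ℕ) := by
      apply Subtype.ext
      rw [hfa]
      simp only [AddSubmonoidClass.coe_finsetSum, MulMemClass.coe_mul, SubmonoidClass.coe_pow,
        coe_g2i1, hYcoe]
      rfl
    obtain ⟨Q, hQA, hQ0, hQ⟩ := S'.exists_common_denom ht e' he' hind' (Finset.univ.image a')
    choose P hP using (fun r => hQ (a' r) (Finset.mem_image_of_mem _ (Finset.mem_univ r)))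
    have hQne : Q ≠ 0 := by
      rintro rfl
      apply hQ0
      ext n
      rw [RedSetting.coeff_rp, coeff_zero, coeff_zero, S'.rc_zero]
    refine ⟨Q, fun ir => P ir.2 ir.1, hQne, ?_⟩
    have hae : ∀ p : Kb[X], aeval (g2i1 q M t) p = g2i1 q M (aeval t p) :=
      fun p => aeval_algHom_apply (g2i1 q M) t p
    rw [Fintype.sum_prod_type_right]
    conv_lhs => rw [hf]
    rw [Finset.mul_sum]
    refine Finset.sum_congr rfl fun r _ => ?_
    have h5 : g2i1 q M (aeval t Q) * g2i1 q M (a' r) =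
        ∑ i, g2i1 q M (aeval t (P r i)) * g2i1 q M (e' i) := by
      rw [← map_mul (g2i1 q M), hP r, map_sum (g2i1 q M)]
      exact Finset.sum_congr rfl fun i _ => map_mul (g2i1 q M) _ _
    rw [hae, ← mul_assoc, h5, Finset.sum_mul]
    refine Finset.sum_congr rfl fun i _ => ?_
    rw [hae, mul_assoc]
  obtain ⟨h1, h2⟩ := NSetting.Coord.of_family S hxV hunit e heV hind hspan
  refine ⟨h1, ?_⟩
  rw [h2, Fintype.card_prod, Fintype.card_fin, Fintype.card_fin]

end

end Fermat.Agent.S34
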