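import Fermat.Agent.S34.CoordAbs
import Fermat.Agent.S34.InstA
import Fermat.Agent.S34.TCoord
import Fermat.Agent.S34.NZMod
import Fermat.Agent.S34.Gauss2Gal
import Fermat.Agent.S34.GalX
import Fermat.Agent.S34.UnipCoord

/-!
# S34: the `TwoLevel` instance for `gauss2` and `UnipAt (q * M) q` for `4 ∣ M` (`q` odd), `9 ∣ M` (`q = 2`)
-/

set_option autoImplicit false

namespace Fermat.Agent.S34

open ModularCurve AlgebraicCurve Fermat.Agent.S24 Fermat.Agent.S28 Fermat.Agent.S18 Fermat.Agent.GR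

section

variable (A : ValuationSubring Kb) {q M : ℕ} [NeZero q] [NeZero M] [Fact q.Prime]
  [CharP (kA A) q] {w : FN (q * M) ≃ₐ[Kb] FN (q * M)}

/-- the two-level situation attached to `gauss2` and a level `M` coordinate with integer `q`-expansion. -/
noncomputable def hcTwoLevel (hqM : ¬ q ∣ M) (hw : WqSpec q M w) (t : FN M) (tZ : LaurentSeries ℤ)
    (htZ : (t : LaurentSeries Kb) = coeffMap (Int.castRingHom Kb) tZ)
    (hc : (gaussSetting A M (g2_natCast_ne_zero A hqM)).Coord t)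
    (h0 : (gaussSetting A M (g2_natCast_ne_zero A hqM)).NormalRed t)
    (hI : (gaussSetting A M (g2_natCast_ne_zero A hqM)).NormalRed t⁻¹) :
    TwoLevel q Kb (FN M) (FN (q * M)) (kA A) (modularFunctionFieldFullC (kA A) M) where
  S1 := gaussSetting A M (g2_natCast_ne_zero A hqM)
  S := gauss2 A hqM hw
  ι := g2i1 q M
  w := w
  Fr := { g2Phi (q := q) A with commutes' := g2Phi_algebraMap A }
  t := t
  w_w := hw.invol
  ι_mem f hf := (gauss2_i1' A hqM hw hf).1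
  rd_ι f hf := (gauss2_i1' A hqM hw hf).2
  w_mem f hf := (gauss2_w A hqM hw hf).1
  rd_w f hf := (gauss2_w A hqM hw hf).2
  Fr_pow a := g2Phi_exists_pow A a
  coord := hc
  normal0 := h0
  normalInf := hI
  Fr_t := instA_phi_int A _ (isGauss_gaussSetting A M _) tZ t htZ
  fin := (gauss2_coord A hqM hw hc).1.fin
  deg_le := by rw [(gauss2_coord A hqM hw hc).2, mul_comm]

/-- **HC** for a level `M` coordinate with integer `q`-expansion and good reduction. -/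
theorem hc_of_coord (hqM : ¬ q ∣ M) (hw : WqSpec q M w) (t : FN M) (tZ : LaurentSeries ℤ)
    (htZ : (t : LaurentSeries Kb) = coeffMap (Int.castRingHom Kb) tZ)
    (hc : (gaussSetting A M (g2_natCast_ne_zero A hqM)).Coord t)
    (h0 : (gaussSetting A M (g2_natCast_ne_zero A hqM)).NormalRed t)
    (hI : (gaussSetting A M (g2_natCast_ne_zero A hqM)).NormalRed t⁻¹) :
    ∃ x : FN (q * M), (gauss2 A hqM hw).Coord x ∧ Nonempty (NodalZ (gauss2 A hqM hw) x) ∧
      ∀ g : A.decompositionSubgroup ℚ, g ∈ A.inertiaSubgroup ℚ → galF (q * M) (g : GQ) x = x := by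
  have := isAlgClosed_kA A
  set D := hcTwoLevel A hqM hw t tZ htZ hc h0 hI with hD
  obtain ⟨h1, Z, -, -⟩ := D.main
  refine ⟨D.x, h1, ⟨Z⟩, fun g _ => ?_⟩
  have ht : galF M (g : GQ) t = t := galF_eq_of_int _ t tZ htZ
  exact D.map_x (galF (q * M) (g : GQ)).toRingHom (galF_i1_of_fixed _ ht)
    (galF_w_i1_of_fixed hw _ ht)

end

/-- `UnipAt (q M) q`, `q` odd, `4 ∣ M`. -/
theorem unipAt_odd {q M : ℕ} [NeZero M] (hq : q.Prime) (hodd : q ≠ 2) (h4 : 4 ∣ M) (hqM : ¬ q ∣ M) :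
    UnipAt (q * M) q := by
  have : NeZero q := ⟨hq.ne_zero⟩
  have : Fact q.Prime := ⟨hq⟩
  refine unipAt_of_coord hqM fun A _ hA w hw => ?_
  obtain ⟨hc, h0, hI⟩ := instA_odd A hq hA hodd M h4 hqM _
    (isGauss_gaussSetting A M (g2_natCast_ne_zero A hqM))
  exact hc_of_coord A hqM hw _ tZ2 (instA_coe_t2 M _) hc h0 hI

/-- `UnipAt (2 M) 2`, `9 ∣ M`. -/
theorem unipAt_two {M : ℕ} [NeZero M] (h9 : 9 ∣ M) (hqM : ¬ 2 ∣ M) : UnipAt (2 * M) 2 := by
  have : Fact (Nat.Prime 2) := ⟨Nat.prime_two⟩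
  refine unipAt_of_coord hqM fun A _ hA w hw => ?_
  obtain ⟨hc, h0, hI⟩ := instA_two A hA M h9 hqM _
    (isGauss_gaussSetting A M (g2_natCast_ne_zero A hqM))
  exact hc_of_coord A hqM hw _ tZ3 (instA_coe_t3 M _) hc h0 hI

/-- for `q ∤ M₀` there is a multiple `M` of `M₀` with `UnipAt (q M) q`. -/
theorem exists_unipAt {q M₀ : ℕ} (hq : q.Prime) (hM₀ : M₀ ≠ 0) (hqM₀ : ¬ q ∣ M₀) :
    ∃ M : ℕ, M ≠ 0 ∧ M₀ ∣ M ∧ UnipAt (q * M) q := by
  by_cases h2 : q = 2
  · subst h2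
    have h9 : ¬ 2 ∣ 9 * M₀ := by
      intro h
      rcases (Nat.Prime.dvd_mul hq).mp h with h | h
      · omega
      · exact hqM₀ h
    have : NeZero (9 * M₀) := ⟨mul_ne_zero (by norm_num) hM₀⟩
    exact ⟨9 * M₀, mul_ne_zero (by norm_num) hM₀, Dvd.intro_left 9 rfl,
      unipAt_two (Dvd.intro M₀ rfl) h9⟩
  · have h4 : ¬ q ∣ 4 * M₀ := by
      intro h
      rcases (Nat.Prime.dvd_mul hq).mp h with h | h
      · have : q ∣ 2 ^ 2 := by simpa using h
        exact h2 ((Nat.prime_dvd_prime_iff_eq hq Nat.prime_two).mp (hq.dvd_of_dvd_pow this))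
      · exact hqM₀ h
    have : NeZero (4 * M₀) := ⟨mul_ne_zero (by norm_num) hM₀⟩
    exact ⟨4 * M₀, mul_ne_zero (by norm_num) hM₀, Dvd.intro_left 4 rfl,
      unipAt_odd hq h2 (Dvd.intro M₀ rfl) h4⟩

end Fermat.Agent.S34
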