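import Fermat.Agent.S34.Consumer

/-!
# S34, piece CONS2: the consumer with a constant

`unipotent_of_tower'`: the same as `unipotent_of_tower`, but `(τ - 1)²` only has to be killed by a fixed
positive integer `d₀` (independent of the level of the tower, possibly divisible by `p`).
-/

set_option autoImplicit false

namespace Fermat.Agent.S34

open IsLocalRing Fermat.Agent.GR

variable {p : ℕ} {N : ℕ} [NeZero N] {S : Finset ℕ}
  {𝒪 : Type} [CommRing 𝒪] [IsDomain 𝒪] [IsDiscreteValuationRing 𝒪]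
  [IsAdicComplete (IsLocalRing.maximalIdeal 𝒪) 𝒪]
  {θ : CuspForm.heckeAlgebra N 2 (↑S : Set ℕ) →+* IsLocalRing.ResidueField 𝒪}
  {T : Type} [CommRing T] [IsLocalRing T] [IsNoetherianRing T]
  [IsAdicComplete (IsLocalRing.maximalIdeal T) T] [Algebra 𝒪 T] [IsLocalHom (algebraMap 𝒪 T)]
  [Module.Finite 𝒪 T] [Module.Free 𝒪 T]

/-- positive integers are not zero divisors of `T`. -/
theorem eq_zero_of_natCast_mul_eq_zero [CharZero 𝒪] {d : ℕ} (hd : 0 < d) {t : T}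
    (h : (d : T) * t = 0) : t = 0 := by
  have h1 : (d : 𝒪) • t = 0 := by
    rw [Algebra.smul_def, map_natCast, h]
  have h2 : (d : 𝒪) ≠ 0 := Nat.cast_ne_zero.mpr hd.ne'
  exact (smul_eq_zero.mp h1).resolve_left h2

/-- The trace of `τ` is `2` if `d₀ (τ + τ⁻¹ - 2) = 0` on the tower and `τ` fixes the `p`-power roots of
unity. -/
theorem trace_eq_two_of_tower' [CharZero 𝒪] (hp : p.Prime) (𝔗 : Tower p N)
    (hp𝒪 : (p : 𝒪) ∈ IsLocalRing.maximalIdeal 𝒪) (hpS : p ∈ S)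
    (hNS : ∀ q : ℕ, q.Prime → q ∣ N → q ∈ S)
    (H : CuspForm.HeckeGaloisRepDatum N (↑S : Set ℕ) 𝒪 θ T) (τ : GQ)
    (hτ : ∀ (n : ℕ) (ζ : Qb), ζ ^ (p ^ n) = 1 → τ ζ = ζ) (d₀ : ℕ) (hd₀ : 0 < d₀)
    (hunip : ∀ (m : ℕ) (x : 𝔗.A m), d₀ • (𝔗.act m τ x + 𝔗.act m τ⁻¹ x) = d₀ • (2 • x)) :
    LinearMap.trace T H.ρ.V (H.ρ.ρ τ) = 2 := by
  classical
  obtain ⟨c, e, he, hsat⟩ := exists_saturation_bound (𝔗.actH.comp (heckeInc N S))
    (𝔗.actH_inj.comp (heckeInc_injective N S)) p hp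
  rw [← sub_eq_zero]
  apply eq_zero_of_natCast_mul_eq_zero (𝒪 := 𝒪) hd₀
  refine IsHausdorff.haus (inferInstance : IsHausdorff (maximalIdeal T) T) _ fun n => ?_
  rw [SModEq.zero, smul_eq_mul, Ideal.mul_top]
  obtain ⟨m, hm⟩ : ∃ m, m = n + c := ⟨_, rfl⟩
  obtain ⟨L₁, hL₁, ha⟩ := H.ρ.isAdicContinuous n
  obtain ⟨L₂, hL₂, hb⟩ := 𝔗.exists_field_fixing_hom m (𝔗.ι m)
  obtain ⟨L₃, hL₃, hc⟩ := 𝔗.exists_field_fixing_hom m ((𝔗.act m τ⁻¹).comp (𝔗.ι m))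
  have : NeZero p := ⟨hp.ne_zero⟩
  obtain ⟨ζ, hζ⟩ := HasEnoughRootsOfUnity.exists_primitiveRoot Qb (p ^ m)
  have hζi : IsIntegral ℚ ζ := ((AlgebraicClosure.isAlgebraic ℚ).isAlgebraic ζ).isIntegral
  have : FiniteDimensional ℚ (IntermediateField.adjoin ℚ {ζ}) :=
    IntermediateField.adjoin.finiteDimensional hζi
  let L : IntermediateField ℚ Qb := L₁ ⊔ L₂ ⊔ L₃ ⊔ IntermediateField.adjoin ℚ {ζ}
  have : FiniteDimensional ℚ L := inferInstance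
  have hL1 : L₁ ≤ L := le_sup_left.trans (le_sup_left.trans le_sup_left)
  have hL2 : L₂ ≤ L := le_sup_right.trans (le_sup_left.trans le_sup_left)
  have hL3 : L₃ ≤ L := le_sup_right.trans le_sup_left
  have hζL : ζ ∈ L :=
    (le_sup_right : IntermediateField.adjoin ℚ {ζ} ≤ L) (IntermediateField.mem_adjoin_simple_self ℚ ζ)
  obtain ⟨D, a, ht, hζa, hr⟩ := tri_half hp 𝔗 hpS hNS H n m L τ ζ hζ.pow_eq_one hζL
    (fun ε hε => ha ε fun x hx => hε x (hL1 hx)) (fun ε hε => hb ε fun x hx => hε x (hL2 hx))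
    (fun ε hε => hc ε fun x hx => hε x (hL3 hx))
  -- `a ≡ 1`
  have hmod : ((p ^ m : ℕ) : ℤ) ∣ (a : ℤ) - 1 := by
    have hζ0 : ζ ≠ 0 := hζ.ne_zero (pow_ne_zero _ hp.ne_zero)
    rw [← hζ.zpow_eq_one_iff_dvd, zpow_sub₀ hζ0, zpow_natCast, zpow_one, ← hζa,
      hτ m ζ hζ.pow_eq_one, div_self hζ0]
  have hsm : ∀ y : 𝔗.A m, a • y = y := by
    intro y
    obtain ⟨d, hd⟩ := hmod
    have h1 : ((a : ℤ) - 1) • y = 0 := by
      rw [hd, mul_comm, mul_smul]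
      have := 𝔗.pow_smul m y
      rw [show ((p ^ m : ℕ) : ℤ) • y = (p ^ m) • y from natCast_zsmul _ _, this, smul_zero]
    rw [sub_smul, natCast_zsmul, one_smul, sub_eq_zero] at h1
    exact h1
  obtain ⟨r', hr'⟩ := hsat n (d₀ • (D - 2)) (fun h => by
    rw [← hm]
    apply 𝔗.ι_ker m
    have h1 := hr h
    rw [hsm] at h1
    have h2 := hunip m (𝔗.ι m h)
    rw [RingHom.comp_apply, map_nsmul, map_nsmul, LinearMap.smul_apply, map_nsmul,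
      map_sub, map_sub, LinearMap.sub_apply, map_sub]
    have h3 : 𝔗.actH (heckeInc N S 2) h = 2 • h := by
      rw [map_ofNat, map_ofNat]
      rw [show (2 : Module.End ℤ 𝔗.H) = (2 : ℕ) • (1 : Module.End ℤ 𝔗.H) by simp]
      rw [LinearMap.smul_apply, Module.End.one_apply]
    rw [h3, map_nsmul, smul_sub, ← h2, ← smul_sub]
    have h4 : 𝔗.ι m (𝔗.actH (heckeInc N S D) h) -
        (𝔗.act m τ (𝔗.ι m h) + 𝔗.act m τ⁻¹ (𝔗.ι m h)) = 0 := by
      rw [← neg_eq_zero, ← h1]; abel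
    rw [h4, smul_zero])
  have hpT : (p : T) ∈ maximalIdeal T := natCast_mem_maximalIdeal hp𝒪
  have heT : IsUnit (e : T) := by
    have hpp : Prime (p : ℤ) := Nat.prime_iff_prime_int.mp hp
    obtain ⟨u, v, huv⟩ := (Prime.coprime_iff_not_dvd hpp).mpr he
    have h1 : (v : T) * (e : T) = 1 - (u : T) * (p : T) := by
      have := congrArg (Int.cast : ℤ → T) huv
      push_cast at this
      linear_combination this
    have h2 : IsUnit ((v : T) * (e : T)) := by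
      rw [h1]
      exact IsLocalRing.isUnit_one_sub_self_of_mem_nonunits _ (Ideal.mul_mem_left _ _ hpT)
    exact isUnit_of_mul_isUnit_right h2
  have hπ : H.π (d₀ • (D - 2)) ∈ maximalIdeal T ^ n := by
    have h1 := congrArg H.π hr'
    rw [map_zsmul, map_zsmul, zsmul_eq_mul, zsmul_eq_mul] at h1
    rw [← Ideal.unit_mul_mem_iff_mem _ heT, h1]
    push_cast
    exact Ideal.mul_mem_right _ _ (Ideal.pow_mem_pow hpT n)
  have : (d₀ : T) * (LinearMap.trace T H.ρ.V (H.ρ.ρ τ) - 2) =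
      (d₀ : T) * (LinearMap.trace T H.ρ.V (H.ρ.ρ τ) - H.π D) + H.π (d₀ • (D - 2)) := by
    rw [map_nsmul, map_sub, map_ofNat, nsmul_eq_mul]; ring
  rw [this]
  exact add_mem (Ideal.mul_mem_left _ _ ht) hπ

/-- **CONS2.** Unipotent inertia of a Hecke-Galois datum from `d₀ (τ - 1)² = 0` on the tower. -/
theorem unipotent_of_tower' [CharZero 𝒪] (hp : p.Prime) (𝔗 : Tower p N)
    (hp𝒪 : (p : 𝒪) ∈ IsLocalRing.maximalIdeal 𝒪) (hpS : p ∈ S)
    (hNS : ∀ q : ℕ, q.Prime → q ∣ N → q ∈ S)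
    (H : CuspForm.HeckeGaloisRepDatum N (↑S : Set ℕ) 𝒪 θ T)
    (q : ℕ) (hq : q.Prime) (hqp : q ≠ p) (d₀ : ℕ) (hd₀ : 0 < d₀)
    (hunip : ∀ (m : ℕ) (P : ValuationSubring Qb), P.LiesOverPrime q →
      ∀ τ ∈ P.inertiaSubgroupIn ℚ, ∀ x : 𝔗.A m,
        d₀ • (𝔗.act m τ (𝔗.act m τ x) - 2 • 𝔗.act m τ x + x) = 0) :
    H.ρ.IsUnipotentOnInertiaAt q := by
  intro P hP τ hτ
  have hfix : ∀ (n : ℕ) (ζ : Qb), ζ ^ (p ^ n) = 1 → τ ζ = ζ := by
    intro n ζ hζ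
    refine inertia_root hq hP hτ (fun hd => hqp ?_) hζ
    exact (Nat.prime_dvd_prime_iff_eq hq hp).mp (hq.dvd_of_dvd_pow hd)
  have h2 : ∀ (m : ℕ) (x : 𝔗.A m),
      d₀ • (𝔗.act m τ x + 𝔗.act m τ⁻¹ x) = d₀ • (2 • x) := by
    intro m x
    have h := hunip m P hP τ hτ (𝔗.act m τ⁻¹ x)
    have h1 : 𝔗.act m τ (𝔗.act m τ⁻¹ x) = x := by
      rw [← end_mul_apply, ← map_mul, mul_inv_cancel, map_one]; rfl
    rw [h1] at h
    rw [← sub_eq_zero, ← smul_sub, ← h]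
    congr 1
    abel
  rw [charpoly_eq_of_finrank_two H.ρ.finrank_eq,
    trace_eq_two_of_tower' hp 𝔗 hp𝒪 hpS hNS H τ hfix d₀ hd₀ h2,
    det_eq_one_of_fixes hp hp𝒪 hpS hNS H τ hfix]
  simp only [map_ofNat, map_one]
  ring

end Fermat.Agent.S34
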