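import Fermat.Agent.S34.Unip
import Fermat.Agent.S34.Consumer2
import Fermat.Agent.S29.ANMain

/-!
# S34: the statement of S34 from `UnipAt N' q` at a multiple `N'` of the level
-/

set_option autoImplicit false

namespace Fermat.Agent.S34

open IsLocalRing Fermat.Agent.GR

/-- S34 from `(τ - 1)² = 0` on the Kummer classes of `ℚ̄(X₀(N'))`, `N ∣ N'`. -/
theorem unipotent_of_unipAt
    {𝒪 : Type} [CommRing 𝒪] [IsDomain 𝒪] [IsDiscreteValuationRing 𝒪]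
    [IsAdicComplete (maximalIdeal 𝒪) 𝒪] [CharZero 𝒪]
    {p : ℕ} (hp : p.Prime) (hp𝒪 : (p : 𝒪) ∈ maximalIdeal 𝒪)
    {N : ℕ} [NeZero N] {S : Finset ℕ} (hpS : p ∈ S) (hNS : ∀ q : ℕ, q.Prime → q ∣ N → q ∈ S)
    {θ : CuspForm.heckeAlgebra N 2 (↑S : Set ℕ) →+* ResidueField 𝒪}
    {T : Type} [CommRing T] [IsLocalRing T] [IsNoetherianRing T]
    [IsAdicComplete (maximalIdeal T) T] [Algebra 𝒪 T] [IsLocalHom (algebraMap 𝒪 T)]
    [Module.Finite 𝒪 T] [Module.Free 𝒪 T]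
    (H : CuspForm.HeckeGaloisRepDatum N (↑S : Set ℕ) 𝒪 θ T)
    (q : ℕ) (hq : q.Prime) (hqp : q ≠ p) (N' : ℕ) [NeZero N'] (hNN' : N ∣ N')
    (HU : UnipAt N' q) :
    H.ρ.IsUnipotentOnInertiaAt q := by
  have : Fact p.Prime := ⟨hp⟩
  obtain ⟨D⟩ := Fermat.Agent.S29.exists_anData p N
  obtain ⟨d₀, hd₀, hunip⟩ := unip_tower D hNN' hq hqp HU
  exact unipotent_of_tower' hp (towerOfAnData D) hp𝒪 hpS hNS H q hq hqp d₀ hd₀ hunip

end Fermat.Agent.S34
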