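import Mathlib
import Fermat.Agent.S18.CoreDim

/-!
# S34, piece ALGY: the pure algebra of the coordinate `y = (T(t)/P(t))^e`, `T = X^Q - X`, `P = X T + 1`

Everything is proved by the valuative criterion of integrality (`mem_intRing_of_forall_valuationSubring`).
-/

set_option autoImplicit false

namespace Fermat.Agent.S34

open Polynomial Fermat.Agent.S24 Fermat.Agent.S18 Fermat.Agent.S18.CoreDim

section
variable {k E : Type*} [Field k] [Field E] [Algebra k E]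

/-- **Valuative criterion**: `z` is integral over `k[y]` as soon as it lies in every valuation ring of `E`
containing `k` and `y`. -/
theorem mem_intRing_of_forall_valuationSubring {y z : E}
    (h : ∀ V : ValuationSubring E, (∀ c : k, algebraMap k E c ∈ V) → y ∈ V → z ∈ V) :
    z ∈ intRing k y := by
  by_contra hz
  obtain ⟨V, hV, hzV⟩ := Subring.exists_le_valuationSubring_of_isIntegrallyClosedIn
    (R := (intRing k y).toSubring) (x := z) hz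
  exact hzV (h V (fun c => hV (algebraMap_mem_intRing y c)) (hV (self_mem_intRing y)))

variable {Γ : Type*} [LinearOrderedCommGroupWithZero Γ] (ν : Valuation E Γ)

private theorem ay_val_P_of_gt {tb : E} {Q : ℕ} (hQ : 2 ≤ Q) (h : 1 < ν tb) :
    ν (tb * (tb ^ Q - tb) + 1) = ν tb ^ (Q + 1) := by
  have e : tb * (tb ^ Q - tb) + 1 = tb ^ (Q + 1) + (-(tb ^ 2) + 1) := by ring
  rw [e, ← map_pow]
  apply Valuation.map_add_eq_of_lt_left
  have h1 : ν (-(tb ^ 2) + 1) ≤ ν tb ^ 2 := by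
    refine le_trans (ν.map_add _ _) (max_le ?_ ?_)
    · rw [Valuation.map_neg, map_pow]
    · rw [map_one]; exact one_le_pow₀ h.le
  refine lt_of_le_of_lt h1 ?_
  rw [map_pow]
  exact pow_lt_pow_right₀ h (by omega)

private theorem ay_val_T_of_gt {tb : E} {Q : ℕ} (hQ : 2 ≤ Q) (h : 1 < ν tb) :
    ν (tb ^ Q - tb) = ν tb ^ Q := by
  rw [← map_pow]
  apply Valuation.map_sub_eq_of_lt_left
  rw [map_pow]
  calc ν tb = ν tb ^ 1 := (pow_one _).symm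
    _ < ν tb ^ Q := pow_lt_pow_right₀ h (by omega)

/-- `t^j / P(t)` has no pole where `v = T(t)/P(t)` is regular. -/
private theorem ay_val_s {tb : E} {Q : ℕ} (hQ : 2 ≤ Q) (hP : tb * (tb ^ Q - tb) + 1 ≠ 0)
    (hv : ν ((tb ^ Q - tb) * (tb * (tb ^ Q - tb) + 1)⁻¹) ≤ 1) {j : ℕ} (hj : j ≤ Q + 1) :
    ν (tb ^ j * (tb * (tb ^ Q - tb) + 1)⁻¹) ≤ 1 := by
  set T := tb ^ Q - tb with hT
  set P := tb * T + 1 with hPdef
  have hνP : ν P ≠ 0 := (Valuation.ne_zero_iff _).2 hP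
  have hνP' : 0 < ν P := zero_lt_iff.2 hνP
  rw [map_mul, map_inv₀, map_pow, ← div_eq_mul_inv, div_le_one₀ hνP']
  rw [map_mul, map_inv₀, ← div_eq_mul_inv, div_le_one₀ hνP'] at hv
  rcases le_or_gt (ν tb) 1 with h | h
  · by_contra hcon
    rw [not_le] at hcon
    have h1 : ν P < 1 := lt_of_lt_of_le hcon (pow_le_one₀ zero_le h)
    have h2 : ν T < 1 := lt_of_le_of_lt hv h1
    have h3 : ν (P - tb * T) < 1 := by
      refine lt_of_le_of_lt (ν.map_sub _ _) (max_lt h1 ?_)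
      rw [map_mul]
      exact lt_of_le_of_lt (mul_le_of_le_one_left' h) h2
    have e : P - tb * T = 1 := by rw [hPdef]; ring
    rw [e, map_one] at h3
    exact lt_irrefl _ h3
  · rw [hPdef, hT, ay_val_P_of_gt ν hQ h]
    exact pow_le_pow_right₀ h.le hj

/-- `t` has no pole where `1/v` is regular. -/
private theorem ay_val_tb {tb : E} {Q : ℕ} (hQ : 2 ≤ Q) (hP : tb * (tb ^ Q - tb) + 1 ≠ 0)
    (hv : 1 ≤ ν ((tb ^ Q - tb) * (tb * (tb ^ Q - tb) + 1)⁻¹)) : ν tb ≤ 1 := by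
  by_contra h
  rw [not_le] at h
  rw [map_mul, map_inv₀, ay_val_P_of_gt ν hQ h, ay_val_T_of_gt ν hQ h, pow_succ, mul_inv,
    ← mul_assoc, mul_inv_cancel₀ (pow_ne_zero _ (ne_of_gt (lt_trans zero_lt_one h))), one_mul] at hv
  have h0 : 0 < ν tb := lt_trans zero_lt_one h
  have : (ν tb)⁻¹ < 1 := inv_lt_one_of_one_lt₀ h
  exact absurd hv (not_le.2 this)

/-- `1/T(t)` has no pole where `1/v` is regular. -/
private theorem ay_val_Tinv {tb : E} {Q : ℕ} (hQ : 2 ≤ Q) (hP : tb * (tb ^ Q - tb) + 1 ≠ 0)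
    (hv : 1 ≤ ν ((tb ^ Q - tb) * (tb * (tb ^ Q - tb) + 1)⁻¹)) : ν (tb ^ Q - tb)⁻¹ ≤ 1 := by
  have htb := ay_val_tb ν hQ hP hv
  by_contra h
  rw [not_le, map_inv₀] at h
  have hT0 : ν (tb ^ Q - tb) ≠ 0 := by
    intro h0
    rw [h0, inv_zero] at h
    exact absurd h (not_lt.2 zero_le)
  have hT1 : ν (tb ^ Q - tb) < 1 := by
    have := inv_lt_one_of_one_lt₀ h
    rwa [inv_inv] at this
  have h1 : ν (tb * (tb ^ Q - tb)) < 1 := by
    rw [map_mul]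
    exact lt_of_le_of_lt (mul_le_of_le_one_left' htb) hT1
  have h2 : ν (tb * (tb ^ Q - tb) + 1) = 1 := by
    rw [add_comm]
    exact Valuation.map_one_add_of_lt ν h1
  rw [map_mul, map_inv₀, h2, inv_one, mul_one] at hv
  exact absurd hv (not_le.2 hT1)

end

section main
variable {k E : Type*} [Field k] [Field E] [Algebra k E]

/-- `T(t) ≠ 0`. -/
theorem ay_T_ne_zero {tb : E} (ht : Transcendental k tb) {Q : ℕ} (hQ : 2 ≤ Q) :
    tb ^ Q - tb ≠ 0 := by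
  intro h
  apply ht
  refine ⟨X ^ Q - X, ?_, by simpa using h⟩
  intro h0
  have := congrArg (fun p : k[X] => p.coeff 1) h0
  simp only [coeff_sub, coeff_X_pow, coeff_X_one, coeff_zero] at this
  rw [if_neg (by omega)] at this
  simp at this

/-- `P(t) ≠ 0`. -/
theorem ay_P_ne_zero {tb : E} (ht : Transcendental k tb) (Q : ℕ) :
    tb * (tb ^ Q - tb) + 1 ≠ 0 := by
  intro h
  apply ht
  refine ⟨X * (X ^ Q - X) + 1, ?_, by simpa using h⟩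
  intro h0
  have := congrArg (fun p : k[X] => p.coeff 0) h0
  simp at this

variable {tb : E} {Q e : ℕ}

private theorem ay_v_eq (tb : E) (Q : ℕ) :
    tb ^ Q * (tb * (tb ^ Q - tb) + 1)⁻¹ - tb * (tb * (tb ^ Q - tb) + 1)⁻¹ =
      (tb ^ Q - tb) * (tb * (tb ^ Q - tb) + 1)⁻¹ := by ring

/-- **hs**: `t^j / P(t)` is integral over `k[y]` for `j ≤ Q + 1`. -/
theorem ay_hs (hQ : 2 ≤ Q) (he : e ≠ 0) (hP : tb * (tb ^ Q - tb) + 1 ≠ 0) {j : ℕ} (hj : j ≤ Q + 1) :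
    tb ^ j * (tb * (tb ^ Q - tb) + 1)⁻¹ ∈ intRing k
      ((tb ^ Q * (tb * (tb ^ Q - tb) + 1)⁻¹ - tb * (tb * (tb ^ Q - tb) + 1)⁻¹) ^ e) := by
  apply mem_intRing_of_forall_valuationSubring
  intro V _ hy
  rw [← V.valuation_le_one_iff] at hy ⊢
  rw [ay_v_eq, map_pow, pow_le_one_iff he] at hy
  exact ay_val_s V.valuation hQ hP hy hj

private theorem ay_one_le {V : ValuationSubring E} (he : e ≠ 0)
    (hy : ((tb ^ Q * (tb * (tb ^ Q - tb) + 1)⁻¹ - tb * (tb * (tb ^ Q - tb) + 1)⁻¹) ^ e)⁻¹ ∈ V)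
    (hT : tb ^ Q - tb ≠ 0) (hP : tb * (tb ^ Q - tb) + 1 ≠ 0) :
    1 ≤ V.valuation ((tb ^ Q - tb) * (tb * (tb ^ Q - tb) + 1)⁻¹) := by
  rw [← V.valuation_le_one_iff, ay_v_eq, ← inv_pow, map_pow, pow_le_one_iff he, map_inv₀] at hy
  have h0 : V.valuation ((tb ^ Q - tb) * (tb * (tb ^ Q - tb) + 1)⁻¹) ≠ 0 :=
    (Valuation.ne_zero_iff _).2 (mul_ne_zero hT (inv_ne_zero hP))
  exact (inv_le_one₀ (zero_lt_iff.2 h0)).1 hy

/-- **htb**: `t` is integral over `k[1/y]`. -/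
theorem ay_htb (hQ : 2 ≤ Q) (he : e ≠ 0) (hT : tb ^ Q - tb ≠ 0)
    (hP : tb * (tb ^ Q - tb) + 1 ≠ 0) :
    tb ∈ intRing k
      ((tb ^ Q * (tb * (tb ^ Q - tb) + 1)⁻¹ - tb * (tb * (tb ^ Q - tb) + 1)⁻¹) ^ e)⁻¹ := by
  apply mem_intRing_of_forall_valuationSubring
  intro V _ hy
  rw [← V.valuation_le_one_iff]
  exact ay_val_tb V.valuation hQ hP (ay_one_le he hy hT hP)

/-- **hG**: `1/T(t)` is integral over `k[1/y]`. -/
theorem ay_hG (hQ : 2 ≤ Q) (he : e ≠ 0) (hT : tb ^ Q - tb ≠ 0)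
    (hP : tb * (tb ^ Q - tb) + 1 ≠ 0) :
    (tb ^ Q - tb)⁻¹ ∈ intRing k
      ((tb ^ Q * (tb * (tb ^ Q - tb) + 1)⁻¹ - tb * (tb * (tb ^ Q - tb) + 1)⁻¹) ^ e)⁻¹ := by
  apply mem_intRing_of_forall_valuationSubring
  intro V _ hy
  rw [← V.valuation_le_one_iff]
  exact ay_val_Tinv V.valuation hQ hP (ay_one_le he hy hT hP)

/-- **hFrw**. -/
theorem ay_hFrw {q : ℕ} [Fact q.Prime] [CharP E q] (Fr : E →+* E) (hFrt : Fr tb = tb ^ q) :
    Fr (tb * (tb ^ Q - tb) + 1)⁻¹ = ((tb * (tb ^ Q - tb) + 1)⁻¹) ^ q := by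
  rw [map_inv₀, inv_pow, map_add, map_mul, map_sub, map_pow, hFrt, map_one, add_pow_char, mul_pow,
    sub_pow_char, one_pow, pow_right_comm]

/-- **hFry**. -/
theorem ay_hFry {q : ℕ} [Fact q.Prime] [CharP E q] (Fr : E →+* E) (hFrt : Fr tb = tb ^ q) :
    Fr ((tb ^ Q * (tb * (tb ^ Q - tb) + 1)⁻¹ - tb * (tb * (tb ^ Q - tb) + 1)⁻¹) ^ e) =
      ((tb ^ Q * (tb * (tb ^ Q - tb) + 1)⁻¹ - tb * (tb * (tb ^ Q - tb) + 1)⁻¹) ^ e) ^ q := by
  rw [map_pow, map_sub, map_mul, map_mul, ay_hFrw Fr hFrt, map_pow, hFrt, pow_right_comm _ e q]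
  congr 1
  rw [sub_pow_char, mul_pow, mul_pow, pow_right_comm tb q Q]

/-- **ALGY, packaged** in the shape of the hypotheses `htb hG0 hG hs` of `exists_nodalZ`
(`w = 1/P(t)`, `y = (t^(q²) w - t w)^(q+1)`; `hyv` is `rfl`). -/
theorem ay_pack (ht : Transcendental k tb) {q : ℕ} (hq : 2 ≤ q) (Fr : E →+* E)
    (hFrt : Fr tb = tb ^ q) :
    tb ∈ intRing k ((tb ^ (q ^ 2) * (tb * (tb ^ (q ^ 2) - tb) + 1)⁻¹ -
        tb * (tb * (tb ^ (q ^ 2) - tb) + 1)⁻¹) ^ (q + 1))⁻¹ ∧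
    Fr (Fr tb) - tb ≠ 0 ∧
    (Fr (Fr tb) - tb)⁻¹ ∈ intRing k ((tb ^ (q ^ 2) * (tb * (tb ^ (q ^ 2) - tb) + 1)⁻¹ -
        tb * (tb * (tb ^ (q ^ 2) - tb) + 1)⁻¹) ^ (q + 1))⁻¹ ∧
    ∀ j ≤ q ^ 2 + 1, tb ^ j * (tb * (tb ^ (q ^ 2) - tb) + 1)⁻¹ ∈
      intRing k ((tb ^ (q ^ 2) * (tb * (tb ^ (q ^ 2) - tb) + 1)⁻¹ -
        tb * (tb * (tb ^ (q ^ 2) - tb) + 1)⁻¹) ^ (q + 1)) := by
  have hQ : 2 ≤ q ^ 2 := by nlinarith
  have hT := ay_T_ne_zero ht hQ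
  have hP := ay_P_ne_zero ht (q ^ 2)
  have hFF : Fr (Fr tb) = tb ^ (q ^ 2) := by rw [hFrt, map_pow, hFrt, ← pow_mul, sq]
  rw [hFF]
  exact ⟨ay_htb hQ (Nat.succ_ne_zero q) hT hP, hT, ay_hG hQ (Nat.succ_ne_zero q) hT hP,
    fun j hj => ay_hs hQ (Nat.succ_ne_zero q) hP hj⟩

end main

end Fermat.Agent.S34
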