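import Mathlib
import Fermat.Prelude.Def_FLTPrelim_Ramification

/-!
# S34: a valuation ring of an algebraic extension of `ℚ` above a prime `q` has rank one

`arch_of_liesOverPrime`: for `c ∈ 𝔪_A` and `c₀ ≠ 0` some power `c ^ n` lies in `c₀ A`.
-/

set_option autoImplicit false

namespace Fermat.Agent.S34

open Polynomial

section
variable {L : Type*} [Field L] (A : ValuationSubring L)

theorem arch_intCast_le (a : ℤ) : A.valuation (a : L) ≤ 1 := by
  rw [A.valuation_le_one_iff]
  exact intCast_mem A a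

theorem arch_val_q {q : ℕ} (hA : A.LiesOverPrime q) : A.valuation (q : L) < 1 :=
  A.mem_nonunits_iff.1 hA

/-- an integer prime to `q` is a unit of `A`. -/
theorem arch_val_coprime {q : ℕ} (hq : q.Prime) (hA : A.LiesOverPrime q) {a : ℤ}
    (ha : ¬ (q : ℤ) ∣ a) : A.valuation (a : L) = 1 := by
  refine le_antisymm (arch_intCast_le A a) ?_
  by_contra hlt
  rw [not_le] at hlt
  have hcop : IsCoprime a (q : ℤ) := by
    have := (Nat.prime_iff_prime_int.1 hq).irreducible.coprime_iff_not_dvd.2 ha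
    exact this.symm
  obtain ⟨s, t, hst⟩ := hcop
  have h1 : ((s : L) * a + t * q) = 1 := by exact_mod_cast congrArg (Int.cast : ℤ → L) hst
  have h2 : A.valuation ((s : L) * a + t * q) < 1 := by
    apply Valuation.map_add_lt
    · rw [map_mul]
      exact lt_of_le_of_lt (mul_le_of_le_one_left' (arch_intCast_le A s)) hlt
    · rw [map_mul]
      exact lt_of_le_of_lt (mul_le_of_le_one_left' (arch_intCast_le A t)) (arch_val_q A hA)
  rw [h1, map_one] at h2
  exact lt_irrefl _ h2

/-- the valuation of a nonzero integer is a power of the valuation of `q`. -/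
theorem arch_val_int {q : ℕ} (hq : q.Prime) (hA : A.LiesOverPrime q) {a : ℤ} (ha : a ≠ 0) :
    ∃ s : ℕ, A.valuation (a : L) = A.valuation (q : L) ^ s := by
  obtain ⟨s, a', ha', rfl⟩ : ∃ (s : ℕ) (a' : ℤ), ¬ (q : ℤ) ∣ a' ∧ a = (q : ℤ) ^ s * a' := by
    have hfin : FiniteMultiplicity (q : ℤ) a :=
      Int.finiteMultiplicity_iff.2 ⟨by
        rw [Int.natAbs_natCast]; exact hq.one_lt.ne', ha⟩
    obtain ⟨c, hc, hc'⟩ := hfin.exists_eq_pow_mul_and_not_dvd
    exact ⟨_, c, hc', hc⟩
  refine ⟨s, ?_⟩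
  push_cast
  rw [map_mul, map_pow, arch_val_coprime A hq hA ha', mul_one]

theorem arch_mem_of_isIntegral {z : L} (hz : IsIntegral ℤ z) : z ∈ A := by
  have h1 : IsIntegral A z := hz.tower_top
  obtain ⟨y, hy⟩ := IsIntegrallyClosed.algebraMap_eq_of_integral h1
  rw [← hy]
  exact y.2

/-- Claim 1: every element becomes integral after multiplication by a power of `q`. -/
theorem arch_claim1 [CharZero L] [Algebra.IsAlgebraic ℚ L] {q : ℕ} (hq : q.Prime)
    (hA : A.LiesOverPrime q) (y : L) : ∃ s : ℕ, A.valuation (q : L) ^ s * A.valuation y ≤ 1 := by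
  have halg : IsAlgebraic ℤ y :=
    (IsFractionRing.isAlgebraic_iff ℤ ℚ L).2 (Algebra.IsAlgebraic.isAlgebraic y)
  obtain ⟨a, ha, h⟩ := halg.exists_integral_multiple
  obtain ⟨s, hs⟩ := arch_val_int A hq hA ha
  refine ⟨s, ?_⟩
  rw [← hs, ← map_mul, A.valuation_le_one_iff]
  have := arch_mem_of_isIntegral A h
  rwa [zsmul_eq_mul] at this

/-- Claim 2: a power of an element of `𝔪_A` is divisible by `q`. -/
theorem arch_claim2 [CharZero L] [Algebra.IsAlgebraic ℚ L] {q : ℕ} (hq : q.Prime)
    (hA : A.LiesOverPrime q) {c : L} (hc : A.valuation c < 1) :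
    ∃ n : ℕ, A.valuation c ^ n ≤ A.valuation (q : L) := by
  by_cases hc0 : c = 0
  · exact ⟨1, by rw [hc0, map_zero, pow_one]; exact zero_le'⟩
  have hvc0 : A.valuation c ≠ 0 := (Valuation.ne_zero_iff _).2 hc0
  have halg : IsAlgebraic ℤ c :=
    (IsFractionRing.isAlgebraic_iff ℤ ℚ L).2 (Algebra.IsAlgebraic.isAlgebraic c)
  obtain ⟨p0, hp0, hp0c⟩ := halg
  set p := p0.primPart with hp
  have hpc : aeval c p = 0 := by
    have h := p0.eq_C_content_mul_primPart
    rw [h, map_mul, aeval_C] at hp0c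
    rcases mul_eq_zero.1 hp0c with h1 | h1
    · exfalso
      have : p0.content = 0 := by
        have h2 : ((p0.content : ℤ) : L) = 0 := by simpa using h1
        exact_mod_cast h2
      exact hp0 (content_eq_zero_iff.1 this)
    · exact h1
  have hprim : p.IsPrimitive := p0.isPrimitive_primPart
  have hex : ∃ i, ¬ (q : ℤ) ∣ p.coeff i := by
    by_contra hcon
    push Not at hcon
    have h1 : C (q : ℤ) ∣ p := (C_dvd_iff_dvd_coeff _ _).2 hcon
    have h2 := hprim _ h1
    have h3 := Int.isUnit_iff.1 h2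
    have := hq.one_lt
    omega
  classical
  let i0 := Nat.find hex
  have hi0 : ¬ (q : ℤ) ∣ p.coeff i0 := Nat.find_spec hex
  have hlt : ∀ i < i0, (q : ℤ) ∣ p.coeff i := fun i hi => by
    have := Nat.find_min hex hi
    simpa using this
  refine ⟨i0, ?_⟩
  set g := max (A.valuation (q : L)) (A.valuation c ^ (i0 + 1)) with hg
  have hi0mem : i0 ∈ Finset.range (p.natDegree + 1) := by
    rw [Finset.mem_range, Nat.lt_succ_iff]
    apply le_natDegree_of_ne_zero
    intro h
    exact hi0 (h ▸ dvd_zero _)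
  have hsum : aeval c p = ∑ i ∈ Finset.range (p.natDegree + 1), ((p.coeff i : ℤ) : L) * c ^ i := by
    rw [aeval_eq_sum_range]
    exact Finset.sum_congr rfl fun i _ => by rw [zsmul_eq_mul]
  rw [hpc, ← Finset.add_sum_erase _ _ hi0mem] at hsum
  have hmain : ((p.coeff i0 : ℤ) : L) * c ^ i0 =
      - ∑ i ∈ (Finset.range (p.natDegree + 1)).erase i0, ((p.coeff i : ℤ) : L) * c ^ i :=
    eq_neg_of_add_eq_zero_left hsum.symm
  have hle : A.valuation (((p.coeff i0 : ℤ) : L) * c ^ i0) ≤ g := by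
    rw [hmain, Valuation.map_neg]
    apply Valuation.map_sum_le
    intro i hi
    have hne : i ≠ i0 := (Finset.mem_erase.1 hi).1
    rw [map_mul, map_pow]
    rcases lt_or_gt_of_ne hne with h | h
    · obtain ⟨b, hb⟩ := hlt i h
      refine le_trans ?_ (le_max_left _ _)
      rw [hb]
      push_cast
      rw [map_mul, mul_assoc]
      apply mul_le_of_le_one_right'
      exact mul_le_one' (arch_intCast_le A b) (pow_le_one' hc.le i)
    · refine le_trans ?_ (le_max_right _ _)
      refine le_trans (mul_le_of_le_one_left' (arch_intCast_le A _)) ?_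
      exact pow_le_pow_right_of_le_one' hc.le h
  rw [map_mul, map_pow, arch_val_coprime A hq hA hi0, one_mul] at hle
  rcases le_max_iff.1 hle with h | h
  · exact h
  · exfalso
    rw [pow_succ] at h
    have h1 : A.valuation c ^ i0 * A.valuation c < A.valuation c ^ i0 * 1 := by
      have hpos : 0 < A.valuation c ^ i0 := zero_lt_iff.2 (pow_ne_zero _ hvc0)
      exact (mul_lt_mul_iff_right₀ hpos).2 hc
    rw [mul_one] at h1
    exact absurd h (not_le.2 h1)

/-- **Rank one.** -/
theorem arch_of_liesOverPrime [CharZero L] [Algebra.IsAlgebraic ℚ L] {q : ℕ} (hq : q.Prime)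
    (hA : A.LiesOverPrime q) (c : L) (hc : c ∈ A) (hc' : c⁻¹ ∉ A) (c0 : L) (h0 : c0 ≠ 0) :
    ∃ n : ℕ, c ^ n * c0⁻¹ ∈ A := by
  have hv : A.valuation c < 1 := by
    rw [← A.mem_nonunits_iff, A.mem_nonunits_iff_or]
    exact Or.inr hc'
  obtain ⟨n, hn⟩ := arch_claim2 A hq hA hv
  obtain ⟨s, hs⟩ := arch_claim1 A hq hA c0⁻¹
  refine ⟨n * s, ?_⟩
  rw [← A.valuation_le_one_iff, map_mul, map_pow, pow_mul]
  refine le_trans ?_ hs
  exact mul_le_mul_left (pow_le_pow_left' hn s) _

end

end Fermat.Agent.S34
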