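import Fermat.Agent.S34.NBasic
import Fermat.Agent.S18.Riemann

/-!
# S34, piece DEG: degree lemmas for the coordinate `x = Rf(t) Rf(t_q)`

* `finrank_adjoin_mul_le`  : `[F : K(ab)] ≤ [F : K(a)] + [F : K(b)]` (polar divisors).
* `finrank_adjoin_ratfun`  : `[F : K(P(t)/Q(t))] = max (deg P) (deg Q) * [F : K(t)]`, `P, Q` coprime.
* `exists_frame_of_le`     : the field `frame` of `NSetting.Coord` for `R = E₁ × E₂` from the inequality
  `[F : K(x)] ≤ [E₁ : k(y₁)] + [E₂ : k(y₂)]`, `rd x = (y₁, y₂)`; `isUnit_aeval_prod` : the field `unit`.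
-/

set_option autoImplicit false

namespace Fermat.Agent.S34

open Polynomial IntermediateField AlgebraicCurve Fermat.Agent.S24 Fermat.Agent.S18

section D1

variable {K F : Type*} [Field K] [Field F] [Algebra K F]

/-- **D1.** the degree of a product is at most the sum of the degrees. -/
theorem finrank_adjoin_mul_le [IsAlgClosed K] [CharZero K] (hFF : IsFF K F) {a b : F}
    (ha : Transcendental K a) (hb : Transcendental K b) (hab : Transcendental K (a * b)) :
    Module.finrank K⟮a * b⟯ F ≤ Module.finrank K⟮a⟯ F + Module.finrank K⟮b⟯ F := by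
  have ha0 : a ≠ 0 := by
    rintro rfl
    exact ha (isAlgebraic_zero)
  have hb0 : b ≠ 0 := by
    rintro rfl
    exact hb (isAlgebraic_zero)
  have h1 := RI.finsum_poles hFF ha
  have h2 := RI.finsum_poles hFF hb
  have h3 := RI.finsum_poles hFF hab
  have hsa := RI.support_poles_finite hFF ha0
  have hsb := RI.support_poles_finite hFF hb0
  have hsab := RI.support_poles_finite hFF (mul_ne_zero ha0 hb0)
  have hadd := finsum_add_distrib (f := fun v : Place K F => max (-(v.ord a)) 0)
    (g := fun v : Place K F => max (-(v.ord b)) 0) hsa hsb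
  have hsum : (Function.support fun v : Place K F =>
      max (-(v.ord a)) 0 + max (-(v.ord b)) 0).Finite := by
    refine (hsa.union hsb).subset ?_
    intro v hv
    rw [Function.mem_support] at hv
    by_contra hcon
    rw [Set.mem_union, not_or, Function.mem_support, Function.mem_support, not_not, not_not] at hcon
    exact hv (by rw [hcon.1, hcon.2, add_zero])
  have hle : ∑ᶠ v : Place K F, max (-(v.ord (a * b))) 0 ≤
      ∑ᶠ v : Place K F, (max (-(v.ord a)) 0 + max (-(v.ord b)) 0) := by
    refine finsum_le_finsum' hsab hsum fun v => ?_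
    show max (-(v.ord (a * b))) 0 ≤ max (-(v.ord a)) 0 + max (-(v.ord b)) 0
    rw [v.ord_mul ha0 hb0]
    rcases le_total (-(v.ord a)) 0 with h | h <;> rcases le_total (-(v.ord b)) 0 with h' | h' <;>
      simp only [max_eq_left, max_eq_right, h, h'] <;>
      apply max_le <;> omega
  rw [hadd, h1, h2, h3] at hle
  exact_mod_cast hle

end D1

section D2

variable {K F : Type*} [Field K] [Field F] [Algebra K F]

theorem natDegree_num_denom_of_isCoprime {P Q : K[X]} (hPQ : IsCoprime P Q) (hQ : Q ≠ 0) :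
    (algebraMap K[X] (RatFunc K) P / algebraMap K[X] (RatFunc K) Q).num.natDegree = P.natDegree ∧
    (algebraMap K[X] (RatFunc K) P / algebraMap K[X] (RatFunc K) Q).denom.natDegree =
      Q.natDegree := by
  set f := algebraMap K[X] (RatFunc K) P / algebraMap K[X] (RatFunc K) Q with hf
  have hinj : Function.Injective (algebraMap K[X] (RatFunc K)) :=
    IsFractionRing.injective K[X] (RatFunc K)
  have hQ' : algebraMap K[X] (RatFunc K) Q ≠ 0 := by
    rw [Ne, map_eq_zero_iff _ hinj]; exact hQ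
  have hd0 : f.denom ≠ 0 := f.denom_ne_zero
  have hd' : algebraMap K[X] (RatFunc K) f.denom ≠ 0 := by
    rw [Ne, map_eq_zero_iff _ hinj]; exact hd0
  have hrel : P * f.denom = f.num * Q := by
    apply hinj
    rw [map_mul, map_mul]
    have h1 := f.num_div_denom
    rw [div_eq_iff hd'] at h1
    rw [h1, hf]
    field_simp
  have hc := f.isCoprime_num_denom
  have hPn : Associated P f.num := by
    apply associated_of_dvd_dvd
    · exact hPQ.dvd_of_dvd_mul_right (Dvd.intro _ hrel)
    · exact hc.dvd_of_dvd_mul_right (Dvd.intro _ hrel.symm)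
  have hQd : Associated Q f.denom := by
    apply associated_of_dvd_dvd
    · exact hPQ.symm.dvd_of_dvd_mul_left (Dvd.intro_left _ hrel.symm)
    · exact hc.symm.dvd_of_dvd_mul_left (Dvd.intro_left _ hrel)
  exact ⟨(Polynomial.natDegree_eq_of_degree_eq (degree_eq_degree_of_associated hPn)).symm,
    (Polynomial.natDegree_eq_of_degree_eq (degree_eq_degree_of_associated hQd)).symm⟩

/-- **D2.** the degree of a rational function of `t`. -/
theorem finrank_adjoin_ratfun {t : F} (ht : Transcendental K t) {P Q : K[X]}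
    (hPQ : IsCoprime P Q) (hQ : Q ≠ 0) :
    Module.finrank K⟮aeval t P / aeval t Q⟯ F =
      max P.natDegree Q.natDegree * Module.finrank K⟮t⟯ F := by
  have hinj : Function.Injective (aeval (R := K) t) := transcendental_iff_injective.mp ht
  have hφ : nonZeroDivisors K[X] ≤ Submonoid.comap (aeval (R := K) t) (nonZeroDivisors F) := by
    intro p hp
    rw [Submonoid.mem_comap, mem_nonZeroDivisors_iff_ne_zero, Ne, map_eq_zero_iff _ hinj]
    exact nonZeroDivisors.ne_zero hp
  let φ : RatFunc K →ₐ[K] F := RatFunc.liftAlgHom (aeval (R := K) t) hφ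
  set f : RatFunc K := algebraMap K[X] (RatFunc K) P / algebraMap K[X] (RatFunc K) Q with hf
  have hφf : φ f = aeval t P / aeval t Q := RatFunc.liftAlgHom_apply_div _ _ _ _
  have hφX : φ RatFunc.X = t := by
    have h := RatFunc.liftAlgHom_apply_div (aeval (R := K) t) hφ X 1
    rw [map_one, map_one, div_one, div_one, aeval_X, RatFunc.algebraMap_X] at h
    exact h
  have h1 : (K⟮f⟯).map φ = K⟮aeval t P / aeval t Q⟯ := by
    rw [adjoin_map, Set.image_singleton, hφf]
  have h2 : (⊤ : IntermediateField K (RatFunc K)).map φ = K⟮t⟯ := by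
    rw [← RatFunc.adjoin_X, adjoin_map, Set.image_singleton, hφX]
  have h3 := relfinrank_map_map K⟮f⟯ ⊤ φ
  rw [h1, h2, relfinrank_top_right, RatFunc.finrank_eq_max_natDegree,
    (natDegree_num_denom_of_isCoprime hPQ hQ).1, (natDegree_num_denom_of_isCoprime hPQ hQ).2] at h3
  have hle : K⟮aeval t P / aeval t Q⟯ ≤ K⟮t⟯ := by
    rw [← h1, ← h2]
    exact IntermediateField.map_mono _ le_top
  rw [← relfinrank_mul_finrank_top hle, h3]

end D2

section D3

variable {k E₁ E₂ : Type*} [Field k] [Field E₁] [Field E₂] [Algebra k E₁] [Algebra k E₂]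

theorem aeval_prod (y₁ : E₁) (y₂ : E₂) (p : k[X]) :
    aeval ((y₁, y₂) : E₁ × E₂) p = (aeval y₁ p, aeval y₂ p) := by
  apply Prod.ext
  · exact (Polynomial.aeval_algHom_apply (AlgHom.fst k E₁ E₂) (y₁, y₂) p).symm
  · exact (Polynomial.aeval_algHom_apply (AlgHom.snd k E₁ E₂) (y₁, y₂) p).symm

/-- the field `unit` of `NSetting.Coord` for a product of two fields. -/
theorem isUnit_aeval_prod {y₁ : E₁} {y₂ : E₂} (h₁ : Transcendental k y₁) (h₂ : Transcendental k y₂)
    (p : k[X]) (hp : p ≠ 0) : IsUnit (aeval ((y₁, y₂) : E₁ × E₂) p) := by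
  rw [aeval_prod, Prod.isUnit_iff]
  refine ⟨isUnit_iff_ne_zero.mpr ?_, isUnit_iff_ne_zero.mpr ?_⟩
  · exact fun h => hp ((transcendental_iff.mp h₁) p h)
  · exact fun h => hp ((transcendental_iff.mp h₂) p h)

/-- a family which is linearly independent over `k(y)` is `k[y]`-independent. -/
theorem sum_aeval_eq_zero_of_linearIndependent {E : Type*} [Field E] [Algebra k E] {y : E}
    (hy : Transcendental k y) {ι : Type*} [Fintype ι] {b : ι → E}
    (hb : LinearIndependent k⟮y⟯ b) (p : ι → k[X]) (h : ∑ i, aeval y (p i) * b i = 0) : p = 0 := by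
  have hmem : ∀ i, aeval y (p i) ∈ k⟮y⟯ := fun i =>
    (algebra_adjoin_le_adjoin k {y}) (by
      rw [Algebra.adjoin_singleton_eq_range_aeval]; exact ⟨p i, rfl⟩)
  have h' : ∑ i, (⟨aeval y (p i), hmem i⟩ : k⟮y⟯) • b i = 0 := by
    rw [← h]; rfl
  have h0 := Fintype.linearIndependent_iff.mp hb _ h'
  funext i
  have := congrArg Subtype.val (h0 i)
  exact (transcendental_iff.mp hy) (p i) this

/-- a `k[(y₁,y₂)]`-independent family of `[E₁ : k(y₁)] + [E₂ : k(y₂)]` elements of `E₁ × E₂`. -/
theorem exists_polyIndepR_prod {y₁ : E₁} {y₂ : E₂} (h₁ : Transcendental k y₁)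
    (h₂ : Transcendental k y₂) :
    ∃ e : Fin (Module.finrank k⟮y₁⟯ E₁) ⊕ Fin (Module.finrank k⟮y₂⟯ E₂) → E₁ × E₂,
      PolyIndepR k ((y₁, y₂) : E₁ × E₂) e := by
  obtain ⟨b₁, hb₁⟩ := exists_linearIndependent_of_le_finrank
    (R := k⟮y₁⟯) (M := E₁) (n := Module.finrank k⟮y₁⟯ E₁) le_rfl
  obtain ⟨b₂, hb₂⟩ := exists_linearIndependent_of_le_finrank
    (R := k⟮y₂⟯) (M := E₂) (n := Module.finrank k⟮y₂⟯ E₂) le_rfl
  refine ⟨Sum.elim (fun i => (b₁ i, 0)) (fun j => (0, b₂ j)), fun p hp => ?_⟩
  rw [Fintype.sum_sum_type] at hp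
  simp only [Sum.elim_inl, Sum.elim_inr, aeval_prod, Prod.mk_mul_mk, mul_zero] at hp
  have hp1 := congrArg Prod.fst hp
  have hp2 := congrArg Prod.snd hp
  simp only [Prod.fst_add, Prod.snd_add, Prod.fst_sum, Prod.snd_sum, Finset.sum_const_zero,
    add_zero, zero_add, Prod.fst_zero, Prod.snd_zero] at hp1 hp2
  have q1 := sum_aeval_eq_zero_of_linearIndependent h₁ hb₁
    (fun i => p (Sum.inl i)) hp1
  have q2 := sum_aeval_eq_zero_of_linearIndependent h₂ hb₂
    (fun j => p (Sum.inr j)) hp2
  funext s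
  rcases s with i | j
  · exact congrFun q1 i
  · exact congrFun q2 j

/-- a subfamily of a `k[y]`-independent family is `k[y]`-independent. -/
theorem PolyIndepR.comp_injective {R : Type*} [CommRing R] [Algebra k R] {y : R} {ι κ : Type*}
    [Fintype ι] [Fintype κ] {e : ι → R} (he : PolyIndepR k y e) (g : κ → ι)
    (hg : Function.Injective g) : PolyIndepR k y (e ∘ g) := by
  classical
  intro p hp
  let P : ι → k[X] := fun i => if h : ∃ j, g j = i then p h.choose else 0
  have hP : ∀ j, P (g j) = p j := by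
    intro j
    have h : ∃ j', g j' = g j := ⟨j, rfl⟩
    simp only [P, dif_pos h]
    rw [hg h.choose_spec]
  have hP0 : ∀ i, i ∉ Set.range g → P i = 0 := by
    intro i hi
    simp only [P]
    exact dif_neg hi
  have hsum : ∑ i, aeval y (P i) * e i = ∑ j, aeval y (p j) * (e ∘ g) j := by
    rw [← Finset.sum_subset (Finset.subset_univ (Finset.univ.image g))]
    · rw [Finset.sum_image (fun a _ b _ h => hg h)]
      exact Finset.sum_congr rfl fun j _ => by rw [hP]; rfl
    · intro i _ hi
      rw [hP0 i (fun ⟨j, hj⟩ => hi (Finset.mem_image.mpr ⟨j, Finset.mem_univ _, hj⟩)), map_zero,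
        zero_mul]
  have := he P (by rw [hsum, hp])
  funext j
  rw [← hP j, this]
  rfl

variable {K F : Type*} [Field K] [Field F] [Algebra K F]

/-- **D3.** the field `frame` of `NSetting.Coord` from the degree inequality. -/
theorem exists_frame_of_le (S : NSetting K F k (E₁ × E₂)) {x : F} {y₁ : E₁} {y₂ : E₂}
    (hx : S.rd x = (y₁, y₂)) (h₁ : Transcendental k y₁) (h₂ : Transcendental k y₂)
    (hle : Module.finrank K⟮x⟯ F ≤ Module.finrank k⟮y₁⟯ E₁ + Module.finrank k⟮y₂⟯ E₂) :
    ∃ e : Fin (Module.finrank K⟮x⟯ F) → F, (∀ i, e i ∈ S.V) ∧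
      PolyIndepR k (S.rd x) (fun i => S.rd (e i)) := by
  obtain ⟨e, he⟩ := exists_polyIndepR_prod (k := k) h₁ h₂
  let g : Fin (Module.finrank K⟮x⟯ F) → Fin (Module.finrank k⟮y₁⟯ E₁) ⊕
      Fin (Module.finrank k⟮y₂⟯ E₂) := fun i => finSumFinEquiv.symm (Fin.castLE hle i)
  have hg : Function.Injective g :=
    finSumFinEquiv.symm.injective.comp (Fin.castLE_injective hle)
  have h := he.comp_injective g hg
  choose f hf using fun i => S.red_surj ((e ∘ g) i)
  refine ⟨fun i => (f i : F), fun i => (f i).2, ?_⟩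
  rw [hx]
  convert h using 1
  funext i
  rw [S.rd_of_mem (f i).2]
  exact hf i

end D3

end Fermat.Agent.S34
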