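import Fermat.Agent.S34.TwoLevel
import Fermat.Agent.S34.Deg

/-!
# S34:COORD, basic computations: `rd x = (y, y)`, `w x = x`
-/

set_option autoImplicit false

namespace Fermat.Agent.S34

open Polynomial IntermediateField Fermat.Agent.S24 Fermat.Agent.S18

section Pol

variable {E L : Type*} [CommRing E] [CommRing L] [Algebra E L] (q : ℕ)

theorem aeval_Tpol (s : L) : aeval s (Tpol E q) = s ^ (q ^ 2) - s := by
  simp [Tpol]

theorem aeval_Ppol (s : L) : aeval s (Ppol E q) = s * (s ^ (q ^ 2) - s) + 1 := by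
  simp [Ppol, Tpol]

theorem Ppol_sub (E : Type*) [CommRing E] : Ppol E q - X * Tpol E q = 1 := by
  simp [Ppol]

theorem isCoprime_Tpol_Ppol (E : Type*) [CommRing E] : IsCoprime (Tpol E q) (Ppol E q) :=
  ⟨-X, 1, by rw [Ppol]; ring⟩

theorem natDegree_Tpol (E : Type*) [CommRing E] [Nontrivial E] (hq : 2 ≤ q) :
    (Tpol E q).natDegree = q ^ 2 := by
  have h1 : 1 < q ^ 2 := by nlinarith
  rw [Tpol, natDegree_sub_eq_left_of_natDegree_lt] <;> simp [h1]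

theorem monic_Tpol (E : Type*) [CommRing E] [Nontrivial E] (hq : 2 ≤ q) : (Tpol E q).Monic := by
  have h1 : 1 < q ^ 2 := by nlinarith
  rw [Tpol]
  apply (monic_X_pow (q ^ 2)).sub_of_left
  rw [degree_X_pow, degree_X]
  exact_mod_cast h1

theorem natDegree_Ppol (E : Type*) [CommRing E] [Nontrivial E] (hq : 2 ≤ q) :
    (Ppol E q).natDegree = q ^ 2 + 1 := by
  have h2 : (X * Tpol E q).natDegree = q ^ 2 + 1 := by
    rw [(monic_X).natDegree_mul (monic_Tpol q E hq), natDegree_X, natDegree_Tpol q E hq, add_comm]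
  rw [Ppol, natDegree_add_eq_left_of_natDegree_lt, h2]
  rw [h2, natDegree_one]
  omega

theorem Tpol_ne_zero (E : Type*) [CommRing E] [Nontrivial E] (hq : 2 ≤ q) : Tpol E q ≠ 0 :=
  (monic_Tpol q E hq).ne_zero

theorem Ppol_ne_zero (E : Type*) [CommRing E] [Nontrivial E] (hq : 2 ≤ q) : Ppol E q ≠ 0 := by
  intro h
  have := natDegree_Ppol q E hq
  rw [h, natDegree_zero] at this
  omega

end Pol

/-- inverse of an element of `V` whose reduction has two nonzero components. -/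
theorem NSetting.rd_inv_prod {K F k E₁ E₂ : Type*} [Field K] [Field F] [Algebra K F] [Field k]
    [Field E₁] [Field E₂] [Algebra k E₁] [Algebra k E₂] (S : NSetting K F k (E₁ × E₂)) {f : F}
    {a : E₁} {b : E₂} (h : S.rd f = (a, b)) (ha : a ≠ 0) (hb : b ≠ 0) :
    f ∈ S.V ∧ f⁻¹ ∈ S.V ∧ S.rd f⁻¹ = (a⁻¹, b⁻¹) := by
  have hu : IsUnit (S.rd f) := by
    rw [h, Prod.isUnit_iff]
    exact ⟨isUnit_iff_ne_zero.mpr ha, isUnit_iff_ne_zero.mpr hb⟩
  have hf := S.mem_of_isUnit_rd hu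
  refine ⟨hf, S.inv_mem_of_isUnit_rd hf hu, ?_⟩
  have h1 := S.rd_mul_rd_inv hu
  rw [h] at h1
  have h2 := congrArg Prod.fst h1
  have h3 := congrArg Prod.snd h1
  simp only [Prod.fst_mul, Prod.snd_mul, Prod.fst_one, Prod.snd_one] at h2 h3
  ext
  · exact eq_inv_of_mul_eq_one_right h2
  · exact eq_inv_of_mul_eq_one_right h3

section CharQ

variable {Fb : Type*} [Field Fb] (q : ℕ) [hq : Fact q.Prime] [CharP Fb q]

theorem T_pow (s : Fb) : (s ^ q) ^ (q ^ 2) - s ^ q = (s ^ (q ^ 2) - s) ^ q := by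
  rw [sub_pow_char, ← pow_mul, ← pow_mul, mul_comm]

theorem P_pow (s : Fb) :
    s ^ q * ((s ^ q) ^ (q ^ 2) - s ^ q) + 1 = (s * (s ^ (q ^ 2) - s) + 1) ^ q := by
  rw [T_pow, add_pow_char, mul_pow, one_pow]

end CharQ

namespace TwoLevel

variable {q : ℕ} {K F1 F k Fb : Type*} [Field K] [Field F1] [Field F] [Algebra K F1]
  [Algebra K F] [Field k] [Field Fb] [Algebra k Fb] (D : TwoLevel q K F1 F k Fb)

theorem tt_mem : D.tt ∈ D.S.V := D.ι_mem _ D.coord.mem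

theorem rd_tt : D.S.rd D.tt = (D.tb, D.tb ^ q) := by
  rw [tt, D.rd_ι _ D.coord.mem, D.Fr_t]; rfl

theorem tq_mem : D.tq ∈ D.S.V := D.w_mem _ D.tt_mem

theorem rd_tq : D.S.rd D.tq = (D.tb ^ q, D.tb) := by
  have := D.rd_w _ D.tt_mem
  rw [D.rd_tt] at this
  exact this

theorem w_tt : D.w D.tt = D.tq := rfl

theorem w_tq : D.w D.tq = D.tt := D.w_w _

theorem tb_trans : Transcendental k D.tb := D.coord.trans

theorem t_trans : Transcendental K D.t := D.S1.transcendental_of_rd D.coord.mem D.coord.trans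

theorem tt_trans : Transcendental K D.tt := by
  have h := D.t_trans
  rw [transcendental_iff] at h ⊢
  intro p hp
  apply h p
  apply D.ι.injective
  rw [map_zero, ← hp, tt, Polynomial.aeval_algHom_apply]
  rfl

theorem tq_trans : Transcendental K D.tq := by
  have h := D.tt_trans
  rw [transcendental_iff] at h ⊢
  intro p hp
  apply h p
  apply D.w.injective
  rw [map_zero, ← hp, ← w_tt]
  exact (Polynomial.aeval_algHom_apply (D.w : F →ₐ[K] F) D.tt p).symm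

include D in
theorem isFF : IsFF K F := ⟨D.tt, D.tt_trans, D.fin⟩

theorem w_Rf (s : F) : D.w (Rf K q s) = Rf K q (D.w s) := by
  simp only [Rf, aeval_Tpol, aeval_Ppol, map_div₀, map_sub, map_pow, map_add, map_mul, map_one]

theorem w_x : D.w D.x = D.x := by
  rw [x, map_mul, w_Rf, w_Rf, w_tt, w_tq, mul_comm]

section CharQ

variable [hq : Fact q.Prime] [CharP k q]

include D in
theorem charP_Fb : CharP Fb q := charP_of_injective_algebraMap (algebraMap k Fb).injective q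

theorem Tb_ne : D.tb ^ (q ^ 2) - D.tb ≠ 0 := by
  intro h
  have := (transcendental_iff.mp D.tb_trans) (Tpol k q) (by rw [aeval_Tpol, h])
  exact Tpol_ne_zero q k hq.out.two_le this

theorem Pb_ne : D.tb * (D.tb ^ (q ^ 2) - D.tb) + 1 ≠ 0 := by
  intro h
  have := (transcendental_iff.mp D.tb_trans) (Ppol k q) (by rw [aeval_Ppol, h])
  exact Ppol_ne_zero q k hq.out.two_le this

theorem v_eq : D.v = (D.tb ^ (q ^ 2) - D.tb) / (D.tb * (D.tb ^ (q ^ 2) - D.tb) + 1) := by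
  rw [v, Rf, aeval_Tpol, aeval_Ppol]

theorem v_ne : D.v ≠ 0 := by
  rw [v_eq]
  exact div_ne_zero D.Tb_ne D.Pb_ne

theorem y_ne : D.y ≠ 0 := pow_ne_zero _ D.v_ne

/-- `rd (Rf s)` for `s ∈ V` with `rd s = (a, b)`, `P(a), P(b) ≠ 0`. -/
theorem rd_Rf {s : F} (hs : s ∈ D.S.V) {a b : Fb} (h : D.S.rd s = (a, b))
    (ha : a * (a ^ (q ^ 2) - a) + 1 ≠ 0) (hb : b * (b ^ (q ^ 2) - b) + 1 ≠ 0) :
    Rf K q s ∈ D.S.V ∧ D.S.rd (Rf K q s) =
      ((a ^ (q ^ 2) - a) / (a * (a ^ (q ^ 2) - a) + 1),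
        (b ^ (q ^ 2) - b) / (b * (b ^ (q ^ 2) - b) + 1)) := by
  have hT : s ^ (q ^ 2) - s ∈ D.S.V := sub_mem (pow_mem hs _) hs
  have hP : s * (s ^ (q ^ 2) - s) + 1 ∈ D.S.V := add_mem (mul_mem hs hT) (one_mem _)
  have hTr : D.S.rd (s ^ (q ^ 2) - s) = (a ^ (q ^ 2) - a, b ^ (q ^ 2) - b) := by
    rw [D.S.rd_sub (pow_mem hs _) hs, D.S.rd_pow hs, h]; rfl
  have hPr : D.S.rd (s * (s ^ (q ^ 2) - s) + 1) =
      (a * (a ^ (q ^ 2) - a) + 1, b * (b ^ (q ^ 2) - b) + 1) := by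
    rw [D.S.rd_add (mul_mem hs hT) (one_mem _), D.S.rd_mul hs hT, hTr, h, D.S.rd_one]; rfl
  obtain ⟨-, h1, h2⟩ := D.S.rd_inv_prod hPr ha hb
  rw [Rf, aeval_Tpol, aeval_Ppol, div_eq_mul_inv]
  refine ⟨mul_mem hT h1, ?_⟩
  rw [D.S.rd_mul hT h1, hTr, h2]
  simp only [Prod.mk_mul_mk, div_eq_mul_inv]

theorem rd_Rf_tt : Rf K q D.tt ∈ D.S.V ∧ D.S.rd (Rf K q D.tt) = (D.v, D.v ^ q) := by
  have := D.charP_Fb
  have h := D.rd_Rf D.tt_mem D.rd_tt D.Pb_ne (by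
    rw [P_pow]; exact pow_ne_zero _ D.Pb_ne)
  refine ⟨h.1, ?_⟩
  rw [h.2, P_pow, T_pow, ← div_pow, ← v_eq]

theorem rd_Rf_tq : Rf K q D.tq ∈ D.S.V ∧ D.S.rd (Rf K q D.tq) = (D.v ^ q, D.v) := by
  have := D.charP_Fb
  have h := D.rd_Rf D.tq_mem D.rd_tq (by
    rw [P_pow]; exact pow_ne_zero _ D.Pb_ne) D.Pb_ne
  refine ⟨h.1, ?_⟩
  rw [h.2, P_pow, T_pow, ← div_pow, ← v_eq]

theorem x_mem : D.x ∈ D.S.V := mul_mem D.rd_Rf_tt.1 D.rd_Rf_tq.1

theorem rd_x : D.S.rd D.x = (D.y, D.y) := by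
  rw [x, D.S.rd_mul D.rd_Rf_tt.1 D.rd_Rf_tq.1, D.rd_Rf_tt.2, D.rd_Rf_tq.2, y]
  ext
  · simp only [Prod.mk_mul_mk]; ring
  · simp only [Prod.mk_mul_mk]; ring

theorem Fr_tb : D.Fr D.tb = D.tb ^ q := D.Fr_t

theorem Fr_v : D.Fr D.v = D.v ^ q := by
  have := D.charP_Fb
  rw [v_eq, map_div₀, map_add, map_mul, map_sub, map_pow, Fr_tb, map_one, P_pow,
    T_pow, div_pow]

theorem Fr_y : D.Fr D.y = D.y ^ q := by
  rw [y, map_pow, Fr_v, ← pow_mul, ← pow_mul, mul_comm]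

end CharQ

end TwoLevel

end Fermat.Agent.S34
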