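import Fermat.Agent.S34.PL
import Fermat.Agent.S18.KL

/-!
# S34, piece LIFT: lifting functions on the charts of `y = (T(t̄)/π(t̄))^e` at the level with good reduction

`S : S18.RedSetting K F k Fb`, `t` a good coordinate with normal reduction in both charts, `tb = rd t`.
* (L1) `a ∈ intRing k y ⟹ π(tb)^n a = rd h`, `h ∈ L(n (Q+1) (t)_∞) ∩ V`;
* (L2) `a ∈ intRing k y⁻¹ ⟹ T(tb)^n a = rd h`, `h ∈ intRing K t ∩ V`.
-/

set_option autoImplicit false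

namespace Fermat.Agent.S34

open Polynomial IntermediateField AlgebraicCurve Fermat.Agent.S24 Fermat.Agent.S18 Module

namespace Lift

open PL

section scale
variable {k E : Type*} [Field k] [Field E] [Algebra k E]

theorem pow_mul_aeval_mem {y ρ : E} {B : Subalgebra k E} (hρ : ρ ∈ B) (hyρ : y * ρ ∈ B) (p : k[X])
    {D : ℕ} (hD : p.natDegree ≤ D) : ρ ^ D * aeval y p ∈ B := by
  rw [aeval_eq_sum_range' (Nat.lt_succ_of_le hD), Finset.mul_sum]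
  refine sum_mem fun i hi => ?_
  have hi' : i ≤ D := Nat.lt_succ_iff.1 (Finset.mem_range.1 hi)
  have e : ρ ^ D * p.coeff i • y ^ i = p.coeff i • ((y * ρ) ^ i * ρ ^ (D - i)) := by
    obtain ⟨j, rfl⟩ := Nat.exists_eq_add_of_le hi'
    rw [Nat.add_sub_cancel_left, mul_smul_comm]
    congr 1
    ring
  rw [e]
  exact B.smul_mem (mul_mem (pow_mem hyρ _) (pow_mem hρ _)) _

/-- **Scaling.**  If `ρ, y ρ ∈ B` and `a` is integral over `k[y]` then `ρ^N a` is integral over `B`. -/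
theorem scale_integral {y ρ : E} {B : Subalgebra k E} (hρ : ρ ∈ B) (hyρ : y * ρ ∈ B) {a : E}
    (ha : a ∈ intRing k y) : ∃ N : ℕ, IsIntegral B (ρ ^ N * a) := by
  obtain ⟨P, hPm, hP⟩ := ha
  choose p hp using fun j => ib_mem_polyRing_iff.1 (P.coeff j).2
  obtain ⟨n, hn⟩ : ∃ n, n = P.natDegree := ⟨_, rfl⟩
  obtain ⟨D, hD⟩ : ∃ D : ℕ, ∀ j ∈ Finset.range (n + 1), (p j).natDegree ≤ D :=
    ⟨(Finset.range (n + 1)).sup fun j => (p j).natDegree, fun j hj =>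
      Finset.le_sup (f := fun j => (p j).natDegree) hj⟩
  refine ⟨D, ?_⟩
  have hmem : ∀ j, j < n → ρ ^ (D * (n - j)) * aeval y (p j) ∈ B := by
    intro j hj
    refine pow_mul_aeval_mem hρ hyρ _ ?_
    refine (hD j (Finset.mem_range.2 (by omega))).trans ?_
    exact Nat.le_mul_of_pos_right D (by omega)
  classical
  let c : ℕ → B := fun j => if hj : j < n then ⟨_, hmem j hj⟩ else 0
  refine ⟨X ^ n + ∑ j ∈ Finset.range n, C (c j) * X ^ j, ?_, ?_⟩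
  · apply monic_X_pow_add
    refine (degree_sum_le _ _).trans_lt ?_
    rw [Finset.sup_lt_iff (by exact WithBot.bot_lt_coe n)]
    intro j hj
    refine (degree_C_mul_X_pow_le _ _).trans_lt ?_
    exact_mod_cast Finset.mem_range.1 hj
  · rw [eval₂_eq_sum_range, ← hn, Finset.sum_range_succ] at hP
    have h1 : (algebraMap (polyRing k y) E) (P.coeff n) = 1 := by
      rw [hn, hPm.coeff_natDegree, map_one]
    rw [h1, one_mul] at hP
    simp only [eval₂_add, eval₂_pow, eval₂_X, eval₂_finsetSum, eval₂_mul, eval₂_C]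
    have h2 : ∀ j ∈ Finset.range n, algebraMap B E (c j) * (ρ ^ D * a) ^ j =
        ρ ^ (D * n) * (algebraMap (polyRing k y) E (P.coeff j) * a ^ j) := by
      intro j hj
      have hj' := Finset.mem_range.1 hj
      have hc : algebraMap B E (c j) = ρ ^ (D * (n - j)) * aeval y (p j) := by
        simp only [c, dif_pos hj']
        rfl
      have hP' : algebraMap (polyRing k y) E (P.coeff j) = aeval y (p j) := (hp j).symm
      rw [hc, hP', mul_pow, ← pow_mul]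
      have h4 : D * n = D * (n - j) + D * j := by
        rw [← Nat.mul_add]; congr 1; omega
      rw [h4, pow_add]
      ring
    rw [Finset.sum_congr rfl h2, ← Finset.mul_sum, mul_pow, ← pow_mul, ← mul_add, add_comm, hP,
      mul_zero]

theorem self_mem_polyRing (z : E) : z ∈ polyRing k z := Algebra.self_mem_adjoin_singleton k z

theorem Tf_mem_polyRing (Q : ℕ) (z : E) : Tf Q z ∈ polyRing k z :=
  sub_mem (pow_mem (self_mem_polyRing z) Q) (self_mem_polyRing z)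

theorem Pf_mem_polyRing (Q : ℕ) (z : E) : Pf Q z ∈ polyRing k z :=
  add_mem (mul_mem (self_mem_polyRing z) (Tf_mem_polyRing Q z)) (one_mem _)

theorem mem_intRing_of_mem_polyRing {z b : E} (hb : b ∈ polyRing k z) : b ∈ intRing k z := by
  have : b = algebraMap (polyRing k z) E ⟨b, hb⟩ := rfl
  rw [this]
  exact Subalgebra.algebraMap_mem _ _

/-- chart `y ≠ ∞`, finite part. -/
theorem exists_Pf_pow_mul_mem {Q e : ℕ} {tb : E} (hP : Pf Q tb ≠ 0) {a : E}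
    (ha : a ∈ intRing k (Rf Q tb ^ e)) : ∃ N : ℕ, ∀ n, N ≤ n → Pf Q tb ^ n * a ∈ intRing k tb := by
  obtain ⟨N, hN⟩ := scale_integral (B := polyRing k tb) (ρ := Pf Q tb ^ e)
    (pow_mem (Pf_mem_polyRing Q tb) e)
    (by
      rw [← mul_pow, Rf, div_mul_cancel₀ _ hP]
      exact pow_mem (Tf_mem_polyRing Q tb) e) ha
  refine ⟨e * N, fun n hn => ?_⟩
  obtain ⟨j, rfl⟩ := Nat.exists_eq_add_of_le hn
  rw [pow_add, mul_comm (Pf Q tb ^ (e * N)), mul_assoc, pow_mul]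
  exact mul_mem (mem_intRing_of_mem_polyRing (pow_mem (Pf_mem_polyRing Q tb) j)) hN

/-- chart `y ≠ ∞`, part at `t̄ = ∞`. -/
theorem exists_inv_pow_mul_mem {Q e : ℕ} (hQ : 2 ≤ Q) {tb : E} (ht0 : tb ≠ 0) (hP : Pf Q tb ≠ 0)
    {a : E} (ha : a ∈ intRing k (Rf Q tb ^ e)) :
    ∃ N : ℕ, ∀ n, N ≤ n → tb⁻¹ ^ (n * (Q + 1)) * (Pf Q tb ^ n * a) ∈ intRing k tb⁻¹ := by
  set s := tb⁻¹ with hs
  have hs0 : s ≠ 0 := inv_ne_zero ht0
  have hst : s * tb = 1 := inv_mul_cancel₀ ht0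
  obtain ⟨Q', rfl⟩ : ∃ Q', Q = Q' + 2 := ⟨Q - 2, by omega⟩
  -- `ρ₀ = s^(Q+1) π(tb) = 1 - s^(Q-1) + s^(Q+1)`, `s^(Q+1) T(tb) = s - s^Q`
  have e1 : s ^ (Q' + 2 + 1) * Pf (Q' + 2) tb = 1 - s ^ (Q' + 1) + s ^ (Q' + 2 + 1) := by
    have h1 : s ^ (Q' + 2 + 1) * tb ^ (Q' + 2 + 1) = 1 := by rw [← mul_pow, hst, one_pow]
    have h2 : s ^ 2 * tb ^ 2 = 1 := by rw [← mul_pow, hst, one_pow]
    simp only [Pf, Tf]
    calc s ^ (Q' + 2 + 1) * (tb * (tb ^ (Q' + 2) - tb) + 1)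
        = s ^ (Q' + 2 + 1) * tb ^ (Q' + 2 + 1) - s ^ (Q' + 1) * (s ^ 2 * tb ^ 2) + s ^ (Q' + 2 + 1) := by
          ring
      _ = _ := by rw [h1, h2, mul_one]
  have e2 : s ^ (Q' + 2 + 1) * Tf (Q' + 2) tb = s - s ^ (Q' + 2) := by
    have h1 : s ^ (Q' + 2) * tb ^ (Q' + 2) = 1 := by rw [← mul_pow, hst, one_pow]
    simp only [Tf]
    calc s ^ (Q' + 2 + 1) * (tb ^ (Q' + 2) - tb)
        = s * (s ^ (Q' + 2) * tb ^ (Q' + 2)) - s ^ (Q' + 2) * (s * tb) := by ring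
      _ = _ := by rw [h1, hst, mul_one, mul_one]
  have hsm : s ∈ polyRing k s := self_mem_polyRing s
  have hρ : s ^ (Q' + 2 + 1) * Pf (Q' + 2) tb ∈ polyRing k s := by
    rw [e1]
    exact add_mem (sub_mem (one_mem _) (pow_mem hsm _)) (pow_mem hsm _)
  have hT : s ^ (Q' + 2 + 1) * Tf (Q' + 2) tb ∈ polyRing k s := by
    rw [e2]
    exact sub_mem hsm (pow_mem hsm _)
  obtain ⟨N, hN⟩ := scale_integral (B := polyRing k s) (ρ := (s ^ (Q' + 2 + 1) * Pf (Q' + 2) tb) ^ e)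
    (pow_mem hρ e)
    (by
      rw [← mul_pow]
      have : Rf (Q' + 2) tb * (s ^ (Q' + 2 + 1) * Pf (Q' + 2) tb) = s ^ (Q' + 2 + 1) * Tf (Q' + 2) tb := by
        rw [Rf]; field_simp
      rw [this]
      exact pow_mem hT e) ha
  refine ⟨e * N, fun n hn => ?_⟩
  obtain ⟨j, rfl⟩ := Nat.exists_eq_add_of_le hn
  have e3 : s ^ ((e * N + j) * (Q' + 2 + 1)) * (Pf (Q' + 2) tb ^ (e * N + j) * a) =
      (s ^ (Q' + 2 + 1) * Pf (Q' + 2) tb) ^ j *
        (((s ^ (Q' + 2 + 1) * Pf (Q' + 2) tb) ^ e) ^ N * a) := by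
    have hA : s ^ ((e * N + j) * (Q' + 2 + 1)) = (s ^ (Q' + 2 + 1)) ^ (e * N + j) := by
      rw [← pow_mul, mul_comm]
    rw [hA]
    generalize s ^ (Q' + 2 + 1) = A
    generalize Pf (Q' + 2) tb = P
    ring
  rw [e3]
  exact mul_mem (mem_intRing_of_mem_polyRing (pow_mem hρ j)) hN

/-- chart `y ≠ 0`. -/
theorem exists_Tf_pow_mul_mem {Q e : ℕ} {tb : E} (hT : Tf Q tb ≠ 0) {a : E}
    (ha : a ∈ intRing k (Rf Q tb ^ e)⁻¹) : ∃ n : ℕ, Tf Q tb ^ n * a ∈ intRing k tb := by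
  obtain ⟨N, hN⟩ := scale_integral (B := polyRing k tb) (ρ := Tf Q tb ^ e)
    (pow_mem (Tf_mem_polyRing Q tb) e)
    (by
      rw [← inv_pow, ← mul_pow, Rf, inv_div, div_mul_cancel₀ _ hT]
      exact pow_mem (Pf_mem_polyRing Q tb) e) ha
  refine ⟨e * N, ?_⟩
  rw [pow_mul]
  exact hN

end scale

section lift
variable {K F k Fb : Type*} [Field K] [Field F] [Algebra K F] [Field k] [Field Fb] [Algebra k Fb]
variable (S : RedSetting K F k Fb)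

/-- (L0) `rd (L(a,b) ∩ V) = L̄(a,b)` for `a + b ≫ 0`. -/
theorem exists_lift_Lsp [IsAlgClosed K] [CharZero K] {t : F} (ht : S.Coord t)
    (h0 : S.NormalRed t) (hinf : S.NormalRed t⁻¹) :
    ∃ N₀ : ℕ, ∀ a b : ℕ, N₀ ≤ a + b → ∀ r ∈ Lsp k (S.rd t) a b,
      ∃ h ∈ Lsp K t a b, h ∈ S.V ∧ S.rd h = r := by
  obtain ⟨N₀, hN₀⟩ := S.finrank_Lsp_eq ht h0 hinf
  refine ⟨N₀, fun a b hab r hr => ?_⟩
  obtain ⟨f1, f2, heq⟩ := hN₀ a b hab
  have hrd0 : S.rd t ≠ 0 := by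
    intro h
    apply ht.trans
    rw [h]
    exact isAlgebraic_zero
  have hti : S.Coord t⁻¹ := RedSetting.Coord.inv S ht
  have hle : CoreDim.redSub S (Lsp K t a b) ≤ Lsp k (S.rd t) a b := by
    rintro _ ⟨h, hh, hV, rfl⟩
    refine CoreDim.rd_mem_Lsp S ht.mem hrd0 (fun h hh hV => S.rd_mem_intRing ht hV hh)
      (fun h hh hV => ?_) hh hV
    have := S.rd_mem_intRing hti hV hh
    rwa [RedSetting.Coord.rd_inv S ht] at this
  have heq' : CoreDim.redSub S (Lsp K t a b) = Lsp k (S.rd t) a b := by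
    apply Submodule.eq_of_le_of_finrank_le hle
    rw [CoreDim.finrank_redSub S ht _ f1, heq]
  rw [← heq'] at hr
  exact hr

theorem Tf_mem_V {t : F} (ht : t ∈ S.V) (Q : ℕ) : Tf Q t ∈ S.V := sub_mem (pow_mem ht Q) ht

theorem Pf_mem_V {t : F} (ht : t ∈ S.V) (Q : ℕ) : Pf Q t ∈ S.V :=
  add_mem (mul_mem ht (Tf_mem_V S ht Q)) (one_mem _)

theorem rd_Tf {t : F} (ht : t ∈ S.V) (Q : ℕ) : S.rd (Tf Q t) = Tf Q (S.rd t) := by
  rw [Tf, S.rd_sub (pow_mem ht Q) ht, S.rd_pow ht, Tf]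

theorem rd_Pf {t : F} (ht : t ∈ S.V) (Q : ℕ) : S.rd (Pf Q t) = Pf Q (S.rd t) := by
  rw [Pf, S.rd_add (mul_mem ht (Tf_mem_V S ht Q)) (one_mem _), S.rd_mul ht (Tf_mem_V S ht Q),
    rd_Tf S ht, S.rd_one, Pf]

/-- **(L1)** -/
theorem exists_lift0 [IsAlgClosed K] [CharZero K] {t : F} (ht : S.Coord t)
    (h0 : S.NormalRed t) (hinf : S.NormalRed t⁻¹) {Q e : ℕ} (hQ : 2 ≤ Q) {a : Fb}
    (ha : a ∈ intRing k (Rf Q (S.rd t) ^ e)) :
    ∃ n : ℕ, ∃ h ∈ Lsp K t 0 (n * (Q + 1)), h ∈ S.V ∧ S.rd h = Pf Q (S.rd t) ^ n * a := by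
  have hrd0 : S.rd t ≠ 0 := by
    intro h
    apply ht.trans
    rw [h]
    exact isAlgebraic_zero
  have hP : Pf Q (S.rd t) ≠ 0 := Pf_ne_zero_of_transcendental Q ht.trans
  obtain ⟨N₀, hN₀⟩ := exists_lift_Lsp S ht h0 hinf
  obtain ⟨N₁, hN₁⟩ := exists_Pf_pow_mul_mem hP ha
  obtain ⟨N₂, hN₂⟩ := exists_inv_pow_mul_mem hQ hrd0 hP ha
  set n := max N₀ (max N₁ N₂) with hn
  refine ⟨n, hN₀ 0 (n * (Q + 1)) ?_ _ ⟨?_, ?_⟩⟩
  · have h1 : N₀ ≤ n := le_max_left _ _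
    nlinarith
  · rw [pow_zero, one_mul]
    exact hN₁ n (le_trans (le_max_left _ _) (le_max_right _ _))
  · exact hN₂ n (le_trans (le_max_right _ _) (le_max_right _ _))

/-- **(L2)** -/
theorem exists_liftInf {t : F} (ht : S.Coord t) (h0 : S.NormalRed t) {Q e : ℕ} (hQ : 2 ≤ Q) {a : Fb}
    (ha : a ∈ intRing k (Rf Q (S.rd t) ^ e)⁻¹) :
    ∃ n : ℕ, ∃ h ∈ intRing K t, h ∈ S.V ∧ S.rd h = Tf Q (S.rd t) ^ n * a := by
  have hT : Tf Q (S.rd t) ≠ 0 := Tf_ne_zero_of_transcendental hQ ht.trans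
  obtain ⟨n, hn⟩ := exists_Tf_pow_mul_mem hT ha
  exact ⟨n, h0 _ hn⟩

end lift

end Lift

end Fermat.Agent.S34
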