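import Fermat.Agent.S34.NBasic
import Fermat.Agent.S18.Riemann

/-!
# S34, piece PL: place-level analysis of the coordinate `x = Rf(t) Rf(t')`

`T(u) = u^Q - u`, `π(u) = u T(u) + 1`, `Rf = T/π`, `Q = q²`.  Hypothesis `OV` ("no overlap"): at a place where `t` takes a value `a ∈ A^×`,
`t'` takes a value `b ∈ A` with `(ā^q - b̄)(ā - b̄^q) = 0`; and the same with `t`, `t'` exchanged.
Conclusions: `π(t)^n f ∈ L(n (Q+1) (t)_∞) ⟹ f ∈ intRing K x`, `T(t)^n f ∈ intRing K t ⟹ f ∈ intRing K x⁻¹`.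
-/

set_option autoImplicit false

namespace Fermat.Agent.S34

open Polynomial IntermediateField AlgebraicCurve Fermat.Agent.S24 Fermat.Agent.S18 Module

namespace PL

section defs
variable {R : Type*} [CommRing R]

/-- `T(u) = u^Q - u`. -/
def Tf (Q : ℕ) (u : R) : R := u ^ Q - u

/-- `π(u) = u T(u) + 1`. -/
def Pf (Q : ℕ) (u : R) : R := u * Tf Q u + 1

theorem map_Tf {R' : Type*} [CommRing R'] (φ : R →+* R') (Q : ℕ) (u : R) :
    φ (Tf Q u) = Tf Q (φ u) := by simp [Tf]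

theorem map_Pf {R' : Type*} [CommRing R'] (φ : R →+* R') (Q : ℕ) (u : R) :
    φ (Pf Q u) = Pf Q (φ u) := by simp [Pf, map_Tf]

theorem Pf_of_Tf_eq_zero {Q : ℕ} {u : R} (h : Tf Q u = 0) : Pf Q u = 1 := by
  rw [Pf, h, mul_zero, zero_add]

theorem aeval_Tf {K : Type*} [CommRing K] [Algebra K R] (Q : ℕ) (u : R) :
    aeval u (X ^ Q - X : K[X]) = Tf Q u := by simp [Tf]

theorem aeval_Pf {K : Type*} [CommRing K] [Algebra K R] (Q : ℕ) (u : R) :
    aeval u (X * (X ^ Q - X) + 1 : K[X]) = Pf Q u := by simp [Pf, Tf]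

end defs

/-- `Rf(u) = T(u)/π(u)`. -/
def Rf {L : Type*} [Field L] (Q : ℕ) (u : L) : L := Tf Q u / Pf Q u

section frob
variable {k : Type*} [Field k] (q : ℕ) [Fact q.Prime] [CharP k q]

theorem Tf_pow_char (c : k) : Tf (q ^ 2) (c ^ q) = Tf (q ^ 2) c ^ q := by
  rw [Tf, Tf, sub_pow_char, ← pow_mul, ← pow_mul, mul_comm]

/-- the Kronecker relation preserves `T ≠ 0`. -/
theorem Tf_ne_zero_iff {α β : k} (h : (α ^ q - β) * (α - β ^ q) = 0) :
    Tf (q ^ 2) α ≠ 0 ↔ Tf (q ^ 2) β ≠ 0 := by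
  have hq : q ≠ 0 := (Fact.out : q.Prime).ne_zero
  rcases mul_eq_zero.1 h with h | h
  · have : β = α ^ q := (sub_eq_zero.1 h).symm
    rw [this, Tf_pow_char, Ne, Ne, pow_eq_zero_iff hq]
  · have : α = β ^ q := sub_eq_zero.1 h
    rw [this, Tf_pow_char, Ne, Ne, pow_eq_zero_iff hq]

end frob

section val
variable {L Γ : Type*} [Field L] [LinearOrderedCommGroupWithZero Γ] (val : Valuation L Γ)

theorem val_Tf_of_one_lt {Q : ℕ} (hQ : 2 ≤ Q) {u : L} (hu : 1 < val u) :
    val (Tf Q u) = val u ^ Q := by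
  have h1 : val u < val (u ^ Q) := by
    rw [map_pow]
    calc val u = val u ^ 1 := (pow_one _).symm
      _ < val u ^ Q := pow_lt_pow_right₀ hu (by omega)
  rw [Tf, Valuation.map_sub_eq_of_lt_left _ h1, map_pow]

theorem val_Pf_of_one_lt {Q : ℕ} (hQ : 2 ≤ Q) {u : L} (hu : 1 < val u) :
    val (Pf Q u) = val u ^ (Q + 1) := by
  have h0 : val (u * Tf Q u) = val u ^ (Q + 1) := by
    rw [map_mul, val_Tf_of_one_lt val hQ hu, pow_succ']
  have h1 : val (1 : L) < val (u * Tf Q u) := by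
    rw [h0, map_one]
    exact one_lt_pow₀ hu (by omega)
  rw [Pf, Valuation.map_add_eq_of_lt_left _ h1, h0]

theorem val_Rf_of_one_lt {Q : ℕ} (hQ : 2 ≤ Q) {u : L} (hu : 1 < val u) : val (Rf Q u) < 1 := by
  have h0 : val u ≠ 0 := (lt_trans zero_lt_one hu).ne'
  rw [Rf, map_div₀, val_Tf_of_one_lt val hQ hu, val_Pf_of_one_lt val hQ hu, pow_succ,
    div_mul_eq_div_div, div_self (pow_ne_zero _ h0), one_div]
  exact inv_lt_one_of_one_lt₀ hu

theorem val_le_one_of_sub {u a : L} (ha : val a ≤ 1) (h : val (u - a) < 1) : val u ≤ 1 := by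
  have : u = (u - a) + a := by ring
  rw [this]
  exact val.map_add_le h.le ha

theorem val_pow_sub_pow_lt {u a : L} (ha : val a ≤ 1) (h : val (u - a) < 1) (n : ℕ) :
    val (u ^ n - a ^ n) < 1 := by
  have hu := val_le_one_of_sub val ha h
  induction n with
  | zero => simp
  | succ n ih =>
    have e : u ^ (n + 1) - a ^ (n + 1) = u ^ n * (u - a) + a * (u ^ n - a ^ n) := by ring
    rw [e]
    refine val.map_add_lt ?_ ?_
    · rw [map_mul, map_pow]
      exact mul_lt_of_le_one_of_lt (pow_le_one' hu n) h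
    · rw [map_mul]
      exact mul_lt_of_le_one_of_lt ha ih

theorem val_Tf_sub_lt {u a : L} (ha : val a ≤ 1) (h : val (u - a) < 1) (Q : ℕ) :
    val (Tf Q u - Tf Q a) < 1 := by
  have e : Tf Q u - Tf Q a = (u ^ Q - a ^ Q) - (u - a) := by simp only [Tf]; ring
  rw [e]
  exact val.map_sub_lt (val_pow_sub_pow_lt val ha h Q) h

theorem val_Tf_le_one {u : L} (hu : val u ≤ 1) (Q : ℕ) : val (Tf Q u) ≤ 1 := by
  rw [Tf]
  exact val.map_sub_le (by rw [map_pow]; exact pow_le_one' hu Q) hu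

theorem val_Pf_le_one {u : L} (hu : val u ≤ 1) (Q : ℕ) : val (Pf Q u) ≤ 1 := by
  rw [Pf]
  refine val.map_add_le ?_ (by rw [map_one])
  rw [map_mul]
  exact mul_le_one' hu (val_Tf_le_one val hu Q)

theorem val_Pf_sub_lt {u a : L} (ha : val a ≤ 1) (h : val (u - a) < 1) (Q : ℕ) :
    val (Pf Q u - Pf Q a) < 1 := by
  have hu := val_le_one_of_sub val ha h
  have e : Pf Q u - Pf Q a = Tf Q u * (u - a) + a * (Tf Q u - Tf Q a) := by simp only [Pf]; ring
  rw [e]
  refine val.map_add_lt ?_ ?_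
  · rw [map_mul]
    exact mul_lt_of_le_one_of_lt (val_Tf_le_one val hu Q) h
  · rw [map_mul]
    exact mul_lt_of_le_one_of_lt ha (val_Tf_sub_lt val ha h Q)

/-- `val (g - c) < 1`, `val c = 1` ⟹ `val g = 1`. -/
theorem val_eq_one_of_sub {g c : L} (hc : val c = 1) (h : val (g - c) < 1) : val g = 1 := by
  have e : g = (g - c) + c := by ring
  rw [e, Valuation.map_add_eq_of_lt_right _ (by rw [hc]; exact h), hc]

/-- `val (g - 0) < 1`. -/
theorem val_lt_one_of_sub {g c : L} (hc : c = 0) (h : val (g - c) < 1) : val g < 1 := by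
  rwa [hc, sub_zero] at h

end val

section place
variable {K F : Type*} [Field K] [Field F] [Algebra K F]

/-- the valuation of a place. -/
noncomputable abbrev pv (v : Place K F) : Valuation F v.toValuationSubring.ValueGroup :=
  v.toValuationSubring.valuation

theorem pv_le_one_iff (v : Place K F) (g : F) : pv v g ≤ 1 ↔ g ∈ v.toValuationSubring :=
  ValuationSubring.valuation_le_one_iff _ _

theorem pv_algebraMap_le (v : Place K F) (c : K) : pv v (algebraMap K F c) ≤ 1 :=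
  (pv_le_one_iff v _).2 (v.algebraMap_mem' c)

theorem pv_algebraMap (v : Place K F) {c : K} (hc : c ≠ 0) : pv v (algebraMap K F c) = 1 := by
  refine le_antisymm (pv_algebraMap_le v c) ?_
  have h1 := pv_algebraMap_le v c⁻¹
  rw [map_inv₀, map_inv₀] at h1
  have h0 : pv v (algebraMap K F c) ≠ 0 :=
    (Valuation.ne_zero_iff _).2 ((_root_.map_ne_zero _).2 hc)
  exact (inv_le_one₀ (zero_lt_iff.2 h0)).1 h1

theorem pv_lt_one_iff_ord (v : Place K F) {g : F} (hg : g ≠ 0) : pv v g < 1 ↔ 0 < v.ord g := by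
  rw [ord_pos_iff v hg, ← pv_le_one_iff, ← pv_le_one_iff, map_inv₀]
  have h0 : pv v g ≠ 0 := (Valuation.ne_zero_iff _).2 hg
  constructor
  · intro h
    refine ⟨h.le, ?_⟩
    rw [not_le]
    exact (one_lt_inv₀ (zero_lt_iff.2 h0)).2 h
  · rintro ⟨_, h⟩
    rw [not_le] at h
    exact (one_lt_inv₀ (zero_lt_iff.2 h0)).1 h

theorem sub_algebraMap_ne_zero {u : F} (hu : Transcendental K u) (a : K) :
    u - algebraMap K F a ≠ 0 := by
  intro h
  apply hu
  rw [sub_eq_zero.1 h]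
  exact isAlgebraic_algebraMap a

/-- every place is a pole of `u` or `u` takes a value there. -/
theorem pole_or_value [IsAlgClosed K] (hFF : IsFF K F) (v : Place K F) {u : F}
    (hu : Transcendental K u) : 1 < pv v u ∨ ∃ a : K, pv v (u - algebraMap K F a) < 1 := by
  rcases lt_or_ge 1 (pv v u) with h | h
  · exact Or.inl h
  · right
    obtain ⟨c, hc | hc⟩ := hFF.exists_residue v ((pv_le_one_iff v u).1 h)
    · exact absurd (sub_eq_zero.2 hc) (sub_algebraMap_ne_zero hu c)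
    · exact ⟨c, (pv_lt_one_iff_ord v (sub_algebraMap_ne_zero hu c)).2 hc⟩

theorem value_unique (v : Place K F) {u : F} {a a' : K} (h : pv v (u - algebraMap K F a) < 1)
    (h' : pv v (u - algebraMap K F a') < 1) : a = a' := by
  by_contra hne
  have h1 : pv v (algebraMap K F (a - a')) = 1 := pv_algebraMap v (sub_ne_zero.2 hne)
  have e : algebraMap K F (a - a') = (u - algebraMap K F a') - (u - algebraMap K F a) := by
    rw [map_sub]; ring
  rw [e] at h1
  exact absurd h1 ((pv v).map_sub_lt h' h).ne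

theorem Tf_ne_zero_of_transcendental {Q : ℕ} (hQ : 2 ≤ Q) {u : F} (hu : Transcendental K u) :
    Tf Q u ≠ 0 := by
  intro h
  rw [← aeval_Tf (K := K)] at h
  have h2 := (transcendental_iff.1 hu) _ h
  have h3 := congrArg (fun p => coeff p 1) h2
  simp only [coeff_sub, coeff_X_pow, coeff_X_one, coeff_zero] at h3
  rw [if_neg (by omega)] at h3
  simp at h3

theorem Pf_ne_zero_of_transcendental (Q : ℕ) {u : F} (hu : Transcendental K u) :
    Pf Q u ≠ 0 := by
  intro h
  rw [← aeval_Pf (K := K)] at h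
  have h2 := (transcendental_iff.1 hu) _ h
  have h3 := congrArg (fun p => eval 0 p) h2
  simp at h3

/-- values of `T(u)`, `π(u)` at a place where `u` takes the value `a`. -/
theorem pv_Tf_sub (v : Place K F) {u : F} {a : K} (h : pv v (u - algebraMap K F a) < 1) (Q : ℕ) :
    pv v (Tf Q u - algebraMap K F (Tf Q a)) < 1 := by
  rw [map_Tf]
  exact val_Tf_sub_lt _ (pv_algebraMap_le v a) h Q

theorem pv_Pf_sub (v : Place K F) {u : F} {a : K} (h : pv v (u - algebraMap K F a) < 1) (Q : ℕ) :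
    pv v (Pf Q u - algebraMap K F (Pf Q a)) < 1 := by
  rw [map_Pf]
  exact val_Pf_sub_lt _ (pv_algebraMap_le v a) h Q

theorem pv_Tf_eq_one (v : Place K F) {u : F} {a : K} (h : pv v (u - algebraMap K F a) < 1) {Q : ℕ}
    (ha : Tf Q a ≠ 0) : pv v (Tf Q u) = 1 :=
  val_eq_one_of_sub _ (pv_algebraMap v ha) (pv_Tf_sub v h Q)

theorem pv_Pf_eq_one (v : Place K F) {u : F} {a : K} (h : pv v (u - algebraMap K F a) < 1) {Q : ℕ}
    (ha : Pf Q a ≠ 0) : pv v (Pf Q u) = 1 :=
  val_eq_one_of_sub _ (pv_algebraMap v ha) (pv_Pf_sub v h Q)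

theorem pv_Tf_lt_one (v : Place K F) {u : F} {a : K} (h : pv v (u - algebraMap K F a) < 1) {Q : ℕ}
    (ha : Tf Q a = 0) : pv v (Tf Q u) < 1 :=
  val_lt_one_of_sub _ (by rw [ha, map_zero]) (pv_Tf_sub v h Q)

theorem pv_Pf_lt_one (v : Place K F) {u : F} {a : K} (h : pv v (u - algebraMap K F a) < 1) {Q : ℕ}
    (ha : Pf Q a = 0) : pv v (Pf Q u) < 1 :=
  val_lt_one_of_sub _ (by rw [ha, map_zero]) (pv_Pf_sub v h Q)

theorem pv_le_one_of_value (v : Place K F) {u : F} {a : K} (h : pv v (u - algebraMap K F a) < 1) :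
    pv v u ≤ 1 :=
  val_le_one_of_sub _ (pv_algebraMap_le v a) h

end place

section main
variable {K F k R : Type*} [Field K] [Field F] [Algebra K F] [Field k] [CommRing R] [Algebra k R]
variable (S : NSetting K F k R)

theorem Tf_mem {a : K} (ha : a ∈ S.A) (Q : ℕ) : Tf Q a ∈ S.A := sub_mem (pow_mem ha Q) ha

theorem rc_Tf {a : K} (ha : a ∈ S.A) (Q : ℕ) : S.rc (Tf Q a) = Tf Q (S.rc a) := by
  rw [Tf, S.rc_sub (pow_mem ha Q) ha, S.rc_pow ha, Tf]

theorem rc_Pf {a : K} (ha : a ∈ S.A) (Q : ℕ) : S.rc (Pf Q a) = Pf Q (S.rc a) := by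
  rw [Pf, S.rc_add (mul_mem ha (Tf_mem S ha Q)) (one_mem _), S.rc_mul ha (Tf_mem S ha Q), rc_Tf S ha,
    S.rc_one, Pf]

/-- the roots of `π` are units of `A` at which `T̄ ≠ 0`. -/
theorem root_Pf {Q : ℕ} (hQ : 2 ≤ Q) {a : K} (h : Pf Q a = 0) :
    a ∈ S.A ∧ S.rc a ≠ 0 ∧ Tf Q (S.rc a) ≠ 0 := by
  have haA : a ∈ S.A := by
    rw [← ValuationSubring.valuation_le_one_iff]
    by_contra hlt
    rw [not_le] at hlt
    have h1 := val_Pf_of_one_lt S.A.valuation hQ hlt
    rw [h, map_zero] at h1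
    exact (pow_ne_zero _ (lt_trans zero_lt_one hlt).ne') h1.symm
  have h2 : Pf Q (S.rc a) = 0 := by rw [← rc_Pf S haA, h, S.rc_zero]
  refine ⟨haA, ?_, ?_⟩
  · intro h0
    rw [Pf, h0, zero_mul, zero_add] at h2
    exact one_ne_zero h2
  · intro h0
    rw [Pf, h0, mul_zero, zero_add] at h2
    exact one_ne_zero h2

/-- **OV**, "no overlap". -/
def OV (q : ℕ) (t t' : F) : Prop :=
  ∀ (P : Place K F) (a : K), a ∈ S.A → S.rc a ≠ 0 → 0 < P.ord (t - algebraMap K F a) →
    ∃ b ∈ S.A, 0 < P.ord (t' - algebraMap K F b) ∧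
      (S.rc a ^ q - S.rc b) * (S.rc a - S.rc b ^ q) = 0

variable {S} {q : ℕ} [Fact q.Prime] [CharP k q] {t t' : F}

theorem two_le_sq : 2 ≤ q ^ 2 := by
  have := (Fact.out : q.Prime).two_le
  nlinarith

/-- the "zero locus" of `Rf(t)`. -/
def Zl (q : ℕ) (t : F) (v : Place K F) : Prop :=
  1 < pv v t ∨ ∃ a : K, pv v (t - algebraMap K F a) < 1 ∧ Tf (q ^ 2) a = 0

theorem Rf_lt_one_of_Zl {v : Place K F} (H : Zl q t v) : pv v (Rf (q ^ 2) t) < 1 := by
  rcases H with H | ⟨a, ha, hT⟩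
  · exact val_Rf_of_one_lt _ two_le_sq H
  · rw [Rf, map_div₀, pv_Pf_eq_one v ha (by rw [Pf_of_Tf_eq_zero hT]; exact one_ne_zero), div_one]
    exact pv_Tf_lt_one v ha hT

theorem Rf_le_one_of_Zl [IsAlgClosed K] (hFF : IsFF K F) (ht : Transcendental K t)
    (ht' : Transcendental K t') (hOV' : OV S q t' t) {v : Place K F} (H : Zl q t v) :
    pv v (Rf (q ^ 2) t') ≤ 1 := by
  rcases pole_or_value hFF v ht' with h | ⟨b, hb⟩
  · exact (val_Rf_of_one_lt _ two_le_sq h).le
  · by_cases hP : Pf (q ^ 2) b = 0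
    · exfalso
      obtain ⟨hbA, hb0, hbT⟩ := root_Pf S two_le_sq hP
      obtain ⟨a', ha'A, ha', hrel⟩ := hOV' v b hbA hb0
        ((pv_lt_one_iff_ord v (sub_algebraMap_ne_zero ht' b)).1 hb)
      have ha'' := (pv_lt_one_iff_ord v (sub_algebraMap_ne_zero ht a')).2 ha'
      rcases H with H | ⟨a, ha, hT⟩
      · exact absurd (pv_le_one_of_value v ha'') (not_le.2 H)
      · have := value_unique v ha ha''
        subst this
        have h1 := (Tf_ne_zero_iff q hrel).1 hbT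
        rw [← rc_Tf S ha'A, hT, S.rc_zero] at h1
        exact h1 rfl
    · rw [Rf, map_div₀, pv_Pf_eq_one v hb hP, div_one]
      exact val_Tf_le_one _ (pv_le_one_of_value v hb) _

/-- on the zero locus of `Rf(t)` the function `x` vanishes. -/
theorem x_lt_one_of_Zl [IsAlgClosed K] (hFF : IsFF K F) (ht : Transcendental K t)
    (ht' : Transcendental K t') (hOV' : OV S q t' t) {v : Place K F} (H : Zl q t v) :
    pv v (Rf (q ^ 2) t * Rf (q ^ 2) t') < 1 := by
  rw [map_mul, mul_comm]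
  exact mul_lt_of_le_one_of_lt (Rf_le_one_of_Zl hFF ht ht' hOV' H) (Rf_lt_one_of_Zl H)

/-- at a zero of `π(t)` the function `x` has a pole. -/
theorem one_lt_x_of_root (ht : Transcendental K t) (ht' : Transcendental K t')
    (hOV : OV S q t t') {v : Place K F} {a : K} (ha : pv v (t - algebraMap K F a) < 1)
    (hP : Pf (q ^ 2) a = 0) : 1 < pv v (Rf (q ^ 2) t * Rf (q ^ 2) t') := by
  obtain ⟨haA, ha0, haT⟩ := root_Pf S two_le_sq hP
  obtain ⟨b, hbA, hb, hrel⟩ := hOV v a haA ha0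
    ((pv_lt_one_iff_ord v (sub_algebraMap_ne_zero ht a)).1 ha)
  have hb' := (pv_lt_one_iff_ord v (sub_algebraMap_ne_zero ht' b)).2 hb
  have hbT := (Tf_ne_zero_iff q hrel).1 haT
  have haT' : Tf (q ^ 2) a ≠ 0 := by
    intro h0
    rw [← rc_Tf S haA, h0, S.rc_zero] at haT
    exact haT rfl
  have hbT' : Tf (q ^ 2) b ≠ 0 := by
    intro h0
    rw [← rc_Tf S hbA, h0, S.rc_zero] at hbT
    exact hbT rfl
  have h1 : pv v (Pf (q ^ 2) t) < 1 := pv_Pf_lt_one v ha hP
  have h2 : pv v (Pf (q ^ 2) t') ≤ 1 := val_Pf_le_one _ (pv_le_one_of_value v hb') _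
  have h10 : pv v (Pf (q ^ 2) t) ≠ 0 :=
    (Valuation.ne_zero_iff _).2 (Pf_ne_zero_of_transcendental _ ht)
  have h20 : pv v (Pf (q ^ 2) t') ≠ 0 :=
    (Valuation.ne_zero_iff _).2 (Pf_ne_zero_of_transcendental _ ht')
  rw [map_mul, Rf, Rf, map_div₀, map_div₀, pv_Tf_eq_one v ha haT', pv_Tf_eq_one v hb' hbT', one_div,
    one_div, ← mul_inv]
  refine (one_lt_inv₀ (zero_lt_iff.2 (mul_ne_zero h10 h20))).2 ?_
  rw [mul_comm]
  exact mul_lt_of_le_one_of_lt h2 h1

/-- **(P2)** -/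
theorem mem_intRing_x [IsAlgClosed K] [CharZero K] (hFF : IsFF K F) (ht : Transcendental K t)
    (ht' : Transcendental K t') (hOV : OV S q t t') {x : F}
    (hxdef : x = Rf (q ^ 2) t * Rf (q ^ 2) t') (hx : Transcendental K x) {f : F} {n : ℕ}
    (hf : Pf (q ^ 2) t ^ n * f ∈ Lsp K t 0 (n * (q ^ 2 + 1))) : f ∈ intRing K x := by
  have := hFF.finiteDimensional hx
  refine RI.mem_intRing_of_forall hx fun v hv => ?_
  rw [← pv_le_one_iff] at hv ⊢
  have hP0 : pv v (Pf (q ^ 2) t) ≠ 0 :=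
    (Valuation.ne_zero_iff _).2 (Pf_ne_zero_of_transcendental _ ht)
  rcases pole_or_value hFF v ht with h | ⟨a, ha⟩
  · have hti : t⁻¹ ∈ v.toValuationSubring := by
      rw [← pv_le_one_iff, map_inv₀]
      exact (inv_lt_one_of_one_lt₀ h).le
    have h1 := primes_intRing_le v hti ⟨_, hf.2⟩
    rw [← pv_le_one_iff] at h1
    simp only [map_mul, map_pow, map_inv₀] at h1
    rw [val_Pf_of_one_lt _ two_le_sq h, ← pow_mul, mul_comm (q ^ 2 + 1) n, ← mul_assoc, ← mul_pow,
      inv_mul_cancel₀ (lt_trans zero_lt_one h).ne', one_pow, one_mul] at h1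
    exact h1
  · by_cases hP : Pf (q ^ 2) a = 0
    · exact absurd hv (not_le.2 (hxdef ▸ one_lt_x_of_root ht ht' hOV ha hP))
    · have h1 := primes_intRing_le v ((pv_le_one_iff v t).1 (pv_le_one_of_value v ha)) ⟨_, hf.1⟩
      rw [← pv_le_one_iff] at h1
      simp only [map_mul, map_pow] at h1
      rwa [pv_Pf_eq_one v ha hP, one_pow, one_mul, pow_zero, one_mul] at h1

/-- **(P3)** -/
theorem mem_intRing_x_inv [IsAlgClosed K] [CharZero K] (hFF : IsFF K F) (ht : Transcendental K t)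
    (ht' : Transcendental K t') (hOV' : OV S q t' t) {x : F}
    (hxdef : x = Rf (q ^ 2) t * Rf (q ^ 2) t') (hx : Transcendental K x) {f : F} {n : ℕ}
    (hf : Tf (q ^ 2) t ^ n * f ∈ intRing K t) : f ∈ intRing K x⁻¹ := by
  have hxi : Transcendental K x⁻¹ := transcendental_inv hx
  have hx0 : x ≠ 0 := by
    rintro rfl
    exact hx isAlgebraic_zero
  have := hFF.finiteDimensional hxi
  refine RI.mem_intRing_of_forall hxi fun v hv => ?_
  rw [← pv_le_one_iff] at hv ⊢
  have hnZ : ¬ Zl q t v := by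
    intro H
    have h1 := x_lt_one_of_Zl hFF ht ht' hOV' H
    rw [← hxdef] at h1
    rw [map_inv₀] at hv
    exact absurd hv (not_le.2
      ((one_lt_inv₀ (zero_lt_iff.2 ((Valuation.ne_zero_iff _).2 hx0))).2 h1))
  rcases pole_or_value hFF v ht with h | ⟨a, ha⟩
  · exact absurd (Or.inl h) hnZ
  · have hT : Tf (q ^ 2) a ≠ 0 := fun h0 => hnZ (Or.inr ⟨a, ha, h0⟩)
    have h1 := primes_intRing_le v ((pv_le_one_iff v t).1 (pv_le_one_of_value v ha)) ⟨_, hf⟩
    rw [← pv_le_one_iff] at h1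
    simp only [map_mul, map_pow] at h1
    rwa [pv_Tf_eq_one v ha hT, one_pow, one_mul] at h1

end main

section main2
variable {K F : Type*} [Field K] [Field F] [Algebra K F] {t : F} {Q : ℕ}

theorem one_lt_pv_iff_ord (v : Place K F) {g : F} (hg : g ≠ 0) : 1 < pv v g ↔ v.ord g < 0 := by
  have h := pv_lt_one_iff_ord v (inv_ne_zero hg)
  rw [v.ord_inv, map_inv₀] at h
  have h0 : pv v g ≠ 0 := (Valuation.ne_zero_iff _).2 hg
  rw [← inv_lt_one₀ (zero_lt_iff.2 h0), h]
  omega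

theorem Rf_ne_zero_of_transcendental (hQ : 2 ≤ Q) (ht : Transcendental K t) : Rf Q t ≠ 0 :=
  div_ne_zero (Tf_ne_zero_of_transcendental hQ ht) (Pf_ne_zero_of_transcendental Q ht)

/-- **(P2)**, from "`x` has a pole wherever `Rf(t)` has one". -/
theorem mem_intRing_of_pole [IsAlgClosed K] [CharZero K] (hFF : IsFF K F) (hQ : 2 ≤ Q)
    (ht : Transcendental K t) {x : F} (hx : Transcendental K x)
    (hpole : ∀ v : Place K F, v.ord (Rf Q t) < 0 → v.ord x < 0) {f : F} {n : ℕ}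
    (hf : Pf Q t ^ n * f ∈ Lsp K t 0 (n * (Q + 1))) : f ∈ intRing K x := by
  have := hFF.finiteDimensional hx
  have hx0 : x ≠ 0 := by
    rintro rfl
    exact hx isAlgebraic_zero
  refine RI.mem_intRing_of_forall hx fun v hv => ?_
  rw [← pv_le_one_iff] at hv ⊢
  have hP0 : pv v (Pf Q t) ≠ 0 :=
    (Valuation.ne_zero_iff _).2 (Pf_ne_zero_of_transcendental _ ht)
  rcases pole_or_value hFF v ht with h | ⟨a, ha⟩
  · have hti : t⁻¹ ∈ v.toValuationSubring := by
      rw [← pv_le_one_iff, map_inv₀]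
      exact (inv_lt_one_of_one_lt₀ h).le
    have h1 := primes_intRing_le v hti ⟨_, hf.2⟩
    rw [← pv_le_one_iff] at h1
    simp only [map_mul, map_pow, map_inv₀] at h1
    rw [val_Pf_of_one_lt _ hQ h, ← pow_mul, mul_comm (Q + 1) n, ← mul_assoc, ← mul_pow,
      inv_mul_cancel₀ (lt_trans zero_lt_one h).ne', one_pow, one_mul] at h1
    exact h1
  · by_cases hP : Pf Q a = 0
    · exfalso
      have hT : Tf Q a ≠ 0 := by
        intro h0
        rw [Pf_of_Tf_eq_zero h0] at hP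
        exact one_ne_zero hP
      have h1 : 1 < pv v (Rf Q t) := by
        rw [Rf, map_div₀, pv_Tf_eq_one v ha hT, one_div]
        exact (one_lt_inv₀ (zero_lt_iff.2 hP0)).2 (pv_Pf_lt_one v ha hP)
      have h2 := hpole v ((one_lt_pv_iff_ord v (Rf_ne_zero_of_transcendental hQ ht)).1 h1)
      exact absurd hv (not_le.2 ((one_lt_pv_iff_ord v hx0).2 h2))
    · have h1 := primes_intRing_le v ((pv_le_one_iff v t).1 (pv_le_one_of_value v ha)) ⟨_, hf.1⟩
      rw [← pv_le_one_iff] at h1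
      simp only [map_mul, map_pow] at h1
      rwa [pv_Pf_eq_one v ha hP, one_pow, one_mul, pow_zero, one_mul] at h1

/-- **(P3)**, from "`x` has a zero wherever `Rf(t)` has one". -/
theorem mem_intRing_inv_of_zero [IsAlgClosed K] [CharZero K] (hFF : IsFF K F) (hQ : 2 ≤ Q)
    (ht : Transcendental K t) {x : F} (hx : Transcendental K x)
    (hzero : ∀ v : Place K F, 0 < v.ord (Rf Q t) → 0 < v.ord x) {f : F} {n : ℕ}
    (hf : Tf Q t ^ n * f ∈ intRing K t) : f ∈ intRing K x⁻¹ := by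
  have hxi : Transcendental K x⁻¹ := transcendental_inv hx
  have hx0 : x ≠ 0 := by
    rintro rfl
    exact hx isAlgebraic_zero
  have := hFF.finiteDimensional hxi
  refine RI.mem_intRing_of_forall hxi fun v hv => ?_
  rw [← pv_le_one_iff] at hv ⊢
  have hR : ¬ pv v (Rf Q t) < 1 := by
    intro h1
    have h2 := hzero v ((pv_lt_one_iff_ord v (Rf_ne_zero_of_transcendental hQ ht)).1 h1)
    have h3 := (pv_lt_one_iff_ord v hx0).2 h2
    rw [map_inv₀] at hv
    exact absurd hv (not_le.2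
      ((one_lt_inv₀ (zero_lt_iff.2 ((Valuation.ne_zero_iff _).2 hx0))).2 h3))
  rcases pole_or_value hFF v ht with h | ⟨a, ha⟩
  · exact absurd (val_Rf_of_one_lt _ hQ h) hR
  · have hT : Tf Q a ≠ 0 := by
      intro h0
      apply hR
      rw [Rf, map_div₀, pv_Pf_eq_one v ha (by rw [Pf_of_Tf_eq_zero h0]; exact one_ne_zero), div_one]
      exact pv_Tf_lt_one v ha h0
    have h1 := primes_intRing_le v ((pv_le_one_iff v t).1 (pv_le_one_of_value v ha)) ⟨_, hf⟩
    rw [← pv_le_one_iff] at h1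
    simp only [map_mul, map_pow] at h1
    rwa [pv_Tf_eq_one v ha hT, one_pow, one_mul] at h1

end main2

end PL

end Fermat.Agent.S34
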