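import Fermat.Agent.S34.CoRd
import Fermat.Agent.S34.PL
import Fermat.Agent.S34.NZ

/-!
# S34: the hypotheses `lift0`, `liftInf` of `exists_nodalZ` for a `TwoLevel` situation

Inputs: the no-cancellation statements `hpole`, `hzero` (from the degree count), and the level-`M` lifting statements `L1`, `L2`.
-/

set_option autoImplicit false

namespace Fermat.Agent.S34

open Polynomial IntermediateField AlgebraicCurve Fermat.Agent.S24 Fermat.Agent.S18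

/-- a `K`-algebra homomorphism maps `intRing K s` into `intRing K (φ s)`. -/
theorem la_map_intRing {K F F' : Type*} [Field K] [Field F] [Field F'] [Algebra K F] [Algebra K F']
    (φ : F →ₐ[K] F') {s g : F} (hg : g ∈ intRing K s) : φ g ∈ intRing K (φ s) :=
  nz_isIntegral_map (φ : F →+* F') φ.commutes (Algebra.self_mem_adjoin_singleton K (φ s)) hg

theorem la_map_Lsp {K F F' : Type*} [Field K] [Field F] [Field F'] [Algebra K F] [Algebra K F']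
    (φ : F →ₐ[K] F') {s g : F} {a b : ℕ} (hg : g ∈ Lsp K s a b) : φ g ∈ Lsp K (φ s) a b := by
  refine ⟨?_, ?_⟩
  · have := la_map_intRing φ hg.1
    rwa [map_mul, map_pow] at this
  · have := la_map_intRing φ hg.2
    rwa [map_mul, map_pow, map_inv₀] at this

namespace TwoLevel

variable {q : ℕ} {K F1 F k Fb : Type*} [Field K] [Field F1] [Field F] [Algebra K F1]
  [Algebra K F] [Field k] [Field Fb] [Algebra k Fb] (D : TwoLevel q K F1 F k Fb)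

theorem la_Tf_mem : PL.Tf (q ^ 2) D.t ∈ D.S1.V := sub_mem (pow_mem D.coord.mem _) D.coord.mem

theorem la_rd_Tf : D.S1.rd (PL.Tf (q ^ 2) D.t) = PL.Tf (q ^ 2) D.tb := by
  rw [PL.Tf, D.S1.rd_sub (pow_mem D.coord.mem _) D.coord.mem, D.S1.rd_pow D.coord.mem]
  rfl

theorem la_Pf_mem : PL.Pf (q ^ 2) D.t ∈ D.S1.V :=
  add_mem (mul_mem D.coord.mem D.la_Tf_mem) (one_mem _)

theorem la_rd_Pf : D.S1.rd (PL.Pf (q ^ 2) D.t) = PL.Pf (q ^ 2) D.tb := by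
  rw [PL.Pf, D.S1.rd_add (mul_mem D.coord.mem D.la_Tf_mem) (one_mem _),
    D.S1.rd_mul D.coord.mem D.la_Tf_mem, D.la_rd_Tf, D.S1.rd_one]
  rfl

/-- the common part: `f ∈ F1 ∩ V1` with `ι f` integral over `K[z]`, `w z = z`. -/
theorem la_pair {z : F} (hwz : D.w z = z) {f : F1} (hfV : f ∈ D.S1.V)
    (hint : D.ι f ∈ intRing K z) :
    (D.S1.rd f, D.Fr (D.S1.rd f)) ∈ D.S.chart z ∧ (D.Fr (D.S1.rd f), D.S1.rd f) ∈ D.S.chart z := by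
  refine ⟨D.S.mem_chart.2 ⟨D.ι f, hint, D.ι_mem f hfV, D.rd_ι f hfV⟩,
    D.S.mem_chart.2 ⟨D.w (D.ι f), ?_, D.w_mem _ (D.ι_mem f hfV), ?_⟩⟩
  · have := la_map_intRing (D.w : F →ₐ[K] F) hint
    rw [show (D.w : F →ₐ[K] F) z = z from hwz] at this
    exact this
  · rw [D.rd_w _ (D.ι_mem f hfV), D.rd_ι f hfV]
    rfl

/-- **`lift0`.** -/
theorem lift0 [IsAlgClosed K] [CharZero K] (hq : 2 ≤ q) (hx : Transcendental K D.x)
    (hpole : ∀ v : Place K F, v.ord (PL.Rf (q ^ 2) D.tt) < 0 → v.ord D.x < 0)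
    (L1 : ∀ a ∈ intRing k D.y, ∃ n : ℕ, ∃ h ∈ Lsp K D.t 0 (n * (q ^ 2 + 1)), h ∈ D.S1.V ∧
      D.S1.rd h = PL.Pf (q ^ 2) D.tb ^ n * a) :
    ∀ a ∈ intRing k D.y, (a, D.Fr a) ∈ D.S.chart D.x ∧ (D.Fr a, a) ∈ D.S.chart D.x := by
  intro a ha
  obtain ⟨n, h, hL, hV, hrd⟩ := L1 a ha
  have hPb : PL.Pf (q ^ 2) D.tb ≠ 0 := PL.Pf_ne_zero_of_transcendental _ D.tb_trans
  have hP1 : D.S1.rd (PL.Pf (q ^ 2) D.t) ≠ 0 := by rw [D.la_rd_Pf]; exact hPb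
  have hP0 : PL.Pf (q ^ 2) D.t ≠ 0 := PL.Pf_ne_zero_of_transcendental _ D.t_trans
  have hPi : (PL.Pf (q ^ 2) D.t)⁻¹ ∈ D.S1.V := D.S1.inv_mem_of_rd_ne_zero hP1
  set f : F1 := (PL.Pf (q ^ 2) D.t)⁻¹ ^ n * h with hf
  have hfV : f ∈ D.S1.V := mul_mem (pow_mem hPi n) hV
  have hfrd : D.S1.rd f = a := by
    rw [hf, D.S1.rd_mul (pow_mem hPi n) hV, D.S1.rd_pow hPi, D.S1.rd_inv hP1, D.la_rd_Pf, hrd,
      ← mul_assoc, ← mul_pow, inv_mul_cancel₀ hPb, one_pow, one_mul]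
  have hint : D.ι f ∈ intRing K D.x := by
    refine PL.mem_intRing_of_pole D.isFF (by nlinarith) D.tt_trans hx hpole (n := n) ?_
    have e1 : PL.Pf (q ^ 2) D.tt ^ n * D.ι f = D.ι h := by
      have e0 : PL.Pf (q ^ 2) D.tt = D.ι (PL.Pf (q ^ 2) D.t) :=
        (PL.map_Pf (D.ι : F1 →+* F) (q ^ 2) D.t).symm
      rw [e0, ← map_pow, ← map_mul, hf, ← mul_assoc, ← mul_pow, mul_inv_cancel₀ hP0, one_pow, one_mul]
    rw [e1]
    exact la_map_Lsp D.ι hL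
  have := D.la_pair D.w_x hfV hint
  rwa [hfrd] at this

/-- **`liftInf`.** -/
theorem liftInf [IsAlgClosed K] [CharZero K] (hq : 2 ≤ q) (hx : Transcendental K D.x)
    (hzero : ∀ v : Place K F, 0 < v.ord (PL.Rf (q ^ 2) D.tt) → 0 < v.ord D.x)
    (L2 : ∀ a ∈ intRing k D.y⁻¹, ∃ n : ℕ, ∃ h ∈ intRing K D.t, h ∈ D.S1.V ∧
      D.S1.rd h = PL.Tf (q ^ 2) D.tb ^ n * a) :
    ∀ a ∈ intRing k D.y⁻¹, (a, D.Fr a) ∈ D.S.chart D.x⁻¹ ∧ (D.Fr a, a) ∈ D.S.chart D.x⁻¹ := by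
  intro a ha
  obtain ⟨n, h, hL, hV, hrd⟩ := L2 a ha
  have hQ : 2 ≤ q ^ 2 := by nlinarith
  have hTb : PL.Tf (q ^ 2) D.tb ≠ 0 := PL.Tf_ne_zero_of_transcendental hQ D.tb_trans
  have hT1 : D.S1.rd (PL.Tf (q ^ 2) D.t) ≠ 0 := by rw [D.la_rd_Tf]; exact hTb
  have hT0 : PL.Tf (q ^ 2) D.t ≠ 0 := PL.Tf_ne_zero_of_transcendental hQ D.t_trans
  have hTi : (PL.Tf (q ^ 2) D.t)⁻¹ ∈ D.S1.V := D.S1.inv_mem_of_rd_ne_zero hT1
  set f : F1 := (PL.Tf (q ^ 2) D.t)⁻¹ ^ n * h with hf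
  have hfV : f ∈ D.S1.V := mul_mem (pow_mem hTi n) hV
  have hfrd : D.S1.rd f = a := by
    rw [hf, D.S1.rd_mul (pow_mem hTi n) hV, D.S1.rd_pow hTi, D.S1.rd_inv hT1, D.la_rd_Tf, hrd,
      ← mul_assoc, ← mul_pow, inv_mul_cancel₀ hTb, one_pow, one_mul]
  have hint : D.ι f ∈ intRing K D.x⁻¹ := by
    refine PL.mem_intRing_inv_of_zero D.isFF hQ D.tt_trans hx hzero (n := n) ?_
    have e1 : PL.Tf (q ^ 2) D.tt ^ n * D.ι f = D.ι h := by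
      have e0 : PL.Tf (q ^ 2) D.tt = D.ι (PL.Tf (q ^ 2) D.t) :=
        (PL.map_Tf (D.ι : F1 →+* F) (q ^ 2) D.t).symm
      rw [e0, ← map_pow, ← map_mul, hf, ← mul_assoc, ← mul_pow, mul_inv_cancel₀ hT0, one_pow, one_mul]
    rw [e1]
    exact la_map_intRing D.ι hL
  have := D.la_pair (z := D.x⁻¹) (by rw [map_inv₀, D.w_x]) hfV hint
  rwa [hfrd] at this

end TwoLevel

end Fermat.Agent.S34
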