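import Fermat.Agent.S34.Deg

/-!
# S34, piece NC: no cancellation between `a` and `b` from the degree equality
`[F : K(ab)] = [F : K(a)] + [F : K(b)]`
-/

set_option autoImplicit false

namespace Fermat.Agent.S34

open Polynomial IntermediateField AlgebraicCurve Fermat.Agent.S24 Fermat.Agent.S18

variable {K F : Type*} [Field K] [Field F] [Algebra K F]

/-- the polar parts add up at every place. -/
theorem poles_mul_eq [IsAlgClosed K] [CharZero K] (hFF : IsFF K F) {a b : F}
    (ha : Transcendental K a) (hb : Transcendental K b) (hab : Transcendental K (a * b))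
    (h : Module.finrank K⟮a⟯ F + Module.finrank K⟮b⟯ F ≤ Module.finrank K⟮a * b⟯ F)
    (v : Place K F) :
    max (-(v.ord (a * b))) 0 = max (-(v.ord a)) 0 + max (-(v.ord b)) 0 := by
  have ha0 : a ≠ 0 := by
    rintro rfl
    exact ha (isAlgebraic_zero)
  have hb0 : b ≠ 0 := by
    rintro rfl
    exact hb (isAlgebraic_zero)
  have h1 := RI.finsum_poles hFF ha
  have h2 := RI.finsum_poles hFF hb
  have h3 := RI.finsum_poles hFF hab
  have hsa := RI.support_poles_finite hFF ha0
  have hsb := RI.support_poles_finite hFF hb0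
  have hsab := RI.support_poles_finite hFF (mul_ne_zero ha0 hb0)
  have hadd := finsum_add_distrib (f := fun v : Place K F => max (-(v.ord a)) 0)
    (g := fun v : Place K F => max (-(v.ord b)) 0) hsa hsb
  have hsum : (Function.support fun v : Place K F =>
      max (-(v.ord a)) 0 + max (-(v.ord b)) 0).Finite := by
    refine (hsa.union hsb).subset ?_
    intro v hv
    rw [Function.mem_support] at hv
    by_contra hcon
    rw [Set.mem_union, not_or, Function.mem_support, Function.mem_support, not_not, not_not] at hcon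
    exact hv (by rw [hcon.1, hcon.2, add_zero])
  have hterm : ∀ v : Place K F, max (-(v.ord (a * b))) 0 ≤
      max (-(v.ord a)) 0 + max (-(v.ord b)) 0 := by
    intro v
    rw [v.ord_mul ha0 hb0]
    rcases le_total (-(v.ord a)) 0 with h | h <;> rcases le_total (-(v.ord b)) 0 with h' | h' <;>
      simp only [max_eq_left, max_eq_right, h, h'] <;>
      apply max_le <;> omega
  -- the difference
  let d : Place K F → ℤ := fun v =>
    (max (-(v.ord a)) 0 + max (-(v.ord b)) 0) - max (-(v.ord (a * b))) 0
  have hd0 : ∀ v, 0 ≤ d v := fun v => sub_nonneg.mpr (hterm v)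
  have hsub := finsum_sub_distrib (f := fun v : Place K F =>
    max (-(v.ord a)) 0 + max (-(v.ord b)) 0) (g := fun v : Place K F => max (-(v.ord (a * b))) 0)
    hsum hsab
  have hsd : (Function.support d).Finite := by
    refine (hsum.union hsab).subset ?_
    intro v hv
    rw [Function.mem_support] at hv
    by_contra hcon
    rw [Set.mem_union, not_or, Function.mem_support, Function.mem_support, not_not, not_not] at hcon
    apply hv
    show _ - _ = (0 : ℤ)
    rw [hcon.1, hcon.2, sub_zero]
  have hle : d v ≤ ∑ᶠ v, d v := single_le_finsum v hsd hd0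
  have htot : ∑ᶠ v, d v ≤ 0 := by
    show ∑ᶠ v : Place K F, ((max (-(v.ord a)) 0 + max (-(v.ord b)) 0) -
      max (-(v.ord (a * b))) 0) ≤ 0
    rw [hsub, hadd, h1, h2, h3]
    have : ((Module.finrank K⟮a⟯ F + Module.finrank K⟮b⟯ F : ℕ) : ℤ) ≤
        (Module.finrank K⟮a * b⟯ F : ℤ) := by exact_mod_cast h
    push_cast at this
    linarith
  have hdv : d v = 0 := le_antisymm (hle.trans htot) (hd0 v)
  have : (max (-(v.ord a)) 0 + max (-(v.ord b)) 0) - max (-(v.ord (a * b))) 0 = 0 := hdv
  linarith

/-- **NC.** -/
theorem noCancel [IsAlgClosed K] [CharZero K] (hFF : IsFF K F) {a b : F}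
    (ha : Transcendental K a) (hb : Transcendental K b) (hab : Transcendental K (a * b))
    (h : Module.finrank K⟮a⟯ F + Module.finrank K⟮b⟯ F ≤ Module.finrank K⟮a * b⟯ F)
    (v : Place K F) :
    (v.ord a < 0 → v.ord (a * b) < 0) ∧ (0 < v.ord a → 0 < v.ord (a * b)) := by
  constructor
  · intro hv
    have h1 := poles_mul_eq hFF ha hb hab h v
    by_contra hcon
    rw [max_eq_right (by omega), max_eq_left (by omega : (0 : ℤ) ≤ -(v.ord a))] at h1
    have := le_max_right (-(v.ord b)) 0
    omega
  · intro hv
    have hab' : Transcendental K (a⁻¹ * b⁻¹) := by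
      rw [← mul_inv]; exact transcendental_inv hab
    have h' : Module.finrank K⟮a⁻¹⟯ F + Module.finrank K⟮b⁻¹⟯ F ≤
        Module.finrank K⟮a⁻¹ * b⁻¹⟯ F := by
      rw [← mul_inv, adjoin_inv_eq, adjoin_inv_eq, adjoin_inv_eq]; exact h
    have h1 := poles_mul_eq hFF (transcendental_inv ha) (transcendental_inv hb) hab' h' v
    rw [← mul_inv, v.ord_inv, v.ord_inv, v.ord_inv, neg_neg, neg_neg, neg_neg] at h1
    by_contra hcon
    rw [max_eq_right (by omega : v.ord (a * b) ≤ 0), max_eq_left hv.le] at h1
    have := le_max_right (v.ord b) 0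
    omega

end Fermat.Agent.S34
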