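import Fermat.Agent.S34.TwoLevel
import Fermat.Agent.S34.Deg

/-!
# S34:SEP (abstract): the residue coordinate `y = (T(t̄)/P(t̄))^(q+1)`

`E/k` fields, `char k = q`, `t̄` transcendental, `E/k(t̄)` finite separable.  Then `y` is transcendental, `E/k(y)` is finite
separable of degree `(q+1)(q²+1) [E : k(t̄)]`.
-/

set_option autoImplicit false

namespace Fermat.Agent.S34

open Polynomial IntermediateField

section SepAbs

/-- a simple root of some polynomial is separable. -/
theorem sa_isSeparable_of_root {K L : Type*} [Field K] [Field L] [Algebra K L] {x : L} {G : K[X]}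
    (h0 : aeval x G = 0) (h1 : aeval x (derivative G) ≠ 0) : IsSeparable K x := by
  have hG0 : G ≠ 0 := by
    rintro rfl
    simp at h1
  have hint : IsIntegral K x := (isAlgebraic_iff_isIntegral).mp ⟨G, hG0, h0⟩
  obtain ⟨h, rfl⟩ := minpoly.dvd K x h0
  show (minpoly K x).Separable
  rw [separable_iff_derivative_ne_zero (minpoly.irreducible hint)]
  intro hd
  apply h1
  rw [derivative_mul, hd, zero_mul, zero_add, map_mul, minpoly.aeval, zero_mul]

/-- transitivity of separability without a tower instance. -/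
theorem sa_isSeparable_of_range {K A L : Type*} [Field K] [Field A] [Field L] [Algebra K L]
    [Algebra A L] [Algebra.IsSeparable A L] (h : ∀ a : A, IsSeparable K (algebraMap A L a)) :
    Algebra.IsSeparable K L := by
  have hmem : ∀ a : A, algebraMap A L a ∈ separableClosure K L :=
    fun a => mem_separableClosure_iff.mpr (h a)
  let f : A →+* separableClosure K L := (algebraMap A L).codRestrict (separableClosure K L) hmem
  have hf : (algebraMap (separableClosure K L) L).comp f = algebraMap A L := by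
    ext a; rfl
  refine ⟨fun x => ?_⟩
  have hx : IsSeparable (separableClosure K L) x := by
    have hs : (minpoly A x).Separable := Algebra.IsSeparable.isSeparable A x
    refine (hs.map (f := f)).of_dvd (minpoly.dvd (separableClosure K L) x ?_)
    rw [aeval_def, eval₂_map, hf, ← aeval_def, minpoly.aeval]
  exact IsSeparable.of_algebra_isSeparable_of_isSeparable K hx

variable {k E : Type*} [Field k] [Field E] [Algebra k E]

theorem sa_natDegree_Tpol {q : ℕ} (hq : 2 ≤ q) : (Tpol k q).natDegree = q ^ 2 :=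
  FiniteField.X_pow_card_sub_X_natDegree_eq k (by nlinarith)

theorem sa_Tpol_ne_zero {q : ℕ} (hq : 2 ≤ q) : Tpol k q ≠ 0 := by
  intro h
  have := sa_natDegree_Tpol (k := k) hq
  rw [h, natDegree_zero] at this
  nlinarith

theorem sa_natDegree_Ppol {q : ℕ} (hq : 2 ≤ q) : (Ppol k q).natDegree = q ^ 2 + 1 := by
  have h1 : (Ppol k q) = X * Tpol k q + C 1 := by rw [Ppol, C_1]
  rw [h1, natDegree_add_C, natDegree_mul X_ne_zero (sa_Tpol_ne_zero hq), natDegree_X,
    sa_natDegree_Tpol hq, add_comm]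

theorem sa_Ppol_ne_zero {q : ℕ} (hq : 2 ≤ q) : Ppol k q ≠ 0 := by
  intro h
  have := sa_natDegree_Ppol (k := k) hq
  rw [h, natDegree_zero] at this
  omega

theorem sa_isCoprime (q : ℕ) : IsCoprime (Tpol k q) (Ppol k q) :=
  ⟨-X, 1, by rw [Ppol]; ring⟩

theorem sa_aeval_Tpol (R : Type*) [CommRing R] [Algebra R E] (q : ℕ) (s : E) :
    aeval s (Tpol R q) = s ^ (q ^ 2) - s := by
  simp [Tpol]

theorem sa_aeval_Ppol (R : Type*) [CommRing R] [Algebra R E] (q : ℕ) (s : E) :
    aeval s (Ppol R q) = s * (s ^ (q ^ 2) - s) + 1 := by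
  simp [Ppol, Tpol]

theorem sa_Rf_pow (q : ℕ) (s : E) :
    TwoLevel.Rf k q s ^ (q + 1) =
      aeval s (Tpol k q ^ (q + 1)) / aeval s (Ppol k q ^ (q + 1)) := by
  rw [TwoLevel.Rf, div_pow, map_pow, map_pow]

/-- the degree. -/
theorem sa_finrank {q : ℕ} (hq : 2 ≤ q) {tb : E} (ht : Transcendental k tb) :
    Module.finrank k⟮TwoLevel.Rf k q tb ^ (q + 1)⟯ E =
      (q + 1) * (q ^ 2 + 1) * Module.finrank k⟮tb⟯ E := by
  rw [sa_Rf_pow, finrank_adjoin_ratfun ht ((sa_isCoprime q).pow) (pow_ne_zero _ (sa_Ppol_ne_zero hq)),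
    natDegree_pow, natDegree_pow, sa_natDegree_Tpol hq, sa_natDegree_Ppol hq,
    max_eq_right (Nat.mul_le_mul_left _ (Nat.le_succ _))]

theorem sa_finiteDimensional {q : ℕ} (hq : 2 ≤ q) {tb : E} (ht : Transcendental k tb)
    [FiniteDimensional k⟮tb⟯ E] : FiniteDimensional k⟮TwoLevel.Rf k q tb ^ (q + 1)⟯ E := by
  apply Module.finite_of_finrank_pos
  rw [sa_finrank hq ht]
  have : 0 < Module.finrank k⟮tb⟯ E := Module.finrank_pos
  positivity

theorem sa_transcendental {q : ℕ} (hq : 2 ≤ q) {tb : E} (ht : Transcendental k tb)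
    [FiniteDimensional k⟮tb⟯ E] : Transcendental k (TwoLevel.Rf k q tb ^ (q + 1)) := by
  intro halg
  haveI := sa_finiteDimensional hq ht
  haveI : FiniteDimensional k k⟮TwoLevel.Rf k q tb ^ (q + 1)⟯ :=
    adjoin.finiteDimensional halg.isIntegral
  haveI : FiniteDimensional k E := Module.Finite.trans k⟮TwoLevel.Rf k q tb ^ (q + 1)⟯ E
  exact ht (Algebra.IsAlgebraic.isAlgebraic tb)

/-- `t̄` is separable over `k(y)`. -/
theorem sa_isSeparable_tb {q : ℕ} [Fact q.Prime] [CharP k q] {tb : E} (ht : Transcendental k tb) :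
    IsSeparable k⟮TwoLevel.Rf k q tb ^ (q + 1)⟯ tb := by
  have hq : 2 ≤ q := (Fact.out : q.Prime).two_le
  set y : E := TwoLevel.Rf k q tb ^ (q + 1) with hy
  have htr := transcendental_iff.mp ht
  set T : E := tb ^ (q ^ 2) - tb with hT
  have hT0 : T ≠ 0 := by
    intro h
    rw [hT, ← sa_aeval_Tpol k] at h
    exact sa_Tpol_ne_zero hq (htr _ h)
  have hP0 : tb * T + 1 ≠ 0 := by
    intro h
    rw [hT, ← sa_aeval_Ppol k] at h
    exact sa_Ppol_ne_zero hq (htr _ h)
  have hT2 : 1 + T ^ 2 ≠ 0 := by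
    intro h
    have h' : aeval tb (1 + Tpol k q ^ 2) = 0 := by
      rw [map_add, map_one, map_pow, sa_aeval_Tpol]; exact h
    have h2 := htr _ h'
    have hu : IsUnit (Tpol k q) := IsUnit.of_mul_eq_one (-(Tpol k q)) (by linear_combination -h2)
    have := natDegree_eq_zero_of_isUnit hu
    rw [sa_natDegree_Tpol hq] at this
    nlinarith
  have hyv : y = T ^ (q + 1) / (tb * T + 1) ^ (q + 1) := by
    rw [hy, TwoLevel.Rf, sa_aeval_Tpol, sa_aeval_Ppol, div_pow]
  have hq0 : ((q : ℕ) : k⟮y⟯) = 0 := by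
    rw [← map_natCast (algebraMap k k⟮y⟯), CharP.cast_eq_zero, map_zero]
  have dT : derivative (Tpol k⟮y⟯ q) = -1 := by
    rw [Tpol, derivative_sub, derivative_X_pow, derivative_X, Nat.cast_pow, hq0,
      zero_pow (by norm_num), C_0, zero_mul, zero_sub]
  have dP : derivative (Ppol k⟮y⟯ q) = Tpol k⟮y⟯ q - X := by
    rw [Ppol, derivative_add, derivative_mul, derivative_X, derivative_one, dT]; ring
  refine sa_isSeparable_of_root
    (G := Tpol k⟮y⟯ q ^ (q + 1) - C (AdjoinSimple.gen k y) * Ppol k⟮y⟯ q ^ (q + 1)) ?_ ?_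
  · rw [map_sub, map_mul, map_pow, map_pow, aeval_C, sa_aeval_Tpol, sa_aeval_Ppol,
      AdjoinSimple.algebraMap_gen, ← hT, hyv]
    field_simp
    ring
  · rw [derivative_sub, derivative_mul, derivative_C, zero_mul, zero_add, derivative_pow,
      derivative_pow, dT, dP, Nat.cast_add, hq0, Nat.cast_one, zero_add, C_1, one_mul, one_mul,
      Nat.add_sub_cancel, map_sub, map_mul, map_mul, map_mul, map_pow, map_pow, aeval_C, map_neg,
      map_one, map_sub, aeval_X, sa_aeval_Tpol, sa_aeval_Ppol, AdjoinSimple.algebraMap_gen, ← hT,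
      hyv]
    have key : (T ^ q * -1 - T ^ (q + 1) / (tb * T + 1) ^ (q + 1) * ((tb * T + 1) ^ q * (T - tb))) *
        (tb * T + 1) = -(T ^ q * (1 + T ^ 2)) := by
      field_simp
      ring
    intro h
    rw [h, zero_mul, eq_comm, neg_eq_zero] at key
    exact mul_ne_zero (pow_ne_zero _ hT0) hT2 key

/-- **SEP**. -/
theorem sep_abs {q : ℕ} [Fact q.Prime] [CharP k q] {tb : E} (ht : Transcendental k tb)
    [FiniteDimensional k⟮tb⟯ E] [Algebra.IsSeparable k⟮tb⟯ E] :
    Transcendental k (TwoLevel.Rf k q tb ^ (q + 1)) ∧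
    FiniteDimensional k⟮TwoLevel.Rf k q tb ^ (q + 1)⟯ E ∧
    Algebra.IsSeparable k⟮TwoLevel.Rf k q tb ^ (q + 1)⟯ E ∧
    Module.finrank k⟮TwoLevel.Rf k q tb ^ (q + 1)⟯ E =
      (q + 1) * (q ^ 2 + 1) * Module.finrank k⟮tb⟯ E := by
  have hq : 2 ≤ q := (Fact.out : q.Prime).two_le
  refine ⟨sa_transcendental hq ht, sa_finiteDimensional hq ht, ?_, sa_finrank hq ht⟩
  refine sa_isSeparable_of_range (A := k⟮tb⟯) fun a => ?_
  have hle : k⟮tb⟯ ≤ (separableClosure k⟮TwoLevel.Rf k q tb ^ (q + 1)⟯ E).restrictScalars k := by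
    rw [adjoin_simple_le_iff]
    exact mem_separableClosure_iff.mpr (sa_isSeparable_tb ht)
  exact mem_separableClosure_iff.mp (hle a.2)

end SepAbs

end Fermat.Agent.S34
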