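import Fermat.Agent.S34.CoRd
import Fermat.Agent.S34.NoCancel
import Fermat.Agent.S34.NDimRed
import Fermat.Agent.S34.NZ
import Fermat.Agent.S34.AlgY
import Fermat.Agent.S34.PL
import Fermat.Agent.S34.Lift
import Fermat.Agent.S34.LiftAsm
import Fermat.Agent.S34.SepAbs

/-!
# S34:COORD, abstract assembly: `x = Rf(t) Rf(t_q)` is a good coordinate and carries a `NodalZ`
-/

set_option autoImplicit false

namespace Fermat.Agent.S34

open Polynomial IntermediateField AlgebraicCurve Fermat.Agent.S24 Fermat.Agent.S18 Module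

section General

/-- degree is invariant under automorphisms. -/
theorem finrank_adjoin_algEquiv {K F : Type*} [Field K] [Field F] [Algebra K F] (w : F ≃ₐ[K] F)
    (a : F) : finrank K⟮w a⟯ F = finrank K⟮a⟯ F := by
  have h1 : (K⟮a⟯).map (w : F →ₐ[K] F) = K⟮w a⟯ := by
    rw [IntermediateField.adjoin_map, Set.image_singleton]; rfl
  have h2 : (⊤ : IntermediateField K F).map (w : F →ₐ[K] F) = ⊤ := by
    rw [← AlgHom.fieldRange_eq_map]
    exact AlgEquiv.fieldRange_eq_top w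
  have h3 := IntermediateField.relfinrank_map_map K⟮a⟯ ⊤ (w : F →ₐ[K] F)
  rw [h1, h2, IntermediateField.relfinrank_top_right, IntermediateField.relfinrank_top_right] at h3
  exact h3

theorem transcendental_prod_left {k E₁ E₂ : Type*} [Field k] [Field E₁] [Field E₂]
    [Algebra k E₁] [Algebra k E₂] {y₁ : E₁} (h : Transcendental k y₁) (y₂ : E₂) :
    Transcendental k ((y₁, y₂) : E₁ × E₂) := by
  rw [transcendental_iff] at h ⊢
  intro p hp
  apply h p
  have := congrArg Prod.fst hp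
  rwa [aeval_prod] at this

theorem transcendental_prod_right {k E₁ E₂ : Type*} [Field k] [Field E₁] [Field E₂]
    [Algebra k E₁] [Algebra k E₂] (y₁ : E₁) {y₂ : E₂} (h : Transcendental k y₂) :
    Transcendental k ((y₁, y₂) : E₁ × E₂) := by
  rw [transcendental_iff] at h ⊢
  intro p hp
  apply h p
  have := congrArg Prod.snd hp
  rwa [aeval_prod] at this

/-- **LOWER.** -/
theorem NSetting.finrank_add_le {K F k E₁ E₂ : Type*} [Field K] [Field F] [Algebra K F] [Field k]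
    [Field E₁] [Field E₂] [Algebra k E₁] [Algebra k E₂] (S : NSetting K F k (E₁ × E₂)) {x : F}
    (hxV : x ∈ S.V) {y₁ : E₁} {y₂ : E₂} (hx : S.rd x = (y₁, y₂)) (h₁ : Transcendental k y₁)
    (h₂ : Transcendental k y₂) [FiniteDimensional K⟮x⟯ F] :
    finrank k⟮y₁⟯ E₁ + finrank k⟮y₂⟯ E₂ ≤ finrank K⟮x⟯ F := by
  obtain ⟨e, he⟩ := exists_polyIndepR_prod (k := k) h₁ h₂
  choose f hf using fun i => S.red_surj (e i)
  have hrd : ∀ i, S.rd (f i : F) = e i := fun i => by rw [S.rd_of_mem (f i).2]; exact hf i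
  have hind : PolyIndep K x (fun i => (f i : F)) := by
    apply S.polyIndep_of_rd hxV _ (fun i => (f i).2)
    rw [hx]
    simp only [hrd]
    exact he
  have htr : Transcendental K x :=
    S.transcendental_of_rd hxV (by rw [hx]; exact transcendental_prod_left h₁ _)
  have hli := linearIndependent_of_polyIndep htr _ hind
  have := hli.fintype_card_le_finrank
  simpa using this

end General

namespace TwoLevel

variable {q : ℕ} {K F1 F k Fb : Type*} [Field K] [Field F1] [Field F] [Algebra K F1]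
  [Algebra K F] [Field k] [Field Fb] [Algebra k Fb] (D : TwoLevel q K F1 F k Fb)
  [hq : Fact q.Prime] [CharP k q]

/-- the output of SEP. -/
def SepHyp : Prop :=
  Transcendental k D.y ∧ FiniteDimensional k⟮D.y⟯ Fb ∧ Algebra.IsSeparable k⟮D.y⟯ Fb ∧
    finrank k⟮D.y⟯ Fb = (q + 1) * (q ^ 2 + 1) * finrank k⟮D.tb⟯ Fb

variable {D}

omit hq [CharP k q] in
theorem SepHyp.v_trans (h : D.SepHyp) : Transcendental k D.v := by
  intro hv
  exact h.1 (hv.pow _)

theorem SepHyp.x_trans (h : D.SepHyp) : Transcendental K D.x :=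
  D.S.transcendental_of_rd D.x_mem (by rw [D.rd_x]; exact transcendental_prod_left h.1 _)

theorem SepHyp.a_trans (h : D.SepHyp) : Transcendental K (Rf K q D.tt) :=
  D.S.transcendental_of_rd D.rd_Rf_tt.1 (by
    rw [D.rd_Rf_tt.2]; exact transcendental_prod_left h.v_trans _)

theorem SepHyp.b_trans (h : D.SepHyp) : Transcendental K (Rf K q D.tq) :=
  D.S.transcendental_of_rd D.rd_Rf_tq.1 (by
    rw [D.rd_Rf_tq.2]; exact transcendental_prod_right _ h.v_trans)

variable (D)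

omit [CharP k q] in
theorem finrank_a : finrank K⟮Rf K q D.tt⟯ F = (q ^ 2 + 1) * finrank K⟮D.tt⟯ F := by
  have h := finrank_adjoin_ratfun (F := F) D.tt_trans (isCoprime_Tpol_Ppol q K)
    (Ppol_ne_zero q K hq.out.two_le)
  rw [natDegree_Tpol q K hq.out.two_le, natDegree_Ppol q K hq.out.two_le,
    max_eq_right (Nat.le_succ _)] at h
  exact h

omit [CharP k q] in
theorem finrank_b : finrank K⟮Rf K q D.tq⟯ F = (q ^ 2 + 1) * finrank K⟮D.tt⟯ F := by
  rw [← D.finrank_a, ← D.w_tt, ← D.w_Rf, finrank_adjoin_algEquiv]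

variable {D}

/-- the two degree inequalities. -/
theorem SepHyp.degrees [IsAlgClosed K] [CharZero K] (h : D.SepHyp) :
    finrank K⟮Rf K q D.tt⟯ F + finrank K⟮Rf K q D.tq⟯ F ≤ finrank k⟮D.y⟯ Fb + finrank k⟮D.y⟯ Fb ∧
    finrank k⟮D.y⟯ Fb + finrank k⟮D.y⟯ Fb ≤ finrank K⟮D.x⟯ F := by
  have := D.isFF.finiteDimensional h.x_trans
  refine ⟨?_, D.S.finrank_add_le D.x_mem D.rd_x h.1 h.1⟩
  rw [D.finrank_a, D.finrank_b, h.2.2.2]
  have h1 := D.deg_le
  have h2 : finrank K⟮D.t⟯ F1 = finrank k⟮D.tb⟯ Fb := D.coord.finrank_eq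
  rw [h2] at h1
  have h3 : (q ^ 2 + 1) * finrank K⟮D.tt⟯ F ≤ (q ^ 2 + 1) * ((q + 1) * finrank k⟮D.tb⟯ Fb) :=
    Nat.mul_le_mul_left _ h1
  nlinarith [h3]

/-- **`x` is a good coordinate.** -/
theorem SepHyp.coord_x [IsAlgClosed K] [CharZero K] (h : D.SepHyp) : D.S.Coord D.x := by
  refine ⟨D.x_mem, ?_, D.isFF.finiteDimensional h.x_trans, ?_⟩
  · rw [D.rd_x]
    exact isUnit_aeval_prod h.1 h.1
  · refine exists_frame_of_le D.S D.rd_x h.1 h.1 ?_
    exact le_trans (finrank_adjoin_mul_le D.isFF h.a_trans h.b_trans h.x_trans) h.degrees.1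

/-- no cancellation. -/
theorem SepHyp.noCancel [IsAlgClosed K] [CharZero K] (h : D.SepHyp) (v : Place K F) :
    (v.ord (Rf K q D.tt) < 0 → v.ord D.x < 0) ∧ (0 < v.ord (Rf K q D.tt) → 0 < v.ord D.x) :=
  Fermat.Agent.S34.noCancel D.isFF h.a_trans h.b_trans h.x_trans
    (le_trans h.degrees.1 h.degrees.2) v

variable (D)

theorem sepHyp : D.SepHyp := by
  have h1 : FiniteDimensional k⟮D.tb⟯ Fb := D.coord.finb
  have h2 : Algebra.IsSeparable k⟮D.tb⟯ Fb := D.coord.sep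
  exact sep_abs (k := k) (q := q) D.tb_trans

omit hq [CharP k q] in
theorem co_Rf_eq_PL {E L : Type*} [Field E] [Field L] [Algebra E L] (s : L) :
    Rf E q s = PL.Rf (q ^ 2) s := by
  rw [Rf, aeval_Tpol, aeval_Ppol]; rfl

/-- **COORD, abstract form.** -/
theorem main [IsAlgClosed K] [CharZero K] [IsAlgClosed k] :
    D.S.Coord D.x ∧ ∃ Z : NodalZ D.S D.x, Z.C0 = (nzC k D.y).prod (nzC k D.y) ∧
      ∀ ξ ∈ Z.Ξ, ∀ (r : Fb × Fb) (hr : r ∈ Z.C0) (hr' : (D.Fr (D.Fr r.1), D.Fr (D.Fr r.2)) ∈ Z.C0),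
        ξ ⟨(D.Fr (D.Fr r.1), D.Fr (D.Fr r.2)), hr'⟩ = ξ ⟨r, hr⟩ := by
  have h := D.sepHyp
  have hq2 : 2 ≤ q := hq.out.two_le
  have hQ : 2 ≤ q ^ 2 := by nlinarith
  have hc := h.coord_x
  refine ⟨hc, ?_⟩
  have := h.2.1
  have := h.2.2.1
  have := D.charP_Fb
  have hy : D.y = PL.Rf (q ^ 2) D.tb ^ (q + 1) := by rw [y, v, co_Rf_eq_PL]
  have hl0 := D.lift0 hq2 h.x_trans (fun v hv => (h.noCancel v).1 (by rwa [co_Rf_eq_PL]))
    (fun a ha => Lift.exists_lift0 D.S1 D.coord D.normal0 D.normalInf hQ (e := q + 1)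
      (by rw [hy] at ha; exact ha))
  have hlI := D.liftInf hq2 h.x_trans (fun v hv => (h.noCancel v).2 (by rwa [co_Rf_eq_PL]))
    (fun a ha => Lift.exists_liftInf D.S1 D.coord D.normal0 hQ (e := q + 1)
      (by rw [hy] at ha; exact ha))
  have hyv : D.y = (D.tb ^ (q ^ 2) * (D.tb * (D.tb ^ (q ^ 2) - D.tb) + 1)⁻¹ -
      D.tb * (D.tb * (D.tb ^ (q ^ 2) - D.tb) + 1)⁻¹) ^ (q + 1) := by
    rw [y, v_eq, div_eq_mul_inv, sub_mul]
  obtain ⟨p1, p2, p3, p4⟩ := ay_pack (k := k) D.tb_trans hq2 (D.Fr : Fb →+* Fb) D.Fr_tb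
  rw [← hyv] at p1 p3 p4
  exact exists_nodalZ D.S hc D.rd_x h.1 (D.Fr : Fb →+* Fb) D.Fr.commutes hq2 D.Fr_pow D.Fr_y
    hl0 hlI p1 p2 p3 D.Fr_tb (ay_hFrw (D.Fr : Fb →+* Fb) D.Fr_tb) p4 hyv

end TwoLevel

end Fermat.Agent.S34
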