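import Fermat.Agent.S34.CoreDim2
import Fermat.Agent.S34.NBasic

/-!
# S34: `core_dim2` in the language of `NSetting`
-/

set_option autoImplicit false

namespace Fermat.Agent.S34

open Polynomial IntermediateField Fermat.Agent.S24 Fermat.Agent.S18 Fermat.Agent.S18.CoreDim Module

variable {K F k R : Type*} [Field K] [Field F] [Algebra K F] [Field k] [CommRing R] [Algebra k R]

/-- forget `red_surj`, `inv_mem`. -/
def NSetting.toRedCore (S : NSetting K F k R) : RedCore K F k R where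
  A := S.A
  R := S.V
  resA := S.resA
  red := S.red
  resA_surj := S.resA_surj
  map_mem := S.map_mem
  compat := S.compat
  scale := S.scale

variable (S : NSetting K F k R)

theorem NSetting.toRedCore_rd (f : F) : S.toRedCore.rd f = S.rd f := rfl

theorem NSetting.mem_toRedCore_R (f : F) : f ∈ S.toRedCore.R ↔ f ∈ S.V := Iff.rfl

theorem NSetting.mem_toRedCore_redSub {W : Submodule K F} {y : R} :
    y ∈ S.toRedCore.redSub W ↔ ∃ w ∈ W, w ∈ S.V ∧ S.rd w = y := Iff.rfl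

theorem NSetting.mem_chart_iff {y : F} {r : R} :
    r ∈ S.chart y ↔ ∃ h ∈ intRing K y, h ∈ S.V ∧ S.rd h = r := by
  constructor
  · rintro ⟨h, hh, hV, rfl⟩
    exact ⟨h, hh, hV, S.rd_of_mem hV⟩
  · rintro ⟨h, hh, hV, rfl⟩
    exact ⟨h, hh, hV, (S.rd_of_mem hV).symm⟩

theorem NSetting.mem_redAlg_iff {y : F} {r : R} :
    r ∈ S.toRedCore.redAlg (chartAlg K y) ↔ r ∈ S.chart y := by
  rw [S.mem_chart_iff]
  exact Iff.rfl

theorem NSetting.Lbar_eq (x : F) (a b : ℕ) : S.toRedCore.Lbar x a b = S.Lbar x a b := by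
  ext r
  constructor
  · rintro ⟨h1, h2⟩
    exact ⟨(S.mem_redAlg_iff).1 h1, (S.mem_redAlg_iff).1 h2⟩
  · rintro ⟨h1, h2⟩
    exact ⟨(S.mem_redAlg_iff).2 h1, (S.mem_redAlg_iff).2 h2⟩

/-- **CoreDim2 over `NSetting`.**  `u ≡ 1`, `1 ∈ rd (X^0_u ∩ V)`, `1 ∈ rd (X^∞_u ∩ V)` ⟹ `u` is an `m`-th power up to
a constant.  (`dimRed` is stated elementwise so that it matches any definition of the reduced subspace.) -/
theorem NSetting.core_dim {x : F} (hx : x ∈ S.V) (hxi : x⁻¹ ∈ S.V)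
    (dimRed : ∀ W : Submodule K F, FiniteDimensional K W →
      finrank k (S.toRedCore.redSub W) = finrank K W)
    (const : ∀ h ∈ Lsp K x 0 0, ∃ c : K, h = algebraMap K F c)
    (constb : ∀ h ∈ S.Lbar x 0 0, ∃ c : k, h = algebraMap k R c)
    (fin : ∀ a b, FiniteDimensional K (Lsp K x a b))
    (finb : ∀ a b, FiniteDimensional k (S.Lbar x a b))
    (good : ∃ n₀, ∀ n, n₀ ≤ n → finrank k (S.Lbar x 0 n) ≤ finrank K (Lsp K x 0 n) ∧
        finrank k (S.Lbar x n 0) ≤ finrank K (Lsp K x n 0))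
    {m : ℕ} (hm : 0 < m) (hmk : (m : k) ≠ 0) {u : F} (hu : u ≠ 0) (huV : u ∈ S.V)
    (hu1 : S.rd u = 1)
    {f0 : F} (h0 : u * f0 ^ m ∈ intRing K x) (h0V : f0 ∈ S.V) (h01 : S.rd f0 = 1)
    {f1 : F} (h1 : u * f1 ^ m ∈ intRing K x⁻¹) (h1V : f1 ∈ S.V) (h11 : S.rd f1 = 1)
    (riem : ∃ n₁, ∀ n, n₁ ≤ n → finrank K (Lsp K x 0 n) ≤ finrank K (Xsp K x u m hm 0 n) ∧
        finrank K (Lsp K x n 0) ≤ finrank K (Xsp K x u m hm n 0)) :
    ∃ h : F, h ≠ 0 ∧ ∃ c : K, u * h ^ m = algebraMap K F c := by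
  have := S.nontrivial
  refine core_dim2_Lbar S.toRedCore hx hxi dimRed const ?_ fin ?_ ?_ hm hmk hu huV hu1
    (f0 := f0) h0 h0V h01 (f1 := f1) h1 h1V h11 riem
  · intro h hh
    rw [S.Lbar_eq] at hh
    exact constb h hh
  · intro a b
    rw [S.Lbar_eq]
    exact finb a b
  · obtain ⟨n₀, hn₀⟩ := good
    refine ⟨n₀, fun n hn => ?_⟩
    rw [S.Lbar_eq, S.Lbar_eq]
    exact hn₀ n hn

end Fermat.Agent.S34
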