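import Fermat.Agent.S34.NBasic
import Fermat.Agent.S18.PairDimIB

/-!
# S34, piece EV: elements of `V` that are integral over `K[t]` are integral over `A[t]`; evaluation at places

`t` a good coordinate of the `NSetting` `S` (orthonormal frame over `K(t)`).
* `NSetting.exists_monic_of_mem`: `g ∈ V ∩ intRing K t` is a root of a monic `P ∈ A[t][Y]`.
* `NSetting.ev_mem`: for a place `v` with `t(v) = a ∈ A`, `g(v) = γ`: `γ ∈ A`.
* `NSetting.ev_zero`: if moreover `rd g = 0` then `rc γ = 0`.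
-/

set_option autoImplicit false

namespace Fermat.Agent.S34

open Polynomial IntermediateField Fermat.Agent.S24 Fermat.Agent.S18 AlgebraicCurve
open scoped IntermediateField.algebraAdjoinAdjoin

variable {K F k R : Type*} [Field K] [Field F] [Algebra K F] [Field k] [CommRing R] [Algebra k R]
variable (S : NSetting K F k R)

namespace NSetting

/-- reduction of a `A[t]`-combination. -/
theorem ev_rd_sum {ι : Type*} [Fintype ι] {t : F} (ht : t ∈ S.V) (e : ι → F) (he : ∀ i, e i ∈ S.V)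
    (p : ι → K[X]) (hp : ∀ i n, (p i).coeff n ∈ S.A) :
    S.rd (∑ i, aeval t (p i) * e i) = ∑ i, aeval (S.rd t) (S.rp (p i)) * S.rd (e i) := by
  rw [S.rd_sum _ _ fun i _ => mul_mem (S.aeval_mem ht (hp i)) (he i)]
  refine Finset.sum_congr rfl fun i _ => ?_
  rw [S.rd_mul (S.aeval_mem ht (hp i)) (he i), S.rd_aeval ht (hp i)]

/-- a family of polynomials, not all zero, can be scaled to an integral family with nonzero reduction. -/
theorem ev_exists_scale {ι : Type*} [Fintype ι] (p : ι → K[X]) (hp : p ≠ 0) :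
    ∃ c : K, c ≠ 0 ∧ (∀ i n, (C c * p i).coeff n ∈ S.A) ∧ ∃ i, S.rp (C c * p i) ≠ 0 := by
  classical
  set D := Finset.univ.sup fun i => (p i).natDegree with hD
  have hdeg : ∀ i, (p i).natDegree ≤ D := fun i => Finset.le_sup (f := fun i => (p i).natDegree)
    (Finset.mem_univ i)
  have ha : (fun x : ι × Fin (D + 1) => (p x.1).coeff x.2) ≠ 0 := by
    intro h
    apply hp
    funext i
    refine Polynomial.ext fun n => ?_
    by_cases hn : n < D + 1
    · exact congrFun h (i, ⟨n, hn⟩)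
    · rw [coeff_eq_zero_of_natDegree_lt (lt_of_le_of_lt (hdeg i) (by omega))]
      simp
  obtain ⟨c, hc, h1, ⟨i, n⟩, hi⟩ := S.exists_scale_family _ ha
  refine ⟨c, hc, fun i n => ?_, i, fun h0 => hi ?_⟩
  · rw [coeff_C_mul]
    by_cases hn : n < D + 1
    · exact h1 (i, ⟨n, hn⟩)
    · rw [coeff_eq_zero_of_natDegree_lt (lt_of_le_of_lt (hdeg i) (by omega)), mul_zero]
      exact zero_mem _
  · have := congrArg (fun q => q.coeff (n : ℕ)) h0
    simpa [S.coeff_rp, coeff_C_mul] using this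

/-- orthonormality of a family with `k[t̄]`-independent reduction. -/
theorem ev_coeff_mem {ι : Type*} [Fintype ι] {t : F} (ht : t ∈ S.V) (e : ι → F) (he : ∀ i, e i ∈ S.V)
    (hind : PolyIndepR k (S.rd t) (fun i => S.rd (e i))) (p : ι → K[X])
    (h : ∑ i, aeval t (p i) * e i ∈ S.V) : ∀ i n, (p i).coeff n ∈ S.A := by
  by_contra hcon
  push Not at hcon
  obtain ⟨i₀, n₀, h0⟩ := hcon
  have hp : p ≠ 0 := by
    rintro rfl
    exact h0 (by simp)
  obtain ⟨c, hc, h1, i, hi⟩ := S.ev_exists_scale p hp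
  have hcinv : c⁻¹ ∉ S.A := by
    intro hci
    apply h0
    have := mul_mem hci (h1 i₀ n₀)
    rwa [coeff_C_mul, ← mul_assoc, inv_mul_cancel₀ hc, one_mul] at this
  have hcA : c ∈ S.A := (S.A.mem_or_inv_mem c).resolve_right hcinv
  have hrc : S.rc c = 0 := (S.rc_eq_zero_iff hcA).mpr (Or.inr hcinv)
  have h2 : ∑ i, aeval t (C c * p i) * e i = c • ∑ i, aeval t (p i) * e i := by
    rw [Finset.smul_sum]
    refine Finset.sum_congr rfl fun i _ => ?_
    rw [map_mul, aeval_C, Algebra.smul_def, mul_assoc]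
  have h3 := S.ev_rd_sum ht e he (fun i => C c * p i) h1
  rw [h2, S.rd_smul hcA h, hrc, zero_smul] at h3
  exact hi (congrFun (hind _ h3.symm) i)

theorem ev_polyIndep {ι : Type*} [Fintype ι] {t : F} (ht : t ∈ S.V) (e : ι → F) (he : ∀ i, e i ∈ S.V)
    (hind : PolyIndepR k (S.rd t) (fun i => S.rd (e i))) : PolyIndep K t e := by
  intro p hp
  by_contra hp0
  obtain ⟨c, hc, h1, i, hi⟩ := S.ev_exists_scale p hp0
  have h2 : ∑ i, aeval t (C c * p i) * e i = c • ∑ i, aeval t (p i) * e i := by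
    rw [Finset.smul_sum]
    refine Finset.sum_congr rfl fun i _ => ?_
    rw [map_mul, aeval_C, Algebra.smul_def, mul_assoc]
  have h3 := S.ev_rd_sum ht e he (fun i => C c * p i) h1
  rw [h2, hp, smul_zero, S.rd_zero] at h3
  exact hi (congrFun (hind _ h3.symm) i)

theorem ev_frac {t : F} (y : K⟮t⟯) :
    ∃ r s : K[X], s ≠ 0 ∧ aeval t s ≠ 0 ∧ (y : F) * aeval t s = aeval t r := by
  obtain ⟨r, s, hs⟩ := (IntermediateField.mem_adjoin_simple_iff K (y : F)).1 y.2
  by_cases h0 : aeval t s = 0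
  · refine ⟨0, 1, one_ne_zero, by simp, ?_⟩
    rw [hs, h0, div_zero]
    simp
  · refine ⟨r, s, ?_, h0, ?_⟩
    · rintro rfl
      exact h0 (by simp)
    · rw [hs, div_mul_cancel₀ _ h0]

/-- coordinates in an orthonormal frame of an element of `V` are in `V`. -/
theorem ev_repr_mem {t : F} (ht : S.Coord t) {μ : ℕ} (b : Module.Basis (Fin μ) K⟮t⟯ F)
    (hb : ∀ i, b i ∈ S.V) (hind : PolyIndepR k (S.rd t) (fun i => S.rd (b i))) {f : F}
    (hf : f ∈ S.V) (i : Fin μ) : ((b.repr f i : K⟮t⟯) : F) ∈ S.V := by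
  classical
  choose r s hs0 hs hrs using fun j => ev_frac (K := K) (t := t) (b.repr f j)
  set d : K[X] := ∏ j, s j with hd
  have hd0 : d ≠ 0 := Finset.prod_ne_zero_iff.mpr fun j _ => hs0 j
  set p : Fin μ → K[X] := fun j => r j * ∏ l ∈ Finset.univ.erase j, s l with hp
  have hpd : ∀ j, ((b.repr f j : K⟮t⟯) : F) * aeval t d = aeval t (p j) := by
    intro j
    rw [hd, ← Finset.mul_prod_erase Finset.univ s (Finset.mem_univ j), map_mul, ← mul_assoc, hrs j,
      hp, map_mul]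
  obtain ⟨c, hc, hdA, hdr⟩ := S.exists_scale_poly hd0
  have hsum : ∑ j, aeval t (C c * p j) * b j = aeval t (C c * d) * f := by
    conv_rhs => rw [← b.sum_repr f, Finset.mul_sum]
    refine Finset.sum_congr rfl fun j _ => ?_
    have h1 : aeval t (C c * p j) = aeval t (C c) * aeval t (p j) := map_mul _ _ _
    have h2 : aeval t (C c * d) = aeval t (C c) * aeval t d := map_mul _ _ _
    rw [Algebra.smul_def, h1, h2, ← hpd j]
    show _ = _ * (((b.repr f j : K⟮t⟯) : F) * b j)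
    ring
  have hmem : ∑ j, aeval t (C c * p j) * b j ∈ S.V := by
    rw [hsum]
    exact mul_mem (S.aeval_mem ht.mem hdA) hf
  have hcoef := S.ev_coeff_mem ht.mem b hb hind (fun j => C c * p j) hmem
  have hu := Coord.isUnit_rd_aeval ht hdA hdr
  have hinv := S.inv_mem_of_isUnit_rd (S.aeval_mem ht.mem hdA) hu
  have hne : aeval t (C c * d) ≠ 0 := S.ne_zero_of_isUnit_rd hu
  have : ((b.repr f i : K⟮t⟯) : F) = aeval t (C c * p i) * (aeval t (C c * d))⁻¹ := by
    have h1 : aeval t (C c * p i) = aeval t (C c) * aeval t (p i) := map_mul _ _ _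
    have h2 : aeval t (C c * d) = aeval t (C c) * aeval t d := map_mul _ _ _
    rw [eq_mul_inv_iff_mul_eq₀ hne, h1, h2, ← hpd i]
    ring
  rw [this]
  exact mul_mem (S.aeval_mem ht.mem (hcoef i)) hinv

theorem ev_monic_aux {t : F} (ht : S.Coord t) {g : F} (hgV : g ∈ S.V)
    (hgI : g ∈ intRing K t) {μ : ℕ} (hμ : Module.finrank K⟮t⟯ F = μ) (o : Fin μ → F)
    (ho : IsIntBasis (K := K) t o) (e : Fin μ → F) (heV : ∀ i, e i ∈ S.V)
    (hind : PolyIndepR k (S.rd t) (fun i => S.rd (e i))) :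
    ∃ P : K[X][X], P.Monic ∧ (∀ i n, (P.coeff i).coeff n ∈ S.A) ∧
      P.eval₂ ((aeval t : K[X] →ₐ[K] F) : K[X] →+* F) g = 0 := by
  classical
  have := ht.fin
  have hμ0 : 0 < μ := hμ ▸ Module.finrank_pos
  have : Nonempty (Fin μ) := ⟨⟨0, hμ0⟩⟩
  have hlio := nc_linearIndependent o ho.1
  let b' : Module.Basis (Fin μ) K⟮t⟯ F :=
    basisOfLinearIndependentOfCardEqFinrank hlio (by rw [Fintype.card_fin, hμ])
  have hb' : ⇑b' = o := coe_basisOfLinearIndependentOfCardEqFinrank _ _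
  have hmul : ∀ i j, b' i * b' j ∈ polySpan K t b' := by
    intro i j
    rw [hb']
    exact (ho.2 _).1 (mul_mem ((ho.2 _).2 (nc_self_mem i)) ((ho.2 _).2 (nc_self_mem j)))
  have hg' : g ∈ polySpan K t b' := by
    rw [hb']
    exact (ho.2 _).1 hgI
  obtain ⟨M, hM⟩ := nc_exists_mat hmul hg'
  have hlie := nc_linearIndependent e (S.ev_polyIndep ht.mem e heV hind)
  let b : Module.Basis (Fin μ) K⟮t⟯ F :=
    basisOfLinearIndependentOfCardEqFinrank hlie (by rw [Fintype.card_fin, hμ])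
  have hb : ⇑b = e := coe_basisOfLinearIndependentOfCardEqFinrank _ _
  have hbV : ∀ i, b i ∈ S.V := fun i => by rw [hb]; exact heV i
  have hbind : PolyIndepR k (S.rd t) (fun i => S.rd (b i)) := by rw [hb]; exact hind
  let VL : Subring K⟮t⟯ := S.V.comap (algebraMap K⟮t⟯ F)
  have hent : ∀ i j, Algebra.leftMulMatrix b g i j ∈ VL := by
    intro i j
    rw [Algebra.leftMulMatrix_eq_repr_mul]
    exact S.ev_repr_mem ht b hbV hbind (mul_mem hgV (hbV j)) i
  let MV : Matrix (Fin μ) (Fin μ) VL :=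
    fun i j => ⟨Algebra.leftMulMatrix b g i j, hent i j⟩
  have hMV : Algebra.leftMulMatrix b g = MV.map VL.subtype := by
    ext i j
    rfl
  have hchar : (M.charpoly).map ((ncι t : K[X] →ₐ[K] K⟮t⟯) : K[X] →+* K⟮t⟯) = (MV.charpoly).map VL.subtype := by
    have h1 : (Algebra.leftMulMatrix b' g).charpoly = (Algebra.lmul K⟮t⟯ F g).charpoly := by
      rw [Algebra.leftMulMatrix_apply]
      exact LinearMap.charpoly_toMatrix _ b'
    have h2 : (Algebra.leftMulMatrix b g).charpoly = (Algebra.lmul K⟮t⟯ F g).charpoly := by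
      rw [Algebra.leftMulMatrix_apply]
      exact LinearMap.charpoly_toMatrix _ b
    have h3 : (Algebra.leftMulMatrix b' g).charpoly = (M.charpoly).map ((ncι t : K[X] →ₐ[K] K⟮t⟯) : K[X] →+* K⟮t⟯) := by
      rw [hM]
      exact Matrix.charpoly_map M ((ncι t : K[X] →ₐ[K] K⟮t⟯) : K[X] →+* K⟮t⟯)
    have h4 : (Algebra.leftMulMatrix b g).charpoly = (MV.charpoly).map VL.subtype := by
      rw [hMV]
      exact Matrix.charpoly_map MV VL.subtype
    rw [← h3, h1, ← h2, h4]
  refine ⟨M.charpoly, Matrix.charpoly_monic M, fun i => ?_, ?_⟩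
  · apply S.coeff_mem_of_aeval_mem ht.mem ht.trans
    have h5 := congrArg (fun q => q.coeff i) hchar
    simp only [coeff_map] at h5
    rw [← ncι_algebraMap]
    have h6 : (ncι t (M.charpoly.coeff i) : K⟮t⟯) = VL.subtype (MV.charpoly.coeff i) := h5
    rw [h6]
    exact (MV.charpoly.coeff i).2
  · have h7 := Algebra.aeval_self_charpoly_lmul (R := K⟮t⟯) g
    have h1 : (Algebra.leftMulMatrix b' g).charpoly = (Algebra.lmul K⟮t⟯ F g).charpoly := by
      rw [Algebra.leftMulMatrix_apply]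
      exact LinearMap.charpoly_toMatrix _ b'
    have h3 : (Algebra.leftMulMatrix b' g).charpoly = (M.charpoly).map ((ncι t : K[X] →ₐ[K] K⟮t⟯) : K[X] →+* K⟮t⟯) := by
      rw [hM]
      exact Matrix.charpoly_map M ((ncι t : K[X] →ₐ[K] K⟮t⟯) : K[X] →+* K⟮t⟯)
    rw [← h1, h3, aeval_def, eval₂_map] at h7
    have h8 : (algebraMap K⟮t⟯ F).comp ((ncι t : K[X] →ₐ[K] K⟮t⟯) : K[X] →+* K⟮t⟯) =
        ((aeval t : K[X] →ₐ[K] F) : K[X] →+* F) := by
      refine RingHom.ext fun p => ?_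
      exact ncι_algebraMap t p
    rwa [h8] at h7

/-- **INT.** `g ∈ V` integral over `K[t]` is integral over `A[t]`. -/
theorem exists_monic_of_mem [CharZero K] {t : F} (ht : S.Coord t) {g : F} (hgV : g ∈ S.V)
    (hgI : g ∈ intRing K t) :
    ∃ P : K[X][X], P.Monic ∧ (∀ i n, (P.coeff i).coeff n ∈ S.A) ∧
      P.eval₂ ((aeval t : K[X] →ₐ[K] F) : K[X] →+* F) g = 0 := by
  have := ht.fin
  have htr : Transcendental K t := ht.transK
  have : CharZero K⟮t⟯ := charZero_of_injective_algebraMap (algebraMap K K⟮t⟯).injective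
  obtain ⟨o, ho⟩ := ib_exists_isIntBasis htr
  obtain ⟨e, heV, hind⟩ := ht.frame
  exact S.ev_monic_aux ht hgV hgI rfl o ho e heV hind

end NSetting

/-! ### values at places -/

/-- `u(v) = c`. -/
def ValAt (v : Place K F) (u : F) (c : K) : Prop :=
  ∃ h : u ∈ v.toValuationSubring,
    IsLocalRing.residue v.toValuationSubring ⟨u, h⟩ = algebraMap K v.ResidueField c

namespace ValAt

variable {v : Place K F} {u u' : F} {c c' : K}

theorem mem (h : ValAt v u c) : u ∈ v.toValuationSubring := h.1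

theorem const (v : Place K F) (c : K) : ValAt v (algebraMap K F c) c :=
  ⟨v.algebraMap_mem' c, rfl⟩

theorem add (h : ValAt v u c) (h' : ValAt v u' c') : ValAt v (u + u') (c + c') := by
  obtain ⟨h1, h2⟩ := h
  obtain ⟨h1', h2'⟩ := h'
  refine ⟨add_mem h1 h1', ?_⟩
  rw [map_add, ← h2, ← h2', ← map_add]
  rfl

theorem mul (h : ValAt v u c) (h' : ValAt v u' c') : ValAt v (u * u') (c * c') := by
  obtain ⟨h1, h2⟩ := h
  obtain ⟨h1', h2'⟩ := h'
  refine ⟨mul_mem h1 h1', ?_⟩
  rw [map_mul, ← h2, ← h2', ← map_mul]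
  rfl

theorem neg (h : ValAt v u c) : ValAt v (-u) (-c) := by
  obtain ⟨h1, h2⟩ := h
  refine ⟨neg_mem h1, ?_⟩
  rw [map_neg, ← h2, ← map_neg]
  rfl

theorem sub (h : ValAt v u c) (h' : ValAt v u' c') : ValAt v (u - u') (c - c') := by
  rw [sub_eq_add_neg, sub_eq_add_neg]
  exact h.add h'.neg

theorem pow (h : ValAt v u c) (n : ℕ) : ValAt v (u ^ n) (c ^ n) := by
  induction n with
  | zero => simpa using const v (1 : K)
  | succ n ih => rw [pow_succ, pow_succ]; exact ih.mul h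

theorem unique (h : ValAt v u c) (h' : ValAt v u c') : c = c' := by
  obtain ⟨h1, h2⟩ := h
  obtain ⟨h1', h2'⟩ := h'
  exact (algebraMap K v.ResidueField).injective (h2.symm.trans h2')

theorem aeval (h : ValAt v u c) (p : K[X]) : ValAt v (Polynomial.aeval u p) (p.eval c) := by
  induction p using Polynomial.induction_on' with
  | add p q hp hq => rw [map_add, eval_add]; exact hp.add hq
  | monomial n a =>
    rw [aeval_monomial, eval_monomial]
    exact (const v a).mul (h.pow n)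

theorem sum {ι : Type*} (s : Finset ι) (f : ι → F) (g : ι → K) (h : ∀ i ∈ s, ValAt v (f i) (g i)) :
    ValAt v (∑ i ∈ s, f i) (∑ i ∈ s, g i) := by
  classical
  induction s using Finset.induction_on with
  | empty => simpa using const v (0 : K)
  | insert i s hi ih =>
    rw [Finset.sum_insert hi, Finset.sum_insert hi]
    exact (h i (Finset.mem_insert_self i s)).add (ih fun j hj => h j (Finset.mem_insert_of_mem hj))

theorem iff_ord : ValAt v u c ↔ (u = algebraMap K F c ∨ 0 < v.ord (u - algebraMap K F c)) := by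
  constructor
  · rintro ⟨h1, h2⟩
    by_cases h0 : u = algebraMap K F c
    · exact Or.inl h0
    · right
      have hne : u - algebraMap K F c ≠ 0 := sub_ne_zero.mpr h0
      rw [ord_pos_iff v hne]
      refine ⟨sub_mem h1 (v.algebraMap_mem' c), fun hinv => ?_⟩
      have h3 : IsLocalRing.residue v.toValuationSubring
          (⟨u, h1⟩ - algebraMap K v.toValuationSubring c) = 0 := by
        rw [map_sub, h2]
        exact sub_self _
      rw [IsLocalRing.residue_eq_zero_iff, IsLocalRing.mem_maximalIdeal, mem_nonunits_iff] at h3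
      apply h3
      refine IsUnit.of_mul_eq_one ⟨(u - algebraMap K F c)⁻¹, hinv⟩ ?_
      apply Subtype.ext
      exact mul_inv_cancel₀ hne
  · rintro (h | h)
    · rw [h]; exact const v c
    · have hne : u - algebraMap K F c ≠ 0 := by
        intro h0
        rw [h0, v.ord_zero] at h
        exact lt_irrefl _ h
      obtain ⟨h1, h2⟩ := (ord_pos_iff v hne).mp h
      have hu : u ∈ v.toValuationSubring := by
        have := add_mem h1 (v.algebraMap_mem' c)
        rwa [sub_add_cancel] at this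
      refine ⟨hu, ?_⟩
      have h3 : IsLocalRing.residue v.toValuationSubring
          (⟨u, hu⟩ - algebraMap K v.toValuationSubring c) = 0 := by
        rw [IsLocalRing.residue_eq_zero_iff, IsLocalRing.mem_maximalIdeal, mem_nonunits_iff]
        intro hunit
        obtain ⟨w, hw⟩ := hunit.exists_right_inv
        apply h2
        have h4 : (u - algebraMap K F c) * (w : F) = 1 := congrArg Subtype.val hw
        rw [← eq_inv_of_mul_eq_one_right h4]
        exact w.2
      rw [map_sub, sub_eq_zero] at h3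
      exact h3

theorem inv (h : ValAt v u c) (hc : c ≠ 0) : ValAt v u⁻¹ c⁻¹ := by
  obtain ⟨h1, h2⟩ := h
  have hunit : IsUnit (⟨u, h1⟩ : v.toValuationSubring) := by
    by_contra hn
    have : IsLocalRing.residue v.toValuationSubring ⟨u, h1⟩ = 0 := by
      rw [IsLocalRing.residue_eq_zero_iff, IsLocalRing.mem_maximalIdeal, mem_nonunits_iff]
      exact hn
    rw [this] at h2
    exact hc ((map_eq_zero _).mp h2.symm)
  obtain ⟨w, hw⟩ := hunit.exists_right_inv
  have h4 : u * (w : F) = 1 := congrArg Subtype.val hw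
  have h5 : u⁻¹ = (w : F) := (eq_inv_of_mul_eq_one_right h4).symm
  refine ⟨h5 ▸ w.2, ?_⟩
  have h6 : (⟨u⁻¹, h5 ▸ w.2⟩ : v.toValuationSubring) = w := Subtype.ext h5
  rw [h6]
  have h7 := congrArg (IsLocalRing.residue v.toValuationSubring) hw
  rw [map_mul, h2, map_one] at h7
  rw [map_inv₀]
  exact eq_inv_of_mul_eq_one_right h7

end ValAt

theorem exists_valAt [IsAlgClosed K] (hFF : IsFF K F) (v : Place K F) {u : F}
    (hu : u ∈ v.toValuationSubring) : ∃ c : K, ValAt v u c := by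
  obtain ⟨c, hc⟩ := hFF.exists_residue v hu
  exact ⟨c, ValAt.iff_ord.mpr hc⟩

namespace NSetting

theorem ev_mem_of_monic_root {Q : K[X]} (hQ : Q.Monic) (hA : ∀ n, Q.coeff n ∈ S.A) {γ : K}
    (h : Q.eval γ = 0) : γ ∈ S.A := by
  have hl : Q ∈ Polynomial.lifts (algebraMap S.A K) :=
    (lifts_iff_coeff_lifts _).2 fun n => ⟨⟨Q.coeff n, hA n⟩, rfl⟩
  obtain ⟨q, hq, -, hqm⟩ := lifts_and_degree_eq_and_monic hl hQ
  have hint : IsIntegral S.A γ := ⟨q, hqm, by rw [eval₂_eq_eval_map, hq, h]⟩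
  obtain ⟨y, hy⟩ := IsIntegrallyClosed.algebraMap_eq_of_integral hint
  rw [← hy]
  exact y.2

theorem ev_algebraMap_mem_intRing (t : F) (c : K) : algebraMap K F c ∈ intRing K t := by
  have : algebraMap K F c = algebraMap (polyRing K t) F (algebraMap K (polyRing K t) c) := rfl
  rw [this]
  exact Subalgebra.algebraMap_mem _ _

theorem ev_self_mem_intRing (t : F) : t ∈ intRing K t := by
  have : t = algebraMap (polyRing K t) F ⟨t, Algebra.self_mem_adjoin_singleton K t⟩ := rfl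
  rw [this]
  exact Subalgebra.algebraMap_mem _ _

/-- **EV.** `g ∈ V` integral over `K[t]`, `t(v) = a ∈ A`, `g(v) = γ`.  Then `γ ∈ A`. -/
theorem ev_mem [CharZero K] {t : F} (ht : S.Coord t) {g : F} (hgV : g ∈ S.V)
    (hgI : g ∈ intRing K t) {v : Place K F} {a γ : K} (ha : a ∈ S.A) (hta : ValAt v t a)
    (hgγ : ValAt v g γ) : γ ∈ S.A := by
  obtain ⟨P, hPm, hPA, hP⟩ := S.exists_monic_of_mem ht hgV hgI
  have h1 : ValAt v (P.eval₂ ((aeval t : K[X] →ₐ[K] F) : K[X] →+* F) g)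
      ((P.map (evalRingHom a)).eval γ) := by
    rw [eval₂_eq_sum_range, eval_eq_sum_range, hPm.natDegree_map]
    refine ValAt.sum _ _ _ fun i _ => ?_
    rw [coeff_map, coe_evalRingHom]
    exact (hta.aeval (P.coeff i)).mul (hgγ.pow i)
  rw [hP] at h1
  have h2 : ValAt v (0 : F) (0 : K) := by simpa using ValAt.const v (0 : K)
  have h3 := h1.unique h2
  refine S.ev_mem_of_monic_root (hPm.map _) (fun n => ?_) h3
  rw [coeff_map, coe_evalRingHom]
  exact (S.eval_mem ha (hPA n)).1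

/-- **EV with a twist.** `t^e g` integral over `K[t]`, `t(v) = a ∈ Aˣ`. -/
theorem ev_mem' [CharZero K] {t : F} (ht : S.Coord t) {g : F} (hgV : g ∈ S.V) {e : ℕ}
    (hgI : t ^ e * g ∈ intRing K t) {v : Place K F} {a γ : K} (ha : a ∈ S.A) (hai : a⁻¹ ∈ S.A)
    (ha0 : a ≠ 0) (hta : ValAt v t a) (hgγ : ValAt v g γ) : γ ∈ S.A := by
  have h1 := S.ev_mem ht (mul_mem (pow_mem ht.mem e) hgV) hgI ha hta ((hta.pow e).mul hgγ)
  have h2 := mul_mem (pow_mem hai e) h1
  rwa [← mul_assoc, ← mul_pow, inv_mul_cancel₀ ha0, one_pow, one_mul] at h2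

/-- **EV₀.** if moreover `rd g = 0` then `g(v) ∈ 𝔪_A`. -/
theorem ev_zero [CharZero K] {t : F} (ht : S.Coord t) {g : F} (hgV : g ∈ S.V) (hg0 : S.rd g = 0)
    {e : ℕ} (hgI : t ^ e * g ∈ intRing K t) {v : Place K F} {a γ : K} (ha : a ∈ S.A)
    (hai : a⁻¹ ∈ S.A) (ha0 : a ≠ 0) (hta : ValAt v t a) (hgγ : ValAt v g γ) :
    γ ∈ S.A ∧ S.rc γ = 0 := by
  obtain ⟨c, hcA, hc0, g', hg'V, rfl⟩ := S.exists_of_rd_eq_zero hgV hg0
  by_cases hc : c = 0
  · subst hc
    rw [zero_smul] at hgγ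
    have h2 : ValAt v (0 : F) (0 : K) := by simpa using ValAt.const v (0 : K)
    rw [hgγ.unique h2]
    exact ⟨zero_mem _, S.rc_zero⟩
  · have h1 : g' = algebraMap K F c⁻¹ * c • g' := by
      rw [Algebra.smul_def, ← mul_assoc, ← map_mul, inv_mul_cancel₀ hc, map_one, one_mul]
    have h2 : ValAt v g' (c⁻¹ * γ) := by
      rw [h1]
      exact (ValAt.const v c⁻¹).mul hgγ
    have h3 : t ^ e * g' ∈ intRing K t := by
      have := mul_mem (ev_algebraMap_mem_intRing t c⁻¹) hgI
      rwa [mul_left_comm, ← h1] at this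
    have h4 := S.ev_mem' ht hg'V h3 ha hai ha0 hta h2
    have h5 : γ = c * (c⁻¹ * γ) := by rw [← mul_assoc, mul_inv_cancel₀ hc, one_mul]
    rw [h5]
    exact ⟨mul_mem hcA h4, by rw [S.rc_mul hcA h4, hc0, zero_mul]⟩

/-- **OV.** Kronecker's congruence at places: if `(t^q - s)(t - s^q)` reduces to `0`, `t^e s` is integral over `K[t]`, `t(v) = a ∈ Aˣ`,
`s(v) = b`, then `b ∈ A` and `(ā^q - b̄)(ā - b̄^q) = 0`. -/
theorem ev_ov [CharZero K] {t s : F} (ht : S.Coord t) (hsV : s ∈ S.V) {e : ℕ}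
    (hsI : t ^ e * s ∈ intRing K t) (q : ℕ) (hrd : S.rd ((t ^ q - s) * (t - s ^ q)) = 0)
    {v : Place K F} {a b : K} (ha : a ∈ S.A) (hai : a⁻¹ ∈ S.A) (ha0 : a ≠ 0) (hta : ValAt v t a)
    (hsb : ValAt v s b) :
    b ∈ S.A ∧ (S.rc a ^ q - S.rc b) * (S.rc a - S.rc b ^ q) = 0 := by
  have hb : b ∈ S.A := S.ev_mem' ht hsV hsI ha hai ha0 hta hsb
  refine ⟨hb, ?_⟩
  have htI := ev_self_mem_intRing (K := K) t
  have hI : t ^ (e + e * q) * ((t ^ q - s) * (t - s ^ q)) ∈ intRing K t := by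
    have h1 : t ^ (e + e * q) * ((t ^ q - s) * (t - s ^ q)) =
        (t ^ e * t ^ q - t ^ e * s) * (t ^ (e * q) * t - (t ^ e * s) ^ q) := by
      rw [mul_pow, ← pow_mul, pow_add]
      ring
    rw [h1]
    exact mul_mem (sub_mem (mul_mem (pow_mem htI _) (pow_mem htI _)) hsI)
      (sub_mem (mul_mem (pow_mem htI _) htI) (pow_mem hsI _))
  have hV : (t ^ q - s) * (t - s ^ q) ∈ S.V :=
    mul_mem (sub_mem (pow_mem ht.mem _) hsV) (sub_mem ht.mem (pow_mem hsV _))
  have h2 := (S.ev_zero ht hV hrd hI ha hai ha0 hta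
    (((hta.pow q).sub hsb).mul (hta.sub (hsb.pow q)))).2
  rwa [S.rc_mul (sub_mem (pow_mem ha _) hb) (sub_mem ha (pow_mem hb _)),
    S.rc_sub (pow_mem ha _) hb, S.rc_sub ha (pow_mem hb _), S.rc_pow ha, S.rc_pow hb] at h2

/-- **OV**, in terms of `Place.ord` (the shape used in `S34/PL.lean`). -/
theorem ov_place [IsAlgClosed K] [CharZero K] (hFF : IsFF K F) {t s : F} (ht : S.Coord t)
    (hsV : s ∈ S.V) {e : ℕ} (hsI : t ^ e * s ∈ intRing K t) (hstr : Transcendental K s) (q : ℕ)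
    (hrd : S.rd ((t ^ q - s) * (t - s ^ q)) = 0) :
    ∀ (P : Place K F) (a : K), a ∈ S.A → S.rc a ≠ 0 → 0 < P.ord (t - algebraMap K F a) →
      ∃ b ∈ S.A, 0 < P.ord (s - algebraMap K F b) ∧
        (S.rc a ^ q - S.rc b) * (S.rc a - S.rc b ^ q) = 0 := by
  intro P a ha hra hP
  have hta : ValAt P t a := ValAt.iff_ord.mpr (Or.inr hP)
  have ha0 : a ≠ 0 := by
    rintro rfl
    exact hra S.rc_zero
  have hai : a⁻¹ ∈ S.A := (S.rc_inv hra).1
  have h1 : t ^ e * s ∈ P.toValuationSubring := primes_intRing_le P hta.mem ⟨_, hsI⟩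
  have ht0 : t ≠ 0 := ht.ne_zero
  have hs : s ∈ P.toValuationSubring := by
    have h2 := mul_mem (pow_mem (hta.inv ha0).mem e) h1
    rwa [← mul_assoc, ← mul_pow, inv_mul_cancel₀ ht0, one_pow, one_mul] at h2
  obtain ⟨b, hb⟩ := exists_valAt hFF P hs
  obtain ⟨hbA, hov⟩ := S.ev_ov ht hsV hsI q hrd ha hai ha0 hta hb
  refine ⟨b, hbA, ?_, hov⟩
  rcases ValAt.iff_ord.mp hb with h | h
  · exact absurd (h ▸ isAlgebraic_algebraMap b) hstr
  · exact h

end NSetting

end Fermat.Agent.S34
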