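import Fermat.Agent.S28.Tower

/-!
# S34, piece G2, part A: formal Laurent series lemmas

`φ = qExpand k q` (`t ↦ t^q`), `y` a series of order prime to `q`.
* `g2_indep` : `1, y, …, y^(q-1)` are linearly independent over `φ(k((t)))`;
* `g2_inj`   : `(a_r)_{r ≤ q} ↦ (∑ a_r φ(y)^r, ∑ φ(a_r) y^r)` is injective.
-/

set_option autoImplicit false

namespace Fermat.Agent.S34

open Polynomial Fermat.Agent.S28 ModularCurve

section Series

variable {k : Type} [Field k]

theorem g2_leadsWith_order {x : LaurentSeries k} (hx : x ≠ 0) :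
    x.coeff x.order ≠ 0 ∧ LeadsWith x x.order (x.coeff x.order) := by
  refine ⟨?_, rfl, fun m hm => HahnSeries.coeff_eq_zero_of_lt_order hm⟩
  rw [← HahnSeries.leadingCoeff_eq]
  exact HahnSeries.leadingCoeff_ne_zero.mpr hx

/-- `1, y, …, y^(q-1)` are linearly independent over the image of `t ↦ t^q`. -/
theorem g2_indep {q : ℕ} [NeZero q] {y : LaurentSeries k} {n₀ : ℤ} {b : k}
    (hy : LeadsWith y n₀ b) (hb : b ≠ 0) (hcop : ∀ d : ℤ, (q : ℤ) ∣ d * n₀ → (q : ℤ) ∣ d)
    (c : Fin q → LaurentSeries k) (h : ∑ r, qExpand k q (c r) * y ^ (r : ℕ) = 0) :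
    ∀ r, c r = 0 := by
  classical
  by_contra hcon
  push Not at hcon
  obtain ⟨r₁, hr₁⟩ := hcon
  set e : Fin q → ℤ := fun r => (q : ℤ) * (c r).order + (r : ℕ) * n₀ with he
  have hlw : ∀ r, c r ≠ 0 → LeadsWith (qExpand k q (c r) * y ^ (r : ℕ)) (e r)
      ((c r).coeff (c r).order * b ^ (r : ℕ)) := fun r hr =>
    ((g2_leadsWith_order hr).2.qExpand q).mul (hy.pow r)
  obtain ⟨r₀, hr₀, hmin⟩ := Finset.exists_min_image (Finset.univ.filter fun r => c r ≠ 0) e
    ⟨r₁, by simp [hr₁]⟩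
  have hr₀' : c r₀ ≠ 0 := by simpa using hr₀
  have hcoeff := congrArg (fun z : LaurentSeries k => z.coeff (e r₀)) h
  simp only [HahnSeries.coeff_zero] at hcoeff
  have hsum : (∑ r, qExpand k q (c r) * y ^ (r : ℕ)).coeff (e r₀) =
      ∑ r, (qExpand k q (c r) * y ^ (r : ℕ)).coeff (e r₀) := by
    exact map_sum (HahnSeries.coeff.addMonoidHom (e r₀)) _ _
  rw [hsum, Finset.sum_eq_single r₀] at hcoeff
  · rw [(hlw r₀ hr₀').1] at hcoeff
    exact mul_ne_zero (g2_leadsWith_order hr₀').1 (pow_ne_zero _ hb) hcoeff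
  · intro r _ hr
    by_cases hcr : c r = 0
    · rw [hcr, map_zero, zero_mul, HahnSeries.coeff_zero]
    · refine (hlw r hcr).2 _ (lt_of_le_of_ne (hmin r (by simp [hcr])) ?_)
      intro heq
      apply hr
      have h1 : (q : ℤ) ∣ (((r : ℕ) : ℤ) - ((r₀ : ℕ) : ℤ)) * n₀ := by
        refine ⟨(c r₀).order - (c r).order, ?_⟩
        simp only [he] at heq
        linear_combination -heq
      have h2 := hcop _ h1
      have h3 : ((r : ℕ) : ℤ) - ((r₀ : ℕ) : ℤ) = 0 := by
        apply Int.eq_zero_of_abs_lt_dvd h2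
        have := r.2
        have := r₀.2
        rw [abs_lt]
        constructor <;> omega
      exact Fin.ext (by omega)
  · intro hh; exact absurd (Finset.mem_univ r₀) hh

/-- the map `(a_r)_{r ≤ q} ↦ (∑ a_r φ(y)^r, ∑ φ(a_r) y^r)` is injective. -/
theorem g2_inj {q : ℕ} [NeZero q] (hq : 2 ≤ q) {y : LaurentSeries k} {n₀ : ℤ} {b : k}
    (hy : LeadsWith y n₀ b) (hb : b ≠ 0) (hn₀ : n₀ ≠ 0)
    (hcop : ∀ d : ℤ, (q : ℤ) ∣ d * n₀ → (q : ℤ) ∣ d)
    (a : Fin (q + 1) → LaurentSeries k)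
    (h1 : ∑ r, a r * qExpand k q y ^ (r : ℕ) = 0)
    (h2 : ∑ r, qExpand k q (a r) * y ^ (r : ℕ) = 0) : ∀ r, a r = 0 := by
  classical
  set φ := qExpand k q with hφ
  set P : (LaurentSeries k)[X] := ∑ r : Fin (q + 1), C (a r) * X ^ (r : ℕ) with hP
  have hPdeg : P.natDegree < q + 1 := natDegree_sum_C_mul_X_pow_lt (q + 1) (Nat.succ_pos q) a
  have hroot : P.IsRoot (φ y) := by
    rw [IsRoot.def, hP, eval_finsetSum, ← h1]
    refine Finset.sum_congr rfl fun r _ => ?_
    simp
  obtain ⟨G, hG⟩ := dvd_iff_isRoot.mpr hroot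
  have hev : (P.map φ).eval y = 0 := by
    rw [hP, Polynomial.map_sum, eval_finsetSum, ← h2]
    refine Finset.sum_congr rfl fun r _ => ?_
    simp
  have hne : y - φ (φ y) ≠ 0 := by
    intro h0
    have h3 : y = φ (φ y) := sub_eq_zero.mp h0
    have h4 : LeadsWith y ((q : ℤ) * ((q : ℤ) * n₀)) b := by
      have := (hy.qExpand q).qExpand q
      rwa [← h3] at this
    have h5 := (hy.unique h4 hb hb).1
    have h6 : n₀ * ((q : ℤ) * q - 1) = 0 := by linear_combination -h5
    rcases mul_eq_zero.mp h6 with h7 | h7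
    · exact hn₀ h7
    · have : (2 : ℤ) ≤ q := by exact_mod_cast hq
      nlinarith
  have hGev : (G.map φ).eval y = 0 := by
    rw [hG, Polynomial.map_mul, eval_mul] at hev
    rcases mul_eq_zero.mp hev with h | h
    · exfalso
      apply hne
      simpa using h
    · exact h
  have hG0 : G = 0 := by
    by_contra hG0
    have hdeg : G.natDegree < q := by
      have h3 : P.natDegree = 1 + G.natDegree := by
        rw [hG, natDegree_mul (X_sub_C_ne_zero _) hG0, natDegree_X_sub_C]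
      omega
    have hdeg' : (G.map φ).natDegree < q := lt_of_le_of_lt natDegree_map_le hdeg
    rw [eval_eq_sum_range' hdeg', Finset.sum_range] at hGev
    have h4 := g2_indep hy hb hcop (fun r : Fin q => G.coeff r) (by
      rw [← hGev]
      refine Finset.sum_congr rfl fun r _ => ?_
      rw [coeff_map])
    apply hG0
    refine Polynomial.ext fun n => ?_
    by_cases hn : n < q
    · rw [coeff_zero]; exact h4 ⟨n, hn⟩
    · rw [coeff_eq_zero_of_natDegree_lt (by omega), coeff_zero]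
  intro r
  rw [← coeff_sum_C_mul_X_pow (q + 1) a r, ← hP, hG, hG0, mul_zero, coeff_zero]

end Series

end Fermat.Agent.S34
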