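import Fermat.Agent.S18.DW
import Fermat.Agent.GR.FormalHecke
import Fermat.Agent.S34.Gauss2A
import Fermat.Agent.S34.Gauss2B

/-!
# S34, piece G2, part C: Gauss membership / reduction of series: `t ↦ t^q`, inverses, constants;
the sup-normal form at level `qM`
-/

set_option autoImplicit false

namespace Fermat.Agent.S34

open Polynomial IntermediateField Fermat.Agent.S24 Fermat.Agent.S28 Fermat.Agent.S18 ModularCurve

variable {A : ValuationSubring Kb}

/-! ### raw API -/

theorem g2_gsMem_qExpand (q : ℕ) [NeZero q] {f : LaurentSeries Kb} (hf : gsMem A f) :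
    gsMem A (qExpand Kb q f) ∧ gr A (qExpand Kb q f) = qExpand (kA A) q (gr A f) := by
  obtain ⟨Y₁, Y₂, h0, h⟩ := hf
  have h0' : coeffMap (IsLocalRing.residue A) (qExpand A q Y₂) ≠ 0 := by
    rw [coeffMap_qExpand]
    exact fun hh => h0 (qExpand_injective (R := kA A) q (by rw [hh, map_zero]))
  have h' : qExpand Kb q f * coeffMap A.subtype (qExpand A q Y₂) =
      coeffMap A.subtype (qExpand A q Y₁) := by
    rw [coeffMap_qExpand, coeffMap_qExpand, ← map_mul, h]
  refine ⟨⟨_, _, h0', h'⟩, ?_⟩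
  have h1 := gr_mul_eq h0' h'
  have h2 := gr_mul_eq h0 h
  apply mul_right_cancel₀ h0'
  rw [h1, coeffMap_qExpand, coeffMap_qExpand, ← map_mul, h2]

theorem g2_gsMem_jce (m : ℕ) : gsMem A (jce Kb 1 m) ∧ gr A (jce Kb 1 m) = jce (kA A) 1 m := by
  have h1 : jce Kb 1 m = coeffMap A.subtype (jce A 1 m) := (coeffMap_jce_one _ m).symm
  rw [h1]
  exact ⟨gsMem_of _, by rw [gr_of, coeffMap_jce_one]⟩

theorem g2_inv {g : LaurentSeries Kb} (hg : gsMem A g) (h : gr A g ≠ 0) :
    gsMem A g⁻¹ ∧ gr A g⁻¹ = (gr A g)⁻¹ := by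
  have hg0 : g ≠ 0 := by
    rintro rfl
    exact h gr_zero
  obtain ⟨Y₁, Y₂, h0, hY⟩ := hg
  have h1 := gr_mul_eq h0 hY
  have h1' : coeffMap (IsLocalRing.residue A) Y₁ ≠ 0 := by
    rw [← h1]; exact mul_ne_zero h h0
  have hY' : g⁻¹ * coeffMap A.subtype Y₁ = coeffMap A.subtype Y₂ := by
    rw [← hY, ← mul_assoc, inv_mul_cancel₀ hg0, one_mul]
  refine ⟨⟨Y₂, Y₁, h1', hY'⟩, ?_⟩
  have h2 := gr_mul_eq h1' hY'
  rw [← h1] at h2
  apply eq_inv_of_mul_eq_one_left
  apply mul_right_cancel₀ h0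
  rw [one_mul, mul_assoc, h2]

theorem g2_mem_of_gsMem_C {c : Kb} (h : gsMem A (HahnSeries.C c)) : c ∈ A := by
  obtain ⟨Y₁, Y₂, h0, hY⟩ := h
  obtain ⟨n, hn⟩ : ∃ n, (coeffMap (IsLocalRing.residue A) Y₂).coeff n ≠ 0 := by
    by_contra hcon
    push Not at hcon
    exact h0 (HahnSeries.ext (funext hcon))
  rw [coeffMap_coeff] at hn
  have hu : IsUnit (Y₂.coeff n) := by
    by_contra hu
    exact hn ((IsLocalRing.residue_eq_zero_iff _).mpr hu)
  have h1 := congrArg (fun z : LaurentSeries Kb => z.coeff n) hY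
  simp only [HahnSeries.C_mul_eq_smul, HahnSeries.coeff_smul, coeffMap_coeff, smul_eq_mul] at h1
  obtain ⟨u, hu'⟩ := hu
  have h2 : c = ((Y₁.coeff n * ((u⁻¹ : Aˣ) : A) : A) : Kb) := by
    have h3 : ((Y₂.coeff n : A) : Kb) * (((u⁻¹ : Aˣ) : A) : Kb) = 1 := by
      rw [← hu']
      have h5 : ((u : A) * ((u⁻¹ : Aˣ) : A) : A) = 1 := u.mul_inv
      exact congrArg (fun z : A => (z : Kb)) h5
    have h4 : c * ((Y₂.coeff n : A) : Kb) = ((Y₁.coeff n : A) : Kb) := h1
    push_cast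
    rw [← h4, mul_assoc, h3, mul_one]
  rw [h2]
  exact Subtype.property _

theorem g2_C_mul_C_inv {c : Kb} (hc : c ≠ 0) :
    (HahnSeries.C c⁻¹ : LaurentSeries Kb) * HahnSeries.C c = 1 := by
  rw [← map_mul, inv_mul_cancel₀ hc, map_one]

/-- if `c f` is a Gauss unit and `f` is Gauss integral then `c⁻¹` is integral. -/
theorem g2_inv_mem {f : LaurentSeries Kb} (hf : gsMem A f) {c : Kb}
    (h2 : gr A (HahnSeries.C c * f) ≠ 0) : c⁻¹ ∈ A := by
  by_contra hcon
  have hc : c ∈ A := (A.mem_or_inv_mem c).resolve_right hcon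
  have hres : IsLocalRing.residue A ⟨c, hc⟩ = 0 :=
    (valSubring_map_eq_zero_iff A (IsLocalRing.residue A) IsLocalRing.residue_surjective hc).mpr
      (Or.inr hcon)
  apply h2
  rw [gr_mul (gsMem_C hc) hf, gr_C hc, hres, map_zero, zero_mul]

/-! ### `φ = (t ↦ t^q)` preserves the residue function field in characteristic `q` -/

theorem g2_qExpand_intSeries {k : Type} [Field k] (q : ℕ) [NeZero q] [Fact q.Prime] [CharP k q]
    (X : LaurentSeries ℤ) :
    qExpand k q (coeffMap (Int.castRingHom k) X) = coeffMap (Int.castRingHom k) X ^ q := by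
  rw [Fermat.Agent.GR.pow_char_eq_qExpand, coeffMap_coeffMap]
  congr 1
  exact coeffMap_congr (RingHom.ext_int _ _) _

theorem g2_qExpand_jce {k : Type} [Field k] (q : ℕ) [NeZero q] [Fact q.Prime] [CharP k q] (m : ℕ) :
    qExpand k q (jce k 1 m) = jce k 1 m ^ q := by
  rw [← coeffMap_jce_one (Int.castRingHom k) m]
  exact g2_qExpand_intSeries q _

theorem g2_phi_mem {k : Type} [Field k] (q : ℕ) [NeZero q] [Fact q.Prime] [CharP k q] (M : ℕ)
    {x : LaurentSeries k} (hx : x ∈ modularFunctionFieldFullC k M) :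
    qExpand k q x ∈ modularFunctionFieldFullC k M := by
  induction hx using IntermediateField.adjoin_induction with
  | mem x hx =>
    obtain ⟨d, hd, hdN, rfl⟩ := hx
    have := hd
    have h1 : qExpand k d (jqModC k) = jce k 1 d := by rw [jce_one_eq, qE_apply]
    rw [h1, g2_qExpand_jce]
    exact pow_mem (jce_one_mem_full k (NeZero.ne d) hdN) q
  | algebraMap c =>
    rw [algebraMap_eq_C, qExpand_C, ← algebraMap_eq_C]
    exact IntermediateField.algebraMap_mem _ _
  | add x y _ _ hx hy => rw [map_add]; exact add_mem hx hy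
  | inv x _ hx => rw [map_inv₀]; exact inv_mem hx
  | mul x y _ _ hx hy => rw [map_mul]; exact mul_mem hx hy

theorem g2_leadsWith_jce (R : Type*) [CommRing R] (m : ℕ) [NeZero m] :
    LeadsWith (jce R 1 m) (-(m : ℤ)) 1 := by
  have := leadsWith_qExpand_scale_jqModC (R := R) 1 m
  rw [jce, qE_apply]
  simpa using this

end Fermat.Agent.S34
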