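import Fermat.Agent.S18.Descent
import Fermat.Agent.S18.DWAbs
import Fermat.Agent.GR.ES
import Fermat.Agent.S34.Gauss2C

/-!
# S34, piece G2, part D: the sup-normal form and the normal forms for the two Gauss valuations
at level `qM`  (`q ∤ M`, residue characteristic `q`)
-/

set_option autoImplicit false
set_option linter.unusedSectionVars false

namespace Fermat.Agent.S34

open Polynomial IntermediateField Fermat.Agent.S24 Fermat.Agent.S28 Fermat.Agent.S18 ModularCurve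
open Fermat.Agent.GR (GQ galF)

/-- what we need to know about the Atkin-Lehner involution `w_q` of `ℚ̄(X₀(qM))`. -/
structure WqSpec (q M : ℕ) [NeZero q] (w : FN (q * M) ≃ₐ[Kb] FN (q * M)) : Prop where
  incl : ∀ a : FN (q * M), (a : LaurentSeries Kb) ∈ FN M →
    ((w a : FN (q * M)) : LaurentSeries Kb) = qExpand Kb q (a : LaurentSeries Kb)
  invol : ∀ f, w (w f) = f
  gal : ∀ (σ : GQ) (f : FN (q * M)), w (galF (q * M) σ f) = galF (q * M) σ (w f)

theorem g2_jce_mem_FN {m N : ℕ} (hm : m ≠ 0) (h : m ∣ N) : jce Kb 1 m ∈ FN N := by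
  show _ ∈ modularFunctionFieldBar N
  rw [modularFunctionFieldBar_eq]
  exact jce_one_mem_full Kb hm h

section

variable {q M : ℕ} [NeZero q] [NeZero M] {w : FN (q * M) ≃ₐ[Kb] FN (q * M)}

theorem g2_FN_le : FN M ≤ FN (q * M) := FN_le_of_dvd (dvd_mul_left M q)

/-- `j(t^M)` at level `qM`. -/
noncomputable def g2J (q M : ℕ) [NeZero M] : FN (q * M) :=
  ⟨jce Kb 1 M, g2_jce_mem_FN (NeZero.ne M) (dvd_mul_left M q)⟩

/-- `j(t^{qM})` at level `qM`. -/
noncomputable def g2Y (q M : ℕ) [NeZero q] [NeZero M] : FN (q * M) :=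
  ⟨jce Kb 1 (q * M), g2_jce_mem_FN (mul_ne_zero (NeZero.ne q) (NeZero.ne M)) dvd_rfl⟩

theorem WqSpec.w_J (hw : WqSpec q M w) : w (g2J q M) = g2Y q M := by
  apply Subtype.ext
  rw [hw.incl _ (g2_jce_mem_FN (NeZero.ne M) dvd_rfl)]
  show qExpand Kb q (jce Kb 1 M) = jce Kb 1 (q * M)
  rw [← qE_apply, qE_jce (NeZero.ne q) (NeZero.ne M)]

theorem WqSpec.w_Y (hw : WqSpec q M w) : w (g2Y q M) = g2J q M := by
  rw [← hw.w_J, hw.invol]

theorem WqSpec.w_sum (hw : WqSpec q M w) {ι : Type*} [Fintype ι] (n : ι → ℕ)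
    (a : ι → LaurentSeries Kb)
    (ha : ∀ r, a r ∈ FN M) (f : FN (q * M))
    (hf : (f : LaurentSeries Kb) = ∑ r, a r * jce Kb 1 (q * M) ^ n r) :
    ((w f : FN (q * M)) : LaurentSeries Kb) =
      ∑ r, qExpand Kb q (a r) * jce Kb 1 M ^ n r := by
  have h1 : f = ∑ r, (⟨a r, g2_FN_le (ha r)⟩ : FN (q * M)) * g2Y q M ^ n r := by
    apply Subtype.ext
    rw [hf]
    simp only [AddSubmonoidClass.coe_finsetSum, MulMemClass.coe_mul, SubmonoidClass.coe_pow]
    rfl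
  rw [h1, map_sum]
  simp only [AddSubmonoidClass.coe_finsetSum, map_mul, map_pow, MulMemClass.coe_mul,
    SubmonoidClass.coe_pow, hw.w_Y]
  refine Finset.sum_congr rfl fun r _ => ?_
  rw [hw.incl _ (ha r)]
  rfl

theorem WqSpec.w_C_mul (c : Kb) (f : FN (q * M)) :
    ((w (algebraMap Kb (FN (q * M)) c * f) : FN (q * M)) : LaurentSeries Kb) =
      HahnSeries.C c * ((w f : FN (q * M)) : LaurentSeries Kb) := by
  rw [map_mul, AlgEquiv.commutes, MulMemClass.coe_mul, gs_coe_algebraMap]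

end

section

variable (A : ValuationSubring Kb) {q M : ℕ} [NeZero q] [NeZero M] [Fact q.Prime]
  [CharP (kA A) q] {w : FN (q * M) ≃ₐ[Kb] FN (q * M)}

theorem g2_natCast_ne_zero (hqM : ¬ q ∣ M) : (M : kA A) ≠ 0 := by
  rwa [Ne, CharP.cast_eq_zero_iff (kA A) q]

theorem g2_cop (hqM : ¬ q ∣ M) (d : ℤ) (h : (q : ℤ) ∣ d * (-(M : ℤ))) : (q : ℤ) ∣ d := by
  have hp : Prime (q : ℤ) := Nat.prime_iff_prime_int.mp Fact.out
  rcases hp.dvd_or_dvd h with h | h
  · exact h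
  · exfalso
    apply hqM
    rw [dvd_neg] at h
    exact_mod_cast h

/-- reduction of `∑ a_r Y^r` at both valuations. -/
theorem g2_red_sum (hw : WqSpec q M w) (a : Fin (q + 1) → LaurentSeries Kb)
    (ha : ∀ r, a r ∈ FN M) (haV : ∀ r, gsMem A (a r)) (f : FN (q * M))
    (hf : (f : LaurentSeries Kb) = ∑ r, a r * jce Kb 1 (q * M) ^ (r : ℕ)) :
    gsMem A (f : LaurentSeries Kb) ∧ gsMem A ((w f : FN (q * M)) : LaurentSeries Kb) ∧
    gr A (f : LaurentSeries Kb) =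
      ∑ r, gr A (a r) * qExpand (kA A) q (jce (kA A) 1 M) ^ (r : ℕ) ∧
    gr A ((w f : FN (q * M)) : LaurentSeries Kb) =
      ∑ r, qExpand (kA A) q (gr A (a r)) * jce (kA A) 1 M ^ (r : ℕ) := by
  have hwf := hw.w_sum (fun r : Fin (q + 1) => (r : ℕ)) a ha f hf
  have hY := g2_gsMem_jce (A := A) (q * M)
  have hJ := g2_gsMem_jce (A := A) M
  have hφy : qExpand (kA A) q (jce (kA A) 1 M) = jce (kA A) 1 (q * M) := by
    rw [← qE_apply, qE_jce (NeZero.ne q) (NeZero.ne M)]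
  have m1 : ∀ r ∈ (Finset.univ : Finset (Fin (q + 1))),
      gsMem A (a r * jce Kb 1 (q * M) ^ (r : ℕ)) := fun r _ => (haV r).mul (hY.1.pow _)
  have m2 : ∀ r ∈ (Finset.univ : Finset (Fin (q + 1))),
      gsMem A (qExpand Kb q (a r) * jce Kb 1 M ^ (r : ℕ)) := fun r _ =>
    (g2_gsMem_qExpand q (haV r)).1.mul (hJ.1.pow _)
  refine ⟨hf ▸ gsMem_sum _ _ m1, hwf ▸ gsMem_sum _ _ m2, ?_, ?_⟩
  · rw [hf, gr_sum _ _ m1]
    refine Finset.sum_congr rfl fun r _ => ?_
    rw [gr_mul (haV r) (hY.1.pow _), gr_pow hY.1, hY.2, hφy]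
  · rw [hwf, gr_sum _ _ m2]
    refine Finset.sum_congr rfl fun r _ => ?_
    rw [gr_mul (g2_gsMem_qExpand q (haV r)).1 (hJ.1.pow _), gr_pow hJ.1, hJ.2,
      (g2_gsMem_qExpand q (haV r)).2]

/-- orthonormality of `1, Y, …, Y^q`: if both reductions vanish then all `ā_r` vanish. -/
theorem g2_orth (hqM : ¬ q ∣ M) (b : Fin (q + 1) → LaurentSeries (kA A))
    (h1 : ∑ r, b r * qExpand (kA A) q (jce (kA A) 1 M) ^ (r : ℕ) = 0)
    (h2 : ∑ r, qExpand (kA A) q (b r) * jce (kA A) 1 M ^ (r : ℕ) = 0) : ∀ r, b r = 0 :=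
  g2_inj (Fact.out : q.Prime).two_le (g2_leadsWith_jce (kA A) M) one_ne_zero
    (by simpa using NeZero.ne M) (g2_cop hqM) b h1 h2

/-- **sup-normal form.** -/
theorem g2_supForm (hqM : ¬ q ∣ M) (hw : WqSpec q M w) (f : FN (q * M)) (hf : f ≠ 0) :
    ∃ c : Kb, c ≠ 0 ∧ gsMem A (HahnSeries.C c * (f : LaurentSeries Kb)) ∧
      gsMem A (HahnSeries.C c * ((w f : FN (q * M)) : LaurentSeries Kb)) ∧
      gr A (HahnSeries.C c * (f : LaurentSeries Kb)) ∈ modularFunctionFieldFullC (kA A) M ∧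
      gr A (HahnSeries.C c * ((w f : FN (q * M)) : LaurentSeries Kb)) ∈
        modularFunctionFieldFullC (kA A) M ∧
      (gr A (HahnSeries.C c * (f : LaurentSeries Kb)) ≠ 0 ∨
        gr A (HahnSeries.C c * ((w f : FN (q * M)) : LaurentSeries Kb)) ≠ 0) := by
  classical
  have : NeZero (q * M) := ⟨mul_ne_zero (NeZero.ne q) (NeZero.ne M)⟩
  have hMk := g2_natCast_ne_zero A hqM
  have hqMK : ((q * M : ℕ) : Kb) ≠ 0 :=
    Nat.cast_ne_zero.mpr (mul_ne_zero (NeZero.ne q) (NeZero.ne M))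
  obtain ⟨a, ha, hfa⟩ := g2_span Kb (Fact.out : q.Prime) hqMK (f : LaurentSeries Kb)
    ((gs_mem_FN_iff (q * M) _).mp f.2)
  have ha' : ∀ r, a r ∈ FN M := fun r => (gs_mem_FN_iff M _).mpr (ha r)
  set S := gaussSetting A M hMk with hS
  set a' : Fin (q + 1) → FN M := fun r => ⟨a r, ha' r⟩ with ha'def
  have ha0 : a' ≠ 0 := by
    intro h0
    apply hf
    apply Subtype.ext
    rw [hfa]
    refine Finset.sum_eq_zero fun r _ => ?_
    have : a r = 0 := congrArg (fun z : FN M => (z : LaurentSeries Kb)) (congrFun h0 r)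
    rw [this, zero_mul]
  obtain ⟨r₀, hr₀, hmax⟩ := DW.exists_max S.V a' ha0
  obtain ⟨c, hc, hcV, hcV'⟩ := S.scale (a' r₀) hr₀
  have hCc : ∀ z : FN M, ((algebraMap Kb (FN M) c * z : FN M) : LaurentSeries Kb) =
      HahnSeries.C c * (z : LaurentSeries Kb) := fun z => by
    rw [MulMemClass.coe_mul, gs_coe_algebraMap]
  have hbV : ∀ r, gsMem A (HahnSeries.C c * a r) := by
    intro r
    have h1 : algebraMap Kb (FN M) c * a' r ∈ S.V := by
      have h2 := mul_mem hcV (hmax r)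
      have h3 : algebraMap Kb (FN M) c * a' r₀ * ((a' r₀)⁻¹ * a' r) =
          algebraMap Kb (FN M) c * a' r := by
        field_simp
      rwa [h3] at h2
    have h4 : gsMem A ((algebraMap Kb (FN M) c * a' r : FN M) : LaurentSeries Kb) := h1
    rwa [hCc] at h4
  have hbM : ∀ r, HahnSeries.C c * a r ∈ FN M := fun r => by
    have := (algebraMap Kb (FN M) c * a' r : FN M).2
    rwa [hCc] at this
  have hb0 : gr A (HahnSeries.C c * a r₀) ≠ 0 := by
    intro h0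
    have h1 : gsMem A ((algebraMap Kb (FN M) c * a' r₀ : FN M)⁻¹ : FN M) := hcV'
    have h2 : ((algebraMap Kb (FN M) c * a' r₀ : FN M)⁻¹ : FN M) =
        (HahnSeries.C c * a r₀ : LaurentSeries Kb)⁻¹ := by
      have h5 := hCc (a' r₀)
      have h6 : ((algebraMap Kb (FN M) c * a' r₀ : FN M)⁻¹ : FN M) =
          (((algebraMap Kb (FN M) c * a' r₀ : FN M) : LaurentSeries Kb))⁻¹ := rfl
      rw [h6, h5]
    rw [h2] at h1
    have hne : (HahnSeries.C c * a r₀ : LaurentSeries Kb) ≠ 0 := by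
      refine mul_ne_zero ?_ fun h => hr₀ (Subtype.ext h)
      rw [Ne, map_eq_zero_iff _ HahnSeries.C_injective]; exact hc
    have h3 := gr_mul (hbV r₀) h1
    rw [mul_inv_cancel₀ hne, gr_one, h0, zero_mul] at h3
    exact one_ne_zero h3
  have hcf : ((algebraMap Kb (FN (q * M)) c * f : FN (q * M)) : LaurentSeries Kb) =
      ∑ r, HahnSeries.C c * a r * jce Kb 1 (q * M) ^ (r : ℕ) := by
    rw [MulMemClass.coe_mul, gs_coe_algebraMap, hfa, Finset.mul_sum]
    exact Finset.sum_congr rfl fun r _ => (mul_assoc _ _ _).symm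
  obtain ⟨m1, m2, e1, e2⟩ := g2_red_sum A hw (fun r => HahnSeries.C c * a r) hbM hbV _ hcf
  rw [WqSpec.w_C_mul] at m2 e2
  rw [MulMemClass.coe_mul, gs_coe_algebraMap] at m1 e1
  have hβE : ∀ r, gr A (HahnSeries.C c * a r) ∈ modularFunctionFieldFullC (kA A) M :=
    fun r => gr_mem A M hMk (hbM r) (hbV r)
  have hyE : jce (kA A) 1 M ∈ modularFunctionFieldFullC (kA A) M :=
    jce_one_mem_full _ (NeZero.ne M) dvd_rfl
  refine ⟨c, hc, m1, m2, ?_, ?_, ?_⟩
  · rw [e1]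
    exact sum_mem fun r _ => mul_mem (hβE r) (pow_mem (g2_phi_mem q M hyE) _)
  · rw [e2]
    exact sum_mem fun r _ => mul_mem (g2_phi_mem q M (hβE r)) (pow_mem hyE _)
  · by_contra hcon
    push Not at hcon
    rw [e1, e2] at hcon
    exact hb0 (g2_orth A hqM _ hcon.1 hcon.2 r₀)

end

end Fermat.Agent.S34
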