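import Fermat.Agent.S34.Deg
import Fermat.Agent.S34.NDimRed
import Fermat.Agent.S18.NormCrit

/-!
# S34, piece LOWER: `[E₁ : k(y₁)] + [E₂ : k(y₂)] ≤ [F : K(x)]` if `rd x = (y₁, y₂)`
-/

set_option autoImplicit false

namespace Fermat.Agent.S34

open Polynomial IntermediateField Fermat.Agent.S24 Fermat.Agent.S18

variable {K F k E₁ E₂ : Type*} [Field K] [Field F] [Algebra K F] [Field k] [Field E₁] [Field E₂]
  [Algebra k E₁] [Algebra k E₂]

/-- **LOWER.** -/
theorem finrank_add_le_of_rd (S : NSetting K F k (E₁ × E₂)) {x : F} {y₁ : E₁} {y₂ : E₂}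
    (hxV : x ∈ S.V) (hx : S.rd x = (y₁, y₂)) (h₁ : Transcendental k y₁) (h₂ : Transcendental k y₂)
    [FiniteDimensional K⟮x⟯ F] :
    Module.finrank k⟮y₁⟯ E₁ + Module.finrank k⟮y₂⟯ E₂ ≤ Module.finrank K⟮x⟯ F := by
  obtain ⟨e, he⟩ := exists_polyIndepR_prod (k := k) h₁ h₂
  set μ := Module.finrank k⟮y₁⟯ E₁ + Module.finrank k⟮y₂⟯ E₂ with hμ
  have h := he.comp_injective (finSumFinEquiv.symm : Fin μ → _) finSumFinEquiv.symm.injective
  choose f hf using fun i : Fin μ => S.red_surj ((e ∘ finSumFinEquiv.symm) i)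
  have hind : PolyIndepR k (S.rd x) (fun i => S.rd ((f i : S.V) : F)) := by
    rw [hx]
    convert h using 1
    funext i
    rw [S.rd_of_mem (f i).2]
    exact hf i
  have hPI : PolyIndep K x (fun i => ((f i : S.V) : F)) :=
    S.polyIndep_of_rd hxV _ (fun i => (f i).2) hind
  have hli := nc_linearIndependent _ hPI
  have := hli.fintype_card_le_finrank
  rwa [Fintype.card_fin] at this

end Fermat.Agent.S34
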