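import Mathlib
import Fermat.Agent.S24.Defs
import Fermat.Agent.S18.Setting

/-!
# S34: the abstract reduction setting with a residue RING (definitions only; no sorry in this file)

`(K, A, k)`: a field with a valuation ring and its residue field;
`(F, V, R)`: an extension field with a SUBRING `V` (the unit ball of a sup-norm of finitely many
valuations above `A`), and a surjective reduction `red : V → R` onto a commutative `k`-algebra
(a finite product of fields in the application).
-/

set_option autoImplicit false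

namespace Fermat.Agent.S34

open Polynomial IntermediateField Fermat.Agent.S24

/-- The reduction setting with a residue ring. -/
structure NSetting (K F k R : Type*) [Field K] [Field F] [Algebra K F] [Field k] [CommRing R]
    [Algebra k R] where
  A : ValuationSubring K
  V : Subring F
  resA : A →+* k
  red : V →+* R
  resA_surj : Function.Surjective resA
  red_surj : Function.Surjective red
  map_mem : ∀ c : K, c ∈ A → algebraMap K F c ∈ V
  compat : ∀ (c : K) (hc : c ∈ A),
    red ⟨algebraMap K F c, map_mem c hc⟩ = algebraMap k R (resA ⟨c, hc⟩)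
  /-- the sup-norm takes its values in the value group of `A`. -/
  scale : ∀ f : F, f ≠ 0 → ∃ c : K, c ≠ 0 ∧ ∃ h : algebraMap K F c * f ∈ V, red ⟨_, h⟩ ≠ 0
  /-- an element whose reduction is a unit is a unit of `V`. -/
  inv_mem : ∀ (f : F) (h : f ∈ V), IsUnit (red ⟨f, h⟩) → f⁻¹ ∈ V

section
variable {K F k R : Type*} [Field K] [Field F] [Algebra K F] [Field k] [CommRing R] [Algebra k R]

open Classical in
/-- reduction as a total function (junk value `0` outside `V`). -/
noncomputable def NSetting.rd (S : NSetting K F k R) (f : F) : R :=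
  if h : f ∈ S.V then S.red ⟨f, h⟩ else 0

open Classical in
/-- reduction of constants as a total function (junk value `0` outside `A`). -/
noncomputable def NSetting.rc (S : NSetting K F k R) (c : K) : k :=
  if h : c ∈ S.A then S.resA ⟨c, h⟩ else 0

end

section
variable (k : Type*) {R : Type*} [Field k] [CommRing R] [Algebra k R]

/-- linear independence over `k[y]` in a `k`-algebra `R`. -/
def PolyIndepR {ι : Type*} [Fintype ι] (y : R) (e : ι → R) : Prop :=
  ∀ p : ι → k[X], ∑ i, aeval y (p i) * e i = 0 → p = 0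

/-- the polynomial ring `k[y]` inside the `k`-algebra `R`. -/
abbrev polyRingR (y : R) : Subalgebra k R := Algebra.adjoin k {y}

/-- the integral closure of `k[y]` in `R`. -/
abbrev intRingR (y : R) : Subalgebra (polyRingR k y) R := integralClosure (polyRingR k y) R

end

section
variable {K F k R : Type*} [Field K] [Field F] [Algebra K F] [Field k] [CommRing R] [Algebra k R]

/-- `x` is a good coordinate: every nonzero polynomial in `x̄` is a unit of `R` (i.e. `x̄` is
transcendental on every component), `[F : K(x)] < ∞`, and there is a `K(x)`-basis of `F` in `V`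
whose reduction is `k[x̄]`-independent (an orthonormal frame: "no defect"). -/
structure NSetting.Coord (S : NSetting K F k R) (x : F) : Prop where
  mem : x ∈ S.V
  unit : ∀ p : k[X], p ≠ 0 → IsUnit (aeval (S.rd x) p)
  fin : FiniteDimensional K⟮x⟯ F
  frame : ∃ e : Fin (Module.finrank K⟮x⟯ F) → F, (∀ i, e i ∈ S.V) ∧
    PolyIndepR k (S.rd x) (fun i => S.rd (e i))

/-- the reduction of the chart `O = intRing K x`: `B = rd (O ∩ V)`, as a subring of `R`. -/
def NSetting.chart (S : NSetting K F k R) (x : F) : Subring R where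
  carrier := {r | ∃ h : F, h ∈ intRing K x ∧ ∃ hV : h ∈ S.V, S.red ⟨h, hV⟩ = r}
  mul_mem' := by
    rintro _ _ ⟨f, hf, hfV, rfl⟩ ⟨g, hg, hgV, rfl⟩
    exact ⟨f * g, mul_mem hf hg, mul_mem hfV hgV, map_mul S.red ⟨f, hfV⟩ ⟨g, hgV⟩⟩
  one_mem' := ⟨1, one_mem _, one_mem _, map_one S.red⟩
  add_mem' := by
    rintro _ _ ⟨f, hf, hfV, rfl⟩ ⟨g, hg, hgV, rfl⟩
    exact ⟨f + g, add_mem hf hg, add_mem hfV hgV, map_add S.red ⟨f, hfV⟩ ⟨g, hgV⟩⟩
  zero_mem' := ⟨0, zero_mem _, zero_mem _, map_zero S.red⟩
  neg_mem' := by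
    rintro _ ⟨f, hf, hfV, rfl⟩
    exact ⟨-f, neg_mem hf, neg_mem hfV, map_neg S.red ⟨f, hfV⟩⟩

/-- `L̄(a,b) = {r : x̄^a r ∈ B₀, x̄^{-b} r ∈ B_∞}`, with `B₀ = rd (O₀ ∩ V)`, `B_∞ = rd (O_∞ ∩ V)`. -/
def NSetting.Lbar (S : NSetting K F k R) (x : F) (a b : ℕ) : Submodule k R where
  carrier := {r | S.rd x ^ a * r ∈ S.chart x ∧ S.rd x⁻¹ ^ b * r ∈ S.chart x⁻¹}
  add_mem' := by
    rintro f g ⟨hf, hf'⟩ ⟨hg, hg'⟩
    exact ⟨by rw [mul_add]; exact add_mem hf hg, by rw [mul_add]; exact add_mem hf' hg'⟩
  zero_mem' := ⟨by rw [mul_zero]; exact zero_mem _, by rw [mul_zero]; exact zero_mem _⟩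
  smul_mem' := by
    intro c f ⟨hf, hf'⟩
    have key : ∀ (y : F) (g : R), g ∈ S.chart y → c • g ∈ S.chart y := by
      rintro y _ ⟨h, hh, hV, rfl⟩
      obtain ⟨c', rfl⟩ := S.resA_surj c
      refine ⟨algebraMap K F c' * h, ?_, mul_mem (S.map_mem _ c'.2) hV, ?_⟩
      · refine mul_mem ?_ hh
        have : algebraMap K F c' =
            algebraMap (polyRing K y) F (algebraMap K (polyRing K y) c') := rfl
        rw [this]
        exact Subalgebra.algebraMap_mem _ _
      · have h1 : (⟨algebraMap K F c' * h, mul_mem (S.map_mem _ c'.2) hV⟩ : S.V) =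
            ⟨algebraMap K F c', S.map_mem _ c'.2⟩ * ⟨h, hV⟩ := rfl
        rw [h1, map_mul, S.compat, Algebra.smul_def]
    exact ⟨by rw [mul_smul_comm]; exact key _ _ hf, by rw [mul_smul_comm]; exact key _ _ hf'⟩

end

end Fermat.Agent.S34
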