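import Mathlib
import Fermat.Agent.S24.Defs

/-!
# S34: the rational-function facts needed by `exists_nodalZ`

`T = X^e - X`, `π = X T + 1 = X^(e+1) - X^2 + 1`, `w = 1/π(t)`, `v = T(t) w`, `y = v^d`.
* `t^j w` (`j ≤ e + 1`) is integral over `k[y]`;
* `t` and `1/T(t)` are integral over `k[y⁻¹]`.
-/

set_option autoImplicit false

namespace Fermat.Agent.S34

open Polynomial Fermat.Agent.S24

variable {k E : Type*} [Field k] [Field E] [Algebra k E]

/-- transitivity: `v` integral over `k[y]`, `a` integral over `k[v]` ⟹ `a` integral over `k[y]`. -/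
theorem nzrat_trans {y v a : E} (hv : IsIntegral (Algebra.adjoin k {y}) v)
    (ha : IsIntegral (Algebra.adjoin k {v}) a) : IsIntegral (Algebra.adjoin k {y}) a := by
  have hle : Algebra.adjoin k {v} ≤ (integralClosure (Algebra.adjoin k {y}) E).restrictScalars k :=
    Algebra.adjoin_le (Set.singleton_subset_iff.2 hv)
  let φ : Algebra.adjoin k {v} →+* integralClosure (Algebra.adjoin k {y}) E :=
    (algebraMap (Algebra.adjoin k {v}) E).codRestrict (integralClosure (Algebra.adjoin k {y}) E)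
      (fun z => hle z.2)
  have h1 : IsIntegral (integralClosure (Algebra.adjoin k {y}) E) a :=
    ha.map_of_comp_eq φ (RingHom.id E) (RingHom.ext fun _ => rfl)
  exact isIntegral_trans a h1

theorem nzrat_self (y : E) : IsIntegral (Algebra.adjoin k {y}) y :=
  isIntegral_algebraMap (x := (⟨y, Algebra.self_mem_adjoin_singleton k y⟩ : Algebra.adjoin k {y}))

/-- `t^j w`, `j ≤ e + 1`, is integral over `k[v]`. -/
theorem nzrat_s_aux {tb w : E} {e : ℕ} (he : 2 ≤ e) (hw : (tb ^ (e + 1) - tb ^ 2 + 1) * w = 1)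
    (j : ℕ) (hj : j ≤ e + 1) :
    IsIntegral (Algebra.adjoin k {tb ^ e * w - tb * w}) (tb ^ j * w) := by
  set v : E := tb ^ e * w - tb * w with hv
  let vv : Algebra.adjoin k {v} := ⟨v, Algebra.self_mem_adjoin_singleton k v⟩
  let N : Submodule (Algebra.adjoin k {v}) E :=
    Submodule.span _ (Set.range fun l : Fin (e + 2) => tb ^ (l : ℕ) * w)
  have hgen : ∀ l, l ≤ e + 1 → tb ^ l * w ∈ N := fun l hl =>
    Submodule.subset_span ⟨⟨l, by omega⟩, rfl⟩
  have hw0 : w ≠ 0 := by
    rintro rfl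
    simp at hw
  have key : ∀ n, n ≤ 2 * e + 2 → tb ^ n * w ^ 2 ∈ N := by
    intro n
    induction n using Nat.strong_induction_on with
    | _ n ih =>
      intro hn
      by_cases h : n ≤ e
      · have e1 : tb ^ n * w ^ 2 = tb ^ n * w - vv • (tb ^ (n + 1) * w) := by
          have : vv • (tb ^ (n + 1) * w) = v * (tb ^ (n + 1) * w) := rfl
          rw [this, hv]
          calc tb ^ n * w ^ 2 = tb ^ n * w * ((tb ^ (e + 1) - tb ^ 2 + 1) * w)
                - (tb ^ e * w - tb * w) * (tb ^ (n + 1) * w) := by ring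
            _ = _ := by rw [hw, mul_one]
        rw [e1]
        exact sub_mem (hgen n (by omega)) (N.smul_mem _ (hgen (n + 1) (by omega)))
      · obtain ⟨i, rfl⟩ : ∃ i, n = e + 1 + i := ⟨n - (e + 1), by omega⟩
        have e1 : tb ^ (e + 1 + i) * w ^ 2 = tb ^ i * w + tb ^ (i + 2) * w ^ 2 - tb ^ i * w ^ 2 := by
          calc tb ^ (e + 1 + i) * w ^ 2 = tb ^ i * w * ((tb ^ (e + 1) - tb ^ 2 + 1) * w)
                + tb ^ (i + 2) * w ^ 2 - tb ^ i * w ^ 2 := by ring
            _ = _ := by rw [hw, mul_one]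
        rw [e1]
        exact sub_mem (add_mem (hgen i (by omega)) (ih (i + 2) (by omega) (by omega)))
          (ih i (by omega) (by omega))
  refine isIntegral_of_smul_mem_submodule N ?_ (Submodule.fg_span (Set.finite_range _)) _ ?_
  · intro h
    have h1 := hgen 0 (by omega)
    rw [h, Submodule.mem_bot] at h1
    simp [hw0] at h1
  · intro n hn
    induction hn using Submodule.span_induction with
    | mem x hx =>
      obtain ⟨l, rfl⟩ := hx
      have : (tb ^ j * w) • (tb ^ (l : ℕ) * w) = tb ^ (j + l) * w ^ 2 := by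
        rw [smul_eq_mul]; ring
      rw [this]
      exact key _ (by have := l.2; omega)
    | zero => simp
    | add x y _ _ hx hy => rw [smul_add]; exact add_mem hx hy
    | smul r x _ hx => rw [smul_comm]; exact N.smul_mem _ hx

/-- `t^j w`, `j ≤ e + 1`, is integral over `k[y]`, `y = v^d`. -/
theorem nzrat_s {tb w y : E} {e d : ℕ} (he : 2 ≤ e) (hd : 0 < d)
    (hw : (tb ^ (e + 1) - tb ^ 2 + 1) * w = 1) (hy : y = (tb ^ e * w - tb * w) ^ d)
    (j : ℕ) (hj : j ≤ e + 1) : tb ^ j * w ∈ intRing k y := by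
  refine nzrat_trans (v := tb ^ e * w - tb * w) (IsIntegral.of_pow hd ?_) (nzrat_s_aux he hw j hj)
  rw [← hy]
  exact nzrat_self y

/-- `t` is integral over `k[z]`, `z = π(t)/T(t)`. -/
theorem nzrat_t_aux {tb z : E} {e : ℕ} (he : 2 ≤ e)
    (hz : tb ^ (e + 1) - tb ^ 2 + 1 = z * (tb ^ e - tb)) :
    IsIntegral (Algebra.adjoin k {z}) tb := by
  let zz : Algebra.adjoin k {z} := ⟨z, Algebra.self_mem_adjoin_singleton k z⟩
  refine ⟨X ^ (e + 1) + (-X ^ 2 + 1 - C zz * (X ^ e - X)), ?_, ?_⟩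
  · refine monic_X_pow_add ?_
    refine lt_of_le_of_lt (b := (e : WithBot ℕ)) ?_ (by exact_mod_cast Nat.lt_succ_self e)
    compute_degree
    have h2 : (2 : WithBot ℕ) ≤ (e : WithBot ℕ) := by exact_mod_cast he
    have h1 : (1 : WithBot ℕ) ≤ (e : WithBot ℕ) := by exact_mod_cast (by omega : 1 ≤ e)
    exact max_le h2 (max_le le_rfl h1)
  · have : (algebraMap (Algebra.adjoin k {z}) E) zz = z := rfl
    simp only [eval₂_add, eval₂_sub, eval₂_neg, eval₂_mul, eval₂_pow, eval₂_X, eval₂_C, eval₂_one,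
      this]
    linear_combination hz

theorem nzrat_t {tb w y : E} {e d : ℕ} (he : 2 ≤ e) (hd : 0 < d)
    (hw : (tb ^ (e + 1) - tb ^ 2 + 1) * w = 1) (hy : y = (tb ^ e * w - tb * w) ^ d)
    (hT : tb ^ e - tb ≠ 0) :
    tb ∈ intRing k y⁻¹ ∧ (tb ^ e - tb)⁻¹ ∈ intRing k y⁻¹ := by
  set z : E := (tb ^ e * w - tb * w)⁻¹ with hzdef
  have hw0 : w ≠ 0 := by
    rintro rfl
    simp at hw
  have hz : tb ^ (e + 1) - tb ^ 2 + 1 = z * (tb ^ e - tb) := by
    have h1 : tb ^ e * w - tb * w = (tb ^ e - tb) * w := by ring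
    rw [hzdef, h1, mul_inv, mul_comm (tb ^ e - tb)⁻¹, mul_assoc, inv_mul_cancel₀ hT, mul_one]
    exact eq_inv_of_mul_eq_one_left hw
  have hzint : IsIntegral (Algebra.adjoin k {y⁻¹}) z := by
    refine IsIntegral.of_pow hd ?_
    rw [hzdef, inv_pow, ← hy]
    exact nzrat_self _
  have ht : IsIntegral (Algebra.adjoin k {y⁻¹}) tb := nzrat_trans hzint (nzrat_t_aux he hz)
  refine ⟨ht, ?_⟩
  have h2 : (tb ^ e - tb)⁻¹ = z - tb := by
    rw [eq_sub_iff_add_eq, ← mul_right_inj' hT]
    rw [mul_add, mul_inv_cancel₀ hT, mul_comm _ z, ← hz]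
    ring
  rw [h2]
  exact hzint.sub ht

end Fermat.Agent.S34
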