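import Fermat.Agent.S34.LiftAsm
import Fermat.Agent.S34.Lift
import Fermat.Agent.S34.AlgY
import Fermat.Agent.S34.SepAbs

/-!
# S34: `NodalZ D.S D.x` for a `TwoLevel` situation, from `Coord x`, `rd x = (y, y)` and the no-cancellation statements
-/

set_option autoImplicit false
set_option linter.style.haveILetI false

namespace Fermat.Agent.S34

open Polynomial IntermediateField AlgebraicCurve Fermat.Agent.S24 Fermat.Agent.S18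

namespace TwoLevel

variable {q : ℕ} {K F1 F k Fb : Type*} [Field K] [Field F1] [Field F] [Algebra K F1]
  [Algebra K F] [Field k] [Field Fb] [Algebra k Fb] (D : TwoLevel q K F1 F k Fb)

theorem nz_Rf_eq_PL (E : Type*) {L : Type*} [Field E] [Field L] [Algebra E L] (s : L) :
    Rf E q s = PL.Rf (q ^ 2) s := by
  rw [Rf, PL.Rf, aeval_Tpol, aeval_Ppol, PL.Pf, PL.Tf]

theorem nz_y_eq_PL : D.y = PL.Rf (q ^ 2) D.tb ^ (q + 1) := by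
  rw [y, v, nz_Rf_eq_PL]

theorem nz_y_eq_w : D.y = (D.tb ^ (q ^ 2) * (D.tb * (D.tb ^ (q ^ 2) - D.tb) + 1)⁻¹ -
    D.tb * (D.tb * (D.tb ^ (q ^ 2) - D.tb) + 1)⁻¹) ^ (q + 1) := by
  rw [y, v, Rf, aeval_Tpol, aeval_Ppol, div_eq_mul_inv, sub_mul]

/-- **`NodalZ` for the two-level situation.** -/
theorem exists_nodalZ [IsAlgClosed K] [CharZero K] [IsAlgClosed k] [hq : Fact q.Prime] [CharP k q]
    (hxc : D.S.Coord D.x) (hrd : D.S.rd D.x = (D.y, D.y))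
    (hpole : ∀ v : Place K F, v.ord (PL.Rf (q ^ 2) D.tt) < 0 → v.ord D.x < 0)
    (hzero : ∀ v : Place K F, 0 < v.ord (PL.Rf (q ^ 2) D.tt) → 0 < v.ord D.x) :
    ∃ Z : NodalZ D.S D.x, Z.C0 = (nzC k D.y).prod (nzC k D.y) ∧
      ∀ ξ ∈ Z.Ξ, ∀ (r : Fb × Fb) (hr : r ∈ Z.C0)
        (hr' : (D.Fr (D.Fr r.1), D.Fr (D.Fr r.2)) ∈ Z.C0),
        ξ ⟨(D.Fr (D.Fr r.1), D.Fr (D.Fr r.2)), hr'⟩ = ξ ⟨r, hr⟩ := by
  have hq2 : 2 ≤ q := hq.out.two_le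
  have hQ : 2 ≤ q ^ 2 := by nlinarith
  have hx : Transcendental K D.x := hxc.transK
  haveI : CharP Fb q := D.charP_Fb
  haveI : FiniteDimensional k⟮D.tb⟯ Fb := D.coord.finb
  haveI : Algebra.IsSeparable k⟮D.tb⟯ Fb := D.coord.sep
  obtain ⟨hytr, hyfin, hysep, -⟩ := sep_abs (k := k) (q := q) D.tb_trans
  have hytr' : Transcendental k D.y := hytr
  haveI : FiniteDimensional k⟮D.y⟯ Fb := hyfin
  haveI : Algebra.IsSeparable k⟮D.y⟯ Fb := hysep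
  have hFrt : (D.Fr : Fb →+* Fb) D.tb = D.tb ^ q := D.Fr_t
  obtain ⟨htb, hG0, hG, hs⟩ := ay_pack (k := k) D.tb_trans hq2 (D.Fr : Fb →+* Fb) hFrt
  rw [← D.nz_y_eq_w] at htb hG hs
  have L1 : ∀ a ∈ intRing k D.y, ∃ n : ℕ, ∃ h ∈ Lsp K D.t 0 (n * (q ^ 2 + 1)), h ∈ D.S1.V ∧
      D.S1.rd h = PL.Pf (q ^ 2) D.tb ^ n * a := by
    intro a ha
    rw [D.nz_y_eq_PL] at ha
    exact Lift.exists_lift0 D.S1 D.coord D.normal0 D.normalInf hQ ha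
  have L2 : ∀ a ∈ intRing k D.y⁻¹, ∃ n : ℕ, ∃ h ∈ intRing K D.t, h ∈ D.S1.V ∧
      D.S1.rd h = PL.Tf (q ^ 2) D.tb ^ n * a := by
    intro a ha
    rw [D.nz_y_eq_PL] at ha
    exact Lift.exists_liftInf D.S1 D.coord D.normal0 hQ ha
  have hFry : (D.Fr : Fb →+* Fb) D.y = D.y ^ q := by
    rw [D.nz_y_eq_w]
    exact ay_hFry (D.Fr : Fb →+* Fb) hFrt
  exact Fermat.Agent.S34.exists_nodalZ D.S hxc hrd hytr' (D.Fr : Fb →+* Fb) D.Fr.commutes hq2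
    D.Fr_pow hFry (D.lift0 hq2 hx hpole L1) (D.liftInf hq2 hx hzero L2) htb hG0 hG hFrt
    (ay_hFrw (D.Fr : Fb →+* Fb) hFrt) hs D.nz_y_eq_w

end TwoLevel

end Fermat.Agent.S34
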