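import Fermat.Agent.S18.Sep

/-!
# S34, piece SEPY: `E / k(y)` is separable for `y = (T(t̄)/π(t̄))^(q+1)`, `T = X^(q²) - X`, `π = X T + 1`
-/

set_option autoImplicit false

namespace Fermat.Agent.S34

open IntermediateField Polynomial Fermat.Agent.S18

section Abstract

variable {k E M : Type*} [Field k] [Field E] [Algebra k E] [AddCommGroup M] [Module k M]
  [Module E M] (D : Derivation k E M)

/-- `D y = - v^q w² (1 + T²) D t̄ ≠ 0` for `T = t̄^(q²) - t̄`, `w = 1/(t̄ T + 1)`, `v = T w`, `y = v^(q+1)`. -/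
theorem sepY_D_ne_zero [PerfectField k] (q : ℕ) [CharP k q] {tb w y : E} (hD : D tb ≠ 0)
    (hw : w * (tb * (tb ^ (q ^ 2) - tb) + 1) = 1)
    (hy : y = (tb ^ (q ^ 2) * w - tb * w) ^ (q + 1)) : D y ≠ 0 := by
  have hcE : CharP E q := charP_of_injective_algebraMap (algebraMap k E).injective q
  have hq0 : ((q : ℕ) : E) = 0 := CharP.cast_eq_zero E q
  obtain ⟨T, hT⟩ : ∃ T : E, T = tb ^ (q ^ 2) - tb := ⟨_, rfl⟩
  rw [← hT] at hw
  have hDpow : D (tb ^ (q ^ 2)) = 0 := by
    rw [Derivation.leibniz_pow, ← Nat.cast_smul_eq_nsmul E, Nat.cast_pow, hq0,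
      zero_pow (by norm_num), zero_smul]
  have hDT : D T = - D tb := by rw [hT, map_sub, hDpow, zero_sub]
  have hTtr : Transcendental k T := sep_transcendental D (by rw [hDT]; exact neg_ne_zero.mpr hD)
  have hT0 : T ≠ 0 := fun h => hTtr ⟨X, X_ne_zero, by rw [aeval_X, h]⟩
  have hT1 : 1 + T ^ 2 ≠ 0 := fun h =>
    hTtr ⟨X ^ 2 + C 1, (monic_X_pow_add_C (1 : k) (by norm_num)).ne_zero, by
      rw [map_add, map_pow, aeval_X, aeval_C, map_one, add_comm, h]⟩
  have hw0 : w ≠ 0 := fun h => by rw [h, zero_mul] at hw; exact zero_ne_one hw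
  -- `D w`
  have hDP : D (tb * T + 1) = (T - tb) • D tb := by
    rw [map_add, Derivation.map_one_eq_zero, add_zero, Derivation.leibniz, hDT, smul_neg, sub_smul]
    abel
  have hDw : D w = -(w ^ 2 * (T - tb)) • D tb := by
    have h1 : D (w * (tb * T + 1)) = 0 := by rw [hw, Derivation.map_one_eq_zero]
    rw [Derivation.leibniz, hDP, smul_smul] at h1
    have h2 : w • ((tb * T + 1) • D w) = -(w • ((w * (T - tb)) • D tb)) := by
      rw [← smul_neg]
      congr 1
      exact eq_neg_of_add_eq_zero_right h1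
    rw [smul_smul, hw, one_smul, smul_smul] at h2
    rw [h2, neg_smul]
    congr 2
    ring
  have hv : tb ^ (q ^ 2) * w - tb * w = T * w := by rw [hT]; ring
  have hDv : D (T * w) = -(w ^ 2 * (1 + T ^ 2)) • D tb := by
    rw [Derivation.leibniz, hDw, hDT, smul_smul, smul_neg, ← neg_smul, ← add_smul]
    congr 1
    have : w = w ^ 2 * (tb * T + 1) := by rw [pow_two, mul_assoc, hw, mul_one]
    linear_combination (-1 : E) * this
  rw [hy, hv, Derivation.leibniz_pow, ← Nat.cast_smul_eq_nsmul E, Nat.cast_add, hq0, zero_add,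
    Nat.cast_one, one_smul, Nat.add_sub_cancel, hDv, smul_smul]
  exact smul_ne_zero (mul_ne_zero (pow_ne_zero _ (mul_ne_zero hT0 hw0))
    (neg_ne_zero.mpr (mul_ne_zero (pow_ne_zero _ hw0) hT1))) hD

end Abstract

/-- **SEPY** for subfields of `k((t))`. -/
theorem isSeparable_sepY {k : Type*} [Field k] [PerfectField k] (q : ℕ) [CharP k q]
    (E : IntermediateField k (LaurentSeries k)) {tb w y : E}
    (n : ℤ) (hn : (n : k) ≠ 0) (htb : (tb : LaurentSeries k).coeff n ≠ 0)
    (hw : w * (tb * (tb ^ (q ^ 2) - tb) + 1) = 1)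
    (hy : y = (tb ^ (q ^ 2) * w - tb * w) ^ (q + 1)) [Algebra.IsAlgebraic k⟮y⟯ E] :
    Algebra.IsSeparable k⟮y⟯ E := by
  let D : Derivation k E (LaurentSeries k) := (sepD (k := k)).compAlgebraMap E
  refine sep_abstract D (x := y) (sepY_D_ne_zero D q (tb := tb) ?_ hw hy)
  intro h
  have h1 : (sepTheta (tb : LaurentSeries k)).coeff n = 0 := by
    have : sepTheta (tb : LaurentSeries k) = 0 := h
    rw [this, HahnSeries.coeff_zero]
  rw [sepTheta_coeff] at h1
  exact (mul_ne_zero hn htb) h1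

/-- transcendence of `y` from the same hypotheses. -/
theorem transcendental_sepY {k : Type*} [Field k] [PerfectField k] (q : ℕ) [CharP k q]
    (E : IntermediateField k (LaurentSeries k)) {tb w y : E}
    (n : ℤ) (hn : (n : k) ≠ 0) (htb : (tb : LaurentSeries k).coeff n ≠ 0)
    (hw : w * (tb * (tb ^ (q ^ 2) - tb) + 1) = 1)
    (hy : y = (tb ^ (q ^ 2) * w - tb * w) ^ (q + 1)) : Transcendental k y := by
  let D : Derivation k E (LaurentSeries k) := (sepD (k := k)).compAlgebraMap E
  refine sep_transcendental D (x := y) (sepY_D_ne_zero D q (tb := tb) ?_ hw hy)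
  intro h
  have h1 : (sepTheta (tb : LaurentSeries k)).coeff n = 0 := by
    have : sepTheta (tb : LaurentSeries k) = 0 := h
    rw [this, HahnSeries.coeff_zero]
  rw [sepTheta_coeff] at h1
  exact (mul_ne_zero hn htb) h1

end Fermat.Agent.S34
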