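import Fermat.Agent.S34.SepY
import Fermat.Agent.S18.ModCoord

/-!
# S34, piece SEPY: the modular instance (`t̄` = reduction of the Hauptmodul `t₂` resp. `t₃`)
-/

set_option autoImplicit false

namespace Fermat.Agent.S34

open IntermediateField Polynomial Fermat.Agent.S18 Fermat.Agent.S24 ModularCurve

theorem tZ2_coeff_neg_one : tZ2.coeff (-1) = 1 := by
  obtain ⟨U, hU0, hU⟩ := tZ2_eq
  rw [hU]; exact hc_coeff_neg_one U hU0

theorem tZ3_coeff_neg_one : tZ3.coeff (-1) = 1 := by
  obtain ⟨U, hU0, hU⟩ := tZ3_eq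
  rw [hU]; exact hc_coeff_neg_one U hU0

/-- the reduction of an element with integral `t`-expansion is the coefficientwise reduction. -/
theorem coe_rd_of_int (A : ValuationSubring Kb) (N : ℕ) [NeZero N]
    (S : RedSetting Kb (FN N) (kA A) (modularFunctionFieldFullC (kA A) N)) (hS : IsGauss A N S)
    (tZ : LaurentSeries ℤ) (x : FN N) (hx : (x : LaurentSeries Kb) = coeffMap (Int.castRingHom Kb) tZ) :
    x ∈ S.V ∧ ((S.rd x : modularFunctionFieldFullC (kA A) N) : LaurentSeries (kA A))
      = coeffMap (Int.castRingHom (kA A)) tZ := by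
  have hY2 : coeffMap (IsLocalRing.residue A) (1 : LaurentSeries A) ≠ 0 := by
    rw [map_one]; exact one_ne_zero
  have hY : (x : LaurentSeries Kb) * coeffMap A.subtype (1 : LaurentSeries A)
      = coeffMap A.subtype (coeffMap (Int.castRingHom A) tZ) := by
    rw [map_one, mul_one, hx, coeffMap_coeffMap]
    exact coeffMap_congr (RingHom.ext_int _ _) _
  refine ⟨(hS.mem_iff x).2 ⟨_, 1, hY2, hY⟩, ?_⟩
  have := hS.rd_mul x _ 1 hY2 hY
  rw [map_one, mul_one, coeffMap_coeffMap] at this
  rw [this]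
  exact coeffMap_congr (RingHom.ext_int _ _) _

/-- **SEPY, modular form**: `tb : k(X₀(M))` with `t`-expansion `t⁻¹ + …` (integral coefficients). -/
theorem isSeparable_sepY_mod (A : ValuationSubring Kb) (M q : ℕ) [CharP (kA A) q]
    (tZ : LaurentSeries ℤ) (htZ : tZ.coeff (-1) = 1)
    {tb w y : modularFunctionFieldFullC (kA A) M}
    (htb : (tb : LaurentSeries (kA A)) = coeffMap (Int.castRingHom (kA A)) tZ)
    (hw : w * (tb * (tb ^ (q ^ 2) - tb) + 1) = 1)
    (hy : y = (tb ^ (q ^ 2) * w - tb * w) ^ (q + 1))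
    [Algebra.IsAlgebraic (kA A)⟮y⟯ (modularFunctionFieldFullC (kA A) M)] :
    Algebra.IsSeparable (kA A)⟮y⟯ (modularFunctionFieldFullC (kA A) M) := by
  have hac : IsAlgClosed (kA A) := isAlgClosed_kA A
  exact isSeparable_sepY q (modularFunctionFieldFullC (kA A) M) (-1) (by simp)
    (by rw [htb, coeffMap_coeff, htZ, map_one]; exact one_ne_zero) hw hy

theorem transcendental_sepY_mod (A : ValuationSubring Kb) (M q : ℕ) [CharP (kA A) q]
    (tZ : LaurentSeries ℤ) (htZ : tZ.coeff (-1) = 1)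
    {tb w y : modularFunctionFieldFullC (kA A) M}
    (htb : (tb : LaurentSeries (kA A)) = coeffMap (Int.castRingHom (kA A)) tZ)
    (hw : w * (tb * (tb ^ (q ^ 2) - tb) + 1) = 1)
    (hy : y = (tb ^ (q ^ 2) * w - tb * w) ^ (q + 1)) : Transcendental (kA A) y := by
  have hac : IsAlgClosed (kA A) := isAlgClosed_kA A
  exact transcendental_sepY q (modularFunctionFieldFullC (kA A) M) (-1) (by simp)
    (by rw [htb, coeffMap_coeff, htZ, map_one]; exact one_ne_zero) hw hy

end Fermat.Agent.S34
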