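import Fermat.Agent.S34.NBasic
import Fermat.Agent.S34.NodalZ
import Fermat.Agent.S18.Basic

/-!
# S34:COORD, definitions: the two-level situation `X₀(qM) → X₀(M)` in abstract form, and the coordinate `x`

`F1 = ℚ̄(X₀(M))` with its Gauss setting `S1` (good reduction, residue field `Fb`), `F = ℚ̄(X₀(qM))` with the sup-norm setting `S`
(residue ring `Fb × Fb`), `ι : F1 → F` the inclusion, `w = w_q`, `Fr a = a(t^q)` (`k`-linear!), `t` = the Hauptmodul `t₂`/`t₃`.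
No sorry in this file.
-/

set_option autoImplicit false

namespace Fermat.Agent.S34

open Polynomial IntermediateField Fermat.Agent.S24 Fermat.Agent.S18

/-- `T = X^(q²) - X`. -/
noncomputable def Tpol (R : Type*) [CommRing R] (q : ℕ) : R[X] := X ^ (q ^ 2) - X

/-- `P = X T + 1` (no root in `𝔽_{q²}`; `P - X T = 1`). -/
noncomputable def Ppol (R : Type*) [CommRing R] (q : ℕ) : R[X] := X * Tpol R q + 1

/-- The two-level situation. -/
structure TwoLevel (q : ℕ) (K F1 F k Fb : Type*) [Field K] [Field F1] [Field F] [Algebra K F1]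
    [Algebra K F] [Field k] [Field Fb] [Algebra k Fb] where
  S1 : RedSetting K F1 k Fb
  S : NSetting K F k (Fb × Fb)
  ι : F1 →ₐ[K] F
  w : F ≃ₐ[K] F
  Fr : Fb →ₐ[k] Fb
  t : F1
  w_w : ∀ f, w (w f) = f
  ι_mem : ∀ f ∈ S1.V, ι f ∈ S.V
  rd_ι : ∀ f ∈ S1.V, S.rd (ι f) = (S1.rd f, Fr (S1.rd f))
  w_mem : ∀ f ∈ S.V, w f ∈ S.V
  rd_w : ∀ f ∈ S.V, S.rd (w f) = (S.rd f).swap
  /-- `Fr a = (φ⁻¹ a)^q`. -/
  Fr_pow : ∀ a : Fb, ∃ b : Fb, Fr a = b ^ q
  coord : S1.Coord t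
  normal0 : S1.NormalRed t
  normalInf : S1.NormalRed t⁻¹
  /-- `t̄` has coefficients in `𝔽_q`. -/
  Fr_t : Fr (S1.rd t) = S1.rd t ^ q
  fin : FiniteDimensional K⟮ι t⟯ F
  /-- `[F : F1] ≤ q + 1`. -/
  deg_le : Module.finrank K⟮ι t⟯ F ≤ (q + 1) * Module.finrank K⟮t⟯ F1

namespace TwoLevel

variable {q : ℕ} {K F1 F k Fb : Type*} [Field K] [Field F1] [Field F] [Algebra K F1]
  [Algebra K F] [Field k] [Field Fb] [Algebra k Fb] (D : TwoLevel q K F1 F k Fb)

/-- `t` in `F`. -/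
def tt : F := D.ι D.t

/-- `t_q = w t = t(qz)`. -/
def tq : F := D.w (D.ι D.t)

/-- `Rf(s) = T(s)/P(s)`. -/
noncomputable def Rf (E : Type*) {L : Type*} [Field E] [Field L] [Algebra E L] (q : ℕ) (s : L) : L :=
  aeval s (Tpol E q) / aeval s (Ppol E q)

/-- **the coordinate** `x = Rf(t) Rf(t_q)`. -/
noncomputable def x : F := Rf K q D.tt * Rf K q D.tq

/-- `t̄`. -/
noncomputable def tb : Fb := D.S1.rd D.t

/-- `v = Rf(t̄)`. -/
noncomputable def v : Fb := Rf k q D.tb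

/-- `y = v^(q+1)`; `rd x = (y, y)`. -/
noncomputable def y : Fb := D.v ^ (q + 1)

end TwoLevel

end Fermat.Agent.S34
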