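import Fermat.Agent.GR.TowerAsm

/-!
# S34, piece PROV (formal half): from `(τ - 1)² = 0` on Kummer classes at an auxiliary level to the tower

* `UnipAt N₁ q` : for every `A ∣ q`, `τ ∈ I_A`, `q ∤ m` and every `u ∈ ℚ̄(X₀(N₁))^×` with `m ∣ div u`,
  `τ²u · u / (τu)²` is an `m`-th power.
* `UnipAt.descend` : `N ∣ N₁`: the same at level `N` up to the exponent `d₀ = [F_{N₁} : F_N]` (norm).
* `unip_tower` : `d₀ (τ - 1)² = 0` on `GR.towerOfAnData D`.
-/

set_option autoImplicit false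
set_option linter.style.haveILetI false

namespace Fermat.Agent.S34

open ModularCurve AlgebraicCurve IntermediateField Fermat.Agent.S24 Fermat.Agent.S18 Fermat.Agent.GR

/-- `(τ - 1)² = 0` on the Kummer classes of `ℚ̄(X₀(N₁))`, for the inertia groups over `q`. -/
def UnipAt (N₁ q : ℕ) : Prop :=
  ∀ A : ValuationSubring Kb, A.LiesOverPrime q → ∀ m : ℕ, ¬ q ∣ m → ∀ τ ∈ A.inertiaSubgroupIn ℚ,
    ∀ u : FN N₁, u ≠ 0 → DvdOrd N₁ m u →
      ∃ w : FN N₁, galF N₁ τ (galF N₁ τ u) * u = galF N₁ τ u ^ 2 * w ^ m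

/-- the norm argument, abstractly -/
theorem norm_argument {K L : Type*} [Field K] [Field L] (i : K →+* L)
    (hfin : @Module.Finite K L _ _ i.toAlgebra.toModule) : ∃ d₀ : ℕ, 0 < d₀ ∧
    ∀ (m : ℕ) (x : K) (w' : L), i x = w' ^ m → ∃ w : K, x ^ d₀ = w ^ m := by
  letI := i.toAlgebra
  haveI : Module.Finite K L := hfin
  refine ⟨Module.finrank K L, Module.finrank_pos, fun m x w' hw => ?_⟩
  refine ⟨Algebra.norm K w', ?_⟩
  rw [← map_pow, ← hw]
  exact (Algebra.norm_algebraMap x).symm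

section Level

variable {N N' : ℕ} (h : N ∣ N')

theorem exists_inclFN_eq (c : Kb⟮jBar N'⟯) : ∃ c' : FN N, inclFN h c' = (c : FN N') := by
  have hmap : (Kb⟮jBar N⟯).map (inclFN h) = Kb⟮jBar N'⟯ := by
    rw [IntermediateField.adjoin_map, Set.image_singleton, inclFN_jBar]
  have hc : (c : FN N') ∈ (Kb⟮jBar N⟯).map (inclFN h) := by rw [hmap]; exact c.2
  obtain ⟨c', -, hc'⟩ := (IntermediateField.mem_map _).mp hc
  exact ⟨c', hc'⟩

theorem finite_inclFN [NeZero N'] :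
    @Module.Finite (FN N) (FN N') _ _ (inclFN h).toRingHom.toAlgebra.toModule := by
  letI := (inclFN h).toRingHom.toAlgebra
  letI : Module (FN N) (FN N') := Algebra.toModule
  haveI := (finrank_modularFunctionFieldBar N').1
  obtain ⟨s, hs⟩ := (inferInstance : Module.Finite Kb⟮jBar N'⟯ (FN N')).fg_top
  refine ⟨⟨s, ?_⟩⟩
  rw [eq_top_iff]
  intro y _
  have hy : y ∈ Submodule.span Kb⟮jBar N'⟯ (s : Set (FN N')) := by rw [hs]; trivial
  induction hy using Submodule.span_induction with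
  | mem x hx => exact Submodule.subset_span hx
  | zero => exact Submodule.zero_mem _
  | add x y _ _ hx hy => exact Submodule.add_mem _ (hx trivial) (hy trivial)
  | smul c x _ hx =>
    obtain ⟨c', hc'⟩ := exists_inclFN_eq h c
    have : c • x = c' • x := by
      rw [Algebra.smul_def, Algebra.smul_def]
      congr 1
      exact hc'.symm
    rw [this]
    exact Submodule.smul_mem _ _ (hx trivial)

/-- the norm argument -/
theorem exists_pow_eq_of_inclFN_eq_pow [NeZero N'] : ∃ d₀ : ℕ, 0 < d₀ ∧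
    ∀ (m : ℕ) (x : FN N) (w' : FN N'), inclFN h x = w' ^ m → ∃ w : FN N, x ^ d₀ = w ^ m :=
  norm_argument (inclFN h).toRingHom (finite_inclFN h)

theorem galF_inclFN (σ : GQ) (x : FN N) : galF N' σ (inclFN h x) = inclFN h (galF N σ x) := by
  apply Subtype.ext
  rw [coe_galF, coe_inclFN, coe_inclFN, coe_galF]

theorem dvdOrd_inclFN [NeZero N'] {m : ℕ} {u : FN N} (hu : DvdOrd N m u) :
    DvdOrd N' m (inclFN h u) := by
  letI := (inclFN h).toRingHom.toAlgebra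
  haveI : IsScalarTower Kb (FN N) (FN N') := IsScalarTower.of_algebraMap_eq fun _ => rfl
  haveI : Algebra.IsAlgebraic (FN N) (FN N') := ⟨fun y => by
    obtain ⟨p, hp0, hp⟩ := isAlgebraic_inclFN h y
    exact ⟨p, hp0, hp⟩⟩
  exact fun P' => dvd_ord_algebraMap u (m : ℤ) hu P'

/-- descent of `UnipAt` to a divisor of the level, up to a constant exponent. -/
theorem UnipAt.descend {N N' : ℕ} [NeZero N'] {q : ℕ} (H : UnipAt N' q) (h : N ∣ N') :
    ∃ d₀ : ℕ, 0 < d₀ ∧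
    ∀ A : ValuationSubring Kb, A.LiesOverPrime q → ∀ m : ℕ, ¬ q ∣ m →
      ∀ τ ∈ A.inertiaSubgroupIn ℚ, ∀ u : FN N, u ≠ 0 → DvdOrd N m u →
        ∃ w : FN N, (galF N τ (galF N τ u) * u) ^ d₀ = (galF N τ u ^ 2) ^ d₀ * w ^ m := by
  obtain ⟨d₀, hd₀, hn⟩ := exists_pow_eq_of_inclFN_eq_pow h
  refine ⟨d₀, hd₀, fun A hA m hm τ hτ u hu hord => ?_⟩
  have hu' : inclFN h u ≠ 0 := by
    rw [Ne, map_eq_zero]; exact hu
  obtain ⟨w', hw'⟩ := H A hA m hm τ hτ (inclFN h u) hu' (dvdOrd_inclFN h hord)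
  have hτu : galF N τ u ≠ 0 := by
    rw [Ne, map_eq_zero_iff _ (galF N τ).injective]; exact hu
  obtain ⟨w, hw⟩ := hn m (galF N τ (galF N τ u) * u * (galF N τ u ^ 2)⁻¹) w' (by
    rw [galF_inclFN, galF_inclFN] at hw'
    have h2 : inclFN h (galF N τ u) ≠ 0 := by rw [Ne, map_eq_zero]; exact hτu
    rw [map_mul, map_mul, hw', map_inv₀, map_pow]
    field_simp)
  refine ⟨w, ?_⟩
  rw [← hw, mul_pow _ ((galF N τ u ^ 2)⁻¹), inv_pow]
  field_simp

end Level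

section Tower

variable {p N : ℕ} [NeZero N] (D : AnData p N) [hp : Fact p.Prime]

theorem unip_gen {q d₀ : ℕ} (hq : q.Prime) (hqp : q ≠ p)
    (H : ∀ A : ValuationSubring Kb, A.LiesOverPrime q → ∀ m : ℕ, ¬ q ∣ m →
      ∀ τ ∈ A.inertiaSubgroupIn ℚ, ∀ u : FN N, u ≠ 0 → DvdOrd N m u →
        ∃ w : FN N, (galF N τ (galF N τ u) * u) ^ d₀ = (galF N τ u ^ 2) ^ d₀ * w ^ m)
    (n : ℕ) {P : ValuationSubring Qb} (hP : P.LiesOverPrime q) {τ : GQ}
    (hτ : τ ∈ P.inertiaSubgroupIn ℚ) (g : GQ) (h : D.H) :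
    d₀ • (actQ (p ^ n) τ (actQ (p ^ n) τ (gen D n g h)) + gen D n g h) =
      d₀ • (2 • actQ (p ^ n) τ (gen D n g h)) := by
  obtain ⟨w, hw⟩ := H P hP (p ^ n) (not_dvd_pow hq hqp n) τ hτ (galF N g (D.u n h))
    (galF_u_ne D n g h) ((dvdOrd_u D n h).galF g)
  have hne : ∀ (σ : GQ) {x : FN N}, x ≠ 0 → galF N σ x ≠ 0 := fun σ x hx => by
    rwa [Ne, map_eq_zero_iff _ (galF N σ).injective]
  have h0 := galF_u_ne D n g h
  rw [gen, actQ_cls, actQ_cls, ← cls_mul (hne τ (hne τ h0)) h0, ← cls_pow (hne τ h0),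
    ← cls_pow (mul_ne_zero (hne τ (hne τ h0)) h0), ← cls_pow (pow_ne_zero _ (hne τ h0))]
  exact cls_eq_of_eq_mul_pow (pow_ne_zero _ (mul_ne_zero (hne τ (hne τ h0)) h0)) hw

theorem unip_AS {q d₀ : ℕ} (hq : q.Prime) (hqp : q ≠ p)
    (H : ∀ A : ValuationSubring Kb, A.LiesOverPrime q → ∀ m : ℕ, ¬ q ∣ m →
      ∀ τ ∈ A.inertiaSubgroupIn ℚ, ∀ u : FN N, u ≠ 0 → DvdOrd N m u →
        ∃ w : FN N, (galF N τ (galF N τ u) * u) ^ d₀ = (galF N τ u ^ 2) ^ d₀ * w ^ m)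
    (n : ℕ) {P : ValuationSubring Qb} (hP : P.LiesOverPrime q) {τ : GQ}
    (hτ : τ ∈ P.inertiaSubgroupIn ℚ) {y : KQ N (p ^ n)} (hy : y ∈ AS D n) :
    d₀ • (actQ (p ^ n) τ (actQ (p ^ n) τ y) + y) = d₀ • (2 • actQ (p ^ n) τ y) :=
  eq_on_AS D (d₀ • ((actQ (p ^ n) τ).comp (actQ (p ^ n) τ) + AddMonoidHom.id _))
    (d₀ • (2 • actQ (p ^ n) τ)) (fun g h => unip_gen D hq hqp H n hP hτ g h) hy

/-- **PROV, formal half.** `d₀ (τ - 1)² = 0` on the tower of the analytic data. -/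
theorem unip_tower {q N' : ℕ} [NeZero N'] (hNN' : N ∣ N') (hq : q.Prime) (hqp : q ≠ p)
    (H : UnipAt N' q) : ∃ d₀ : ℕ, 0 < d₀ ∧
      ∀ (m : ℕ) (P : ValuationSubring Qb), P.LiesOverPrime q →
        ∀ τ ∈ P.inertiaSubgroupIn ℚ, ∀ x : (towerOfAnData D).A m,
          d₀ • ((towerOfAnData D).act m τ ((towerOfAnData D).act m τ x)
            - 2 • (towerOfAnData D).act m τ x + x) = 0 := by
  obtain ⟨d₀, hd₀, H'⟩ := H.descend hNN'
  refine ⟨d₀, hd₀, fun m P hP τ hτ x => Subtype.ext ?_⟩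
  have h1 := unip_AS D hq hqp H' m hP hτ x.2
  have h2 : d₀ • (actQ (p ^ m) τ (actQ (p ^ m) τ x.1) - 2 • actQ (p ^ m) τ x.1 + x.1) = 0 := by
    rw [← sub_eq_zero, ← smul_sub] at h1
    rw [← h1]
    congr 1
    abel
  exact h2

end Tower

end Fermat.Agent.S34
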