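import Fermat.Agent.S34.Unip
import Fermat.Agent.S34.Gauss2

/-!
# S34, piece PROV (modular half): `UnipAt (q * M) q` from the toric Kummer lemma at level `q M`

For `τ ∈ I_A` and `u ≠ 0` the quotient `w₀ = τ u / u` reduces to a pair of nonzero constants
`(κ₁, κ₂)` for the two Gauss valuations; multiplying by an `m`-th power we get a representative `≡ 1`, on which
`τ` acts trivially modulo `m`-th powers by the toric Kummer lemma.
-/

set_option autoImplicit false
set_option linter.unusedSectionVars false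

namespace Fermat.Agent.S34

open ModularCurve AlgebraicCurve Fermat.Agent.S24 Fermat.Agent.S28 Fermat.Agent.S18 Fermat.Agent.GR

/-! ### the decomposition group preserves the valuation -/

theorem exists_pow_fix (τ : GQ) (c : Kb) : ∃ n : ℕ, 0 < n ∧ (τ ^ n) c = c := by
  have hc : IsIntegral ℚ c := ((AlgebraicClosure.isAlgebraic ℚ).isAlgebraic c).isIntegral
  have hfin : ((minpoly ℚ c).rootSet Kb).Finite := Polynomial.rootSet_finite _ _
  have hmem : ∀ i : ℕ, (τ ^ i) c ∈ (minpoly ℚ c).rootSet Kb := by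
    intro i
    rw [Polynomial.mem_rootSet]
    refine ⟨minpoly.ne_zero hc, ?_⟩
    have := Polynomial.aeval_algHom_apply ((τ ^ i : GQ) : Kb →ₐ[ℚ] Kb) c (minpoly ℚ c)
    rw [minpoly.aeval, map_zero] at this
    exact this
  obtain ⟨i, j, hij, h⟩ := Set.Finite.exists_lt_map_eq_of_forall_mem hmem hfin
  refine ⟨j - i, Nat.sub_pos_of_lt hij, ?_⟩
  have h1 : τ ^ j = τ ^ i * τ ^ (j - i) := by rw [← pow_add, Nat.add_sub_cancel' hij.le]
  rw [h1, AlgEquiv.mul_apply] at h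
  exact ((τ ^ i).injective h).symm

section Decomp

variable {A : ValuationSubring Kb}

theorem decomp_mem (g : A.decompositionSubgroup ℚ) {x : Kb} (hx : x ∈ A) : (g : GQ) x ∈ A :=
  (g • (⟨x, hx⟩ : A)).2

theorem decomp_mem_iff (g : A.decompositionSubgroup ℚ) {x : Kb} : (g : GQ) x ∈ A ↔ x ∈ A := by
  refine ⟨fun h => ?_, decomp_mem g⟩
  have := decomp_mem g⁻¹ h
  have h2 : ((g⁻¹ : A.decompositionSubgroup ℚ) : GQ) ((g : GQ) x) = x := by
    rw [Subgroup.coe_inv]
    exact (g : GQ).symm_apply_apply x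
  rwa [h2] at this

theorem not_mem_mul {x y : Kb} (hx : x ∉ A) (hy : y ∉ A) : x * y ∉ A := by
  rw [← A.valuation_le_one_iff, not_le] at hx hy ⊢
  rw [map_mul]
  exact one_lt_mul'' hx hy

/-- `τ c / c` is integral for `τ` in the decomposition group. -/
theorem decomp_div_mem (g : A.decompositionSubgroup ℚ) {c : Kb} (hc : c ≠ 0) :
    (g : GQ) c / c ∈ A := by
  by_contra hcon
  obtain ⟨n, hn, hfix⟩ := exists_pow_fix (g : GQ) c
  have hne : ∀ i : ℕ, ((g : GQ) ^ i) c ≠ 0 := fun i => by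
    rw [Ne, map_eq_zero_iff _ ((g : GQ) ^ i).injective]; exact hc
  have hstep : ∀ i : ℕ, ((g : GQ) ^ (i + 1)) c / ((g : GQ) ^ i) c ∉ A := by
    intro i
    have h1 : ((g : GQ) ^ (i + 1)) c / ((g : GQ) ^ i) c = ((g ^ i : A.decompositionSubgroup ℚ) : GQ)
        ((g : GQ) c / c) := by
      rw [map_div₀, Subgroup.coe_pow, pow_succ, AlgEquiv.mul_apply]
    rw [h1, decomp_mem_iff]
    exact hcon
  have hprod : ∀ k : ℕ, ((g : GQ) ^ (k + 1)) c / c ∉ A := by
    intro k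
    induction k with
    | zero => simpa using hcon
    | succ k ih =>
      have h2 : ((g : GQ) ^ (k + 1 + 1)) c / c =
          (((g : GQ) ^ (k + 1 + 1)) c / ((g : GQ) ^ (k + 1)) c) * (((g : GQ) ^ (k + 1)) c / c) := by
        have := hne (k + 1)
        field_simp
      rw [h2]
      exact not_mem_mul (hstep (k + 1)) ih
  obtain ⟨k, rfl⟩ : ∃ k, n = k + 1 := ⟨n - 1, by omega⟩
  apply hprod k
  rw [hfix, div_self hc]
  exact A.one_mem

theorem decomp_div_inv_mem (g : A.decompositionSubgroup ℚ) {c : Kb} (hc : c ≠ 0) :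
    ((g : GQ) c / c)⁻¹ ∈ A := by
  have := decomp_div_mem g (inv_ne_zero hc)
  rwa [map_inv₀, ← inv_div_inv, inv_inv, inv_inv, ← inv_div] at this

/-! ### inertia acts trivially on Gauss reductions -/

theorem gs_inertia (g : A.decompositionSubgroup ℚ) (hg : g ∈ A.inertiaSubgroup ℚ)
    {f : LaurentSeries Kb} (hf : gsMem A f) :
    gsMem A (coeffMap ((g : GQ) : Kb →+* Kb) f) ∧
      gr A (coeffMap ((g : GQ) : Kb →+* Kb) f) = gr A f := by
  obtain ⟨Y₁, Y₂, h0, h⟩ := hf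
  have hφ : ∀ x : A, IsLocalRing.residue A (g • x) = IsLocalRing.residue A x := by
    intro x
    rw [IsLocalRing.ResidueField.residue_smul]
    have := MonoidHom.mem_ker.mp hg
    exact congrArg (fun e => e (IsLocalRing.residue A x)) this
  have hres : ∀ Y : LaurentSeries A, coeffMap (IsLocalRing.residue A) (coeffMap (dA g) Y) =
      coeffMap (IsLocalRing.residue A) Y := by
    intro Y
    rw [coeffMap_coeffMap]
    exact coeffMap_congr (RingHom.ext fun x => hφ x) _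
  have h0' : coeffMap (IsLocalRing.residue A) (coeffMap (dA g) Y₂) ≠ 0 := by rw [hres]; exact h0
  have h' : coeffMap ((g : GQ) : Kb →+* Kb) f * coeffMap A.subtype (coeffMap (dA g) Y₂) =
      coeffMap A.subtype (coeffMap (dA g) Y₁) := by
    rw [coeffMap_subtype_dA, coeffMap_subtype_dA, ← map_mul, h]
  refine ⟨⟨_, _, h0', h'⟩, ?_⟩
  have e1 := gr_mul_eq h0' h'
  have e2 := gr_mul_eq h0 h
  rw [hres, hres, ← e2] at e1
  exact mul_right_cancel₀ h0 e1

end Decomp

section Main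

variable (A : ValuationSubring Kb) {q M : ℕ} [NeZero q] [NeZero M] [Fact q.Prime]
  [CharP (kA A) q] {w : FN (q * M) ≃ₐ[Kb] FN (q * M)}

theorem coe_div_FN {N : ℕ} (a b : FN N) :
    ((a / b : FN N) : LaurentSeries Kb) = (a : LaurentSeries Kb) / (b : LaurentSeries Kb) := rfl

/-- `τ f / f` reduces to a nonzero constant. -/
theorem gs_inertia_div (hqM : ¬ q ∣ M) (hw : WqSpec q M w) (g : A.decompositionSubgroup ℚ)
    (hg : g ∈ A.inertiaSubgroup ℚ) (f : FN (q * M)) (hf : f ≠ 0) :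
    ∃ κ : kA A, κ ≠ 0 ∧ gsMem A ((galF (q * M) (g : GQ) f / f : FN (q * M)) : LaurentSeries Kb) ∧
      gr A ((galF (q * M) (g : GQ) f / f : FN (q * M)) : LaurentSeries Kb) = HahnSeries.C κ := by
  obtain ⟨c, hc, m1, h1, -⟩ := g2_normalForm A hqM hw f hf
  obtain ⟨m2, h2⟩ := gs_inertia g hg m1
  obtain ⟨m3, h3⟩ := g2_inv m1 h1
  have hf0 : (f : LaurentSeries Kb) ≠ 0 := fun h => hf (Subtype.ext h)
  have hC : (HahnSeries.C c : LaurentSeries Kb) ≠ 0 := by
    rw [Ne, map_eq_zero_iff _ HahnSeries.C_injective]; exact hc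
  set a : Kb := (g : GQ) c / c with ha
  have haA : a ∈ A := decomp_div_mem g hc
  have haiA : a⁻¹ ∈ A := decomp_div_inv_mem g hc
  have ha0 : a ≠ 0 := div_ne_zero (by rw [Ne, map_eq_zero_iff _ (g : GQ).injective]; exact hc) hc
  have e1 : coeffMap ((g : GQ) : Kb →+* Kb) (HahnSeries.C c * (f : LaurentSeries Kb)) *
      (HahnSeries.C c * (f : LaurentSeries Kb))⁻¹ =
      HahnSeries.C a * ((galF (q * M) (g : GQ) f / f : FN (q * M)) : LaurentSeries Kb) := by
    rw [coe_div_FN, coe_galF, map_mul (coeffMap _), coeffMap_C, ha, map_div₀ HahnSeries.C]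
    simp only [RingHom.coe_coe]
    field_simp
  have m4 := gsMem.mul m2 m3
  have h4 := gr_mul m2 m3
  rw [h2, h3, mul_inv_cancel₀ h1, e1] at h4
  rw [e1] at m4
  have e2 : ((galF (q * M) (g : GQ) f / f : FN (q * M)) : LaurentSeries Kb) =
      HahnSeries.C a⁻¹ *
        (HahnSeries.C a * ((galF (q * M) (g : GQ) f / f : FN (q * M)) : LaurentSeries Kb)) := by
    rw [← mul_assoc, g2_C_mul_C_inv ha0, one_mul]
  refine ⟨IsLocalRing.residue A ⟨a⁻¹, haiA⟩, ?_, ?_, ?_⟩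
  · intro h0
    have h5 : (⟨a⁻¹, haiA⟩ : A) * ⟨a, haA⟩ = 1 := Subtype.ext (inv_mul_cancel₀ ha0)
    have h6 := congrArg (IsLocalRing.residue A) h5
    rw [map_mul, h0, zero_mul, map_one] at h6
    exact zero_ne_one h6
  · rw [e2]; exact gsMem.mul (gsMem_C haiA) m4
  · rw [e2, gr_mul (gsMem_C haiA) m4, h4, mul_one, gr_C haiA]

/-- inertia preserves the sup-ball and acts trivially on the reduction. -/
theorem gauss2_inertia (hqM : ¬ q ∣ M) (hw : WqSpec q M w) (g : A.decompositionSubgroup ℚ)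
    (hg : g ∈ A.inertiaSubgroup ℚ) (f : FN (q * M)) (hf : f ∈ (gauss2 A hqM hw).V) :
    galF (q * M) (g : GQ) f ∈ (gauss2 A hqM hw).V ∧
      (gauss2 A hqM hw).rd (galF (q * M) (g : GQ) f) = (gauss2 A hqM hw).rd f := by
  have h1 := gs_inertia g hg hf.1
  have h2 := gs_inertia g hg hf.2
  have hmem : galF (q * M) (g : GQ) f ∈ (gauss2 A hqM hw).V := by
    refine ⟨h1.1, ?_⟩
    rw [hw.gal]
    exact h2.1
  refine ⟨hmem, ?_⟩
  rw [(gauss2 A hqM hw).rd_of_mem hmem, (gauss2 A hqM hw).rd_of_mem hf]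
  refine Prod.ext (Subtype.ext ?_) (Subtype.ext ?_)
  · exact h1.2
  · show gr A ((w (galF (q * M) (g : GQ) f) : FN (q * M)) : LaurentSeries Kb) = _
    rw [hw.gal]
    exact h2.2

/-- the class of `τ u / u` has a representative `≡ 1` for both Gauss valuations. -/
theorem exists_toric_rep (hqM : ¬ q ∣ M) (hw : WqSpec q M w) (g : A.decompositionSubgroup ℚ)
    (hg : g ∈ A.inertiaSubgroup ℚ) {m : ℕ} (hm : 0 < m) (u : FN (q * M)) (hu : u ≠ 0) :
    ∃ v : FN (q * M), v ≠ 0 ∧ galF (q * M) (g : GQ) u / u * v ^ m ∈ (gauss2 A hqM hw).V ∧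
      (gauss2 A hqM hw).rd (galF (q * M) (g : GQ) u / u * v ^ m) = 1 := by
  have := isAlgClosed_kA A
  set S := gauss2 A hqM hw with hS
  have hwu : w u ≠ 0 := by rw [Ne, map_eq_zero_iff _ w.injective]; exact hu
  obtain ⟨κ₁, hκ₁, m1, g1⟩ := gs_inertia_div A hqM hw g hg u hu
  obtain ⟨κ₂, hκ₂, m2, g2⟩ := gs_inertia_div A hqM hw g hg (w u) hwu
  set w0 : FN (q * M) := galF (q * M) (g : GQ) u / u with hw0
  have hww0 : w w0 = galF (q * M) (g : GQ) (w u) / w u := by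
    rw [hw0, map_div₀, hw.gal]
  rw [← hww0] at m2 g2
  have hw0V : w0 ∈ S.V := ⟨m1, m2⟩
  obtain ⟨β₁, hβ₁⟩ := IsAlgClosed.exists_pow_nat_eq κ₁⁻¹ hm
  obtain ⟨β₂, hβ₂⟩ := IsAlgClosed.exists_pow_nat_eq κ₂⁻¹ hm
  obtain ⟨v, hv⟩ := S.red_surj (algebraMap (kA A) _ β₁, algebraMap (kA A) _ β₂)
  have hrw0 : S.red ⟨w0, hw0V⟩ = (algebraMap (kA A) _ κ₁, algebraMap (kA A) _ κ₂) := by
    refine Prod.ext (Subtype.ext ?_) (Subtype.ext ?_)
    · exact g1.trans (Fermat.Agent.S28.algebraMap_eq_C _).symm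
    · exact g2.trans (Fermat.Agent.S28.algebraMap_eq_C _).symm
  have hmem : w0 * (v : FN (q * M)) ^ m ∈ S.V := mul_mem hw0V (pow_mem v.2 m)
  refine ⟨v, ?_, hmem, ?_⟩
  · intro h0
    have : v = 0 := Subtype.ext h0
    rw [this, map_zero] at hv
    have h1 := congrArg Prod.fst hv
    simp only [Prod.fst_zero] at h1
    have h2 : β₁ = 0 := by
      have := h1.symm
      rwa [map_eq_zero] at this
    rw [h2, zero_pow hm.ne'] at hβ₁
    exact inv_ne_zero hκ₁ hβ₁.symm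
  · rw [S.rd_of_mem hmem]
    have e : (⟨w0 * (v : FN (q * M)) ^ m, hmem⟩ : S.V) = ⟨w0, hw0V⟩ * v ^ m := rfl
    rw [e, map_mul, map_pow, hv, hrw0]
    refine Prod.ext ?_ ?_
    · simp only [Prod.fst_mul, Prod.pow_fst, Prod.fst_one]
      rw [← map_pow, ← map_mul, hβ₁, mul_inv_cancel₀ hκ₁, map_one]
    · simp only [Prod.snd_mul, Prod.pow_snd, Prod.snd_one]
      rw [← map_pow, ← map_mul, hβ₂, mul_inv_cancel₀ hκ₂, map_one]

end Main

/-- **PROV, modular half.** `UnipAt (q M) q` from the toric Kummer lemma for `gauss2`. -/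
theorem unipAt_of_toric {q M : ℕ} [NeZero q] [NeZero M] [Fact q.Prime] (hqM : ¬ q ∣ M)
    (TK : ∀ (A : ValuationSubring Kb) [CharP (kA A) q], A.LiesOverPrime q →
      ∀ (w : FN (q * M) ≃ₐ[Kb] FN (q * M)) (hw : WqSpec q M w) (m : ℕ), ¬ q ∣ m →
      ∀ g : A.decompositionSubgroup ℚ, g ∈ A.inertiaSubgroup ℚ →
      ∀ u : FN (q * M), u ∈ (gauss2 A hqM hw).V → (gauss2 A hqM hw).rd u = 1 →
        DvdOrd (q * M) m u → ∃ h : FN (q * M), h ^ m = galF (q * M) (g : GQ) u / u) :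
    UnipAt (q * M) q := by
  intro A hA m hm τ hτ u hu hord
  obtain ⟨g, hg, rfl⟩ := hτ
  have hq : q.Prime := Fact.out
  have := charP_kA hq hA
  obtain ⟨w, hw⟩ := exists_wqSpec hq hqM
  have hm0 : 0 < m := Nat.pos_of_ne_zero (fun h0 => hm (h0 ▸ dvd_zero q))
  obtain ⟨v, hv0, hV, h1⟩ := exists_toric_rep A hqM hw g hg hm0 u hu
  have hne : ∀ {x : FN (q * M)}, x ≠ 0 → galF (q * M) (g : GQ) x ≠ 0 := fun {x} hx => by
    rwa [Ne, map_eq_zero_iff _ (galF (q * M) (g : GQ)).injective]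
  have hord1 : DvdOrd (q * M) m (galF (q * M) (g : GQ) u / u * v ^ m) := by
    rw [div_eq_mul_inv]
    exact ((hord.galF _).mul hord.inv).mul (dvdOrd_pow_self m v)
  obtain ⟨h, hh⟩ := TK A hA w hw m hm g hg _ hV h1 hord1
  refine ⟨h * v / galF (q * M) (g : GQ) v, ?_⟩
  show galF (q * M) (g : GQ) (galF (q * M) (g : GQ) u) * u = galF (q * M) (g : GQ) u ^ 2 * _
  rw [div_pow, mul_pow, hh, map_mul, map_div₀, map_pow]
  have h2 := hne hu
  have h3 := hne hv0
  have h4 := hne h2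
  field_simp

end Fermat.Agent.S34
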