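import Fermat.Agent.S34.WQRel

/-!
# S34, piece WQ (part 2): the Atkin-Lehner matrix and the relation on the generators `j(q^d)`
-/

set_option autoImplicit false

namespace Fermat.Agent.S34

open UpperHalfPlane ModularForm EisensteinSeries Filter Topology CongruenceSubgroup ModularCurve
open Fermat.Agent.S20 Fermat.Agent.S23 Fermat.Agent.S24
open scoped MatrixGroups Manifold ModularForm

/-- `j(q^d)` in `ℚ̄((q))`. -/
noncomputable def jd (d : ℕ) [NeZero d] : LaurentSeries Kb := qExpand Kb d (jqModC Kb)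

theorem jd_eq (d : ℕ) [NeZero d] : jd d = coeffEmb Kb (qExpand ℚ d jq) := by
  have h1 : coeffMap (algebraMap ℚ Kb) jq = jqModC Kb := coeffMap_jqModC (R := ℚ) _
  show _ = coeffMap (algebraMap ℚ Kb) _
  rw [coeffMap_qExpand, h1, jd]

theorem levelOne_cross {k : ℤ} {P Q : ℍ → ℂ} (hP : P ∈ MFs ⊤ k) (hQ : Q ∈ MFs ⊤ k) (γ : SL(2, ℤ))
    (τ : ℍ) : P (γ • τ) * Q τ = P τ * Q (γ • τ) := by
  have h1 := congrFun (hP.2.1 γ (Subgroup.mem_top _)) τ
  have h2 := congrFun (hQ.2.1 γ (Subgroup.mem_top _)) τ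
  rw [ModularForm.SL_slash_apply] at h1 h2
  rw [← h1, ← h2]
  ring

theorem rel_jd {δ : GL (Fin 2) ℝ} {d d' : ℕ} [NeZero d] [NeZero d'] (γ : SL(2, ℤ))
    (h : ∀ z : ℍ, sepAlpha d • (δ • z) = γ • (sepAlpha d' • z)) : Rel δ (jd d) (jd d') := by
  refine ⟨lev d ((⇑E₄ : ℍ → ℂ) ^ 3), lev d discriminant, lev d' ((⇑E₄ : ℍ → ℂ) ^ 3),
    lev d' discriminant,
    mem_Nice_of_mem_MFs_Gamma0 (lev_mem (dvd_refl d) E4_cube_mem_MFs),
    mem_Nice_of_mem_MFs_Gamma0 (lev_mem (dvd_refl d) Delta_mem_MFs),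
    mem_Nice_of_mem_MFs_Gamma0 (lev_mem (dvd_refl d') E4_cube_mem_MFs),
    mem_Nice_of_mem_MFs_Gamma0 (lev_mem (dvd_refl d') Delta_mem_MFs), ?_, ?_, ?_, ?_, ?_⟩
  · intro h0
    exact lev_discriminant_ne_zero (d := d) UpperHalfPlane.I (congrFun h0 _)
  · intro h0
    exact lev_discriminant_ne_zero (d := d') UpperHalfPlane.I (congrFun h0 _)
  · rw [jd_eq]; exact isQuot_jd
  · rw [jd_eq]; exact isQuot_jd
  · intro z
    show ((⇑E₄ : ℍ → ℂ) ^ 3) (sepAlpha d • (δ • z)) * discriminant (sepAlpha d' • z) =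
      ((⇑E₄ : ℍ → ℂ) ^ 3) (sepAlpha d' • z) * discriminant (sepAlpha d • (δ • z))
    rw [h z]
    exact levelOne_cross E4_cube_mem_MFs Delta_mem_MFs γ _

/-- the Atkin-Lehner matrix `[[q, b], [q M, q c]]`, `q c - M b = 1`. -/
noncomputable def wqMat (q M : ℕ) (b c : ℤ) (hq : 0 < q) (h : (q : ℤ) * c - M * b = 1) :
    GL (Fin 2) ℝ :=
  Matrix.GeneralLinearGroup.mkOfDetNeZero !![(q : ℝ), (b : ℝ); ((q * M : ℕ) : ℝ), (q : ℝ) * c] (by
    rw [Matrix.det_fin_two_of]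
    have h' : (q : ℝ) * c - M * b = 1 := by exact_mod_cast h
    have : (q : ℝ) * (q * c) - b * ((q * M : ℕ) : ℝ) = q := by
      push_cast
      linear_combination (q : ℝ) * h'
    rw [this]
    exact_mod_cast hq.ne')

theorem det_wqMat (q M : ℕ) (b c : ℤ) (hq : 0 < q) (h : (q : ℤ) * c - M * b = 1) :
    0 < (wqMat q M b c hq h).det.val := by
  have h' : (q : ℝ) * c - M * b = 1 := by exact_mod_cast h
  have : (wqMat q M b c hq h).det.val = q := by
    rw [Matrix.GeneralLinearGroup.val_det_apply]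
    show Matrix.det !![(q : ℝ), (b : ℝ); ((q * M : ℕ) : ℝ), (q : ℝ) * c] = q
    rw [Matrix.det_fin_two_of]
    push_cast
    linear_combination (q : ℝ) * h'
  rw [this]
  exact_mod_cast hq

theorem coe_wqMat_smul (q M : ℕ) (b c : ℤ) (hq : 0 < q) (h : (q : ℤ) * c - M * b = 1) (z : ℍ) :
    ((wqMat q M b c hq h • z : ℍ) : ℂ) = ((q : ℂ) * z + b) / ((q : ℂ) * M * z + q * c) := by
  rw [coe_smul_of_det_pos (det_wqMat q M b c hq h)]
  simp [num, denom, wqMat, Matrix.GeneralLinearGroup.mkOfDetNeZero]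

theorem wq_denom_ne_zero (a : ℤ) (c : ℤ) (ha : a ≠ 0) (z : ℍ) : (a : ℂ) * z + c ≠ 0 := by
  intro h
  have h1 := congrArg Complex.im h
  simp only [Complex.add_im, Complex.mul_im, Complex.intCast_re, Complex.intCast_im, zero_mul,
    add_zero, Complex.zero_im, UpperHalfPlane.coe_im] at h1
  rcases mul_eq_zero.mp h1 with h2 | h2
  · exact ha (by exact_mod_cast h2)
  · exact z.im_pos.ne' h2

theorem wq_exists_SL (a b c d : ℤ) (h : a * d - b * c = 1) :
    ∃ γ : SL(2, ℤ), γ 0 0 = a ∧ γ 0 1 = b ∧ γ 1 0 = c ∧ γ 1 1 = d :=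
  ⟨⟨!![a, b; c, d], by rw [Matrix.det_fin_two_of]; exact h⟩, rfl, rfl, rfl, rfl⟩

theorem wq_smul_A (q d e : ℕ) [NeZero d] [NeZero (q * d)] (he : e ≠ 0) (b c : ℤ) (hq : 0 < q)
    (h : (q : ℤ) * c - ((d * e : ℕ) : ℤ) * b = 1) :
    ∃ γ : SL(2, ℤ), ∀ z : ℍ, sepAlpha d • (wqMat q (d * e) b c hq h • z) =
      γ • (sepAlpha (q * d) • z) := by
  obtain ⟨γ, g00, g01, g10, g11⟩ := wq_exists_SL 1 (d * b) e (q * c) (by
    push_cast at h
    linear_combination h)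
  refine ⟨γ, fun z => ?_⟩
  apply UpperHalfPlane.ext
  rw [coe_sepAlpha_smul, coe_wqMat_smul, coe_specialLinearGroup_apply, coe_sepAlpha_smul,
    g00, g01, g10, g11]
  have hd : (d : ℤ) * e ≠ 0 := by
    have := NeZero.ne d
    positivity
  have h1 := wq_denom_ne_zero ((d : ℤ) * e) c hd z
  have hq' : (q : ℂ) ≠ 0 := by exact_mod_cast hq.ne'
  push_cast at h1
  have h2 : (q : ℂ) * ((d * e : ℕ) : ℂ) * z + q * c ≠ 0 := by
    have : (q : ℂ) * ((d * e : ℕ) : ℂ) * z + q * c = q * ((d : ℂ) * e * z + c) := by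
      push_cast; ring
    rw [this]
    exact mul_ne_zero hq' h1
  have h3 : (e : ℂ) * (((q * d : ℕ) : ℂ) * z) + q * c ≠ 0 := by
    have : (e : ℂ) * (((q * d : ℕ) : ℂ) * z) + q * c = q * ((d : ℂ) * e * z + c) := by
      push_cast; ring
    rw [this]
    exact mul_ne_zero hq' h1
  simp only [algebraMap_int_eq, Int.coe_castRingHom]
  push_cast
  push_cast at h2 h3
  rw [mul_div_assoc', div_eq_div_iff h2 h3]
  ring

theorem wq_smul_B (q d e : ℕ) [NeZero d] [NeZero (q * d)] (he : e ≠ 0) (b c : ℤ) (hq : 0 < q)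
    (h : (q : ℤ) * c - ((d * e : ℕ) : ℤ) * b = 1) :
    ∃ γ : SL(2, ℤ), ∀ z : ℍ, sepAlpha (q * d) • (wqMat q (d * e) b c hq h • z) =
      γ • (sepAlpha d • z) := by
  obtain ⟨γ, g00, g01, g10, g11⟩ := wq_exists_SL q (d * b) e c (by
    push_cast at h
    linear_combination h)
  refine ⟨γ, fun z => ?_⟩
  apply UpperHalfPlane.ext
  rw [coe_sepAlpha_smul, coe_wqMat_smul, coe_specialLinearGroup_apply, coe_sepAlpha_smul,
    g00, g01, g10, g11]
  have hd : (d : ℤ) * e ≠ 0 := by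
    have := NeZero.ne d
    positivity
  have h1 := wq_denom_ne_zero ((d : ℤ) * e) c hd z
  have hq' : (q : ℂ) ≠ 0 := by exact_mod_cast hq.ne'
  push_cast at h1
  have h2 : (q : ℂ) * ((d * e : ℕ) : ℂ) * z + q * c ≠ 0 := by
    have : (q : ℂ) * ((d * e : ℕ) : ℂ) * z + q * c = q * ((d : ℂ) * e * z + c) := by
      push_cast; ring
    rw [this]
    exact mul_ne_zero hq' h1
  have h3 : (e : ℂ) * ((d : ℂ) * z) + c ≠ 0 := by
    have : (e : ℂ) * ((d : ℂ) * z) + c = ((d : ℂ) * e * z + c) := by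
      ring
    rw [this]
    exact h1
  simp only [algebraMap_int_eq, Int.coe_castRingHom]
  push_cast
  push_cast at h2 h3
  rw [mul_div_assoc', div_eq_div_iff h2 h3]
  ring


end Fermat.Agent.S34
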