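import Fermat.Agent.S24.Quot
import Fermat.Agent.S24.TowerDegree

/-!
# S34, piece WQ (part 1): the relation `s' = s ∘ δ` between elements of `ℚ̄((q))` that are quotients of
nice functions on the upper half plane
-/

set_option autoImplicit false

namespace Fermat.Agent.S34

open UpperHalfPlane ModularForm EisensteinSeries Filter Topology CongruenceSubgroup ModularCurve
open Fermat.Agent.S20 Fermat.Agent.S23 Fermat.Agent.S24
open scoped MatrixGroups Manifold ModularForm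

theorem wq_comp_mdiff (δ : GL (Fin 2) ℝ) (hδ : 0 < δ.det.val) {E : ℍ → ℂ} (hE : MDiff E) :
    MDiff (fun z : ℍ => E (δ • z)) := by
  have h1 : MDiff (E ∣[(0 : ℤ)] δ) := hE.slash 0 δ
  have h2 : (fun z : ℍ => E (δ • z)) = ((|δ.det.val| : ℝ) : ℂ) • (E ∣[(0 : ℤ)] δ) := by
    funext z
    have hσ : UpperHalfPlane.σ δ = .refl ℝ ℂ := by rw [UpperHalfPlane.σ, if_pos hδ]
    have h3 : ((|δ.det.val| : ℝ) : ℂ) ≠ 0 := by
      rw [abs_of_pos hδ]
      exact_mod_cast hδ.ne'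
    rw [Pi.smul_apply, ModularForm.slash_apply, hσ]
    simp only [ContinuousAlgEquiv.refl_apply, zero_sub, neg_zero, zpow_zero, mul_one, smul_eq_mul,
      zpow_neg_one]
    field_simp
  rw [h2]
  exact h1.const_smul _

theorem wq_comp_ne_zero (δ : GL (Fin 2) ℝ) {E : ℍ → ℂ} (hE0 : E ≠ 0) :
    (fun z : ℍ => E (δ • z)) ≠ 0 := by
  intro h
  apply hE0
  funext w
  have := congrFun h (δ⁻¹ • w)
  simpa using this

/-- `s' = s ∘ δ`. -/
def Rel (δ : GL (Fin 2) ℝ) (s s' : LaurentSeries Kb) : Prop :=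
  ∃ G D G' D' : ℍ → ℂ, G ∈ Nice ∧ D ∈ Nice ∧ G' ∈ Nice ∧ D' ∈ Nice ∧ D ≠ 0 ∧ D' ≠ 0 ∧
    iotaL s * qLf D = qLf G ∧ iotaL s' * qLf D' = qLf G' ∧
    ∀ z : ℍ, G (δ • z) * D' z = G' z * D (δ • z)

namespace Rel

variable {δ : GL (Fin 2) ℝ} {s s' t t' : LaurentSeries Kb}

theorem nice_mul_ne_zero {D D' : ℍ → ℂ} (hD : D ∈ Nice) (hD' : D' ∈ Nice) (h : D ≠ 0) (h' : D' ≠ 0) :
    D * D' ≠ 0 := by
  intro h0
  rcases eq_zero_or_eq_zero_of_mul_eq_zero hD.2.1 hD'.2.1 h0 with h1 | h1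
  · exact h h1
  · exact h' h1

theorem const (c : Kb) :
    Rel δ (algebraMap Kb (LaurentSeries Kb) c) (algebraMap Kb (LaurentSeries Kb) c) := by
  have key : iotaL (algebraMap Kb (LaurentSeries Kb) c) * qLf 1 = qLf (iota c • (1 : ℍ → ℂ)) := by
    rw [iotaL_algebraMap, qLf_smul _ (one_mem Nice), qLf_one, mul_one,
      algebraMap_laurentSeries_eq_single]
    ext n
    rw [HahnSeries.coeff_smul, HahnSeries.coeff_one, HahnSeries.coeff_single]
    split_ifs <;> simp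
  exact ⟨iota c • (1 : ℍ → ℂ), 1, iota c • (1 : ℍ → ℂ), 1, Subalgebra.smul_mem _ (one_mem _) _,
    one_mem _, Subalgebra.smul_mem _ (one_mem _) _, one_mem _, one_ne_zero, one_ne_zero, key, key,
    fun z => by simp⟩

theorem add (h : Rel δ s s') (h2 : Rel δ t t') : Rel δ (s + t) (s' + t') := by
  obtain ⟨G, D, G', D', nG, nD, nG', nD', hD, hD', e, e', r⟩ := h
  obtain ⟨G₂, D₂, G₂', D₂', nG₂, nD₂, nG₂', nD₂', hD₂, hD₂', e₂, e₂', r₂⟩ := h2
  refine ⟨G * D₂ + D * G₂, D * D₂, G' * D₂' + D' * G₂', D' * D₂',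
    add_mem (mul_mem nG nD₂) (mul_mem nD nG₂), mul_mem nD nD₂,
    add_mem (mul_mem nG' nD₂') (mul_mem nD' nG₂'), mul_mem nD' nD₂',
    nice_mul_ne_zero nD nD₂ hD hD₂, nice_mul_ne_zero nD' nD₂' hD' hD₂', ?_, ?_, ?_⟩
  · rw [qLf_add (mul_mem nG nD₂) (mul_mem nD nG₂), qLf_mul nG nD₂, qLf_mul nD nG₂,
      qLf_mul nD nD₂, ← e, ← e₂, map_add]
    ring
  · rw [qLf_add (mul_mem nG' nD₂') (mul_mem nD' nG₂'), qLf_mul nG' nD₂', qLf_mul nD' nG₂',
      qLf_mul nD' nD₂', ← e', ← e₂', map_add]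
    ring
  · intro z
    simp only [Pi.add_apply, Pi.mul_apply]
    linear_combination (D₂ (δ • z) * D₂' z) * r z + (D (δ • z) * D' z) * r₂ z

theorem mul (h : Rel δ s s') (h2 : Rel δ t t') : Rel δ (s * t) (s' * t') := by
  obtain ⟨G, D, G', D', nG, nD, nG', nD', hD, hD', e, e', r⟩ := h
  obtain ⟨G₂, D₂, G₂', D₂', nG₂, nD₂, nG₂', nD₂', hD₂, hD₂', e₂, e₂', r₂⟩ := h2
  refine ⟨G * G₂, D * D₂, G' * G₂', D' * D₂', mul_mem nG nG₂, mul_mem nD nD₂,
    mul_mem nG' nG₂', mul_mem nD' nD₂',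
    nice_mul_ne_zero nD nD₂ hD hD₂, nice_mul_ne_zero nD' nD₂' hD' hD₂', ?_, ?_, ?_⟩
  · rw [qLf_mul nG nG₂, qLf_mul nD nD₂, ← e, ← e₂, map_mul]
    ring
  · rw [qLf_mul nG' nG₂', qLf_mul nD' nD₂', ← e', ← e₂', map_mul]
    ring
  · intro z
    simp only [Pi.mul_apply]
    linear_combination (G₂ (δ • z) * D₂' z) * r z + (G' z * D (δ • z)) * r₂ z

theorem zero : Rel δ 0 0 := by simpa using const (δ := δ) 0

theorem inv (hδ : 0 < δ.det.val) (h : Rel δ s s') : Rel δ s⁻¹ s'⁻¹ := by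
  obtain ⟨G, D, G', D', nG, nD, nG', nD', hD, hD', e, e', r⟩ := h
  by_cases hG : G = 0
  · -- then `s = 0` and `s' = 0`
    have hs : s = 0 := by
      rw [hG, qLf_zero] at e
      rcases mul_eq_zero.mp e with h | h
      · exact iotaL_injective (by rw [h, map_zero])
      · exact absurd ((qLf_eq_zero_iff nD).mp h) hD
    have hG' : G' = 0 := by
      have h0 : G' * (fun z : ℍ => D (δ • z)) = 0 := by
        funext z
        have := r z
        rw [hG] at this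
        simpa using this.symm
      rcases eq_zero_or_eq_zero_of_mul_eq_zero nG'.2.1 (wq_comp_mdiff δ hδ nD.2.1) h0 with h | h
      · exact h
      · exact absurd h (wq_comp_ne_zero δ hD)
    have hs' : s' = 0 := by
      rw [hG', qLf_zero] at e'
      rcases mul_eq_zero.mp e' with h | h
      · exact iotaL_injective (by rw [h, map_zero])
      · exact absurd ((qLf_eq_zero_iff nD').mp h) hD'
    rw [hs, hs', inv_zero]
    exact zero
  · have hG' : G' ≠ 0 := by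
      intro h0
      have h1 : (fun z : ℍ => G (δ • z)) * D' = 0 := by
        funext z
        have := r z
        rw [h0] at this
        simpa using this
      rcases eq_zero_or_eq_zero_of_mul_eq_zero (wq_comp_mdiff δ hδ nG.2.1) nD'.2.1 h1 with h | h
      · exact wq_comp_ne_zero δ hG h
      · exact hD' h
    have h1 : iotaL s ≠ 0 := by
      intro h
      rw [h, zero_mul] at e
      exact hG ((qLf_eq_zero_iff nG).mp e.symm)
    have h1' : iotaL s' ≠ 0 := by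
      intro h
      rw [h, zero_mul] at e'
      exact hG' ((qLf_eq_zero_iff nG').mp e'.symm)
    refine ⟨D, G, D', G', nD, nG, nD', nG', hG, hG', ?_, ?_, fun z => ?_⟩
    · rw [← e, map_inv₀, ← mul_assoc, inv_mul_cancel₀ h1, one_mul]
    · rw [← e', map_inv₀, ← mul_assoc, inv_mul_cancel₀ h1', one_mul]
    · linear_combination -(r z)

theorem unique (hδ : 0 < δ.det.val) (h : Rel δ s s') (h2 : Rel δ s t') : s' = t' := by
  obtain ⟨G, D, G', D', nG, nD, nG', nD', hD, hD', e, e', r⟩ := h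
  obtain ⟨G₂, D₂, G₂', D₂', nG₂, nD₂, nG₂', nD₂', hD₂, hD₂', e₂, e₂', r₂⟩ := h2
  have hGD : G * D₂ = G₂ * D := by
    apply qLf_injOn (mul_mem nG nD₂) (mul_mem nG₂ nD)
    rw [qLf_mul nG nD₂, qLf_mul nG₂ nD, ← e, ← e₂]
    ring
  have key : (G' * D₂' - G₂' * D') * (fun z : ℍ => (D * D₂) (δ • z)) = 0 := by
    funext z
    have h3 := congrFun hGD (δ • z)
    simp only [Pi.mul_apply, Pi.sub_apply, Pi.zero_apply] at h3 ⊢
    linear_combination (-(D₂' z * D₂ (δ • z))) * r z + (D' z * D (δ • z)) * r₂ z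
      + (D' z * D₂' z) * h3
  have hsub : G' * D₂' - G₂' * D' = 0 := by
    rcases eq_zero_or_eq_zero_of_mul_eq_zero
      ((nG'.2.1.mul nD₂'.2.1).sub (nG₂'.2.1.mul nD'.2.1))
      (wq_comp_mdiff δ hδ (nD.2.1.mul nD₂.2.1)) key with h | h
    · exact h
    · exact absurd h (wq_comp_ne_zero δ (nice_mul_ne_zero nD nD₂ hD hD₂))
  have h4 : qLf G' * qLf D₂' = qLf G₂' * qLf D' := by
    rw [← qLf_mul nG' nD₂', ← qLf_mul nG₂' nD', sub_eq_zero.mp hsub]
  rw [← e', ← e₂'] at h4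
  have h5 : qLf D' ≠ 0 := fun h => hD' ((qLf_eq_zero_iff nD').mp h)
  have h6 : qLf D₂' ≠ 0 := fun h => hD₂' ((qLf_eq_zero_iff nD₂').mp h)
  apply iotaL_injective
  apply mul_right_cancel₀ (mul_ne_zero h5 h6)
  linear_combination h4

end Rel

end Fermat.Agent.S34
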