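import Fermat.Agent.S34.ZC
import Fermat.Agent.S34.ToricKL

/-!
# S34, piece ZC in the language of `NSetting`: the hypothesis `constb` of `toricKL_gen` / `toricKL_of`
-/

set_option autoImplicit false

namespace Fermat.Agent.S34

open Polynomial IntermediateField Fermat.Agent.S24 Fermat.Agent.S18 Fermat.Agent.S18.CoreDim Module

variable {K F k R : Type*} [Field K] [Field F] [Algebra K F] [Field k] [CommRing R] [Algebra k R]

/-- **Connectedness of the special fibre**: `L̄(0,0) = k`. -/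
theorem NSetting.constb [IsAlgClosed k] [IsReduced R] (S : NSetting K F k R) {x : F}
    (hx : x ∈ S.V) (hxi : x⁻¹ ∈ S.V)
    (dimRed : ∀ W : Submodule K F, FiniteDimensional K W → finrank k (S.core.redSub W) = finrank K W)
    (const : ∀ h ∈ Lsp K x 0 0, ∃ c : K, h = algebraMap K F c)
    (fin : ∀ a b, FiniteDimensional K (Lsp K x a b))
    (finb : ∀ a b, FiniteDimensional k (S.Lbar x a b))
    (good : ∃ n₀, ∀ n, n₀ ≤ n → finrank k (S.Lbar x 0 n) ≤ finrank K (Lsp K x 0 n) ∧
        finrank k (S.Lbar x n 0) ≤ finrank K (Lsp K x n 0))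
    (arch : ∀ c : K, c ∈ S.A → c⁻¹ ∉ S.A → ∀ c0 : K, c0 ≠ 0 → ∃ n : ℕ, c ^ n * c0⁻¹ ∈ S.A) :
    ∀ h ∈ S.Lbar x 0 0, ∃ c : k, h = algebraMap k R c := by
  have := S.nontrivial
  have H : S.core.ZCHyp x (S.core.Lbar x) :=
    RedCore.ZCHyp.of_LB (S.core.rd_self_mem hx) (S.core.rd_self_mem hxi)
      (S.core.rd_mem_Lbar hx hxi) dimRed const fin
      (fun a b => by
        have h1 : FiniteDimensional k ↥(S.core.Lbar x a b) := by rw [S.core_Lbar]; exact finb a b
        exact h1)
  intro h hh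
  refine RedCore.constb_LB H ?_ arch h (by rw [← S.core_Lbar] at hh; exact hh)
  obtain ⟨n₀, hn₀⟩ := good
  refine ⟨n₀, fun n hn => ?_⟩
  have := hn₀ n hn
  rw [← S.core_Lbar, ← S.core_Lbar] at this
  exact this

end Fermat.Agent.S34
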